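/-
S44, cell [E2] (E2-k), field-theoretic half (helper15; prefix `s44rr_`): THE LEGENDRE COVER IN
CHARACTERISTIC `≠ 2, 3, 5` … more precisely in any characteristic `p ∉ {2}` for the degree statement
and `p = 0` or `p ≥ 5` for separability.

`E = F(λ)`, `256 (λ² - λ + 1)³ = j λ² (λ - 1)²` with `j ∈ F`, `λ ≠ 0, 1`, `2 ≠ 0`.  Then
* `s44rr_leg_finite`     : `E / F` is finite;
* `s44rr_leg_finrank_le` : `[E : F] ≤ 6`;
* `s44rr_leg_finrank_ne` : `[E : F] ≠ 5` (if the minimal polynomial of `λ` had degree `5`, the linear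
  cofactor of `P = 256 (X² - X + 1)³ - j X² (X - 1)²` would have a root `r ∈ F`, which is one of the
  six anharmonic values of `λ` (`kd_leg_root_cases`), so `λ ∈ F`);
* `s44rr_leg_separable`  : `E / F` is separable when the exponential characteristic is `1` or `≥ 5`
  (an inseparable irreducible polynomial has degree divisible by `p`, and `p ∣ n ≤ 6`, `n ≠ 5`,
  `p ≥ 5` prime is impossible).
No Galois theory.
-/
import Mathlib
import Fermat.Agent.JT3.KDescent.Legendre

set_option autoImplicit false
set_option linter.unusedSectionVars false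
set_option linter.style.haveILetI false

noncomputable section

namespace Fermat.Agent.S44

open Polynomial Fermat.Agent.JT3

variable {F E : Type*} [Field F] [Field E] [Algebra F E] (lam : E) (j : F)

theorem s44rr_two_ne_zero (h2 : (2 : E) ≠ 0) : (2 : F) ≠ 0 := by
  intro h
  apply h2
  have := congrArg (algebraMap F E) h
  rw [map_ofNat, map_zero] at this
  exact this

theorem s44rr_c256_ne_zero (h2 : (2 : E) ≠ 0) : (256 : F) ≠ 0 := by
  have : (256 : F) = 2 ^ 8 := by norm_num
  rw [this]
  exact pow_ne_zero 8 (s44rr_two_ne_zero (F := F) h2)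

/-- `P` has degree exactly `6`. -/
theorem s44rr_natDegree_P (h2 : (2 : E) ≠ 0) : (kd_leg_P j).natDegree = 6 := by
  have h256 := s44rr_c256_ne_zero (F := F) h2
  unfold kd_leg_P
  compute_degree!

theorem s44rr_P_ne_zero (h2 : (2 : E) ≠ 0) : kd_leg_P j ≠ 0 := by
  intro h
  have := s44rr_natDegree_P (E := E) j h2
  rw [h, natDegree_zero] at this
  omega

variable (hrel : 256 * (lam ^ 2 - lam + 1) ^ 3 = algebraMap F E j * lam ^ 2 * (lam - 1) ^ 2)

include hrel in
theorem s44rr_aeval_lam : aeval lam (kd_leg_P j) = 0 := by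
  rw [kd_leg_aeval_P, hrel, sub_self]

include hrel in
theorem s44rr_isIntegral_lam (h2 : (2 : E) ≠ 0) : IsIntegral F lam :=
  (isAlgebraic_iff_isIntegral).mp
    ⟨kd_leg_P j, s44rr_P_ne_zero (E := E) j h2, s44rr_aeval_lam lam j hrel⟩

include hrel in
theorem s44rr_minpoly_natDegree_le (h2 : (2 : E) ≠ 0) : (minpoly F lam).natDegree ≤ 6 := by
  have hdvd := minpoly.dvd F lam (s44rr_aeval_lam lam j hrel)
  have := natDegree_le_of_dvd hdvd (s44rr_P_ne_zero (E := E) j h2)
  rwa [s44rr_natDegree_P (E := E) j h2] at this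

/-- a root `r ∈ F` of `P` forces `λ ∈ F`. -/
theorem s44rr_lam_mem_of_root (h2 : (2 : E) ≠ 0) (h0 : lam ≠ 0) (h1 : lam ≠ 1)
    (hrel : 256 * (lam ^ 2 - lam + 1) ^ 3 = algebraMap F E j * lam ^ 2 * (lam - 1) ^ 2)
    {r : F} (hr : (kd_leg_P j).eval r = 0) : lam ∈ (algebraMap F E).range := by
  -- the relation for `r`, mapped to `E`
  have hr' : aeval (algebraMap F E r) (kd_leg_P j) = 0 := by
    rw [aeval_algebraMap_apply, coe_aeval_eq_eval, hr, map_zero]
  rw [kd_leg_aeval_P] at hr'
  set y : E := algebraMap F E r with hy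
  have hcross : 256 * (y ^ 2 - y + 1) ^ 3 * (lam ^ 2 * (lam - 1) ^ 2)
      = 256 * (lam ^ 2 - lam + 1) ^ 3 * (y ^ 2 * (y - 1) ^ 2) := by
    linear_combination (lam ^ 2 * (lam - 1) ^ 2) * hr' - (y ^ 2 * (y - 1) ^ 2) * hrel
  have h1' : lam - 1 ≠ 0 := sub_ne_zero.mpr h1
  have h1'' : 1 - lam ≠ 0 := sub_ne_zero.mpr (Ne.symm h1)
  rcases kd_leg_root_cases h2 h0 h1 hcross with h | h | h | h | h | h
  · exact ⟨r, h⟩
  · -- `y = 1 - λ`
    refine ⟨1 - r, ?_⟩
    rw [map_sub, map_one, ← hy, h]
    ring
  · -- `y = 1 / λ`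
    refine ⟨1 / r, ?_⟩
    rw [map_div₀, map_one, ← hy, h, one_div_one_div]
  · -- `y = 1 / (1 - λ)`
    refine ⟨1 - 1 / r, ?_⟩
    rw [map_sub, map_div₀, map_one, ← hy, h, one_div_one_div]
    ring
  · -- `y = (λ - 1) / λ`
    refine ⟨1 / (1 - r), ?_⟩
    rw [map_div₀, map_sub, map_one, ← hy, h]
    field_simp
    ring
  · -- `y = λ / (λ - 1)`
    refine ⟨1 + 1 / (r - 1), ?_⟩
    rw [map_add, map_div₀, map_sub, map_one, ← hy, h]
    field_simp
    ring

include hrel in
/-- the minimal polynomial of `λ` does not have degree `5`. -/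
theorem s44rr_minpoly_natDegree_ne (h2 : (2 : E) ≠ 0) (h0 : lam ≠ 0) (h1 : lam ≠ 1) :
    (minpoly F lam).natDegree ≠ 5 := by
  intro h5
  have hP0 := s44rr_P_ne_zero (E := E) j h2
  obtain ⟨q, hq⟩ := minpoly.dvd F lam (s44rr_aeval_lam lam j hrel)
  have hm0 : minpoly F lam ≠ 0 := minpoly.ne_zero (s44rr_isIntegral_lam lam j hrel h2)
  have hq0 : q ≠ 0 := by
    rintro rfl
    rw [mul_zero] at hq
    exact hP0 hq
  have hdeg : (kd_leg_P j).natDegree = (minpoly F lam).natDegree + q.natDegree := by
    rw [hq, natDegree_mul hm0 hq0]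
  rw [s44rr_natDegree_P (E := E) j h2, h5] at hdeg
  have hq1 : q.degree = 1 := by
    rw [degree_eq_natDegree hq0]
    have : q.natDegree = 1 := by omega
    rw [this]
    rfl
  obtain ⟨r, hr⟩ := exists_root_of_degree_eq_one hq1
  have hqr : q.eval r = 0 := hr
  have hPr : (kd_leg_P j).eval r = 0 := by
    rw [hq, eval_mul, hqr, mul_zero]
  have hmem := s44rr_lam_mem_of_root lam j h2 h0 h1 hrel hPr
  have h1deg := (minpoly.natDegree_eq_one_iff (A := F) (B := E)).mpr hmem
  omega

variable (hgen : IntermediateField.adjoin F {lam} = ⊤)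

include hrel hgen in
/-- `E / F` is finite. -/
theorem s44rr_leg_finite (h2 : (2 : E) ≠ 0) : FiniteDimensional F E := by
  have hint := s44rr_isIntegral_lam lam j hrel h2
  haveI : FiniteDimensional F (IntermediateField.adjoin F {lam}) :=
    IntermediateField.adjoin.finiteDimensional hint
  rw [hgen] at this
  exact Module.Finite.equiv (IntermediateField.topEquiv (F := F) (E := E)).toLinearEquiv

include hrel hgen in
theorem s44rr_leg_finrank_eq (h2 : (2 : E) ≠ 0) :
    Module.finrank F E = (minpoly F lam).natDegree := by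
  have hint := s44rr_isIntegral_lam lam j hrel h2
  rw [← IntermediateField.adjoin.finrank hint, hgen, IntermediateField.finrank_top']

include hrel hgen in
/-- `[E : F] ≤ 6`. -/
theorem s44rr_leg_finrank_le (h2 : (2 : E) ≠ 0) : Module.finrank F E ≤ 6 := by
  rw [s44rr_leg_finrank_eq lam j hrel hgen h2]
  exact s44rr_minpoly_natDegree_le lam j hrel h2

include hrel hgen in
/-- `[E : F] ≠ 5`. -/
theorem s44rr_leg_finrank_ne (h2 : (2 : E) ≠ 0) (h0 : lam ≠ 0) (h1 : lam ≠ 1) :
    Module.finrank F E ≠ 5 := by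
  rw [s44rr_leg_finrank_eq lam j hrel hgen h2]
  exact s44rr_minpoly_natDegree_ne lam j hrel h2 h0 h1

include hrel hgen in
/-- `E / F` is separable when the exponential characteristic is `1` or a prime `≥ 5`. -/
theorem s44rr_leg_separable (p : ℕ) [ExpChar F p] (hp : p = 1 ∨ 5 ≤ p) (h2 : (2 : E) ≠ 0)
    (h0 : lam ≠ 0) (h1 : lam ≠ 1) : Algebra.IsSeparable F E := by
  have hint := s44rr_isIntegral_lam lam j hrel h2
  have hirr := minpoly.irreducible hint
  have hsep : (minpoly F lam).Separable := by
    rcases ‹ExpChar F p› with _ | ⟨hprime⟩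
    · exact hirr.separable
    · haveI : CharP F p := ‹CharP F p›
      rcases separable_or p hirr with h | ⟨-, g, -, hg⟩
      · exact h
      · exfalso
        have hdeg : (minpoly F lam).natDegree = g.natDegree * p := by
          rw [← hg, natDegree_expand]
        have hle := s44rr_minpoly_natDegree_le lam j hrel h2
        have hne := s44rr_minpoly_natDegree_ne lam j hrel h2 h0 h1
        have hpos : 0 < (minpoly F lam).natDegree := minpoly.natDegree_pos hint
        have hp5 : 5 ≤ p := by
          rcases hp with h | h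
          · exact absurd h hprime.one_lt.ne'
          · exact h
        have hg1 : 1 ≤ g.natDegree := by
          by_contra hlt
          have : g.natDegree = 0 := by omega
          rw [this, zero_mul] at hdeg
          omega
        have hp6 : p ≠ 6 := by
          rintro rfl
          exact absurd hprime (by decide)
        by_cases hg2 : 2 ≤ g.natDegree
        · have h10 : 2 * 5 ≤ g.natDegree * p := Nat.mul_le_mul hg2 hp5
          omega
        · have hg1' : g.natDegree = 1 := by omega
          rw [hg1', one_mul] at hdeg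
          omega
  have hlamsep : IsSeparable F lam := hsep
  haveI : Algebra.IsSeparable F (IntermediateField.adjoin F {lam}) :=
    (IntermediateField.isSeparable_adjoin_simple_iff_isSeparable F E).mpr hlamsep
  rw [hgen] at this
  exact Algebra.IsSeparable.of_algHom F (⊤ : IntermediateField F E)
    (IntermediateField.topEquiv (F := F) (E := E)).symm.toAlgHom

end Fermat.Agent.S44
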