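/-
S44, cell [E2] (E2-k), instance half (helper15; prefix `s44rr_`): `Res/RamLeg.lean` INSTANTIATED AT THE
LEGENDRE COVER `lg_phiE : lg_F k M →ₐ[k] lg_E k M` (`q ↦ q²`, then adjoin `λ`), OVER ANY FIELD `k` WITH
`2 ≠ 0` (no `CharZero`, no `IsAlgClosed`):

* `s44rr_hrel`        : `256 (λ² - λ + 1)³ = φ(j) λ² (λ - 1)²` in `lg_E k M`, along `φ = lg_phiE`;
* `s44rr_hgen`        : `lg_E k M = φ(lg_F k M)(λ)`;
* `s44rr_finiteAlong` : `FiniteAlong k lg_phiE`;
* `s44rr_finrank_le`  : `finrankAlong k lg_phiE ≤ 6`;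
* `s44rr_finrank_ne5` : `finrankAlong k lg_phiE ≠ 5`;
* `s44rr_sepAlong`    : `ptw_SeparableAlong lg_phiE` when the exponential characteristic of `k` is `1`
                        or `≥ 5`.
-/
import Mathlib
import Fermat.Agent.S44.Res.RamLeg
import Fermat.Agent.JT3.Inst.Key0
import Fermat.Agent.JT3.Inst.FunFieldFacts
import Fermat.Agent.JT3.Places.TowerAlong

set_option autoImplicit false
set_option linter.unusedSectionVars false
set_option linter.style.haveILetI false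

noncomputable section

namespace Fermat.Agent.S44

open Polynomial Fermat.Agent.JT3 AlgebraicCurve ModularCurve

variable {k : Type*} [Field k] (M : ℕ) [NeZero M]

/-- `j` as an element of the level-`M` field. -/
def s44rr_jF : lg_F k M := ⟨jqModC k, jqModC_mem_full k M⟩

theorem s44rr_phiE_jF :
    ((lg_phiE (L := k) (N := M) (s44rr_jF M) : lg_E k M) : LaurentSeries k) = lg_j2 k := rfl

/-- the Legendre relation in `E`, along `φ`. -/
theorem s44rr_hrel :
    letI := algebraAlong (lg_phiE (L := k) (N := M))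
    256 * ((lg_lamE M : lg_E k M) ^ 2 - lg_lamE M + 1) ^ 3
      = algebraMap (lg_F k M) (lg_E k M) (s44rr_jF M) * (lg_lamE M : lg_E k M) ^ 2
        * ((lg_lamE M : lg_E k M) - 1) ^ 2 := by
  letI := algebraAlong (lg_phiE (L := k) (N := M))
  apply Subtype.ext
  have h := lg_legendre k
  exact h

/-- `E = φ(F_M)(λ)`, along `φ`. -/
theorem s44rr_hgen :
    letI := algebraAlong (lg_phiE (L := k) (N := M))
    IntermediateField.adjoin (lg_F k M) {(lg_lamE M : lg_E k M)} = ⊤ := by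
  letI := algebraAlong (lg_phiE (L := k) (N := M))
  haveI := isScalarTower_along (lg_phiE (L := k) (N := M))
  rw [eq_top_iff]
  rintro z -
  set Mf : IntermediateField (lg_F k M) (lg_E k M) :=
    IntermediateField.adjoin (lg_F k M) {(lg_lamE M : lg_E k M)} with hMf
  let M' : IntermediateField k (LaurentSeries k) := (Mf.restrictScalars k).map (lg_E k M).val
  have h1 : lg_F2 k M ≤ M' := by
    rintro x ⟨y, hy, rfl⟩
    refine ⟨lg_phiE (L := k) (N := M) ⟨y, hy⟩, ?_, rfl⟩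
    show (lg_phiE (L := k) (N := M) ⟨y, hy⟩ : lg_E k M) ∈ Mf
    exact Mf.algebraMap_mem ⟨y, hy⟩
  have h2 : lg_K k ≤ M' := by
    rw [lg_K, IntermediateField.adjoin_le_iff]
    rintro _ rfl
    refine ⟨lg_lamE M, ?_, rfl⟩
    show (lg_lamE M : lg_E k M) ∈ Mf
    exact IntermediateField.mem_adjoin_simple_self _ _
  have h3 : lg_E k M ≤ M' := sup_le h1 h2
  obtain ⟨w, hw, hwz⟩ := h3 z.2
  have : w = z := Subtype.ext hwz
  rw [← this]
  exact hw

theorem s44rr_two_ne_zero_E (h2 : (2 : k) ≠ 0) : (2 : lg_E k M) ≠ 0 := by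
  intro h
  apply h2
  have h' : algebraMap k (lg_E k M) 2 = 0 := by rw [map_ofNat]; exact h
  exact (map_eq_zero (algebraMap k (lg_E k M))).1 h'

theorem s44rr_lam_ne_zero (h2 : (2 : k) ≠ 0) : (lg_lamE M : lg_E k M) ≠ 0 := fun h =>
  lgf_lam_transcendental k M h2 (h ▸ isAlgebraic_zero)

theorem s44rr_lam_ne_one (h2 : (2 : k) ≠ 0) : (lg_lamE M : lg_E k M) ≠ 1 := fun h =>
  lgf_lam_transcendental k M h2 (h ▸ isAlgebraic_one)

/-- `E / φ(F_M)` is finite. -/
theorem s44rr_finiteAlong (h2 : (2 : k) ≠ 0) : FiniteAlong k (lg_phiE (L := k) (N := M)) := by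
  letI := algebraAlong (lg_phiE (L := k) (N := M))
  exact s44rr_leg_finite (lg_lamE M) (s44rr_jF M) (s44rr_hrel M) (s44rr_hgen M)
    (s44rr_two_ne_zero_E M h2)

/-- `[E : φ(F_M)] ≤ 6`. -/
theorem s44rr_finrank_le (h2 : (2 : k) ≠ 0) : finrankAlong k (lg_phiE (L := k) (N := M)) ≤ 6 := by
  letI := algebraAlong (lg_phiE (L := k) (N := M))
  exact s44rr_leg_finrank_le (lg_lamE M) (s44rr_jF M) (s44rr_hrel M) (s44rr_hgen M)
    (s44rr_two_ne_zero_E M h2)

/-- `[E : φ(F_M)] ≠ 5`. -/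
theorem s44rr_finrank_ne5 (h2 : (2 : k) ≠ 0) : finrankAlong k (lg_phiE (L := k) (N := M)) ≠ 5 := by
  letI := algebraAlong (lg_phiE (L := k) (N := M))
  exact s44rr_leg_finrank_ne (lg_lamE M) (s44rr_jF M) (s44rr_hrel M) (s44rr_hgen M)
    (s44rr_two_ne_zero_E M h2) (s44rr_lam_ne_zero M h2) (s44rr_lam_ne_one M h2)

/-- `0 < [E : φ(F_M)]`. -/
theorem s44rr_finrank_pos (h2 : (2 : k) ≠ 0) : 0 < finrankAlong k (lg_phiE (L := k) (N := M)) := by
  letI := algebraAlong (lg_phiE (L := k) (N := M))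
  haveI : Module.Finite (lg_F k M) (lg_E k M) := s44rr_finiteAlong M h2
  exact Module.finrank_pos

/-- `E / φ(F_M)` is separable when the exponential characteristic is `1` or `≥ 5`. -/
theorem s44rr_sepAlong (p : ℕ) [ExpChar k p] (hp : p = 1 ∨ 5 ≤ p) (h2 : (2 : k) ≠ 0) :
    ptw_SeparableAlong (lg_phiE (L := k) (N := M)) := by
  letI := algebraAlong (lg_phiE (L := k) (N := M))
  haveI : ExpChar (lg_F k M) p :=
    expChar_of_injective_algebraMap (algebraMap k (lg_F k M)).injective p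
  exact s44rr_leg_separable (lg_lamE M) (s44rr_jF M) (s44rr_hrel M) (s44rr_hgen M) p hp
    (s44rr_two_ne_zero_E M h2) (s44rr_lam_ne_zero M h2) (s44rr_lam_ne_one M h2)

/-- a prime `p ≥ 5` does not divide `[E : φ(F_M)]`, and `[E : φ(F_M)] < 2 p`. -/
theorem s44rr_not_dvd_finrank (h2 : (2 : k) ≠ 0) (p : ℕ) (hp : p.Prime) (hp5 : 5 ≤ p) :
    ¬ p ∣ finrankAlong k (lg_phiE (L := k) (N := M))
      ∧ finrankAlong k (lg_phiE (L := k) (N := M)) < 2 * p := by
  have hle := s44rr_finrank_le (k := k) M h2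
  have hne := s44rr_finrank_ne5 (k := k) M h2
  have hpos := s44rr_finrank_pos (k := k) M h2
  refine ⟨fun hdvd => ?_, by omega⟩
  have hple := Nat.le_of_dvd hpos hdvd
  have h56 : p = 5 ∨ p = 6 := by omega
  rcases h56 with rfl | rfl
  · -- `5 ∣ n`, `0 < n ≤ 6`, `n ≠ 5`
    obtain ⟨c, hc⟩ := hdvd
    omega
  · exact absurd hp (by decide)

end Fermat.Agent.S44
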