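/-
S44 project, cell [E2] RES, sub-cell (E2-ord), EXTENSION OF A COMPOSITE VALUATION (helper6).
Prefix `s44rc_`.

`φ : F → E` a field homomorphism, `V1` a valuation subring of `E`, `𝒱0` a valuation subring of `F`
with `φ(𝒱0) ⊆ V1` (in use: `𝒱0` the composite of the Gauss valuation of `F` and a place of its
residue function field).

* `s44rc_exists` : there is a valuation subring `𝒱' ≤ V1` of `E` with `φ⁻¹(𝒱') = 𝒱0`
  (Chevalley extension in the residue field of `V1`; no control of that residue field is needed);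
* `s44rc_nonunits` : then also `φ⁻¹(𝔪(𝒱')) = 𝔪(𝒱0)`;
* `s44rc_alg` : if `E / φ(F)` is algebraic and the residue field of `𝒱0` is integral over `A0`, so is
  the residue field of `𝒱'` ("monic polynomial" form, as consumed by `s44rs_hdiv`).
-/
import Mathlib
import Fermat.Agent.S35.Toric.Composite

set_option autoImplicit false
set_option linter.unusedSectionVars false
set_option linter.style.haveILetI false

noncomputable section

namespace Fermat.Agent.S44

open Polynomial IsLocalRing Fermat.Agent.S35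

section Ext

variable {F E : Type*} [Field F] [Field E] (φ : F →+* E)

/-- **extension of a composite valuation**. -/
theorem s44rc_exists (V1 : ValuationSubring E) (𝒱0 : ValuationSubring F)
    (h0 : ∀ x ∈ 𝒱0, φ x ∈ V1) :
    ∃ 𝒱' : ValuationSubring E, 𝒱' ≤ V1 ∧ ∀ x : F, φ x ∈ 𝒱' ↔ x ∈ 𝒱0 := by
  -- the map `𝒱0 → V1 → κ1`
  let ι : ↥𝒱0 →+* ↥V1 :=
    { toFun := fun x => ⟨φ (x : F), h0 x x.2⟩
      map_one' := Subtype.ext (map_one φ)
      map_mul' := fun a b => Subtype.ext (map_mul φ (a : F) (b : F))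
      map_zero' := Subtype.ext (map_zero φ)
      map_add' := fun a b => Subtype.ext (map_add φ (a : F) (b : F)) }
  let f : ↥𝒱0 →+* ResidueField ↥V1 := (residue ↥V1).comp ι
  obtain ⟨W', hW', hloc⟩ := IsLocalRing.exists_factor_valuationRing f
  have hker : ∀ z : ↥V1, (z : E) ∈ V1.nonunits → residue ↥V1 z = 0 := fun z hz =>
    (residue_eq_zero_iff z).2 (ValuationSubring.coe_mem_nonunits_iff.1 hz)
  refine ⟨tori_comp V1 (residue ↥V1) hker W', tori_comp_le V1 _ hker W', fun x => ⟨fun hx => ?_,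
    fun hx => ⟨h0 x hx, hW' ⟨x, hx⟩⟩⟩⟩
  -- `φ x ∈ 𝒱' → x ∈ 𝒱0`
  by_contra hx0
  obtain ⟨hxV, hxW⟩ := hx
  have hxi : x⁻¹ ∈ 𝒱0.nonunits := by
    rw [ValuationSubring.mem_nonunits_iff_or]
    right
    rwa [inv_inv]
  have hxi' : x⁻¹ ∈ 𝒱0 := ValuationSubring.nonunits_subset hxi
  have hx00 : x ≠ 0 := by
    rintro rfl
    exact hx0 𝒱0.zero_mem
  -- `f x⁻¹` is a unit of `W'`
  have hmul : residue ↥V1 ⟨φ x, hxV⟩ * f ⟨x⁻¹, hxi'⟩ = 1 := by
    show residue ↥V1 ⟨φ x, hxV⟩ * residue ↥V1 (ι ⟨x⁻¹, hxi'⟩) = 1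
    rw [← map_mul]
    have : (⟨φ x, hxV⟩ * ι ⟨x⁻¹, hxi'⟩ : ↥V1) = 1 := Subtype.ext (by
      show φ x * φ x⁻¹ = 1
      rw [← map_mul, mul_inv_cancel₀ hx00, map_one])
    rw [this, map_one]
  have hunit : IsUnit (f.codRestrict W'.toSubring hW' ⟨x⁻¹, hxi'⟩) := by
    refine isUnit_iff_exists_inv.2 ⟨⟨residue ↥V1 ⟨φ x, hxV⟩, hxW⟩, Subtype.ext ?_⟩
    show f ⟨x⁻¹, hxi'⟩ * residue ↥V1 ⟨φ x, hxV⟩ = 1
    rw [mul_comm]
    exact hmul
  have hunit0 : IsUnit (⟨x⁻¹, hxi'⟩ : ↥𝒱0) := hloc.map_nonunit _ hunit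
  exact (ValuationSubring.coe_mem_nonunits_iff.1 hxi) hunit0

/-- the maximal ideals correspond. -/
theorem s44rc_nonunits {𝒱' : ValuationSubring E} {𝒱0 : ValuationSubring F}
    (h : ∀ x : F, φ x ∈ 𝒱' ↔ x ∈ 𝒱0) (x : F) : φ x ∈ 𝒱'.nonunits ↔ x ∈ 𝒱0.nonunits := by
  rw [ValuationSubring.mem_nonunits_iff_or, ValuationSubring.mem_nonunits_iff_or, map_eq_zero,
    ← map_inv₀, h]

end Ext

section Alg

variable {A0 F E : Type*} [CommRing A0] [Field F] [Field E] [Algebra A0 F] [Algebra A0 E]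
  (φ : F →ₐ[A0] E)

/-- **the residue field of the extension is integral over `A0`**. -/
theorem s44rc_alg (halgE : ∀ z : E, ∃ P : F[X], P ≠ 0 ∧ eval₂ (φ : F →+* E) z P = 0)
    {𝒱' : ValuationSubring E} {𝒱0 : ValuationSubring F}
    (h : ∀ x : F, (φ : F →+* E) x ∈ 𝒱' ↔ x ∈ 𝒱0)
    (hA : ∀ a : A0, algebraMap A0 F a ∈ 𝒱0)
    (halg0 : ∀ x ∈ 𝒱0, ∃ p : A0[X], p.Monic ∧ aeval x p ∈ 𝒱0.nonunits) :
    ∀ z ∈ 𝒱', ∃ p : A0[X], p.Monic ∧ aeval z p ∈ 𝒱'.nonunits := by
  classical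
  intro z hz
  -- the ring homomorphisms
  let ι : ↥𝒱0 →+* ↥𝒱' :=
    { toFun := fun x => ⟨φ (x : F), (h x).2 x.2⟩
      map_one' := Subtype.ext (map_one φ)
      map_mul' := fun a b => Subtype.ext (map_mul φ (a : F) (b : F))
      map_zero' := Subtype.ext (map_zero φ)
      map_add' := fun a b => Subtype.ext (map_add φ (a : F) (b : F)) }
  haveI hιloc : IsLocalHom ι := by
    constructor
    intro a ha
    by_contra hna
    have h1 : (a : F) ∈ 𝒱0.nonunits := ValuationSubring.coe_mem_nonunits_iff.2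
      ((mem_maximalIdeal a).2 hna)
    have h2 : ((ι a : ↥𝒱') : E) ∈ 𝒱'.nonunits := (s44rc_nonunits (φ : F →+* E) h a).2 h1
    exact (ValuationSubring.coe_mem_nonunits_iff.1 h2) ha
  let a0 : A0 →+* ↥𝒱0 :=
    { toFun := fun a => ⟨algebraMap A0 F a, hA a⟩
      map_one' := Subtype.ext (map_one _)
      map_mul' := fun a b => Subtype.ext (map_mul _ a b)
      map_zero' := Subtype.ext (map_zero _)
      map_add' := fun a b => Subtype.ext (map_add _ a b) }
  letI : Algebra A0 (ResidueField ↥𝒱0) := ((residue ↥𝒱0).comp a0).toAlgebra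
  letI : Algebra (ResidueField ↥𝒱0) (ResidueField ↥𝒱') := (ResidueField.map ι).toAlgebra
  letI : Algebra A0 (ResidueField ↥𝒱') :=
    ((ResidueField.map ι).comp ((residue ↥𝒱0).comp a0)).toAlgebra
  haveI : IsScalarTower A0 (ResidueField ↥𝒱0) (ResidueField ↥𝒱') :=
    IsScalarTower.of_algebraMap_eq fun _ => rfl
  -- (1) the residue field of `𝒱0` is integral over `A0`
  haveI hint0 : Algebra.IsIntegral A0 (ResidueField ↥𝒱0) := by
    constructor
    intro xb
    obtain ⟨x, rfl⟩ := residue_surjective xb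
    obtain ⟨p, hp, hpx⟩ := halg0 x x.2
    refine ⟨p, hp, ?_⟩
    have h1 : eval₂ (algebraMap A0 (ResidueField ↥𝒱0)) (residue ↥𝒱0 x) p =
        residue ↥𝒱0 (eval₂ a0 x p) := by
      rw [Polynomial.hom_eval₂]
      rfl
    rw [h1, residue_eq_zero_iff]
    apply ValuationSubring.coe_mem_nonunits_iff.1
    have h2 : ((eval₂ a0 x p : ↥𝒱0) : F) = aeval (x : F) p := by
      have := Polynomial.hom_eval₂ p a0 𝒱0.subtype x
      rw [aeval_def]
      exact this
    rw [h2]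
    exact hpx
  -- (2) `z̄` is algebraic over the residue field of `𝒱0`
  have hint1 : IsIntegral (ResidueField ↥𝒱0) (residue ↥𝒱' ⟨z, hz⟩) := by
    obtain ⟨P, hP0, hPz⟩ := halgE z
    -- a coefficient of maximal value
    obtain ⟨i1, hi1⟩ := Finset.nonempty_iff_ne_empty.2 (fun h0 => hP0 (support_eq_empty.1 h0))
    obtain ⟨i0, hi0, hmax⟩ := Finset.exists_max_image P.support
      (fun i => 𝒱0.valuation (P.coeff i)) ⟨i1, hi1⟩
    set c := P.coeff i0 with hc
    have hc0 : c ≠ 0 := mem_support_iff.1 hi0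
    set P1 : F[X] := C c⁻¹ * P with hP1
    have hP1coeff : ∀ i, P1.coeff i ∈ 𝒱0 := by
      intro i
      rw [hP1, coeff_C_mul]
      by_cases hi : i ∈ P.support
      · rw [← ValuationSubring.valuation_le_one_iff, map_mul, map_inv₀]
        have hvc : 𝒱0.valuation c ≠ 0 := (Valuation.ne_zero_iff _).2 hc0
        rw [inv_mul_le_iff₀ (zero_lt_iff.2 hvc), mul_one]
        exact hmax i hi
      · rw [notMem_support_iff.1 hi, mul_zero]
        exact 𝒱0.zero_mem
    have hP1i0 : P1.coeff i0 = 1 := by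
      rw [hP1, coeff_C_mul, ← hc, inv_mul_cancel₀ hc0]
    have hP1z : eval₂ (φ : F →+* E) z P1 = 0 := by
      rw [hP1, eval₂_mul, hPz, mul_zero]
    obtain ⟨P2, hP2⟩ : ∃ P2 : (↥𝒱0)[X], P2.map 𝒱0.subtype = P1 := by
      have : P1 ∈ Polynomial.lifts 𝒱0.subtype := by
        rw [Polynomial.lifts_iff_coeff_lifts]
        intro n
        exact ⟨⟨P1.coeff n, hP1coeff n⟩, rfl⟩
      exact (Polynomial.mem_lifts _).1 this
    have hP2i0 : P2.coeff i0 = 1 := by
      apply Subtype.ext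
      have := congrArg (fun Q : F[X] => Q.coeff i0) hP2
      simp only [coeff_map] at this
      rw [hP1i0] at this
      exact this
    refine IsAlgebraic.isIntegral ⟨P2.map (residue ↥𝒱0), ?_, ?_⟩
    · intro h0
      have := congrArg (fun Q : (ResidueField ↥𝒱0)[X] => Q.coeff i0) h0
      simp only [coeff_map, coeff_zero, hP2i0, map_one] at this
      exact one_ne_zero this
    · rw [aeval_def, eval₂_map]
      have h1 : eval₂ ((algebraMap (ResidueField ↥𝒱0) (ResidueField ↥𝒱')).comp (residue ↥𝒱0))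
          (residue ↥𝒱' ⟨z, hz⟩) P2 = residue ↥𝒱' (eval₂ ι ⟨z, hz⟩ P2) := by
        rw [Polynomial.hom_eval₂]
        rfl
      rw [h1, residue_eq_zero_iff]
      have h2 : ((eval₂ ι ⟨z, hz⟩ P2 : ↥𝒱') : E) = eval₂ (φ : F →+* E) z P1 := by
        have := Polynomial.hom_eval₂ P2 ι 𝒱'.subtype ⟨z, hz⟩
        rw [← hP2, eval₂_map]
        exact this
      have h3 : eval₂ ι ⟨z, hz⟩ P2 = 0 := Subtype.ext (by rw [h2, hP1z]; rfl)
      rw [h3]
      exact (maximalIdeal ↥𝒱').zero_mem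
  -- (3) transitivity
  have hint : IsIntegral A0 (residue ↥𝒱' ⟨z, hz⟩) := isIntegral_trans _ hint1
  obtain ⟨p, hp, hpz⟩ := hint
  refine ⟨p, hp, ?_⟩
  let a0' : A0 →+* ↥𝒱' := ι.comp a0
  have h1 : eval₂ (algebraMap A0 (ResidueField ↥𝒱')) (residue ↥𝒱' ⟨z, hz⟩) p =
      residue ↥𝒱' (eval₂ a0' ⟨z, hz⟩ p) := by
    rw [Polynomial.hom_eval₂]
    rfl
  rw [h1, residue_eq_zero_iff] at hpz
  have h2 : ((eval₂ a0' ⟨z, hz⟩ p : ↥𝒱') : E) = aeval z p := by
    have := Polynomial.hom_eval₂ p a0' 𝒱'.subtype ⟨z, hz⟩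
    rw [aeval_def]
    refine this.trans ?_
    congr 1
    ext a
    show ((φ : F →+* E) (algebraMap A0 F a)) = algebraMap A0 E a
    exact φ.commutes a
  rw [← h2]
  exact ValuationSubring.coe_mem_nonunits_iff.2 hpz

end Alg

end Fermat.Agent.S44
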