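/-
S44 project, cell [E2] RES, sub-cell (E2-SM) (helper6).  Prefix `s44rs_`.

"THE ORDER OF THE NORMALISED REDUCTION IS DIVISIBLE BY `m` AT EVERY PLACE OF THE RESIDUE FUNCTION
FIELD WHOSE CENTRE IS A SMOOTH POINT", over an ARBITRARY (possibly ramified) discrete valuation ring
`A0`, WITHOUT assuming that the function is a unit at the second Gauss valuation.

This is the S35 cell [SFD] (helper19: `S35/Toric/{SFDLocal,SFDChart,SFD,SFDPlace,Composite}.lean`)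
re-done at a smooth centre:

* `s44rs_chart_smooth` : chart form (twin of `tori_sfd_chart`): at a smooth point `𝔫 ⊇ P` of a chart
  `B`, `g` a unit of `B_P` with all orders at the places of `F0 / K` divisible by `m` ⟹
  `g = ω · e₀^m`, `ω ∈ (B_𝔫)ˣ`, `e₀ ∈ (B_P)ˣ`;
* `s44rs_hdiv_chart`   : composite-valuation form on one chart (twin of `tori_sfd_hdiv_chart`):
  `𝒱 ≤ V1` with residue field algebraic over `A0 / π`, centre of `𝒱` on the `y`-chart smooth;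
* `s44rs_hdiv`         : both charts (twin of `tori_sfd_hdiv`);
* `s44rs_hdiv_place`   : place form (twin of `tori_sfd_hdiv_place`): `r : V1 →+* κ` a reduction map into
  a function field `κ / k`, `v : Place k κ` with smooth centre ⟹ `(m : ℤ) ∣ v.ord (r g)`.

`m` = the residue characteristic is allowed.
-/
import Mathlib
import Fermat.Agent.S35.Toric.SFDPlace

set_option autoImplicit false
set_option linter.unusedSectionVars false
set_option linter.style.haveILetI false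
set_option linter.unusedVariables false

namespace Fermat.Agent.S44

open Fermat.Agent.SS Fermat.Agent.JT3 Fermat.Agent.S35 Fermat.Agent.S24 IsLocalRing AlgebraicCurve
  Polynomial IntermediateField

universe v

section Chart

variable {A0 : Type*} [CommRing A0] [IsDomain A0] [IsDiscreteValuationRing A0]
  {K : Type*} [Field K] [Algebra A0 K] [IsFractionRing A0 K]
  {F0 : Type v} [Field F0] [Algebra A0 F0] [Algebra K F0] [IsScalarTower A0 K F0]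
variable {B : Subalgebra A0 F0} [IsFractionRing B F0] [IsNoetherianRing B] [IsIntegrallyClosed B]
variable (𝔫 : Ideal B) [h𝔫 : 𝔫.IsPrime] {π : A0}

/-- **[SFD] at a smooth point, chart form**: only the component `P` through the point matters. -/
theorem s44rs_chart_smooth (hπ : Irreducible π) (hϖ0 : algebraMap A0 F0 π ≠ 0)
    (hπ𝔫 : algebraMap A0 B π ∈ 𝔫) (hsm : ss_SmoothAt π B 𝔫)
    (P P' : Ideal B) [hP : P.IsPrime]
    (hrad : Ideal.span {algebraMap A0 B π} = P ⊓ P') (hP'P : ¬ P' ≤ P) (hP𝔫 : P ≤ 𝔫)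
    (m : ℕ) {g : F0} (hg : g ≠ 0) (hord : ∀ Q : Place K F0, (m : ℤ) ∣ Q.ord g)
    (hg1 : tori_UnitV P g) :
    ∃ e₀ ω : F0, e₀ ≠ 0 ∧ g = ω * e₀ ^ m ∧
      (∃ s t : B, s ∉ 𝔫 ∧ t ∉ 𝔫 ∧ (s : F0) * ω = t) ∧ tori_UnitV P e₀ := by
  haveI := ssl_loc_isNoetherianRing (F0 := F0) 𝔫
  haveI := ssl_loc_isIntegrallyClosed (F0 := F0) 𝔫
  haveI : UniqueFactorizationMonoid (ssl_locSub F0 𝔫) := tori_sfd_ufd_of_smooth 𝔫 hϖ0 hπ𝔫 hsm
  have hptd : tori_sfd_PtData 𝔫 π P :=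
    tori_sfd_ptData_of_smooth 𝔫 hϖ0 hπ𝔫 hsm P P' hrad hP'P hP𝔫
  have hprime : Prime (algebraMap B (ssl_locSub F0 𝔫) (algebraMap A0 B π)) :=
    ssl_loc_prime_of_dom 𝔫 hϖ0 hπ𝔫 hsm.2
  have hπP : algebraMap A0 B π ∈ P := by
    have : algebraMap A0 B π ∈ P ⊓ P' := by rw [← hrad]; exact Ideal.subset_span rfl
    exact this.1
  have hdiv : ∀ 𝔮 : Ideal (ssl_locSub F0 𝔫),
      ssl_Horiz (algebraMap B (ssl_locSub F0 𝔫) (algebraMap A0 B π)) 𝔮 →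
      ∃ G : F0, G ≠ 0 ∧ ssl_UnitAt F0 𝔮 (g / G ^ m) := fun 𝔮 h𝔮 =>
    ssl_hdiv_of_places (K := K) (R := ssl_locSub F0 𝔫) hπ hg m hord 𝔮 h𝔮
  -- an element of `B` divisible by `ϖ` in `B_𝔫` lies in `P`
  have hback : ∀ b : B, algebraMap B (ssl_locSub F0 𝔫) (algebraMap A0 B π) ∣
      algebraMap B (ssl_locSub F0 𝔫) b → b ∈ P := by
    intro b hb
    obtain ⟨r, hr⟩ := hb
    obtain ⟨a, s, hs, hrs⟩ := (ssl_mem_loc 𝔫).1 r.2
    have hbs : b * s = algebraMap A0 B π * a := by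
      apply Subtype.ext
      have h2 : (b : F0) = algebraMap A0 F0 π * (r : F0) :=
        congrArg (fun t : ssl_locSub F0 𝔫 => (t : F0)) hr
      show (b : F0) * (s : F0) = algebraMap A0 F0 π * (a : F0)
      rw [h2, mul_assoc, hrs]
    have hmem : b * s ∈ P := by
      rw [hbs]; exact P.mul_mem_right _ hπP
    exact (hP.mem_or_mem hmem).elim id (fun h' => absurd (hP𝔫 h') hs)
  have hvert : ∀ p : ssl_locSub F0 𝔫, Prime p →
      p ∣ algebraMap B (ssl_locSub F0 𝔫) (algebraMap A0 B π) →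
      ssl_UnitAt F0 (Ideal.span {p}) g := by
    intro p hp hpπ
    have hass : Associated p (algebraMap B (ssl_locSub F0 𝔫) (algebraMap A0 B π)) :=
      hp.associated_of_dvd hprime hpπ
    obtain ⟨s, t, hs, ht, hst⟩ := hg1
    refine ⟨algebraMap B (ssl_locSub F0 𝔫) t, algebraMap B (ssl_locSub F0 𝔫) s, ?_, ?_, ?_⟩
    · rw [Ideal.mem_span_singleton]
      exact fun h => ht (hback t (hass.symm.dvd.trans h))
    · rw [Ideal.mem_span_singleton]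
      exact fun h => hs (hback s (hass.symm.dvd.trans h))
    · show g * (s : F0) = (t : F0)
      rw [mul_comm]; exact hst
  obtain ⟨e₀, he₀, hev, ω, hω⟩ := tori_sfd_local (R := ssl_locSub F0 𝔫) (F := F0)
    (algebraMap B (ssl_locSub F0 𝔫) (algebraMap A0 B π)) m hg hdiv hvert
  refine ⟨e₀, ((ω : ssl_locSub F0 𝔫) : F0), he₀, hω, ?_, tori_sfd_unitV_of 𝔫 hP𝔫 hptd hev⟩
  -- `ω ∈ (B_𝔫)ˣ` in fraction form
  obtain ⟨a, s, hs, hωs⟩ := (ssl_mem_loc 𝔫).1 ((ω : ssl_locSub F0 𝔫)).2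
  refine ⟨s, a, hs, ?_, by rw [mul_comm]; exact hωs⟩
  intro ha
  have h1 : algebraMap B (ssl_locSub F0 𝔫) s * (ω : ssl_locSub F0 𝔫) =
      algebraMap B (ssl_locSub F0 𝔫) a := Subtype.ext (by
    show (s : F0) * ((ω : ssl_locSub F0 𝔫) : F0) = (a : F0)
    rw [← hωs, mul_comm])
  have h2 : IsUnit (algebraMap B (ssl_locSub F0 𝔫) a) := by
    rw [← h1]
    exact (ssl_loc_isUnit 𝔫 hs).mul ω.isUnit
  exact ((IsLocalization.AtPrime.isUnit_to_map_iff (ssl_locSub F0 𝔫) 𝔫 a).1 h2) ha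

end Chart

section HDiv

variable {A0 L : Type*} {F0 : Type v} [CommRing A0] [IsDomain A0] [IsDiscreteValuationRing A0]
  [Field L] [CharZero L] [Field F0] [Algebra A0 L] [IsFractionRing A0 L] [Algebra L F0]
  [Algebra A0 F0] [IsScalarTower A0 L F0]

/-- **(H-DIV) at a smooth centre, on one chart** `B_y` containing the centre of `𝒱`: no hypothesis
at the second Gauss valuation. -/
theorem s44rs_hdiv_chart {π : A0} (hπ : Irreducible π) {y : F0} (hy : Transcendental L y)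
    [FiniteDimensional L⟮y⟯ F0] {V1 V2 : ValuationSubring F0}
    (H : ssm_tp_Hyp (algebraMap A0 (Algebra.adjoin A0 ({y} : Set F0)) π) V1 V2)
    (𝒱 : ValuationSubring F0) (h𝒱 : 𝒱 ≤ V1) (hA : ∀ a : A0, algebraMap A0 F0 a ∈ 𝒱)
    (halg : ∀ z ∈ 𝒱, ∃ p : A0[X], p.Monic ∧ aeval z p ∈ 𝒱.nonunits) (hy𝒱 : y ∈ 𝒱)
    (hpt : ∀ 𝔫 : Ideal (fc_chart A0 ({y} : Set F0)), 𝔫.IsMaximal →
      ssm_tp_P (fc_chart A0 ({y} : Set F0)) V1 ≤ 𝔫 →
      (∀ b : fc_chart A0 ({y} : Set F0), b ∈ 𝔫 ↔ (b : F0) ∈ 𝒱.nonunits) →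
      ss_SmoothAt π (fc_chart A0 ({y} : Set F0)) 𝔫)
    (m : ℕ) {g : F0} (hg : g ≠ 0) (hord : ∀ P : Place L F0, (m : ℤ) ∣ P.ord g)
    (hg1 : g ∈ V1 ∧ g ∉ V1.nonunits) :
    ∃ e ω : F0, g = ω * e ^ m ∧ (e ∈ V1 ∧ e ∉ V1.nonunits) ∧ (ω ∈ 𝒱 ∧ ω ∉ 𝒱.nonunits) := by
  have hyA : Transcendental A0 y := fc_ff_transcendental (L := L) hy
  haveI : IsIntegrallyClosed (Algebra.adjoin A0 ({y} : Set F0)) := fc_ff_isIntegrallyClosed hyA
  haveI : FaithfulSMul (Algebra.adjoin A0 ({y} : Set F0)) F0 :=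
    (faithfulSMul_iff_algebraMap_injective _ _).2 Subtype.val_injective
  have hC := ssm_tp_ff_chart (L := L) hπ hy
  haveI : Algebra.IsAlgebraic (Algebra.adjoin A0 ({y} : Set F0)) F0 := fc_ff_isAlgebraic (L := L) y
  haveI : IsNoetherianRing (fc_chart A0 ({y} : Set F0)) := by
    have := fc_chart_isNoetherianRing (A0 := A0) (F0 := F0) {y}
      (by rw [Finset.coe_singleton]; exact fc_ff_finite (L := L) hy)
    rwa [Finset.coe_singleton] at this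
  haveI : IsIntegrallyClosed (fc_chart A0 ({y} : Set F0)) := by
    refine (isIntegrallyClosed_iff F0).2 fun {z} hz => ?_
    have hz' : IsIntegral (integralClosure (Algebra.adjoin A0 ({y} : Set F0)) F0) z := hz
    have h1 : IsIntegral (Algebra.adjoin A0 ({y} : Set F0)) z :=
      isIntegral_trans (R := Algebra.adjoin A0 ({y} : Set F0))
        (A := integralClosure (Algebra.adjoin A0 ({y} : Set F0)) F0) z hz'
    exact ⟨⟨z, h1⟩, rfl⟩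
  have hϖ0 : algebraMap A0 F0 π ≠ 0 := by
    have := H.algebraMap_ne_zero
    exact this
  -- the chart lies in `𝒱`
  have hadj : ∀ r : Algebra.adjoin A0 ({y} : Set F0),
      algebraMap (Algebra.adjoin A0 ({y} : Set F0)) F0 r ∈ 𝒱 := by
    rintro ⟨r, hr⟩
    show r ∈ 𝒱
    induction hr using Algebra.adjoin_induction with
    | mem s hs => rw [Set.mem_singleton_iff] at hs; rw [hs]; exact hy𝒱
    | algebraMap a => exact hA a
    | add a b _ _ ha hb => exact 𝒱.add_mem _ _ ha hb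
    | mul a b _ _ ha hb => exact 𝒱.mul_mem _ _ ha hb
  have hB : ∀ b ∈ fc_chart A0 ({y} : Set F0), b ∈ 𝒱 := fun b hb =>
    ssm_tp_mem_of_isIntegral 𝒱 hadj (fc_mem_chart.1 hb)
  -- `π ∈ 𝔪(𝒱)` and the elements of `A0`
  have hnu : V1.nonunits ≤ 𝒱.nonunits := ValuationSubring.nonunits_le_nonunits.2 h𝒱
  have hπ𝒱 : algebraMap A0 F0 π ∈ 𝒱.nonunits := hnu H.over1.pi_mem
  have hk : ∀ a : A0, algebraMap A0 F0 a ∈ 𝒱.nonunits ∨ IsUnit a := by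
    intro a
    by_cases ha : a ∈ maximalIdeal A0
    · left
      rw [hπ.maximalIdeal_eq, Ideal.mem_span_singleton] at ha
      obtain ⟨c, rfl⟩ := ha
      rw [map_mul]
      exact ssm_tp_nonunits_mul 𝒱 hπ𝒱 (hA c)
    · right
      exact (IsLocalRing.notMem_maximalIdeal.1 ha)
  -- the centre
  set 𝔫 : Ideal (fc_chart A0 ({y} : Set F0)) := ssm_tp_P (fc_chart A0 ({y} : Set F0)) 𝒱 with h𝔫
  have h𝔫max : 𝔫.IsMaximal := tori_sfd_centre_isMaximal 𝒱 hB hk halg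
  have h𝔫mem : ∀ b : fc_chart A0 ({y} : Set F0), b ∈ 𝔫 ↔ (b : F0) ∈ 𝒱.nonunits :=
    fun b => ssm_tp_mem_P hB
  have hP1𝔫 : ssm_tp_P (fc_chart A0 ({y} : Set F0)) V1 ≤ 𝔫 := by
    intro b hb
    rw [h𝔫mem]
    exact hnu ((H.mem_P1 hC).1 hb)
  have hsm := hpt 𝔫 h𝔫max hP1𝔫 h𝔫mem
  haveI h𝔫p : 𝔫.IsPrime := h𝔫max.isPrime
  haveI := H.P1_isPrime hC
  haveI := H.P2_isPrime hC
  have hπ𝔫 : algebraMap A0 (fc_chart A0 ({y} : Set F0)) π ∈ 𝔫 := by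
    rw [h𝔫mem]
    exact hπ𝒱
  obtain ⟨e₀, ω, he₀, hgω, ⟨s, t, hs, ht, hst⟩, hev⟩ :=
    s44rs_chart_smooth (K := L) 𝔫 hπ hϖ0 hπ𝔫 hsm (ssm_tp_P (fc_chart A0 ({y} : Set F0)) V1)
      (ssm_tp_P (fc_chart A0 ({y} : Set F0)) V2) (H.P_inf hC _ rfl) (H.P_not_le21 hC) hP1𝔫
      m hg hord ((tori_tp_unitV1_iff H hC).1 hg1)
  refine ⟨e₀, ω, hgω, (tori_tp_unitV1_iff H hC).2 hev, ?_⟩
  -- `ω = t / s` with `s, t ∈ B ∖ 𝔫`
  have hs' : (s : F0) ∉ 𝒱.nonunits := fun h => hs ((h𝔫mem s).2 h)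
  have ht' : (t : F0) ∉ 𝒱.nonunits := fun h => ht ((h𝔫mem t).2 h)
  have hs0 : (s : F0) ≠ 0 := ssm_tp_ne_zero 𝒱 hs'
  have hω : ω = (t : F0) * (s : F0)⁻¹ := by
    rw [← hst]; field_simp
  rw [hω]
  refine ⟨𝒱.mul_mem _ _ (hB _ t.2) (ssm_tp_inv_mem 𝒱 hs'), ?_⟩
  refine ssm_tp_mul_not_mem 𝒱 ht' fun h => ?_
  have := ssm_tp_nonunits_mul 𝒱 h (hB _ s.2)
  rw [inv_mul_cancel₀ hs0] at this
  exact ssm_tp_one_not_mem_nonunits 𝒱 this

/-- **(H-DIV) at a smooth centre**, composite-valuation form: the centre of `𝒱` lies on the `x`-chart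
if `x ∈ 𝒱` and on the `x⁻¹`-chart (at a point where `x⁻¹` vanishes) otherwise. -/
theorem s44rs_hdiv {π : A0} (hπ : Irreducible π) {x : F0} (hx : Transcendental L x)
    [FiniteDimensional L⟮x⟯ F0] {V1 V2 : ValuationSubring F0}
    (H : ssm_tp_Hyp (algebraMap A0 (Algebra.adjoin A0 ({x} : Set F0)) π) V1 V2)
    (𝒱 : ValuationSubring F0) (h𝒱 : 𝒱 ≤ V1) (hA : ∀ a : A0, algebraMap A0 F0 a ∈ 𝒱)
    (halg : ∀ z ∈ 𝒱, ∃ p : A0[X], p.Monic ∧ aeval z p ∈ 𝒱.nonunits)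
    (hpt1 : x ∈ 𝒱 → ∀ 𝔫 : Ideal (fc_chart A0 ({x} : Set F0)), 𝔫.IsMaximal →
      ssm_tp_P (fc_chart A0 ({x} : Set F0)) V1 ≤ 𝔫 →
      (∀ b : fc_chart A0 ({x} : Set F0), b ∈ 𝔫 ↔ (b : F0) ∈ 𝒱.nonunits) →
      ss_SmoothAt π (fc_chart A0 ({x} : Set F0)) 𝔫)
    (hpt2 : x ∉ 𝒱 → ∀ 𝔫 : Ideal (fc_chart A0 ({x⁻¹} : Set F0)), 𝔫.IsMaximal →
      ssm_tp_P (fc_chart A0 ({x⁻¹} : Set F0)) V1 ≤ 𝔫 →
      (∀ b : fc_chart A0 ({x⁻¹} : Set F0), b ∈ 𝔫 ↔ (b : F0) ∈ 𝒱.nonunits) →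
      (⟨x⁻¹, fc_x_mem_chart x⁻¹⟩ : fc_chart A0 ({x⁻¹} : Set F0)) ∈ 𝔫 →
      ss_SmoothAt π (fc_chart A0 ({x⁻¹} : Set F0)) 𝔫)
    (m : ℕ) {g : F0} (hg : g ≠ 0) (hord : ∀ P : Place L F0, (m : ℤ) ∣ P.ord g)
    (hg1 : g ∈ V1 ∧ g ∉ V1.nonunits) :
    ∃ e ω : F0, g = ω * e ^ m ∧ (e ∈ V1 ∧ e ∉ V1.nonunits) ∧ (ω ∈ 𝒱 ∧ ω ∉ 𝒱.nonunits) := by
  by_cases hx𝒱 : x ∈ 𝒱
  · exact s44rs_hdiv_chart hπ hx H 𝒱 h𝒱 hA halg hx𝒱 (hpt1 hx𝒱) m hg hord hg1
  · have hxi : Transcendental L x⁻¹ := fun h => hx (IsAlgebraic.inv_iff.mp h)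
    haveI hfd2 : FiniteDimensional L⟮x⁻¹⟯ F0 := by
      rw [rt_adjoin_inv]; infer_instance
    have hxinv : x⁻¹ ∈ 𝒱.nonunits := by
      rw [ValuationSubring.mem_nonunits_iff_or]
      right
      rw [inv_inv]; exact hx𝒱
    exact s44rs_hdiv_chart hπ hxi (ssm_tp_ff_hyp_inv (L := L) hπ hx H) 𝒱 h𝒱 hA halg
      (ValuationSubring.nonunits_subset hxinv)
      (fun 𝔫 h𝔫 hP hmem => hpt2 hx𝒱 𝔫 h𝔫 hP hmem ((hmem _).2 hxinv)) m hg hord hg1

end HDiv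

section HDivPlace

variable {A0 L : Type*} {F0 : Type v} [CommRing A0] [IsDomain A0] [IsDiscreteValuationRing A0]
  [Field L] [CharZero L] [Field F0] [Algebra A0 L] [IsFractionRing A0 L] [Algebra L F0]
  [Algebra A0 F0] [IsScalarTower A0 L F0]

/-- **(H-DIV) at a smooth centre, place form**: `r : V1 →+* κ` a reduction map of the first Gauss
valuation ring into a function field `κ / k` (`k` the residue field of `A0`), `v` a place of `κ / k`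
whose centre (the centre of the composite valuation `tori_comp V1 r hker v`) is a smooth point of the
chart on which it lies.  If `g` is a unit at `V1` and all its orders at the places of `F0 / L` are
divisible by `m`, then `m ∣ ord_v (r g)`. -/
theorem s44rs_hdiv_place {π : A0} (hπ : Irreducible π) {x : F0} (hx : Transcendental L x)
    [FiniteDimensional L⟮x⟯ F0] {V1 V2 : ValuationSubring F0}
    (H : ssm_tp_Hyp (algebraMap A0 (Algebra.adjoin A0 ({x} : Set F0)) π) V1 V2)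
    {k κ : Type*} [Field k] [Field κ] [Algebra k κ] (ρ : A0 →+* k) (hρ : Function.Surjective ρ)
    (r : ↥V1 →+* κ) (hker : ∀ z : ↥V1, (z : F0) ∈ V1.nonunits → r z = 0)
    (hrA : ∀ (a : A0) (h : algebraMap A0 F0 a ∈ V1),
      r ⟨algebraMap A0 F0 a, h⟩ = algebraMap k κ (ρ a))
    (xb : κ) [Algebra.IsAlgebraic k⟮xb⟯ κ] (v : Place k κ)
    (hpt1 : x ∈ tori_comp V1 r hker v.toValuationSubring →
      ∀ 𝔫 : Ideal (fc_chart A0 ({x} : Set F0)), 𝔫.IsMaximal →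
      ssm_tp_P (fc_chart A0 ({x} : Set F0)) V1 ≤ 𝔫 →
      (∀ b : fc_chart A0 ({x} : Set F0),
        b ∈ 𝔫 ↔ (b : F0) ∈ (tori_comp V1 r hker v.toValuationSubring).nonunits) →
      ss_SmoothAt π (fc_chart A0 ({x} : Set F0)) 𝔫)
    (hpt2 : x ∉ tori_comp V1 r hker v.toValuationSubring →
      ∀ 𝔫 : Ideal (fc_chart A0 ({x⁻¹} : Set F0)), 𝔫.IsMaximal →
      ssm_tp_P (fc_chart A0 ({x⁻¹} : Set F0)) V1 ≤ 𝔫 →
      (∀ b : fc_chart A0 ({x⁻¹} : Set F0),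
        b ∈ 𝔫 ↔ (b : F0) ∈ (tori_comp V1 r hker v.toValuationSubring).nonunits) →
      (⟨x⁻¹, fc_x_mem_chart x⁻¹⟩ : fc_chart A0 ({x⁻¹} : Set F0)) ∈ 𝔫 →
      ss_SmoothAt π (fc_chart A0 ({x⁻¹} : Set F0)) 𝔫)
    (m : ℕ) {g : F0} (hg : g ≠ 0) (hord : ∀ P : Place L F0, (m : ℤ) ∣ P.ord g)
    (hg1 : g ∈ V1 ∧ g ∉ V1.nonunits) :
    (m : ℤ) ∣ v.ord (r ⟨g, hg1.1⟩) := by
  have hA1 : ∀ a : A0, algebraMap A0 F0 a ∈ V1 := fun a => by
    have := H.over1.le (algebraMap A0 (Algebra.adjoin A0 ({x} : Set F0)) a)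
    exact this
  set W := v.toValuationSubring with hW
  set 𝒱 := tori_comp V1 r hker W with h𝒱def
  have h𝒱 : 𝒱 ≤ V1 := tori_comp_le V1 r hker W
  have hA : ∀ a : A0, algebraMap A0 F0 a ∈ 𝒱 := fun a =>
    ⟨hA1 a, by rw [hrA]; exact v.algebraMap_mem' _⟩
  -- the ring homomorphism `A0 → V1`
  let ι : A0 →+* ↥V1 :=
    { toFun := fun a => ⟨algebraMap A0 F0 a, hA1 a⟩
      map_one' := Subtype.ext (map_one _)
      map_mul' := fun a b => Subtype.ext (map_mul _ a b)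
      map_zero' := Subtype.ext (map_zero _)
      map_add' := fun a b => Subtype.ext (map_add _ a b) }
  have hι1 : V1.subtype.comp ι = algebraMap A0 F0 := RingHom.ext fun a => rfl
  have hι2 : r.comp ι = (algebraMap k κ).comp ρ := RingHom.ext fun a => hrA a (hA1 a)
  have halg : ∀ z ∈ 𝒱, ∃ p : A0[X], p.Monic ∧ aeval z p ∈ 𝒱.nonunits := by
    rintro z ⟨hzV, hzW⟩
    obtain ⟨pb, hpb, hpbW⟩ := tori_sfd_place_alg xb v hzW
    obtain ⟨P, hPmap, -, hPm⟩ := Polynomial.lifts_and_degree_eq_and_monic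
      ((Polynomial.mem_lifts _).2 (Polynomial.map_surjective ρ hρ pb)) hpb
    refine ⟨P, hPm, ?_⟩
    have h1 : ((eval₂ ι ⟨z, hzV⟩ P : ↥V1) : F0) = aeval z P := by
      have := Polynomial.hom_eval₂ P ι V1.subtype ⟨z, hzV⟩
      rw [hι1] at this
      rw [aeval_def]
      exact this
    have h2 : r (eval₂ ι ⟨z, hzV⟩ P) = aeval (r ⟨z, hzV⟩) pb := by
      rw [Polynomial.hom_eval₂, hι2, ← Polynomial.eval₂_map, hPmap, aeval_def]
    rw [tori_comp_mem_nonunits_iff]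
    refine ⟨h1 ▸ (eval₂ ι ⟨z, hzV⟩ P).2, ?_⟩
    have h3 : (⟨aeval z P, h1 ▸ (eval₂ ι ⟨z, hzV⟩ P).2⟩ : ↥V1) = eval₂ ι ⟨z, hzV⟩ P :=
      Subtype.ext h1.symm
    rw [h3, h2]
    exact hpbW
  obtain ⟨e, ω, hgω, ⟨he1, he2⟩, hω1, hω2⟩ :=
    s44rs_hdiv hπ hx H 𝒱 h𝒱 hA halg hpt1 hpt2 m hg hord hg1
  obtain ⟨hωW, hωnu⟩ := tori_comp_unit V1 r hker W hω1 hω2
  -- `r g = r ω * (r e)^m`
  have hmul : r ⟨g, hg1.1⟩ = r ⟨ω, hω1.1⟩ * r ⟨e, he1⟩ ^ m := by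
    rw [← map_pow, ← map_mul]
    congr 1
    exact Subtype.ext hgω
  have hre0 : r ⟨e, he1⟩ ≠ 0 := by
    have he0 : e ≠ 0 := ssm_tp_ne_zero V1 he2
    have hei : e⁻¹ ∈ V1 := ssm_tp_inv_mem V1 he2
    have h1 : r ⟨e, he1⟩ * r ⟨e⁻¹, hei⟩ = 1 := by
      rw [← map_mul]
      have : (⟨e, he1⟩ * ⟨e⁻¹, hei⟩ : ↥V1) = 1 := Subtype.ext (mul_inv_cancel₀ he0)
      rw [this, map_one]
    exact left_ne_zero_of_mul_eq_one h1
  have hrω0 : r ⟨ω, hω1.1⟩ ≠ 0 := ssm_tp_ne_zero W hωnu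
  rw [hmul, v.ord_mul hrω0 (pow_ne_zero m hre0), tori_sfd_ord_unit v hωW hωnu, zero_add,
    ← zpow_natCast, v.ord_zpow]
  exact dvd_mul_right _ _

end HDivPlace

end Fermat.Agent.S44
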