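/-
S44 project, cell [E2] RES, sub-cell (E2-SM), LEGENDRE INSTANCE over a RAMIFIED base (helper6).
Prefix `s44rs_`.

`L ⊆ Q̄` a number field containing a primitive `N'`-th root of unity, `O` a discrete valuation ring
of `L` of odd residue characteristic `q ∤ N'`, `π` ANY uniformiser of `O` (so `O` may be ramified
over `ℤ_(q)`: in use `L ∋ ζ_p`, `q = p`), `E = lg_E L (N' q)`, `V1, V2 = ssm_gl_V1 / ssm_gl_V2` the two
Gauss valuation rings, `λ = lg_lamE (N' q)`.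

* `s44rs_leg_pts2` : the points at infinity of the `λ⁻¹`-chart are smooth (twin of
  `tori_sfdi_leg_pts2`, any uniformiser);
* `s44rs_leg`      : **"order ≡ 0 mod m at every point of the first component which is not a crossing
  point"**: `r : V1 →+* κ` a reduction map into a function field `κ / k`, `v : Place k κ` whose centre
  does not lie on the second component (`hv`), `G ∈ Eˣ` a `V1`-unit with all orders at the places of
  `E / L` divisible by `m` ⟹ `(m : ℤ) ∣ v.ord (r G)`.  `m = q` is allowed.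
-/
import Mathlib
import Fermat.Agent.S35.Toric.SFDInstLeg
import Fermat.Agent.S44.Res.SmoothPlace

set_option autoImplicit false
set_option linter.style.haveILetI false
set_option linter.unusedSectionVars false
set_option linter.unusedVariables false

noncomputable section

namespace Fermat.Agent.S44

open Fermat.Agent.SS Fermat.Agent.JT3 Fermat.Agent.S35 IntermediateField ModularCurve IsLocalRing
  AlgebraicCurve Polynomial

section NF

variable (L : Type) [Field L] [NumberField L] [Algebra L (AlgebraicClosure ℚ)]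
  (O : ValuationSubring L) [IsDiscreteValuationRing O] {π : O} (hπ : Irreducible π)
variable (N' q : ℕ) [NeZero N'] [NeZero q] [hq : Fact q.Prime] [CharP (ResidueField O) q]
  (hq2 : ¬ 2 ∣ q) (hqN' : ¬ q ∣ N') (ζ : L) (hζ : IsPrimitiveRoot ζ N')

include hζ hq2 hqN' hπ in
set_option synthInstance.maxHeartbeats 400000 in
set_option maxHeartbeats 3200000 in
/-- the points at infinity of the `λ⁻¹`-chart are smooth (any uniformiser). -/
theorem s44rs_leg_pts2 :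
    ∀ 𝔫 : Ideal (fc_chart ↥O ({(lg_lamE (N' * q))⁻¹} : Set ↥(lg_E L (N' * q)))), 𝔫.IsMaximal →
      algebraMap ↥O (fc_chart ↥O ({(lg_lamE (N' * q))⁻¹} : Set ↥(lg_E L (N' * q)))) π ∈ 𝔫 →
      (⟨(lg_lamE (N' * q))⁻¹, fc_x_mem_chart _⟩ :
        fc_chart ↥O ({(lg_lamE (N' * q))⁻¹} : Set ↥(lg_E L (N' * q)))) ∈ 𝔫 →
      ss_SmoothAt π
        (fc_chart ↥O ({(lg_lamE (N' * q))⁻¹} : Set ↥(lg_E L (N' * q)))) 𝔫 := by
  intro 𝔫 h𝔫 hπ𝔫 hμ𝔫
  have hqO : ((q : ℕ) : O) ∈ maximalIdeal O := ssm_fln_q_mem L O q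
  have hq2' : q ≠ 2 := ssm_fl_ne_two q hq2
  have hp := ssm_ll_prime L N' hπ q hqO hq2' hqN' ζ hζ
  have F := ssm_fl_facts O hπ N' q hq2 hqN' hp.1
  have hs := ssm_si_smooth O hπ N' q hq2 hqN' hp.1 hp.2.1
    (ssm_ll_ic1 L N' hπ q hqO hq2' hqN' ζ hζ) (ssm_ll_ic2 L N' hπ q hqO hq2' hqN' ζ hζ)
    (ssm_ll_reg1 L N' hπ q hqO hq2' hqN' ζ hζ) (ssm_ll_reg2 L N' hπ q hqO hq2' hqN' ζ hζ) F
  haveI := ssm_go_isScalarTower O (lg_E L (N' * q))
  haveI : FiniteDimensional L⟮(lg_lamE (N' * q) : lg_E L (N' * q))⟯ ↥(lg_E L (N' * q)) :=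
    lgf_finite L (N' * q)
  have hx : Transcendental L (lg_lamE (L := L) (N' * q)) :=
    lgf_lam_transcendental L (N' * q) two_ne_zero
  have H := ssm_gl_hyp O hπ N' q hq2 hqN' hp.1
  have hWA : ∀ a : ↥O, ssm_gl_W L N' q hq2 hqN' (algebraMap ↥O ↥(lg_E L (N' * q)) a) =
      algebraMap ↥O ↥(lg_E L (N' * q)) a := fun a =>
    (ssm_al_WE L N' q hq.out hq2 hqN').commutes (a : L)
  obtain ⟨hWB, hw, hw', hsub⟩ := ssm_inf_of_facts (ssm_gl_W L N' q hq2 hqN') hWA F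
  exact ssm_inf_ff_smooth (L := L) hπ hx H (ssm_gl_W L N' q hq2 hqN')
    (ssm_al_WE_WE L N' q hq.out hq2 hqN') (fun _ => Iff.rfl) hWB hq.out.two_le hw hw' hsub
    hs.2.2.1 hs.2.2.2 𝔫 h𝔫 hπ𝔫 hμ𝔫

include hζ in
set_option synthInstance.maxHeartbeats 400000 in
set_option maxHeartbeats 3200000 in
/-- **(E2-SM), Legendre tower over a ramified base**: the order of the reduction along the first
component is divisible by `m` at every place whose centre is not a crossing point. -/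
theorem s44rs_leg {k κ : Type*} [Field k] [Field κ] [Algebra k κ] (ρ : ↥O →+* k)
    (hρ : Function.Surjective ρ)
    (r : ↥(ssm_gl_V1 O hπ N' q) →+* κ)
    (hker : ∀ z : ↥(ssm_gl_V1 O hπ N' q),
      (z : ↥(lg_E L (N' * q))) ∈ (ssm_gl_V1 O hπ N' q).nonunits → r z = 0)
    (hrA : ∀ (a : ↥O) (h : algebraMap ↥O ↥(lg_E L (N' * q)) a ∈ ssm_gl_V1 O hπ N' q),
      r ⟨algebraMap ↥O ↥(lg_E L (N' * q)) a, h⟩ = algebraMap k κ (ρ a))
    (xb : κ) [Algebra.IsAlgebraic k⟮xb⟯ κ] (v : Place k κ)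
    (hv : lg_lamE (N' * q) ∈ tori_comp (ssm_gl_V1 O hπ N' q) r hker v.toValuationSubring →
      ∃ b : ↥(lg_E L (N' * q)), b ∈ fc_chart ↥O ({lg_lamE (N' * q)} : Set ↥(lg_E L (N' * q))) ∧
        b ∈ (ssm_gl_V2 O hπ N' q hq2 hqN').nonunits ∧
        b ∉ (tori_comp (ssm_gl_V1 O hπ N' q) r hker v.toValuationSubring).nonunits)
    (m : ℕ) {G : ↥(lg_E L (N' * q))} (hG : G ≠ 0)
    (hord : ∀ P : Place L ↥(lg_E L (N' * q)), (m : ℤ) ∣ P.ord G)
    (hG1 : G ∈ ssm_gl_V1 O hπ N' q ∧ G ∉ (ssm_gl_V1 O hπ N' q).nonunits) :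
    (m : ℤ) ∣ v.ord (r ⟨G, hG1.1⟩) := by
  have hqO : ((q : ℕ) : O) ∈ maximalIdeal O := ssm_fln_q_mem L O q
  have hq2' : q ≠ 2 := ssm_fl_ne_two q hq2
  have hp := ssm_ll_prime L N' hπ q hqO hq2' hqN' ζ hζ
  have F := ssm_fl_facts O hπ N' q hq2 hqN' hp.1
  have hs := ssm_si_smooth O hπ N' q hq2 hqN' hp.1 hp.2.1
    (ssm_ll_ic1 L N' hπ q hqO hq2' hqN' ζ hζ) (ssm_ll_ic2 L N' hπ q hqO hq2' hqN' ζ hζ)
    (ssm_ll_reg1 L N' hπ q hqO hq2' hqN' ζ hζ) (ssm_ll_reg2 L N' hπ q hqO hq2' hqN' ζ hζ) F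
  haveI := ssm_go_isScalarTower O (lg_E L (N' * q))
  haveI : FiniteDimensional L⟮(lg_lamE (N' * q) : lg_E L (N' * q))⟯ ↥(lg_E L (N' * q)) :=
    lgf_finite L (N' * q)
  have hx : Transcendental L (lg_lamE (L := L) (N' * q)) :=
    lgf_lam_transcendental L (N' * q) two_ne_zero
  have H := ssm_gl_hyp O hπ N' q hq2 hqN' hp.1
  have hC := ssm_tp_ff_chart (L := L) (A0 := ↥O) (F0 := ↥(lg_E L (N' * q))) hπ hx
  have hxA : Transcendental ↥O (lg_lamE (L := L) (N' * q)) := fc_ff_transcendental (L := L) hx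
  haveI : IsIntegrallyClosed (Algebra.adjoin ↥O ({lg_lamE (N' * q)} : Set ↥(lg_E L (N' * q)))) :=
    fc_ff_isIntegrallyClosed hxA
  haveI : FaithfulSMul (Algebra.adjoin ↥O ({lg_lamE (N' * q)} : Set ↥(lg_E L (N' * q))))
      ↥(lg_E L (N' * q)) :=
    (faithfulSMul_iff_algebraMap_injective _ _).2 Subtype.val_injective
  refine s44rs_hdiv_place (L := L) hπ hx H ρ hρ r hker hrA xb v ?_ ?_ m hG hord hG1
  · -- the centre lies on the `λ`-chart
    intro hlam 𝔫 h𝔫 hP1 hmem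
    obtain ⟨b, hbB, hb2, hbu⟩ := hv hlam
    have hπ𝔫 : algebraMap ↥O (fc_chart ↥O ({lg_lamE (N' * q)} : Set ↥(lg_E L (N' * q)))) π ∈ 𝔫 := by
      apply hP1
      rw [H.mem_P1 hC]
      exact H.over1.pi_mem
    refine hs.1 𝔫 h𝔫 hπ𝔫 fun hP2 => ?_
    have hb𝔫 : (⟨b, hbB⟩ : fc_chart ↥O ({lg_lamE (N' * q)} : Set ↥(lg_E L (N' * q)))) ∈ 𝔫 := by
      apply hP2
      rw [H.mem_P2 hC]
      exact hb2
    exact hbu ((hmem _).1 hb𝔫)
  · -- the centre is a point at infinity of the `λ⁻¹`-chart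
    intro hlam 𝔫 h𝔫 hP1 hmem hμ
    have hxi : Transcendental L (lg_lamE (L := L) (N' * q))⁻¹ :=
      fun h => hx (IsAlgebraic.inv_iff.mp h)
    have H2 := ssm_tp_ff_hyp_inv (L := L) hπ hx H
    have hC2 := ssm_tp_ff_chart (L := L) (A0 := ↥O) (F0 := ↥(lg_E L (N' * q))) hπ hxi
    have hxiA : Transcendental ↥O (lg_lamE (L := L) (N' * q))⁻¹ :=
      fc_ff_transcendental (L := L) hxi
    haveI : IsIntegrallyClosed
        (Algebra.adjoin ↥O ({(lg_lamE (N' * q))⁻¹} : Set ↥(lg_E L (N' * q)))) :=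
      fc_ff_isIntegrallyClosed hxiA
    haveI : FaithfulSMul (Algebra.adjoin ↥O ({(lg_lamE (N' * q))⁻¹} : Set ↥(lg_E L (N' * q))))
        ↥(lg_E L (N' * q)) :=
      (faithfulSMul_iff_algebraMap_injective _ _).2 Subtype.val_injective
    have hπ𝔫 : algebraMap ↥O
        (fc_chart ↥O ({(lg_lamE (N' * q))⁻¹} : Set ↥(lg_E L (N' * q)))) π ∈ 𝔫 := by
      apply hP1
      rw [H2.mem_P1 hC2]
      exact H2.over1.pi_mem
    exact s44rs_leg_pts2 L O hπ N' q hq2 hqN' ζ hζ 𝔫 h𝔫 hπ𝔫 hμ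

end NF

end Fermat.Agent.S44
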