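/-
S44 project, cell [E2] RES, sub-cell (E2-ord), ABSTRACT VALUE-GROUP DESCENT (helper6).
Prefix `s44rv_`.

`K ⊆ K'` a finite field extension of degree `< p` (`p` prime), `R'` a valuation subring of `K'` (of
ANY rank).  If `x ∈ Kˣ` is a `p`-th power in `K'` up to a unit of `R'`, then it is a `p`-th power in
`K` up to a unit of `R'`:  the index of the value groups is `≤ [K' : K] < p`
(`s44rv_descend`).  Elementary: among the monomials `a_i y'^i` of a `K`-linear relation of degree
`< p` of `y'` two have the same value.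
-/
import Mathlib

set_option autoImplicit false

noncomputable section

namespace Fermat.Agent.S44

open Polynomial

section Abs

variable {K' : Type*} [Field K']

/-- a vanishing finite sum with a nonzero term has two distinct nonzero terms of the same value. -/
theorem s44rv_two_terms {Γ : Type*} [LinearOrderedCommGroupWithZero Γ] (v : Valuation K' Γ)
    {ι : Type*} [DecidableEq ι] (s : Finset ι) (t : ι → K') (hsum : ∑ i ∈ s, t i = 0)
    (hne : ∃ i ∈ s, t i ≠ 0) :
    ∃ i ∈ s, ∃ j ∈ s, i ≠ j ∧ t i ≠ 0 ∧ t j ≠ 0 ∧ v (t i) = v (t j) := by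
  classical
  obtain ⟨i1, hi1, hti1⟩ := hne
  -- an index of maximal value
  obtain ⟨i0, hi0, hmax⟩ := Finset.exists_max_image s (fun i => v (t i)) ⟨i1, hi1⟩
  have hvi0 : v (t i0) ≠ 0 := by
    intro h0
    have h1 := hmax i1 hi1
    rw [h0] at h1
    exact hti1 ((v.zero_iff).1 (le_antisymm h1 zero_le))
  have hti0 : t i0 ≠ 0 := fun h => hvi0 (by rw [h, map_zero])
  by_contra hcon
  push Not at hcon
  -- all other terms have strictly smaller value
  have hlt : ∀ j ∈ s.erase i0, v (t j) < v (t i0) := by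
    intro j hj
    obtain ⟨hji, hjs⟩ := Finset.mem_erase.1 hj
    rcases eq_or_ne (t j) 0 with h0 | h0
    · rw [h0, map_zero]
      exact zero_lt_iff.2 hvi0
    · refine lt_of_le_of_ne (hmax j hjs) fun heq => ?_
      exact hcon i0 hi0 j hjs (Ne.symm hji) hti0 h0 heq.symm
  have h2 : v (∑ j ∈ s.erase i0, t j) < v (t i0) := Valuation.map_sum_lt v hvi0 hlt
  have h3 : t i0 = -∑ j ∈ s.erase i0, t j := by
    have := Finset.add_sum_erase s t hi0
    rw [hsum] at this
    exact eq_neg_of_add_eq_zero_left this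
  rw [h3, Valuation.map_neg] at h2
  exact lt_irrefl _ h2

variable {K : Type*} [Field K] [Algebra K K']

/-- **value-group descent**: `[K' : K] < p` ⟹ a `p`-th power in `K'` up to an `R'`-unit is a
`p`-th power in `K` up to an `R'`-unit. -/
theorem s44rv_descend [FiniteDimensional K K'] (R' : ValuationSubring K') {p : ℕ} (hp : p.Prime)
    (hdeg : Module.finrank K K' < p) {x : K} (hx : x ≠ 0) {y' u' : K'}
    (hu : u' ∈ R' ∧ u' ∉ R'.nonunits) (h : algebraMap K K' x = u' * y' ^ p) :
    ∃ y : K, y ≠ 0 ∧ (algebraMap K K' x / algebraMap K K' y ^ p ∈ R' ∧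
      algebraMap K K' x / algebraMap K K' y ^ p ∉ R'.nonunits) := by
  classical
  set v := R'.valuation with hv
  have hx' : algebraMap K K' x ≠ 0 := by
    rwa [Ne, map_eq_zero]
  have hy'0 : y' ≠ 0 := by
    rintro rfl
    rw [zero_pow hp.ne_zero, mul_zero] at h
    exact hx' h
  have hu0 : u' ≠ 0 := by
    rintro rfl
    rw [zero_mul] at h
    exact hx' h
  have hvu : v u' = 1 := by
    have h1 : (R'.valuation u') ≤ 1 := (ValuationSubring.valuation_le_one_iff _ _).2 hu.1
    have h2 : ¬ (R'.valuation u') < 1 := fun h2 =>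
      hu.2 ((ValuationSubring.mem_nonunits_iff R').2 h2)
    exact le_antisymm h1 (not_lt.1 h2)
  have hvy0 : v y' ≠ 0 := (v.ne_zero_iff).2 hy'0
  -- the minimal polynomial of `y'`
  have hint : IsIntegral K y' := Algebra.IsIntegral.isIntegral y'
  set P := minpoly K y' with hP
  have hP0 : P ≠ 0 := minpoly.ne_zero hint
  have hPdeg : P.natDegree < p := lt_of_le_of_lt (minpoly.natDegree_le y') hdeg
  have hroot : ∑ i ∈ P.support, algebraMap K K' (P.coeff i) * y' ^ i = 0 := by
    have h1 : aeval y' P = 0 := minpoly.aeval K y'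
    rw [aeval_def, eval₂_eq_sum, Polynomial.sum_def] at h1
    exact h1
  have hne : ∃ i ∈ P.support, algebraMap K K' (P.coeff i) * y' ^ i ≠ 0 := by
    obtain ⟨i, hi⟩ := Finset.nonempty_iff_ne_empty.2 (fun h0 => hP0 (support_eq_empty.1 h0))
    refine ⟨i, hi, mul_ne_zero ?_ (pow_ne_zero _ hy'0)⟩
    rw [Ne, map_eq_zero]
    exact mem_support_iff.1 hi
  obtain ⟨i, hi, j, hj, hij, hti, htj, hval⟩ :=
    s44rv_two_terms v P.support (fun i => algebraMap K K' (P.coeff i) * y' ^ i) hroot hne
  -- wlog `i < j`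
  have key : ∀ i j : ℕ, i ∈ P.support → j ∈ P.support → i < j →
      v (algebraMap K K' (P.coeff i) * y' ^ i) = v (algebraMap K K' (P.coeff j) * y' ^ j) →
      ∃ y : K, y ≠ 0 ∧ v (algebraMap K K' y) = v y' := by
    intro i j hi hj hlt hval
    have hai : P.coeff i ≠ 0 := mem_support_iff.1 hi
    have haj : P.coeff j ≠ 0 := mem_support_iff.1 hj
    have hjle : j ≤ P.natDegree := le_natDegree_of_mem_supp j hj
    obtain ⟨d, rfl⟩ : ∃ d, j = i + d := ⟨j - i, by omega⟩
    have hd0 : 0 < d := by omega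
    have hdp : d < p := by omega
    -- `v(y')^d = v(a_i / a_j)`
    set c : K := P.coeff i / P.coeff (i + d) with hc
    have hc0 : c ≠ 0 := div_ne_zero hai haj
    have hvc : v (algebraMap K K' c) = v y' ^ d := by
      have haj' : v (algebraMap K K' (P.coeff (i + d))) ≠ 0 := by
        rw [Valuation.ne_zero_iff, Ne, map_eq_zero]
        exact haj
      rw [map_mul, map_mul, map_pow, map_pow, pow_add] at hval
      rw [hc, map_div₀, map_div₀]
      rw [div_eq_iff haj']
      have hvi : v y' ^ i ≠ 0 := pow_ne_zero _ hvy0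
      have : v (algebraMap K K' (P.coeff i)) * v y' ^ i =
          v y' ^ d * v (algebraMap K K' (P.coeff (i + d))) * v y' ^ i := by
        rw [hval, mul_comm (v y' ^ d), mul_assoc, mul_comm (v y' ^ d)]
      exact mul_right_cancel₀ hvi this
    -- Bezout
    have hcop : IsCoprime (d : ℤ) (p : ℤ) := by
      rw [Int.isCoprime_iff_gcd_eq_one, Int.gcd_natCast_natCast]
      exact (Nat.Coprime.symm ((Nat.Prime.coprime_iff_not_dvd hp).2
        (Nat.not_dvd_of_pos_of_lt hd0 hdp)))
    obtain ⟨a, b, hab⟩ := hcop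
    refine ⟨c ^ a * x ^ b, mul_ne_zero (zpow_ne_zero _ hc0) (zpow_ne_zero _ hx), ?_⟩
    have hvx : v (algebraMap K K' x) = v y' ^ p := by
      rw [h, map_mul, hvu, one_mul, map_pow]
    rw [map_mul, map_zpow₀, map_zpow₀, map_mul, map_zpow₀, map_zpow₀, hvc, hvx,
      ← zpow_natCast, ← zpow_natCast, ← zpow_mul, ← zpow_mul, ← zpow_add₀ hvy0]
    have : (d : ℤ) * a + (p : ℤ) * b = 1 := by rw [← hab]; ring
    rw [this, zpow_one]
  obtain ⟨y, hy0, hvy⟩ : ∃ y : K, y ≠ 0 ∧ v (algebraMap K K' y) = v y' := by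
    rcases lt_or_gt_of_ne hij with hlt | hlt
    · exact key i j hi hj hlt hval
    · exact key j i hj hi hlt hval.symm
  refine ⟨y, hy0, ?_⟩
  have hy0' : algebraMap K K' y ≠ 0 := by rwa [Ne, map_eq_zero]
  have hval1 : v (algebraMap K K' x / algebraMap K K' y ^ p) = 1 := by
    rw [map_div₀, map_pow, hvy, h, map_mul, hvu, one_mul, map_pow,
      div_self (pow_ne_zero _ hvy0)]
  constructor
  · exact (ValuationSubring.valuation_le_one_iff _ _).1 (le_of_eq hval1)
  · intro hnu
    have := (ValuationSubring.mem_nonunits_iff R').1 hnu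
    rw [← hv, hval1] at this
    exact lt_irrefl _ this

end Abs

end Fermat.Agent.S44
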