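/-
S44 project, cell [E2] RES, sub-cell (E2-ord), AUXILIARIES FOR THE NUMBER-FIELD STEP (helper6).
Prefix `s44ro_`.

* `s44ro_W_phi`       : the Atkin–Lehner involutions of `F = lg_F L (N' q)` and of the Legendre cover
                        `E = lg_E L (N' q)` commute with `φ = lg_phiE` (`q ↦ q²`);
* `s44ro_chart_mul`   : chart change `j ↦ λ`: if `y` is integral over `O[j₂]`, `j₂ t ∈ O[λ]`, then
                        `t^D y` is integral over `O[λ]` for `D` large;
* `s44ro_tower`       : value-group descent along `φ(F) ⊆ φ(F)(t) ⊆ E`, `t = λ² - λ`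
                        (degrees `≤ 3`, `≤ 2`).
-/
import Mathlib
import Fermat.Agent.S44.Res.ValGroup
import Fermat.Agent.S44.Res.CompExt
import Fermat.Agent.S44.Res.SmoothLeg
import Fermat.Agent.S35.RedN.InstFull
import Fermat.Agent.JT3.Inst.Key0

set_option autoImplicit false
set_option linter.style.haveILetI false
set_option linter.unusedSectionVars false
set_option linter.unusedVariables false

noncomputable section

namespace Fermat.Agent.S44

open Fermat.Agent.SS Fermat.Agent.JT3 Fermat.Agent.S35 IntermediateField ModularCurve IsLocalRing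
  AlgebraicCurve Polynomial

section WPhi

variable (L : Type*) [Field L] [CharZero L] [Algebra L (AlgebraicClosure ℚ)]
  (N' q : ℕ) [NeZero N'] [NeZero q] (hq : q.Prime) (hq2 : ¬ 2 ∣ q) (hqN' : ¬ q ∣ N')

/-- **`W_E ∘ φ = φ ∘ W_F`** (series level). -/
theorem s44ro_W_phi (x : ↥(lg_F L (N' * q))) :
    ((ssm_al_WE L N' q hq hq2 hqN' (lg_phiE (L := L) (N := N' * q) x) : ↥(lg_E L (N' * q))) : LaurentSeries L) =
      lg_phi L ((ssm_al_W L N' q hq hqN' x : ↥(lg_F L (N' * q))) : LaurentSeries L) := by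
  -- two ring homomorphisms out of `L(S)`
  let ψ1 : ↥(IntermediateField.adjoin L (divisorExpansionsC L (N' * q))) →+* LaurentSeries L :=
    ((lg_E L (N' * q)).val : ↥(lg_E L (N' * q)) →+* LaurentSeries L).comp
      (((ssm_al_WE L N' q hq hq2 hqN' : ↥(lg_E L (N' * q)) ≃ₐ[L] ↥(lg_E L (N' * q))) :
        ↥(lg_E L (N' * q)) →+* ↥(lg_E L (N' * q))).comp
        ((lg_phiE (L := L) (N := N' * q) : ↥(lg_F L (N' * q)) →ₐ[L] ↥(lg_E L (N' * q))) :
          ↥(lg_F L (N' * q)) →+* ↥(lg_E L (N' * q))))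
  let ψ2 : ↥(IntermediateField.adjoin L (divisorExpansionsC L (N' * q))) →+* LaurentSeries L :=
    ((lg_phi L : LaurentSeries L →ₐ[L] LaurentSeries L) : LaurentSeries L →+* LaurentSeries L).comp
      (((lg_F L (N' * q)).val : ↥(lg_F L (N' * q)) →+* LaurentSeries L).comp
        ((ssm_al_W L N' q hq hqN' : ↥(lg_F L (N' * q)) ≃ₐ[L] ↥(lg_F L (N' * q))) :
          ↥(lg_F L (N' * q)) →+* ↥(lg_F L (N' * q))))
  have key : ψ1 = ψ2 := by
    refine ssm_al_ringHom_ext (k := L) (divisorExpansionsC L (N' * q)) ψ1 ψ2 ?_ ?_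
    · intro c
      show ((ssm_al_WE L N' q hq hq2 hqN'
        (lg_phiE (L := L) (N := N' * q) (algebraMap L ↥(lg_F L (N' * q)) c)) :
        ↥(lg_E L (N' * q))) : LaurentSeries L) =
        lg_phi L ((ssm_al_W L N' q hq hqN' (algebraMap L ↥(lg_F L (N' * q)) c) :
          ↥(lg_F L (N' * q))) : LaurentSeries L)
      rw [AlgHom.commutes, AlgEquiv.commutes, AlgEquiv.commutes]
      show algebraMap L (LaurentSeries L) c = lg_phi L (algebraMap L (LaurentSeries L) c)
      rw [AlgHom.commutes]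
    · rintro y ⟨d, hd0, hd, rfl⟩
      haveI := hd0
      show ((ssm_al_WE L N' q hq hq2 hqN'
        (lg_phiE (L := L) (N := N' * q) ⟨qExpand L d (jqModC L), _⟩) :
        ↥(lg_E L (N' * q))) : LaurentSeries L) =
        lg_phi L ((ssm_al_W L N' q hq hqN' ⟨qExpand L d (jqModC L), _⟩ :
          ↥(lg_F L (N' * q))) : LaurentSeries L)
      by_cases hqd : q ∣ d
      · -- `d = d' q`
        obtain ⟨d', rfl⟩ := hqd
        have hd'0 : d' ≠ 0 := by
          rintro rfl
          exact (NeZero.ne (q * 0)) (by simp)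
        haveI : NeZero d' := ⟨hd'0⟩
        have hd' : d' ∣ N' := by
          have : q * d' ∣ q * N' := by rwa [mul_comm q N']
          exact Nat.dvd_of_mul_dvd_mul_left hq.pos this
        have hx' : qExpand L d' (jqModC L) ∈ lg_F L N' := jqModCd_mem_full L N' hd'
        have e1 : qExpand L (q * d') (jqModC L) = qExpand L q (qExpand L d' (jqModC L)) :=
          (qExpand_qExpand d' q (jqModC L)).symm
        have hmem1 : qExpand L q (qExpand L d' (jqModC L)) ∈ lg_F L (N' * q) := by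
          rw [← e1]; exact jqModCd_mem_full L (N' * q) hd
        have hW := ssm_al_coe_W_expand_of_mem L N' q hq hqN' hx' hmem1
        have e3 : lg_phi L (qExpand L (q * d') (jqModC L)) =
            qExpand L q (lg_phi L (qExpand L d' (jqModC L))) := by
          rw [lg_phi_apply, lg_phi_apply]
          simp only [qExpand_qExpand]
          exact qExpand_congr (R := L) (by ring) _
        have hmem2 : qExpand L q (lg_phi L (qExpand L d' (jqModC L))) ∈ lg_E L (N' * q) := by
          rw [← e3]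
          exact lg_phi_mem_E L (N' * q) (jqModCd_mem_full L (N' * q) hd)
        have hWE := ssm_al_coe_WE_expand_of_mem L N' q hq hq2 hqN'
          (lg_phi_mem_E L N' hx') hmem2
        have e2 : (⟨qExpand L (q * d') (jqModC L), jqModCd_mem_full L (N' * q) hd⟩ :
            ↥(lg_F L (N' * q))) = ⟨qExpand L q (qExpand L d' (jqModC L)), hmem1⟩ :=
          Subtype.ext e1
        have eL : lg_phiE (L := L) (N := N' * q)
            ⟨qExpand L (q * d') (jqModC L), jqModCd_mem_full L (N' * q) hd⟩ =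
            ⟨qExpand L q (lg_phi L (qExpand L d' (jqModC L))), hmem2⟩ :=
          Subtype.ext (by rw [lg_phiE_coe]; exact e3)
        rw [eL, hWE, e2, hW]
      · -- `d ∣ N'`
        have hd' : d ∣ N' := by
          have hcop : Nat.Coprime d q := (Nat.Coprime.symm ((Nat.Prime.coprime_iff_not_dvd hq).2 hqd))
          exact hcop.dvd_of_dvd_mul_right hd
        have hx' : qExpand L d (jqModC L) ∈ lg_F L N' := jqModCd_mem_full L N' hd'
        have hW := ssm_al_coe_W_of_mem L N' q hq hqN' hx' (jqModCd_mem_full L (N' * q) hd)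
        have hmem2 : lg_phi L (qExpand L d (jqModC L)) ∈ lg_E L (N' * q) :=
          lg_phi_mem_E L (N' * q) (jqModCd_mem_full L (N' * q) hd)
        have hWE := ssm_al_coe_WE_of_mem L N' q hq hq2 hqN' (lg_phi_mem_E L N' hx') hmem2
        have eL : lg_phiE (L := L) (N := N' * q)
            ⟨qExpand L d (jqModC L), jqModCd_mem_full L (N' * q) hd⟩ =
            ⟨lg_phi L (qExpand L d (jqModC L)), hmem2⟩ :=
          Subtype.ext (by rw [lg_phiE_coe])
        rw [eL, hWE, hW, lg_phi_apply, lg_phi_apply]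
        simp only [qExpand_qExpand]
        exact qExpand_congr (R := L) (by ring) _
  have := congrArg (fun ψ => ψ x) key
  exact this

end WPhi

section ChartMul

variable {O E : Type*} [CommRing O] [Field E] [Algebra O E]

/-- `t^D · g(c) ∈ O[λ]` for `D ≥ deg c`, if `t, t j₂ ∈ O[λ]`. -/
theorem s44ro_chart_mul_aux (lam j2 t : E)
    (ht : t ∈ Algebra.adjoin O ({lam} : Set E)) (htj : t * j2 ∈ Algebra.adjoin O ({lam} : Set E))
    (c : Polynomial O) (D : ℕ) (hD : c.natDegree ≤ D) :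
    t ^ D * eval₂ (algebraMap O E) j2 c ∈ Algebra.adjoin O ({lam} : Set E) := by
  rw [eval₂_eq_sum_range, Finset.mul_sum]
  refine Subalgebra.sum_mem _ fun k hk => ?_
  have hk' : k ≤ D := (Nat.lt_succ_iff.1 (Finset.mem_range.1 hk)).trans hD
  have e : t ^ D * (algebraMap O E (c.coeff k) * j2 ^ k) =
      algebraMap O E (c.coeff k) * (t ^ (D - k) * (t * j2) ^ k) := by
    have : t ^ D = t ^ (D - k) * t ^ k := by rw [← pow_add, Nat.sub_add_cancel hk']
    rw [this, mul_pow]
    ring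
  rw [e]
  exact Subalgebra.mul_mem _ (Subalgebra.algebraMap_mem _ _)
    (Subalgebra.mul_mem _ (Subalgebra.pow_mem _ ht _) (Subalgebra.pow_mem _ htj _))

/-- **chart change**: `y` integral over `O[j₂]`, `t, t j₂ ∈ O[λ]` ⟹ `t^D y` integral over `O[λ]`
for some `D`. -/
theorem s44ro_chart_mul (lam j2 t : E)
    (ht : t ∈ Algebra.adjoin O ({lam} : Set E)) (htj : t * j2 ∈ Algebra.adjoin O ({lam} : Set E))
    (y : E) (P : Polynomial (Polynomial O)) (hP : P.Monic)
    (hy : eval₂ (eval₂RingHom (algebraMap O E) j2) y P = 0) :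
    ∃ D : ℕ, IsIntegral (Algebra.adjoin O ({lam} : Set E)) (t ^ D * y) := by
  classical
  set g : Polynomial O →+* E := eval₂RingHom (algebraMap O E) j2 with hg
  set R := Algebra.adjoin O ({lam} : Set E) with hR
  set D : ℕ := (Finset.range (P.natDegree + 1)).sup (fun i => (P.coeff i).natDegree) with hD
  refine ⟨D, ?_⟩
  set T : E := t ^ D with hT
  have hTR : T ∈ R := Subalgebra.pow_mem _ ht _
  set Q : Polynomial E := P.map g with hQ
  have hQm : Q.Monic := hP.map g
  have hQd : Q.natDegree = P.natDegree := hP.natDegree_map g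
  have hQy : eval₂ (RingHom.id E) y Q = 0 := by
    rw [hQ, eval₂_map, RingHom.id_comp]
    exact hy
  have hroot : eval₂ (RingHom.id E) (T * y) (scaleRoots Q T) = 0 :=
    scaleRoots_eval₂_eq_zero (RingHom.id E) hQy
  have hmonic : (scaleRoots Q T).Monic := (monic_scaleRoots_iff T).2 hQm
  have hcoeff : ∀ i, (scaleRoots Q T).coeff i ∈ R := by
    intro i
    rw [coeff_scaleRoots, hQd]
    rcases lt_trichotomy i P.natDegree with hi | hi | hi
    · have h1 : Q.coeff i = g (P.coeff i) := by rw [hQ, coeff_map]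
      have h2 : T ^ (P.natDegree - i) = T * T ^ (P.natDegree - i - 1) := by
        rw [← pow_succ']
        congr 1
        omega
      rw [h1, h2, ← mul_assoc, mul_comm (g (P.coeff i)) T]
      refine Subalgebra.mul_mem _ ?_ (Subalgebra.pow_mem _ hTR _)
      have hle : (P.coeff i).natDegree ≤ D :=
        Finset.le_sup (f := fun i => (P.coeff i).natDegree)
          (Finset.mem_range.2 (Nat.lt_succ_of_lt hi))
      exact s44ro_chart_mul_aux lam j2 t ht htj (P.coeff i) D hle
    · have h1 : Q.coeff i = 1 := by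
        rw [hi, ← hQd]
        exact hQm.coeff_natDegree
      rw [h1, hi, Nat.sub_self, pow_zero, mul_one]
      exact Subalgebra.one_mem _
    · have h1 : Q.coeff i = 0 := coeff_eq_zero_of_natDegree_lt (by rw [hQd]; exact hi)
      rw [h1, zero_mul]
      exact Subalgebra.zero_mem _
  have hlift : scaleRoots Q T ∈ Polynomial.lifts (algebraMap ↥R E) := by
    rw [Polynomial.lifts_iff_coeff_lifts]
    intro n
    exact ⟨⟨_, hcoeff n⟩, rfl⟩
  obtain ⟨Q2, hQ2, -, hQ2m⟩ := Polynomial.lifts_and_degree_eq_and_monic hlift hmonic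
  refine ⟨Q2, hQ2m, ?_⟩
  rw [← eval_map, hQ2]
  rw [eval₂_id] at hroot
  exact hroot

end ChartMul

section Tower

variable (L : Type*) [Field L] [CharZero L] (N : ℕ) [NeZero N]

/-- `j` as an element of `F_N(L)`. -/
abbrev s44ro_jF : ↥(lg_F L N) := ⟨jqModC L, jqModC_mem_full L N⟩

theorem s44ro_phi_jF :
    ((lg_phiE (L := L) (N := N) (s44ro_jF L N) : ↥(lg_E L N)) : LaurentSeries L) = lg_j2 L := by
  rw [lg_phiE_coe]
  rfl

/-- the Legendre equation in `E`, in the variable `t = λ² - λ`. -/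
theorem s44ro_legendre_t :
    (256 : ↥(lg_E L N)) * ((lg_lamE N ^ 2 - lg_lamE N) + 1) ^ 3 =
      lg_phiE (L := L) (N := N) (s44ro_jF L N) * (lg_lamE N ^ 2 - lg_lamE N) ^ 2 := by
  apply Subtype.ext
  have h := lg_legendre L
  have e1 : (((256 : ↥(lg_E L N)) * ((lg_lamE N ^ 2 - lg_lamE N) + 1) ^ 3 : ↥(lg_E L N)) :
      LaurentSeries L) = 256 * (lg_lam L ^ 2 - lg_lam L + 1) ^ 3 := by
    push_cast
    rfl
  have e2 : ((lg_phiE (L := L) (N := N) (s44ro_jF L N) * (lg_lamE N ^ 2 - lg_lamE N) ^ 2 :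
      ↥(lg_E L N)) : LaurentSeries L) = lg_j2 L * (lg_lam L ^ 2 - lg_lam L) ^ 2 := by
    push_cast
    rw [s44ro_phi_jF]
    rfl
  rw [e1, e2, h]
  ring

end Tower

section TowerDescent

variable (L : Type*) [Field L] [CharZero L] (N : ℕ) [NeZero N]

set_option maxHeartbeats 1600000 in
set_option synthInstance.maxHeartbeats 200000 in
/-- **the tower** `φ(F) ⊆ φ(F)(t) ⊆ E`, `t = λ² - λ`, of degrees `≤ 3` and `≤ 2`. -/
theorem s44ro_tower_fields :
    letI : Algebra ↥(lg_F L N) ↥(lg_E L N) :=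
      ((lg_phiE (L := L) (N := N) : ↥(lg_F L N) →ₐ[L] ↥(lg_E L N)) :
        ↥(lg_F L N) →+* ↥(lg_E L N)).toAlgebra
    ∃ Kt : IntermediateField ↥(lg_F L N) ↥(lg_E L N),
      FiniteDimensional ↥(lg_F L N) ↥Kt ∧ Module.finrank ↥(lg_F L N) ↥Kt ≤ 3 ∧
      FiniteDimensional ↥Kt ↥(lg_E L N) ∧ Module.finrank ↥Kt ↥(lg_E L N) ≤ 2 := by
  letI : Algebra ↥(lg_F L N) ↥(lg_E L N) :=
    ((lg_phiE (L := L) (N := N) : ↥(lg_F L N) →ₐ[L] ↥(lg_E L N)) :
      ↥(lg_F L N) →+* ↥(lg_E L N)).toAlgebra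
  have halg : ∀ z : ↥(lg_F L N), algebraMap ↥(lg_F L N) ↥(lg_E L N) z =
      lg_phiE (L := L) (N := N) z := fun _ => rfl
  set lam : ↥(lg_E L N) := lg_lamE N with hlam
  set t : ↥(lg_E L N) := lam ^ 2 - lam with ht
  -- the cubic for `t` over `F`
  set P3 : Polynomial ↥(lg_F L N) := C (256 : ↥(lg_F L N)) * (X + 1) ^ 3 - C (s44ro_jF L N) * X ^ 2
    with hP3
  have hP3root : aeval t P3 = 0 := by
    rw [hP3]
    simp only [map_sub, map_mul, map_pow, map_add, aeval_C, aeval_X, map_one, halg]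
    have e := s44ro_legendre_t L N
    have h256 : lg_phiE (L := L) (N := N) (256 : ↥(lg_F L N)) = 256 := map_ofNat _ 256
    rw [h256, e, sub_self]
  have hP3c : P3.coeff 3 = 256 := by
    rw [hP3]
    simp only [coeff_sub, coeff_C_mul, coeff_X_pow]
    have : ((X + 1 : Polynomial ↥(lg_F L N)) ^ 3).coeff 3 = 1 := by
      have hm : ((X + 1 : Polynomial ↥(lg_F L N)) ^ 3).Monic := (monic_X_add_C 1).pow 3
      have hd : ((X + 1 : Polynomial ↥(lg_F L N)) ^ 3).natDegree = 3 := by
        rw [natDegree_pow, show (X + 1 : Polynomial ↥(lg_F L N)) = X + C 1 by simp,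
          natDegree_X_add_C]
      have := hm.coeff_natDegree
      rwa [hd] at this
    rw [this]
    norm_num
  have hP3ne : P3 ≠ 0 := by
    intro h0
    rw [h0, coeff_zero] at hP3c
    exact (by norm_num : (256 : ↥(lg_F L N)) ≠ 0) hP3c.symm
  have hP3deg : P3.natDegree ≤ 3 := by
    rw [hP3]
    refine (natDegree_sub_le _ _).trans (max_le ?_ ?_)
    · refine (natDegree_C_mul_le _ _).trans ?_
      refine (natDegree_pow_le).trans ?_
      have : (X + 1 : Polynomial ↥(lg_F L N)).natDegree ≤ 1 := by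
        rw [show (X + 1 : Polynomial ↥(lg_F L N)) = X + C 1 by simp]
        exact (natDegree_X_add_C _).le
      omega
    · refine (natDegree_C_mul_le _ _).trans ?_
      rw [natDegree_X_pow]
      omega
  have htint : IsIntegral ↥(lg_F L N) t := IsAlgebraic.isIntegral ⟨P3, hP3ne, hP3root⟩
  have htdeg : (minpoly ↥(lg_F L N) t).natDegree ≤ 3 :=
    (natDegree_le_natDegree (minpoly.degree_le_of_ne_zero _ _ hP3ne hP3root)).trans hP3deg
  -- the intermediate field `F(t)`
  set Kt : IntermediateField ↥(lg_F L N) ↥(lg_E L N) := (↥(lg_F L N))⟮t⟯ with hKt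
  haveI hfd1 : FiniteDimensional ↥(lg_F L N) ↥Kt := IntermediateField.adjoin.finiteDimensional htint
  have hfr1 : Module.finrank ↥(lg_F L N) ↥Kt ≤ 3 := by
    rw [IntermediateField.adjoin.finrank htint]
    exact htdeg
  -- the quadratic for `λ` over `F(t)`
  set tK : ↥Kt := ⟨t, IntermediateField.mem_adjoin_simple_self _ t⟩ with htK
  set P2 : Polynomial ↥Kt := X ^ 2 - X - C tK with hP2
  have hP2root : aeval lam P2 = 0 := by
    rw [hP2]
    simp only [map_sub, map_pow, aeval_X, aeval_C]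
    show lam ^ 2 - lam - t = 0
    rw [ht]; ring
  have hP2m : P2.Monic := by
    rw [hP2, sub_sub]
    refine monic_X_pow_sub ?_
    refine lt_of_le_of_lt (degree_add_le _ _) ?_
    refine max_lt ?_ ?_
    · rw [degree_X]; norm_num
    · exact lt_of_le_of_lt degree_C_le (by norm_num)
  have hP2deg : P2.natDegree ≤ 2 := by
    rw [hP2]
    refine (natDegree_sub_le _ _).trans (max_le ?_ ?_)
    · refine (natDegree_sub_le _ _).trans (max_le ?_ ?_)
      · rw [natDegree_X_pow]
      · rw [natDegree_X]; omega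
    · rw [natDegree_C]; omega
  have hlamint : IsIntegral ↥Kt lam := ⟨P2, hP2m, hP2root⟩
  have hlamdeg : (minpoly ↥Kt lam).natDegree ≤ 2 :=
    (natDegree_le_natDegree (minpoly.degree_le_of_ne_zero _ _ hP2m.ne_zero hP2root)).trans hP2deg
  -- `F(t)(λ) = E`
  have htop : (↥Kt)⟮lam⟯ = (⊤ : IntermediateField ↥Kt ↥(lg_E L N)) := by
    rw [eq_top_iff]
    intro z _
    set S : Subfield ↥(lg_E L N) := ((↥Kt)⟮lam⟯).toSubfield with hS
    have hFS : ∀ w : ↥(lg_F L N), lg_phiE (L := L) (N := N) w ∈ S := by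
      intro w
      have : lg_phiE (L := L) (N := N) w =
          algebraMap ↥Kt ↥(lg_E L N) (algebraMap ↥(lg_F L N) ↥Kt w) := rfl
      rw [this]
      exact ((↥Kt)⟮lam⟯).algebraMap_mem _
    have hle : (lg_E L N).toSubfield ≤ S.map ((lg_E L N).val : ↥(lg_E L N) →+* LaurentSeries L) := by
      have e0 : (lg_E L N).toSubfield = (lg_F2 L N ⊔ lg_K L).toSubfield := rfl
      rw [e0, IntermediateField.sup_toSubfield, sup_le_iff]
      constructor
      · rintro w ⟨x0, hx0, rfl⟩
        exact ⟨lg_phiE (L := L) (N := N) ⟨x0, hx0⟩, hFS _, rfl⟩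
      · rw [lg_K, IntermediateField.adjoin_toSubfield, Subfield.closure_le]
        rintro w (⟨c, rfl⟩ | hw)
        · refine ⟨lg_phiE (L := L) (N := N) (algebraMap L ↥(lg_F L N) c), hFS _, ?_⟩
          rw [AlgHom.commutes]
          rfl
        · rw [Set.mem_singleton_iff] at hw
          subst hw
          exact ⟨lam, IntermediateField.mem_adjoin_simple_self _ lam, rfl⟩
    obtain ⟨z', hz', hzz'⟩ := hle z.2
    have : z' = z := Subtype.ext hzz'
    rw [← this]
    exact hz'
  haveI hfd2a : FiniteDimensional ↥Kt ↥((↥Kt)⟮lam⟯) :=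
    IntermediateField.adjoin.finiteDimensional hlamint
  haveI hfd2 : FiniteDimensional ↥Kt ↥(lg_E L N) := by
    rw [htop] at hfd2a
    exact LinearEquiv.finiteDimensional
      (IntermediateField.topEquiv (F := ↥Kt) (E := ↥(lg_E L N))).toLinearEquiv
  have hfr2 : Module.finrank ↥Kt ↥(lg_E L N) ≤ 2 := by
    have h1 := IntermediateField.adjoin.finrank hlamint
    rw [htop, IntermediateField.finrank_top'] at h1
    rw [h1]
    exact hlamdeg
  exact ⟨Kt, hfd1, hfr1, hfd2, hfr2⟩

set_option maxHeartbeats 1600000 in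
set_option synthInstance.maxHeartbeats 200000 in
/-- `E` is algebraic over `φ(F)`. -/
theorem s44ro_algebraic (z : ↥(lg_E L N)) :
    ∃ P : Polynomial ↥(lg_F L N), P ≠ 0 ∧
      eval₂ ((lg_phiE (L := L) (N := N) : ↥(lg_F L N) →ₐ[L] ↥(lg_E L N)) :
        ↥(lg_F L N) →+* ↥(lg_E L N)) z P = 0 := by
  letI : Algebra ↥(lg_F L N) ↥(lg_E L N) :=
    ((lg_phiE (L := L) (N := N) : ↥(lg_F L N) →ₐ[L] ↥(lg_E L N)) :
      ↥(lg_F L N) →+* ↥(lg_E L N)).toAlgebra
  obtain ⟨Kt, hfd1, -, hfd2, -⟩ := s44ro_tower_fields L N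
  haveI := hfd1
  haveI := hfd2
  haveI : FiniteDimensional ↥(lg_F L N) ↥(lg_E L N) :=
    FiniteDimensional.trans ↥(lg_F L N) ↥Kt ↥(lg_E L N)
  obtain ⟨P, hP0, hP⟩ := Algebra.IsAlgebraic.isAlgebraic (R := ↥(lg_F L N)) z
  exact ⟨P, hP0, hP⟩

set_option maxHeartbeats 1600000 in
set_option synthInstance.maxHeartbeats 200000 in
/-- **value-group descent along the Legendre cover** `φ(F) ⊆ φ(F)(t) ⊆ E`, `t = λ² - λ`. -/
theorem s44ro_tower (R' : ValuationSubring ↥(lg_E L N)) {p : ℕ} (hp : p.Prime) (hp5 : 5 ≤ p)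
    {x : ↥(lg_F L N)} (hx : x ≠ 0) {y' u' : ↥(lg_E L N)} (hu : u' ∈ R' ∧ u' ∉ R'.nonunits)
    (h : lg_phiE (L := L) (N := N) x = u' * y' ^ p) :
    ∃ y : ↥(lg_F L N), y ≠ 0 ∧
      (lg_phiE (L := L) (N := N) x / lg_phiE (L := L) (N := N) y ^ p ∈ R' ∧
        lg_phiE (L := L) (N := N) x / lg_phiE (L := L) (N := N) y ^ p ∉ R'.nonunits) := by
  letI : Algebra ↥(lg_F L N) ↥(lg_E L N) :=
    ((lg_phiE (L := L) (N := N) : ↥(lg_F L N) →ₐ[L] ↥(lg_E L N)) :
      ↥(lg_F L N) →+* ↥(lg_E L N)).toAlgebra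
  obtain ⟨Kt, hfd1, hfr1, hfd2, hfr2⟩ := s44ro_tower_fields L N
  haveI := hfd1
  haveI := hfd2
  -- step 1: descend to `F(t)`
  have hxK : algebraMap ↥(lg_F L N) ↥Kt x ≠ 0 := by
    rwa [Ne, map_eq_zero]
  obtain ⟨y1, hy10, hy1, hy1'⟩ := s44rv_descend (K := ↥Kt) (K' := ↥(lg_E L N)) R' hp
    (lt_of_le_of_lt hfr2 (by omega)) hxK hu (show algebraMap ↥Kt ↥(lg_E L N)
      (algebraMap ↥(lg_F L N) ↥Kt x) = u' * y' ^ p from h)
  -- step 2: descend to `F`
  set R1 : ValuationSubring ↥Kt := R'.comap (algebraMap ↥Kt ↥(lg_E L N)) with hR1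
  set u1 : ↥Kt := algebraMap ↥(lg_F L N) ↥Kt x / y1 ^ p with hu1
  have hu1R : u1 ∈ R1 ∧ u1 ∉ R1.nonunits := by
    have e : algebraMap ↥Kt ↥(lg_E L N) u1 =
        algebraMap ↥Kt ↥(lg_E L N) (algebraMap ↥(lg_F L N) ↥Kt x) /
          algebraMap ↥Kt ↥(lg_E L N) y1 ^ p := by
      rw [hu1, map_div₀, map_pow]
    refine ⟨?_, ?_⟩
    · show algebraMap ↥Kt ↥(lg_E L N) u1 ∈ R'
      rw [e]; exact hy1
    · intro hnu
      apply hy1'
      rw [← e]
      rw [ValuationSubring.mem_nonunits_iff_or] at hnu ⊢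
      rcases hnu with h0 | h0
      · left; rw [h0, map_zero]
      · right
        intro h1
        apply h0
        show algebraMap ↥Kt ↥(lg_E L N) u1⁻¹ ∈ R'
        rw [map_inv₀]; exact h1
  have hx1 : algebraMap ↥(lg_F L N) ↥Kt x = u1 * y1 ^ p := by
    rw [hu1, div_mul_cancel₀ _ (pow_ne_zero _ hy10)]
  obtain ⟨y, hy0, hy, hy'⟩ := s44rv_descend (K := ↥(lg_F L N)) (K' := ↥Kt) R1 hp
    (lt_of_le_of_lt hfr1 (by omega)) hx hu1R hx1
  refine ⟨y, hy0, ?_, ?_⟩
  · have : algebraMap ↥Kt ↥(lg_E L N)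
        (algebraMap ↥(lg_F L N) ↥Kt x / algebraMap ↥(lg_F L N) ↥Kt y ^ p) ∈ R' := hy
    rw [map_div₀, map_pow] at this
    exact this
  · intro hnu
    apply hy'
    rw [ValuationSubring.mem_nonunits_iff_or] at hnu ⊢
    rcases hnu with h0 | h0
    · left
      have : algebraMap ↥Kt ↥(lg_E L N)
          (algebraMap ↥(lg_F L N) ↥Kt x / algebraMap ↥(lg_F L N) ↥Kt y ^ p) = 0 := by
        rw [map_div₀, map_pow]; exact h0
      exact (map_eq_zero _).1 this
    · right
      intro h1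
      apply h0
      have : algebraMap ↥Kt ↥(lg_E L N)
          (algebraMap ↥(lg_F L N) ↥Kt x / algebraMap ↥(lg_F L N) ↥Kt y ^ p)⁻¹ ∈ R' := h1
      rw [map_inv₀, map_div₀, map_pow] at this
      exact this

end TowerDescent

end Fermat.Agent.S44
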