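import Fermat.Agent.S44.Frame2
import Fermat.Agent.JT3.Inst.Key0
import Fermat.Agent.S24.Bridge.Degree
import Fermat.Agent.JT3.S18.ConstRed

/-!
# S44 cell [E2] RES (helper20): THE DEFINITIONS — residues `ν`, supersingular places `Sg`, weights `k`

`A` a valuation subring of `ℚ̄` over `p`, `kA` its residue field, `N = M p`, `p ∤ M`.
`F̄_N = modularFunctionFieldBar N ⊆ ℚ̄((q))`, `FF_M = lg_F kA M = modularFunctionFieldFullC kA M ⊆ kA((q))`
(the Prelude's special fibre function field of level `M`; it is the residue field of the Gauss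
valuation `w_∞` of `F̄_N` over `A`).  Everything is stated through `gq_IsBdd ↥A ℚ̄` / `gq_res ↥A ℚ̄`
(JT3/Bridge/GaussVal), i.e. `s44f_Int2`.

* `s44e_RedOf A M f fb`   : `fb ∈ FF_M` is the `w_∞`-reduction of the Gauss-integral `f ∈ F̄_N`;
* `s44e_Fbar A M p z fb`  : `fb ≠ 0` is the reduction of a (Gauss-unit) representative of `z`;
* `s44e_fbar A M p z`     : a chosen such `fb` (`1` if there is none);
* `s44e_nuAll A M p z Q`  : `Q.ord (f̄_z) mod p`, for EVERY place `Q` of `FF_M / kA`;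
* `s44e_IsChartInt A N b` : `b ∈ F̄_N` is integral over `A[j]` (the normal `j`-chart of `X₀(N)` over `A`);
* `s44e_IsSS A M p hp hpM Q` : `Q` is SUPERSINGULAR: `j̄ = jcr_j M` is finite at `Q` and every `b` in the
  `j`-chart vanishing on the `0`-component (`W̄ b ∈ 𝔪(w_∞)`) vanishes at `Q` (`red_∞ b ∈ 𝔪_Q`):
  the centre of `Q` on the normal model lies on both components;
* `s44e_Sg`, `s44e_nu`    : the index type and the residue map of [BIG-ASM];
* `s44e_ram A M Q`, `s44e_k` : the weight `k_Q` = (minimal) ramification index of `Q` in the Legendre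
  cover `lg_E kA M / φ(FF_M)`, `φ = lg_phiE kA M` (`q ↦ q²`).

Prefix `s44e_`, namespace `Fermat.Agent.S44`.
-/

set_option autoImplicit false

noncomputable section

namespace Fermat.Agent.S44

open ModularCurve AlgebraicCurve IsLocalRing Fermat.Agent.JT3 Fermat.Agent.S35 Fermat.Agent.SS
  Fermat.Agent.S24

section Defs

variable (A : ValuationSubring s44_Qb) (M : ℕ) [NeZero M]

/-- the residue field of `A`. -/
abbrev s44e_kA : Type := ResidueField ↥A

/-- the special fibre function field of level `M` over `kA` (Prelude). -/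
abbrev s44e_FF : IntermediateField (s44e_kA A) (LaurentSeries (s44e_kA A)) :=
  lg_F (s44e_kA A) M

/-- `fb` is the `w_∞`-reduction of `f`. -/
def s44e_RedOf {N : ℕ} (f : modularFunctionFieldBar N) (fb : s44e_FF A M) : Prop :=
  ∃ h : gq_IsBdd ↥A s44_Qb (f : LaurentSeries s44_Qb),
    gq_res ↥A s44_Qb ⟨(f : LaurentSeries s44_Qb), h⟩ = (fb : LaurentSeries (s44e_kA A))

/-- `fb ≠ 0` is the reduction of a representative of `z`. -/
def s44e_Fbar (p : ℕ) [NeZero (M * p)] (z : JZero (M * p)) (fb : s44e_FF A M) : Prop :=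
  fb ≠ 0 ∧ ∃ f : modularFunctionFieldBar (M * p), s44f_Rep (M * p) p z f ∧ s44e_RedOf A M f fb

open Classical in
/-- a chosen reduction `f̄_z` of a representative of `z`. -/
def s44e_fbar (p : ℕ) [NeZero (M * p)] (z : JZero (M * p)) : s44e_FF A M :=
  if h : ∃ fb, s44e_Fbar A M p z fb then h.choose else 1

/-- the residue of `z` at ANY place `Q` of `FF_M / kA`: `ord_Q f̄_z mod p`. -/
def s44e_nuAll (p : ℕ) [NeZero (M * p)] (z : JZero (M * p))
    (Q : Place (s44e_kA A) (s44e_FF A M)) : ZMod p :=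
  ((Q.ord (s44e_fbar A M p z) : ℤ) : ZMod p)

/-- `b` is integral over `A[j]`. -/
def s44e_IsChartInt (N : ℕ) [NeZero N] (b : modularFunctionFieldBar N) : Prop :=
  ∃ P : Polynomial (Polynomial ↥A), P.Monic ∧
    Polynomial.eval₂ (Polynomial.eval₂RingHom
      ((algebraMap s44_Qb (modularFunctionFieldBar N)).comp A.subtype) (br_jBar N)) b P = 0

/-- **supersingular places** of `FF_M / kA`. -/
def s44e_IsSS (p : ℕ) [NeZero p] (hp : p.Prime) [NeZero (M * p)] (hpM : ¬ p ∣ M)
    (Q : Place (s44e_kA A) (s44e_FF A M)) : Prop :=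
  jcr_j (k := s44e_kA A) M ∈ Q.toValuationSubring ∧
  ∀ b : modularFunctionFieldBar (M * p), s44e_IsChartInt A (M * p) b →
    (∃ h : gq_IsBdd ↥A s44_Qb ((ssm_al_Wbar M p hp hpM b : modularFunctionFieldBar (M * p)) :
        LaurentSeries s44_Qb), gq_res ↥A s44_Qb ⟨_, h⟩ = 0) →
    ∀ fb : s44e_FF A M, s44e_RedOf A M b fb → fb ∈ Q.toValuationSubring.nonunits

/-- the index type of [BIG-ASM]: the supersingular places. -/
def s44e_Sg (p : ℕ) [NeZero p] (hp : p.Prime) [NeZero (M * p)] (hpM : ¬ p ∣ M) : Type :=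
  {Q : Place (s44e_kA A) (s44e_FF A M) // s44e_IsSS A M p hp hpM Q}

/-- the residue map of [BIG-ASM]. -/
def s44e_nu (p : ℕ) [NeZero p] (hp : p.Prime) [NeZero (M * p)] (hpM : ¬ p ∣ M) (z : JZero (M * p))
    (i : s44e_Sg A M p hp hpM) : ZMod p :=
  s44e_nuAll A M p z i.1

/-- the (minimal) ramification index of `Q` in the Legendre cover `lg_E kA M / φ(FF_M)`. -/
def s44e_ram (Q : Place (s44e_kA A) (s44e_FF A M)) : ℕ :=
  sInf {e : ℕ | 0 < e ∧ ∃ Q2 : Place (s44e_kA A) (lg_E (s44e_kA A) M),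
    ∀ g : s44e_FF A M, Q2.ord (lg_phiE (L := s44e_kA A) (N := M) g) = (e : ℤ) * Q.ord g}

/-- the weights of [BIG-ASM]. -/
def s44e_k (p : ℕ) [NeZero p] (hp : p.Prime) [NeZero (M * p)] (hpM : ¬ p ∣ M)
    (i : s44e_Sg A M p hp hpM) : ZMod p :=
  (s44e_ram A M i.1 : ZMod p)

end Defs

end Fermat.Agent.S44
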