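/-
S44, [RES-DICT] (helper28; prefix `s44rd_`): the residue field of the Gauss valuation `w_∞` of the
level-`M q` function field is the level-`M` function field over the residue field — number-field
level, ONE-SIDED form (only `a` has to be Gauss-bounded, not `W a`).
-/
import Mathlib
import Fermat.Agent.S35.RedN.InstFull

set_option autoImplicit false
set_option linter.unusedSectionVars false
set_option linter.unusedVariables false
set_option linter.style.haveILetI false

noncomputable section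

namespace Fermat.Agent.S44

open ModularCurve IntermediateField IsLocalRing
open Fermat.Agent.JT3 Fermat.Agent.SS Fermat.Agent.S35

section Tower

variable {L : Type*} [Field L] [CharZero L] [Algebra L (AlgebraicClosure ℚ)]
  (O : ValuationSubring L) [IsDiscreteValuationRing O] {π : O} (hπ : Irreducible π)
variable (M q : ℕ) [NeZero M] [NeZero q] [hq : Fact q.Prime] [CharP (ResidueField O) q]
  (hqM : ¬ q ∣ M)

include hπ hqM in
/-- **the residue field of `w_∞` at level `M q` is `F_M(k)`** (one-sided form). -/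
theorem s44rd_res_mem_nf (a : ↥(lg_F L (M * q))) (h1 : gq_IsBdd O L (a : LaurentSeries L)) :
    gq_res O L ⟨(a : LaurentSeries L), h1⟩ ∈ modularFunctionFieldFullC (ResidueField O) M := by
  letI := ssm_gi_algebra (ssm_al_F_le L M q)
  letI := ssm_gi_algebraV (ssm_al_F_le L M q)
    (gq_valSubOf π hπ.ne_zero hπ.maximalIdeal_eq (lg_F L M)
      ((ssm_al_F_le L M q).trans (rdn_gf_le_quotField O (M * q))))
  haveI := ssm_gi_isScalarTower (ssm_al_F_le L M q)
    (gq_valSubOf π hπ.ne_zero hπ.maximalIdeal_eq (lg_F L M)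
      ((ssm_al_F_le L M q).trans (rdn_gf_le_quotField O (M * q))))
  have D := rdn_gf_data O hπ M q hqM
  haveI : FiniteDimensional ↥(lg_F L M) ↥(lg_F L (M * q)) :=
    ssm_gi_finiteDimensional D.finrank_eq
  haveI : Algebra.IsSeparable ↥(lg_F L M) ↥(lg_F L (M * q)) := ssm_gi_isSeparable
  have ha1 : a ∈ gq_valSubOf π hπ.ne_zero hπ.maximalIdeal_eq (lg_F L (M * q))
      (rdn_gf_le_quotField O (M * q)) := h1
  obtain ⟨x, t, ht, hxt⟩ := (ssm_tw_bridge D.over1 a).1 ha1
  obtain ⟨hx1, hx2⟩ := (ssm_tw_integral D (x : ↥(lg_F L (M * q)))).1 x.2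
  obtain ⟨ht1, ht2⟩ := (ssm_tw_integral D (t : ↥(lg_F L (M * q)))).1 t.2
  have hx1' : gq_IsBdd O L (((x : ↥(lg_F L (M * q))) : LaurentSeries L)) := hx1
  have hx2' : gq_IsBdd O L ((rdn_gf_W L M q hqM (x : ↥(lg_F L (M * q))) : ↥(lg_F L (M * q))) :
      LaurentSeries L) := hx2
  have ht1' : gq_IsBdd O L (((t : ↥(lg_F L (M * q))) : LaurentSeries L)) := ht1
  have ht2' : gq_IsBdd O L ((rdn_gf_W L M q hqM (t : ↥(lg_F L (M * q))) : ↥(lg_F L (M * q))) :
      LaurentSeries L) := ht2
  have rx := (rdn_gf_res_mem O hπ M q hqM (x : ↥(lg_F L (M * q))) hx1' hx2').1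
  have rt := (rdn_gf_res_mem O hπ M q hqM (t : ↥(lg_F L (M * q))) ht1' ht2').1
  have hrt0 : gq_res O L ⟨((t : ↥(lg_F L (M * q))) : LaurentSeries L), ht1'⟩ ≠ 0 := by
    intro h0
    have h2 := (gq_mem_nonunits_iff_res π hπ.ne_zero hπ.maximalIdeal_eq (lg_F L (M * q))
      (rdn_gf_le_quotField O (M * q)) (t : ↥(lg_F L (M * q))) ht1').2 h0
    exact ht ((ssm_tw_mem_centre D.over1 t).2 h2)
  have hb : gq_IsBdd O L ((a : LaurentSeries L) * ((t : ↥(lg_F L (M * q))) : LaurentSeries L)) :=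
    (gq_bddSubring O L).mul_mem h1 ht1'
  have hm := rdn_res_mul h1 ht1' hb
  have hc : gq_res O L ⟨(a : LaurentSeries L) * ((t : ↥(lg_F L (M * q))) : LaurentSeries L), hb⟩ =
      gq_res O L ⟨((x : ↥(lg_F L (M * q))) : LaurentSeries L), hx1'⟩ :=
    rdn_res_congr _ _ (by rw [← hxt]; rfl)
  rw [hc] at hm
  have he : gq_res O L ⟨(a : LaurentSeries L), h1⟩ =
      gq_res O L ⟨((x : ↥(lg_F L (M * q))) : LaurentSeries L), hx1'⟩ /
        gq_res O L ⟨((t : ↥(lg_F L (M * q))) : LaurentSeries L), ht1'⟩ := by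
    rw [hm, mul_div_assoc, div_self hrt0, mul_one]
  rw [he]
  exact div_mem rx rt

end Tower

end Fermat.Agent.S44
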