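/-
S44, [RES-DICT] (helper28; prefix `s44rd_`): THE `ℚ̄`-LEVEL RESIDUE DICTIONARY AT `w_∞`.

`A` a valuation subring of `ℚ̄` over `p`, `p ∤ M`, `N = M p`, `kA` the residue field of `A` (the same
residue field as in the Prelude's `reductionModL A M`, `JZeroC kA M`), `W∞ = s44pg_W A … N` the
Gauss valuation ring of `F̄_N` over `A` (helper22; membership = `gq_IsBdd ↥A ℚ̄ ↑b` = `s44f_Int2`).

* `s44rd_res_mem`         : the residue (`gq_res`, reduction of `q`-expansions) of a Gauss-bounded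
                            element of `F̄_{M p}` lies in `F_M(kA) = modularFunctionFieldFullC kA M`;
* `s44rd_red`             : the residue homomorphism `W∞ →+* F_M(kA)`;
* `s44rd_red_eq_zero_iff` : its kernel is the maximal ideal;
* `s44rd_red_surjective`  : it is onto: THE RESIDUE FIELD OF `w_∞` AT LEVEL `M p` IS `F_M(kA)`.
-/
import Mathlib
import Fermat.Agent.S44.Res.DictNF
import Fermat.Agent.S44.PsiEig.Gauss
import Fermat.Agent.SS.CoreNFLeg
import Fermat.Agent.JT3.Inst.Final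

set_option autoImplicit false
set_option linter.unusedSectionVars false
set_option linter.unusedVariables false
set_option linter.style.haveILetI false

noncomputable section

namespace Fermat.Agent.S44

open ModularCurve IntermediateField IsLocalRing
open Fermat.Agent.JT3 Fermat.Agent.SS Fermat.Agent.S35 Fermat.Agent.S24 Fermat.Agent.S28

local notation "Qb" => AlgebraicClosure ℚ

section Mem

variable (A : ValuationSubring Qb) {p : ℕ} [hp : Fact p.Prime] (hA : A.LiesOverPrime p)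
  (M : ℕ) [NeZero M] [NeZero p] (hpM : ¬ p ∣ M)

include hA hpM in
/-- **(D1)** the residue of a Gauss-bounded element of `F̄_{M p}` lies in `F_M(kA)`. -/
theorem s44rd_res_mem {b : LaurentSeries Qb} (hb : b ∈ modularFunctionFieldBar (M * p))
    (h : gq_IsBdd ↥A Qb b) :
    gq_res ↥A Qb ⟨b, h⟩ ∈ modularFunctionFieldFullC (ResidueField ↥A) M := by
  obtain ⟨L1, hfin, b1, -, hb1, rfl⟩ := s44pg_descent (M * p) hb ∅
  haveI : NumberField L1 := { to_charZero := inferInstance, to_finiteDimensional := hfin }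
  haveI : IsDiscreteValuationRing ↥(A.comap (algebraMap L1 Qb)) :=
    dsc_isDVR_comap_numberField A p hA hp.out.ne_zero L1
  haveI : CharP (ResidueField ↥(A.comap (algebraMap L1 Qb))) p :=
    ss_nfl_charP_residue (lg_natCast_mem_maximalIdeal A hA L1)
  obtain ⟨π0, hirr⟩ := IsDiscreteValuationRing.exists_irreducible
    ↥(A.comap (algebraMap L1 Qb))
  have hq : gq_IsQuot ↥(A.comap (algebraMap L1 Qb)) L1 b1 :=
    rdn_gf_le_quotField (A.comap (algebraMap L1 Qb)) (M * p) hb1
  have h1 : gq_IsBdd ↥(A.comap (algebraMap L1 Qb)) L1 b1 :=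
    (ssm_gb_isBdd_iff (algebraMap L1 Qb) (A.comap (algebraMap L1 Qb)) A (fun _ => Iff.rfl)
      π0 hirr.ne_zero hirr.maximalIdeal_eq hq).1 h
  have h2 := s44rd_res_mem_nf (A.comap (algebraMap L1 Qb)) hirr M p hpM ⟨b1, hb1⟩ h1
  have h3 := ssm_gb_res (algebraMap L1 Qb) (A.comap (algebraMap L1 Qb)) A (fun _ => Iff.rfl)
    ⟨b1, h1⟩
  have h4 : gq_res ↥A Qb ⟨coeffMap (algebraMap L1 Qb) b1, h⟩ =
      coeffMap (ssm_gb_kappa (algebraMap L1 Qb) (A.comap (algebraMap L1 Qb)) A
        (fun _ => Iff.rfl)) (gq_res ↥(A.comap (algebraMap L1 Qb)) L1 ⟨b1, h1⟩) := h3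
  rw [h4]
  exact ssm_al_coeffMap_mem _ M h2

end Mem

/-! ### the residue homomorphism -/

section Red

variable (A : ValuationSubring Qb) {p : ℕ} [hp : Fact p.Prime] (hA : A.LiesOverPrime p)
  (M : ℕ) [NeZero M] [NeZero p] (hpM : ¬ p ∣ M)

/-- **(D2)** the residue homomorphism `W∞ →+* F_M(kA)` at level `M p`. -/
def s44rd_red :
    ↥(s44pg_W A hA hp.out.ne_zero (M * p)) →+* ↥(modularFunctionFieldFullC (ResidueField ↥A) M) where
  toFun b := ⟨gq_res ↥A Qb ⟨((b : Fbar (M * p)) : LaurentSeries Qb), b.2⟩,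
    s44rd_res_mem A hA M hpM (b : Fbar (M * p)).2 b.2⟩
  map_one' := Subtype.ext (map_one (gq_res ↥A Qb))
  map_mul' a b := Subtype.ext (by
    show gq_res ↥A Qb _ = gq_res ↥A Qb _ * gq_res ↥A Qb _
    rw [← map_mul]
    rfl)
  map_zero' := Subtype.ext (map_zero (gq_res ↥A Qb))
  map_add' a b := Subtype.ext (by
    show gq_res ↥A Qb _ = gq_res ↥A Qb _ + gq_res ↥A Qb _
    rw [← map_add]
    rfl)

theorem s44rd_coe_red (b : ↥(s44pg_W A hA hp.out.ne_zero (M * p))) :
    ((s44rd_red A hA M hpM b : ↥(modularFunctionFieldFullC (ResidueField ↥A) M)) :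
      LaurentSeries (ResidueField ↥A)) =
      gq_res ↥A Qb ⟨((b : Fbar (M * p)) : LaurentSeries Qb), b.2⟩ := rfl

/-- the kernel of the residue homomorphism is the maximal ideal of `W∞`. -/
theorem s44rd_red_eq_zero_iff (b : ↥(s44pg_W A hA hp.out.ne_zero (M * p))) :
    s44rd_red A hA M hpM b = 0 ↔
      (b : Fbar (M * p)) ∈ (s44pg_W A hA hp.out.ne_zero (M * p)).nonunits := by
  have hcoe : s44rd_red A hA M hpM b = 0 ↔
      gq_res ↥A Qb ⟨((b : Fbar (M * p)) : LaurentSeries Qb), b.2⟩ = 0 := by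
    constructor
    · intro h
      have := congrArg Subtype.val h
      exact this
    · intro h
      exact Subtype.ext h
  rw [hcoe, ValuationSubring.mem_nonunits_iff_or]
  constructor
  · intro h0
    by_contra hcon
    rw [not_or, not_not] at hcon
    obtain ⟨hb0, hbinv⟩ := hcon
    have h1 : gq_IsBdd ↥A Qb (((b : Fbar (M * p)) : LaurentSeries Qb))⁻¹ := by
      have := (s44pg_mem_iff A hA hp.out.ne_zero (M * p) _).1 hbinv
      rwa [IntermediateField.coe_inv] at this
    have hb0' : ((⟨((b : Fbar (M * p)) : LaurentSeries Qb), b.2⟩ :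
        ↥(gq_bddSubring ↥A Qb)) : LaurentSeries Qb) ≠ 0 := by
      intro h2
      apply hb0
      apply Subtype.ext
      exact h2
    exact gq_res_ne_zero_of_inv ⟨_, b.2⟩ h1 hb0' h0
  · rintro (h0 | hinv)
    · have : (⟨((b : Fbar (M * p)) : LaurentSeries Qb), b.2⟩ : ↥(gq_bddSubring ↥A Qb)) = 0 := by
        apply Subtype.ext
        show ((b : Fbar (M * p)) : LaurentSeries Qb) = 0
        rw [h0]
        rfl
      rw [this, map_zero]
    · by_contra hne
      apply hinv
      have h1 := gq_isBdd_inv_of_res_ne_zero ⟨_, b.2⟩ hne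
      rw [s44pg_mem_iff, IntermediateField.coe_inv]
      exact h1

/-- residues of constants -/
theorem s44rd_res_const (a : ↥A)
    (h : gq_IsBdd ↥A Qb (algebraMap Qb (LaurentSeries Qb) (a : Qb))) :
    gq_res ↥A Qb ⟨algebraMap Qb (LaurentSeries Qb) (a : Qb), h⟩ =
      algebraMap (ResidueField ↥A) (LaurentSeries (ResidueField ↥A)) (residue ↥A a) := by
  have e : algebraMap Qb (LaurentSeries Qb) (a : Qb) =
      coeffMap (algebraMap ↥A Qb) (algebraMap ↥A (LaurentSeries ↥A) a) := by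
    rw [gq_coeffMap_algebraMap]
    rfl
  rw [rdn_res_congr h (gq_isBdd_iota _) e, gq_res_iota, bd_coeffMap_algebraMap]

/-- residues of the generators `j(q^d)` -/
theorem s44rd_res_gen (d : ℕ) [NeZero d]
    (h : gq_IsBdd ↥A Qb (qExpand Qb d (jqModC Qb))) :
    gq_res ↥A Qb ⟨qExpand Qb d (jqModC Qb), h⟩ =
      qExpand (ResidueField ↥A) d (jqModC (ResidueField ↥A)) := by
  have e : qExpand Qb d (jqModC Qb) =
      coeffMap (algebraMap ↥A Qb) (qExpand ↥A d (jqModC ↥A)) := by
    rw [coeffMap_qExpand, coeffMap_jqModC]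
  rw [rdn_res_congr h (gq_isBdd_iota _) e, gq_res_iota, coeffMap_qExpand, coeffMap_jqModC]

theorem s44rd_isBdd_gen (d : ℕ) [NeZero d] : gq_IsBdd ↥A Qb (qExpand Qb d (jqModC Qb)) := by
  have e : qExpand Qb d (jqModC Qb) =
      coeffMap (algebraMap ↥A Qb) (qExpand ↥A d (jqModC ↥A)) := by
    rw [coeffMap_qExpand, coeffMap_jqModC]
  rw [e]
  exact gq_isBdd_iota _

/-- **(D2)** the residue homomorphism is onto: the residue field of `w_∞` at level `M p` is
`F_M(kA)`. -/
theorem s44rd_red_surjective : Function.Surjective (s44rd_red A hA M hpM) := by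
  rintro ⟨y, hy⟩
  suffices h : ∃ b : ↥(s44pg_W A hA hp.out.ne_zero (M * p)),
      ((s44rd_red A hA M hpM b : ↥(modularFunctionFieldFullC (ResidueField ↥A) M)) :
        LaurentSeries (ResidueField ↥A)) = y by
    obtain ⟨b, hb⟩ := h
    exact ⟨b, Subtype.ext hb⟩
  rw [modularFunctionFieldFullC] at hy
  induction hy using IntermediateField.adjoin_induction with
  | mem y hy =>
    obtain ⟨d, hd, hdN, rfl⟩ := hy
    have := hd
    have hmem : qExpand Qb d (jqModC Qb) ∈ modularFunctionFieldBar (M * p) := by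
      rw [← lg_F_eq_bar]
      exact jqModCd_mem_full Qb (M * p) (hdN.mul_right p)
    refine ⟨⟨⟨qExpand Qb d (jqModC Qb), hmem⟩, s44rd_isBdd_gen A d⟩, ?_⟩
    rw [s44rd_coe_red]
    exact s44rd_res_gen A d _
  | algebraMap r =>
    obtain ⟨a, rfl⟩ := residue_surjective r
    refine ⟨⟨algebraMap Qb (Fbar (M * p)) (a : Qb),
      (s44pg_const A hA hp.out.ne_zero (M * p) (a : Qb)).2 a.2⟩, ?_⟩
    rw [s44rd_coe_red]
    exact s44rd_res_const A a _
  | add x y _ _ hx hy =>
    obtain ⟨a, rfl⟩ := hx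
    obtain ⟨b, rfl⟩ := hy
    exact ⟨a + b, by rw [map_add]; rfl⟩
  | mul x y _ _ hx hy =>
    obtain ⟨a, rfl⟩ := hx
    obtain ⟨b, rfl⟩ := hy
    exact ⟨a * b, by rw [map_mul]; rfl⟩
  | inv x _ hx =>
    obtain ⟨a, rfl⟩ := hx
    by_cases h0 : s44rd_red A hA M hpM a = 0
    · refine ⟨0, ?_⟩
      rw [h0, map_zero]
      simp
    · have hnu := (s44rd_red_eq_zero_iff A hA M hpM a).not.1 h0
      rw [ValuationSubring.mem_nonunits_iff_or, not_or, not_not] at hnu
      obtain ⟨ha0, hainv⟩ := hnu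
      have hmul : a * ⟨(a : Fbar (M * p))⁻¹, hainv⟩ = 1 := by
        apply Subtype.ext
        show (a : Fbar (M * p)) * (a : Fbar (M * p))⁻¹ = 1
        exact mul_inv_cancel₀ ha0
      have h1 := congrArg (s44rd_red A hA M hpM) hmul
      rw [map_mul, map_one] at h1
      refine ⟨⟨(a : Fbar (M * p))⁻¹, hainv⟩, ?_⟩
      rw [eq_inv_of_mul_eq_one_right h1]
      rfl

/-- the residue homomorphism on constants -/
theorem s44rd_red_const (a : ↥A) :
    s44rd_red A hA M hpM ⟨algebraMap Qb (Fbar (M * p)) (a : Qb),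
      (s44pg_const A hA hp.out.ne_zero (M * p) (a : Qb)).2 a.2⟩ =
      algebraMap (ResidueField ↥A) ↥(modularFunctionFieldFullC (ResidueField ↥A) M)
        (residue ↥A a) :=
  Subtype.ext (s44rd_res_const A a _)

/-- units of `W∞` have nonzero residue -/
theorem s44rd_red_ne_zero_iff (b : ↥(s44pg_W A hA hp.out.ne_zero (M * p))) :
    s44rd_red A hA M hpM b ≠ 0 ↔
      (b : Fbar (M * p)) ≠ 0 ∧ (b : Fbar (M * p))⁻¹ ∈ s44pg_W A hA hp.out.ne_zero (M * p) := by
  rw [Ne, s44rd_red_eq_zero_iff, ValuationSubring.mem_nonunits_iff_or, not_or, not_not]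

end Red

end Fermat.Agent.S44
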