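/-
S44, [RES-DICT] (helper28; prefix `s44rd_`): the residue dictionary of `Res/Dict.lean` for a level
`N'` with a HYPOTHESIS `hN' : N' = M' * p` (so that the level `N ℓ = (M p) ℓ = (M ℓ) p` needs no cast).

* `s44rd_res_memG`, `s44rd_redG : W∞(N') →+* F_{M'}(kA)`, `s44rd_coe_redG`, `s44rd_redG_eq_zero_iff`,
  `s44rd_redG_surjective`, `s44rd_redG_ne_zero_iff`, `s44rd_redG_const`.
-/
import Mathlib
import Fermat.Agent.S44.Res.Dict

set_option autoImplicit false
set_option linter.unusedSectionVars false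
set_option linter.unusedVariables false
set_option linter.style.haveILetI false

noncomputable section

namespace Fermat.Agent.S44

open ModularCurve IntermediateField IsLocalRing
open Fermat.Agent.JT3 Fermat.Agent.SS Fermat.Agent.S35 Fermat.Agent.S24 Fermat.Agent.S28

local notation "Qb" => AlgebraicClosure ℚ

section Gen

variable (A : ValuationSubring Qb) {p : ℕ} [hp : Fact p.Prime] (hA : A.LiesOverPrime p)
  {N' M' : ℕ} [NeZero N'] [NeZero M'] [NeZero p] (hN' : N' = M' * p) (hpM' : ¬ p ∣ M')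

include hA hN' hpM' in
/-- **(D1)**, general level. -/
theorem s44rd_res_memG {b : LaurentSeries Qb} (hb : b ∈ modularFunctionFieldBar N')
    (h : gq_IsBdd ↥A Qb b) :
    gq_res ↥A Qb ⟨b, h⟩ ∈ modularFunctionFieldFullC (ResidueField ↥A) M' := by
  subst hN'
  exact s44rd_res_mem A hA M' hpM' hb h

/-- **(D2)**, general level: the residue homomorphism `W∞(N') →+* F_{M'}(kA)`, `N' = M' p`. -/
def s44rd_redG :
    ↥(s44pg_W A hA hp.out.ne_zero N') →+* ↥(modularFunctionFieldFullC (ResidueField ↥A) M') where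
  toFun b := ⟨gq_res ↥A Qb ⟨((b : Fbar N') : LaurentSeries Qb), b.2⟩,
    s44rd_res_memG A hA hN' hpM' (b : Fbar N').2 b.2⟩
  map_one' := Subtype.ext (map_one (gq_res ↥A Qb))
  map_mul' a b := Subtype.ext (by
    show gq_res ↥A Qb _ = gq_res ↥A Qb _ * gq_res ↥A Qb _
    rw [← map_mul]
    rfl)
  map_zero' := Subtype.ext (map_zero (gq_res ↥A Qb))
  map_add' a b := Subtype.ext (by
    show gq_res ↥A Qb _ = gq_res ↥A Qb _ + gq_res ↥A Qb _
    rw [← map_add]
    rfl)

theorem s44rd_coe_redG (b : ↥(s44pg_W A hA hp.out.ne_zero N')) :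
    ((s44rd_redG A hA hN' hpM' b : ↥(modularFunctionFieldFullC (ResidueField ↥A) M')) :
      LaurentSeries (ResidueField ↥A)) =
      gq_res ↥A Qb ⟨((b : Fbar N') : LaurentSeries Qb), b.2⟩ := rfl

/-- at the level `M' * p` itself, `s44rd_redG` is `s44rd_red`. -/
theorem s44rd_redG_eq_red [NeZero (M' * p)] (b : ↥(s44pg_W A hA hp.out.ne_zero (M' * p))) :
    s44rd_redG A hA (rfl : M' * p = M' * p) hpM' b = s44rd_red A hA M' hpM' b :=
  Subtype.ext rfl

/-- the kernel of the residue homomorphism is the maximal ideal of `W∞`. -/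
theorem s44rd_redG_eq_zero_iff (b : ↥(s44pg_W A hA hp.out.ne_zero N')) :
    s44rd_redG A hA hN' hpM' b = 0 ↔
      (b : Fbar N') ∈ (s44pg_W A hA hp.out.ne_zero N').nonunits := by
  subst hN'
  rw [s44rd_redG_eq_red]
  exact s44rd_red_eq_zero_iff A hA M' hpM' b

theorem s44rd_redG_ne_zero_iff (b : ↥(s44pg_W A hA hp.out.ne_zero N')) :
    s44rd_redG A hA hN' hpM' b ≠ 0 ↔
      (b : Fbar N') ≠ 0 ∧ (b : Fbar N')⁻¹ ∈ s44pg_W A hA hp.out.ne_zero N' := by
  rw [Ne, s44rd_redG_eq_zero_iff, ValuationSubring.mem_nonunits_iff_or, not_or, not_not]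

/-- the residue homomorphism is onto. -/
theorem s44rd_redG_surjective : Function.Surjective (s44rd_redG A hA hN' hpM') := by
  subst hN'
  intro y
  obtain ⟨b, hb⟩ := s44rd_red_surjective A hA M' hpM' y
  exact ⟨b, by rw [s44rd_redG_eq_red]; exact hb⟩

/-- the residue homomorphism on constants -/
theorem s44rd_redG_const (a : ↥A) :
    s44rd_redG A hA hN' hpM' ⟨algebraMap Qb (Fbar N') (a : Qb),
      (s44pg_const A hA hp.out.ne_zero N' (a : Qb)).2 a.2⟩ =
      algebraMap (ResidueField ↥A) ↥(modularFunctionFieldFullC (ResidueField ↥A) M')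
        (residue ↥A a) :=
  Subtype.ext (s44rd_res_const A a _)

end Gen

end Fermat.Agent.S44
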