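/-
S44, [RES-DICT] (D3)–(D5) = [E3] (E3-1) (helper28; prefix `s44rd_`): the residue dictionary is
compatible with the degeneracy maps, with Atkin–Lehner and with inertia.

`A` over `p`, `N' = M' p`, `p ∤ M' ℓ`; `α = heckeAlphaBar ℚ̄ N' ℓ`, `β = heckeBetaBar ℚ̄ N' ℓ`
(`F̄_{N'} → F̄_{N' ℓ}`), `ᾱ = mzrh_alC kA M' ℓ`, `β̄ = mzrh_beC kA M' ℓ` (`F_{M'}(kA) → F_{M' ℓ}(kA)`).

* `s44rd_alpha_mem_iff`, `s44rd_beta_mem_iff` : `α x ∈ W∞(N' ℓ) ↔ x ∈ W∞(N')`, same for `β`;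
* `s44rd_red_alpha` : `red_{N' ℓ} (α x) = ᾱ (red_{N'} x)`;
* `s44rd_red_beta`  : `red_{N' ℓ} (β x) = β̄ (red_{N'} x)`;
* `s44rd_coe_red_alpha_p`, `s44rd_coe_red_Wbar_beta_p` : on `F̄_M ⊆ F̄_{M p}` (via `α_p`) the residue
  map is the good-reduction Gauss residue of level `M`; the same for `W̄ ∘ β_p` (the `0`-component);
* `s44rd_red_smul_inertia` : inertia acts trivially on the residue field.
-/
import Mathlib
import Fermat.Agent.S44.Res.DictGen
import Fermat.Agent.S44.PsiEig.Inv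
import Fermat.Agent.MZ.RH.TowerModL

set_option autoImplicit false
set_option linter.unusedSectionVars false
set_option linter.unusedVariables false
set_option linter.style.haveILetI false

noncomputable section

namespace Fermat.Agent.S44

open ModularCurve IntermediateField IsLocalRing
open Fermat.Agent.JT3 Fermat.Agent.SS Fermat.Agent.S35 Fermat.Agent.S24 Fermat.Agent.S28
open Fermat.Agent.MZ

local notation "Qb" => AlgebraicClosure ℚ

/-! ### boundedness along `β`, series level -/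

section Series

variable {O : Type*} [CommRing O] [IsDomain O] [IsLocalRing O]
variable {K : Type*} [Field K] [Algebra O K] [IsFractionRing O K]

/-- if `z` or `z⁻¹` is Gauss-bounded, then `z(q^n)` bounded implies `z` bounded. -/
theorem s44rd_isBdd_of_beta (n : ℕ) [NeZero n] {z : LaurentSeries K}
    (hz : gq_IsBdd O K z ∨ gq_IsBdd O K z⁻¹) (h : gq_IsBdd O K (qExpand K n z)) :
    gq_IsBdd O K z := by
  rcases hz with h1 | h1
  · exact h1
  by_cases hz0 : z = 0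
  · rw [hz0]
    exact (gq_bddSubring O K).zero_mem
  by_contra hnb
  -- the residue of `z⁻¹` vanishes
  have hr0 : gq_res O K ⟨z⁻¹, h1⟩ = 0 := by
    by_contra hne
    have := gq_isBdd_inv_of_res_ne_zero ⟨z⁻¹, h1⟩ hne
    rw [inv_inv] at this
    exact hnb this
  have hβinv : gq_IsBdd O K (qExpand K n z⁻¹) := ssm_ga_beta_isBdd n h1
  have hrβ : gq_res O K ⟨qExpand K n z⁻¹, hβinv⟩ = 0 := by
    have := ssm_ga_res_beta n (⟨z⁻¹, h1⟩ : ↥(gq_bddSubring O K))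
    rw [hr0, map_zero] at this
    exact this
  have hmul : (⟨qExpand K n z, h⟩ : ↥(gq_bddSubring O K)) * ⟨qExpand K n z⁻¹, hβinv⟩ = 1 := by
    apply Subtype.ext
    show qExpand K n z * qExpand K n z⁻¹ = 1
    rw [← map_mul, mul_inv_cancel₀ hz0, map_one]
  have := congrArg (gq_res O K) hmul
  rw [map_mul, hrβ, mul_zero, map_one] at this
  exact zero_ne_one this

end Series

/-- the level `N' ℓ` is `(M' ℓ) p`. -/
theorem s44rd_level_mul {N' M' p : ℕ} (hN' : N' = M' * p) (ℓ : ℕ) : N' * ℓ = (M' * ℓ) * p := by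
  rw [hN']
  ring

section Maps

variable (A : ValuationSubring Qb) {p : ℕ} [hp : Fact p.Prime] (hA : A.LiesOverPrime p)
  {N' M' : ℕ} [NeZero N'] [NeZero M'] [NeZero p] (hN' : N' = M' * p) (hpM' : ¬ p ∣ M')
  (ℓ : ℕ) [NeZero ℓ] (hpMℓ : ¬ p ∣ M' * ℓ)

/-- `α x` is Gauss-bounded iff `x` is. -/
theorem s44rd_alpha_mem_iff (x : Fbar N') :
    heckeAlphaBar Qb N' ℓ x ∈ s44pg_W A hA hp.out.ne_zero (N' * ℓ) ↔
      x ∈ s44pg_W A hA hp.out.ne_zero N' := by
  rw [s44pg_mem_iff, s44pg_mem_iff, coe_heckeAlphaBar]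

/-- `β x` is Gauss-bounded iff `x` is. -/
theorem s44rd_beta_mem_iff (x : Fbar N') :
    heckeBetaBar Qb N' ℓ x ∈ s44pg_W A hA hp.out.ne_zero (N' * ℓ) ↔
      x ∈ s44pg_W A hA hp.out.ne_zero N' := by
  rw [s44pg_mem_iff, s44pg_mem_iff, coe_heckeBetaBar]
  constructor
  · intro h
    refine s44rd_isBdd_of_beta ℓ ?_ h
    rcases (s44pg_W A hA hp.out.ne_zero N').mem_or_inv_mem x with h1 | h1
    · exact Or.inl ((s44pg_mem_iff A hA hp.out.ne_zero N' x).1 h1)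
    · refine Or.inr ?_
      have := (s44pg_mem_iff A hA hp.out.ne_zero N' x⁻¹).1 h1
      rwa [IntermediateField.coe_inv] at this
  · intro h
    exact ssm_ga_beta_isBdd ℓ h

/-- **(E3-1, α)** `red_{N' ℓ} (α x) = ᾱ (red_{N'} x)`. -/
theorem s44rd_red_alpha (x : ↥(s44pg_W A hA hp.out.ne_zero N')) :
    s44rd_redG A hA (s44rd_level_mul hN' ℓ) hpMℓ
      ⟨heckeAlphaBar Qb N' ℓ (x : Fbar N'), (s44rd_alpha_mem_iff A hA ℓ (x : Fbar N')).2 x.2⟩ =
      mzrh_alC (ResidueField ↥A) M' ℓ (s44rd_redG A hA hN' hpM' x) := by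
  apply Subtype.ext
  rw [mzrh_coe_alC, s44rd_coe_redG, s44rd_coe_redG]
  exact rdn_res_congr _ _ (coe_heckeAlphaBar N' ℓ (x : Fbar N'))

/-- **(E3-1, β)** `red_{N' ℓ} (β x) = β̄ (red_{N'} x)`. -/
theorem s44rd_red_beta (x : ↥(s44pg_W A hA hp.out.ne_zero N')) :
    s44rd_redG A hA (s44rd_level_mul hN' ℓ) hpMℓ
      ⟨heckeBetaBar Qb N' ℓ (x : Fbar N'), (s44rd_beta_mem_iff A hA ℓ (x : Fbar N')).2 x.2⟩ =
      mzrh_beC (ResidueField ↥A) M' ℓ (s44rd_redG A hA hN' hpM' x) := by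
  apply Subtype.ext
  rw [mzrh_coe_beC, s44rd_coe_redG, s44rd_coe_redG]
  have h := ssm_ga_res_beta ℓ
    (⟨((x : Fbar N') : LaurentSeries Qb), x.2⟩ : ↥(gq_bddSubring ↥A Qb))
  rw [← h]
  exact rdn_res_congr _ _ (coe_heckeBetaBar N' ℓ (x : Fbar N'))

end Maps

/-! ### the level `M ⊆ M p`, Atkin–Lehner, inertia -/

section LevelP

variable (A : ValuationSubring Qb) {p : ℕ} [hp : Fact p.Prime] (hA : A.LiesOverPrime p)
  (M : ℕ) [NeZero M] [NeZero p] (hpM : ¬ p ∣ M)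

/-- on `F̄_M ⊆ F̄_{M p}` (via `α_p`) the residue map is the Gauss residue of level `M`. -/
theorem s44rd_coe_red_alpha_p (x : Fbar M)
    (h : gq_IsBdd ↥A Qb ((x : Fbar M) : LaurentSeries Qb))
    (h' : heckeAlphaBar Qb M p x ∈ s44pg_W A hA hp.out.ne_zero (M * p)) :
    ((s44rd_red A hA M hpM ⟨heckeAlphaBar Qb M p x, h'⟩ :
        ↥(modularFunctionFieldFullC (ResidueField ↥A) M)) : LaurentSeries (ResidueField ↥A)) =
      gq_res ↥A Qb ⟨((x : Fbar M) : LaurentSeries Qb), h⟩ := by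
  rw [s44rd_coe_red]
  exact rdn_res_congr _ _ (coe_heckeAlphaBar M p x)

theorem s44rd_alpha_p_mem (x : Fbar M)
    (h : gq_IsBdd ↥A Qb ((x : Fbar M) : LaurentSeries Qb)) :
    heckeAlphaBar Qb M p x ∈ s44pg_W A hA hp.out.ne_zero (M * p) := by
  rw [s44pg_mem_iff, coe_heckeAlphaBar]
  exact h

/-- the `0`-component: `red_∞ (W̄ (β_p x))` is the Gauss residue of `x` at level `M`. -/
theorem s44rd_coe_red_Wbar_beta_p (x : Fbar M)
    (h : gq_IsBdd ↥A Qb ((x : Fbar M) : LaurentSeries Qb))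
    (h' : ssm_al_Wbar M p hp.out hpM (heckeBetaBar Qb M p x) ∈
      s44pg_W A hA hp.out.ne_zero (M * p)) :
    ((s44rd_red A hA M hpM ⟨ssm_al_Wbar M p hp.out hpM (heckeBetaBar Qb M p x), h'⟩ :
        ↥(modularFunctionFieldFullC (ResidueField ↥A) M)) : LaurentSeries (ResidueField ↥A)) =
      gq_res ↥A Qb ⟨((x : Fbar M) : LaurentSeries Qb), h⟩ := by
  rw [s44rd_coe_red]
  refine rdn_res_congr _ _ ?_
  show ((ssm_al_Wbar M p hp.out hpM (heckeBetaBar Qb M p x) : Fbar (M * p)) :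
    LaurentSeries Qb) = _
  rw [ssm_al_Wbar_beta, coe_heckeAlphaBar]

/-- inertia acts trivially on the residue field of `w_∞`. -/
theorem s44rd_red_smul_inertia (σ : Qb ≃ₐ[ℚ] Qb) (hσ : σ ∈ A.inertiaSubgroupIn ℚ)
    (b : ↥(s44pg_W A hA hp.out.ne_zero (M * p))) :
    ∃ h : arithmeticGalois (modularFunctionFieldFull (M * p)) σ • (b : Fbar (M * p)) ∈
        s44pg_W A hA hp.out.ne_zero (M * p),
      s44rd_red A hA M hpM ⟨_, h⟩ = s44rd_red A hA M hpM b := by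
  have h1 := s44pe_inv (M * p) A (s44pg_W A hA hp.out.ne_zero (M * p))
    (fun b => s44pg_mem_iff A hA hp.out.ne_zero (M * p) b) σ hσ (b : Fbar (M * p)) b.2
  have h2 : arithmeticGalois (modularFunctionFieldFull (M * p)) σ • (b : Fbar (M * p)) -
      (b : Fbar (M * p)) ∈ s44pg_W A hA hp.out.ne_zero (M * p) :=
    (s44pg_W A hA hp.out.ne_zero (M * p)).nonunits_subset h1
  have h3 : arithmeticGalois (modularFunctionFieldFull (M * p)) σ • (b : Fbar (M * p)) ∈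
      s44pg_W A hA hp.out.ne_zero (M * p) := by
    have := (s44pg_W A hA hp.out.ne_zero (M * p)).add_mem _ _ h2 b.2
    rwa [sub_add_cancel] at this
  refine ⟨h3, ?_⟩
  have h4 : s44rd_red A hA M hpM ⟨_, h2⟩ = 0 :=
    (s44rd_red_eq_zero_iff A hA M hpM ⟨_, h2⟩).2 h1
  have h5 : (⟨_, h3⟩ : ↥(s44pg_W A hA hp.out.ne_zero (M * p))) = ⟨_, h2⟩ + b :=
    Subtype.ext (sub_add_cancel _ _).symm
  rw [h5, map_add, h4, zero_add]

end LevelP

end Fermat.Agent.S44
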