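/-
S44, [E3-DEG] (UP)+(LOW) at once (helper28; prefix `s44rg_`): GENERATION AND DEGREE IN
CHARACTERISTIC `p`.

`A` a valuation subring of `ℚ̄` over `p`, `kA` its residue field, `p ∤ d`.

* `s44rg_gen_mem`     : `j̃(q^e) ∈ kA(j̃, j̃(q^d))` for `e ∣ d` — it is the Gauss residue of
                        `j(q^e) ∈ F̄_d`, and `gqa_res_mem` (for `O = A` itself) puts the residue of
                        every Gauss-bounded element of `F̄_d = ℚ̄(j, j_d)` into `kA(j̃, j̃_d)`;
* `s44rg_full_eq`     : `F_d(kA) = kA(j̃, j̃_d)`;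
* `s44rg_relfinrank_j`: `[F_d(kA) : kA(j̃)] = natDegree (vx_Phi d p)` (by `vx_minpoly`);
* `s44rg_relfinrank`  : `[F_{M ℓ}(kA) : F_M(kA)] = ℓ + 1` GIVEN `natDegree (vx_Phi ·) = ψ(·)` at the two
                        levels (helper2's `s44hx_natDegree_Phi`).
-/
import Mathlib
import Fermat.Agent.JT3.Bridge.GaussModular
import Fermat.Agent.JT3.S18.ConstRed
import Fermat.Agent.JT3.Inst.Vert
import Fermat.Agent.S24.Comb.Index

set_option autoImplicit false
set_option linter.unusedSectionVars false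
set_option linter.unusedVariables false
set_option linter.style.haveILetI false

noncomputable section

namespace Fermat.Agent.S44

open ModularCurve IsLocalRing Polynomial
open scoped IntermediateField
open Fermat.Agent.JT3 Fermat.Agent.S24 Fermat.Agent.S28

local notation "Qb" => AlgebraicClosure ℚ

section Gen

variable (A : ValuationSubring Qb) {p : ℕ} [hp : Fact p.Prime] (hA : A.LiesOverPrime p)
  (d : ℕ) [NeZero d] (hpd : ¬ p ∣ d)

theorem s44rg_isBdd_gen (e : ℕ) [NeZero e] : gq_IsBdd ↥A Qb (qExpand Qb e (jqModC Qb)) := by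
  have h : qExpand Qb e (jqModC Qb) =
      coeffMap (algebraMap ↥A Qb) (qExpand ↥A e (jqModC ↥A)) := by
    rw [coeffMap_qExpand, coeffMap_jqModC]
  rw [h]
  exact gq_isBdd_iota _

theorem s44rg_res_gen (e : ℕ) [NeZero e]
    (h : gq_IsBdd ↥A Qb (qExpand Qb e (jqModC Qb))) :
    gq_res ↥A Qb ⟨qExpand Qb e (jqModC Qb), h⟩ =
      qExpand (ResidueField ↥A) e (jqModC (ResidueField ↥A)) := by
  have he : qExpand Qb e (jqModC Qb) =
      coeffMap (algebraMap ↥A Qb) (qExpand ↥A e (jqModC ↥A)) := by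
    rw [coeffMap_qExpand, coeffMap_jqModC]
  have h1 : gq_res ↥A Qb ⟨qExpand Qb e (jqModC Qb), h⟩ =
      gq_res ↥A Qb ⟨coeffMap (algebraMap ↥A Qb) (qExpand ↥A e (jqModC ↥A)), gq_isBdd_iota _⟩ := by
    congr 1
    exact Subtype.ext he
  rw [h1, gq_res_iota, coeffMap_qExpand, coeffMap_jqModC]

include hA in
theorem s44rg_natCast_mem : ((p : ℕ) : ↥A) ∈ maximalIdeal ↥A := by
  rw [← ValuationSubring.coe_mem_nonunits_iff]
  have : (((p : ℕ) : ↥A) : Qb) = (p : Qb) := by push_cast; rfl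
  rw [this]
  exact hA

include hA hpd in
/-- `j̃(q^e) ∈ kA(j̃, j̃(q^d))` for `e ∣ d`. -/
theorem s44rg_gen_mem (e : ℕ) [NeZero e] (he : e ∣ d) :
    qExpand (ResidueField ↥A) e (jqModC (ResidueField ↥A)) ∈
      IntermediateField.adjoin (ResidueField ↥A)
        {jqModC (ResidueField ↥A), qExpand (ResidueField ↥A) d (jqModC (ResidueField ↥A))} := by
  haveI : CharP (ResidueField ↥A) p := jcr_charP A hA
  obtain ⟨ρ⟩ := lgv_exists_rhoO (L := Qb) (O := ↥A) (IsFractionRing.injective ↥A Qb) p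
    (s44rg_natCast_mem A hA)
  have hz : qExpand Qb e (jqModC Qb) ∈ lg_F Qb d := jqModCd_mem_full Qb d he
  rw [gqm_F_eq_iota A d] at hz
  have h := gqa_res_mem (jqModC ↥A) (qExpand ↥A d (jqModC ↥A)) (gqm_Phi d p hpd ρ)
    (gqm_Phi_monic d p hpd ρ) (gqm_Phi_root d p hpd ρ) (gqm_hind A p d hpd ρ)
    (qExpand Qb e (jqModC Qb)) hz (s44rg_isBdd_gen A e)
  rw [coeffMap_qExpand, coeffMap_jqModC, s44rg_res_gen] at h
  exact h

include hA hpd in
/-- **generation in characteristic `p`**: `F_d(kA) = kA(j̃, j̃_d)`. -/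
theorem s44rg_full_eq :
    modularFunctionFieldFullC (ResidueField ↥A) d =
      IntermediateField.adjoin (ResidueField ↥A)
        {jqModC (ResidueField ↥A), qExpand (ResidueField ↥A) d (jqModC (ResidueField ↥A))} := by
  apply le_antisymm
  · rw [modularFunctionFieldFullC, IntermediateField.adjoin_le_iff]
    rintro _ ⟨e, he, hed, rfl⟩
    haveI := he
    exact s44rg_gen_mem A hA d hpd e hed
  · rw [IntermediateField.adjoin_le_iff]
    rintro x (rfl | rfl)
    · exact jqModC_mem_full _ d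
    · exact jqModCd_mem_full _ d dvd_rfl

theorem s44rg_j_le :
    (ResidueField ↥A)⟮jqModC (ResidueField ↥A)⟯ ≤ modularFunctionFieldFullC (ResidueField ↥A) d := by
  rw [IntermediateField.adjoin_le_iff]
  rintro x rfl
  exact jqModC_mem_full _ d

include hA hpd in
/-- **`[F_d(kA) : kA(j̃)] = natDegree Φ_d`** in characteristic `p ∤ d`. -/
theorem s44rg_relfinrank_j :
    IntermediateField.relfinrank (ResidueField ↥A)⟮jqModC (ResidueField ↥A)⟯
      (modularFunctionFieldFullC (ResidueField ↥A) d) = (vx_Phi d p hpd).natDegree := by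
  haveI : CharP (ResidueField ↥A) p := jcr_charP A hA
  obtain ⟨ρ⟩ := lgv_exists_rhoO (L := Qb) (O := ↥A) (IsFractionRing.injective ↥A Qb) p
    (s44rg_natCast_mem A hA)
  set ρk : ↥(GaloisRep.ratLocalizedAt p) →+* ResidueField ↥A := (residue ↥A).comp ρ with hρk
  rw [IntermediateField.relfinrank_eq_finrank_of_le (s44rg_j_le A d)]
  have h : IntermediateField.extendScalars (s44rg_j_le A d) =
      ((ResidueField ↥A)⟮jqModC (ResidueField ↥A)⟯)⟮qExpand (ResidueField ↥A) d
        (jqModC (ResidueField ↥A))⟯ := by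
    apply IntermediateField.restrictScalars_injective (ResidueField ↥A)
    rw [IntermediateField.extendScalars_restrictScalars, IntermediateField.adjoin_adjoin_left,
      s44rg_full_eq A hA d hpd]
    rfl
  rw [h, IntermediateField.adjoin.finrank (vx_isIntegral d p hpd ρk), vx_minpoly d p hpd ρk,
    vx_PhiK_natDegree]

end Gen

section Tower

variable (A : ValuationSubring Qb) {p : ℕ} [hp : Fact p.Prime] (hA : A.LiesOverPrime p)
  (M ℓ : ℕ) [NeZero M] [NeZero ℓ]

theorem s44rg_F_le :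
    modularFunctionFieldFullC (ResidueField ↥A) M ≤
      modularFunctionFieldFullC (ResidueField ↥A) (M * ℓ) :=
  full_degeneracyC_le (ResidueField ↥A) (dvd_mul_right M ℓ)

include hA in
/-- **`[F_{M ℓ}(kA) : F_M(kA)] = ℓ + 1`** in characteristic `p ∤ M ℓ`, given
`natDegree Φ_d = ψ(d)` at `d = M` and `d = M ℓ`. -/
theorem s44rg_relfinrank (hℓ : ℓ.Prime) (hℓM : ¬ ℓ ∣ M) (hpM : ¬ p ∣ M) (hpMℓ : ¬ p ∣ M * ℓ)
    (h1 : (vx_Phi M p hpM).natDegree = dedekindPsi M)
    (h2 : (vx_Phi (M * ℓ) p hpMℓ).natDegree = dedekindPsi (M * ℓ)) :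
    IntermediateField.relfinrank (modularFunctionFieldFullC (ResidueField ↥A) M)
      (modularFunctionFieldFullC (ResidueField ↥A) (M * ℓ)) = ℓ + 1 := by
  have h := IntermediateField.relfinrank_mul_relfinrank (s44rg_j_le A M) (s44rg_F_le A M ℓ)
  rw [s44rg_relfinrank_j A hA M hpM, s44rg_relfinrank_j A hA (M * ℓ) hpMℓ, h1, h2, mul_comm M ℓ,
    Comb.dedekindPsi_prime_mul_of_not_dvd hℓ hℓM, mul_comm (ℓ + 1)] at h
  have hpos : 0 < dedekindPsi M := by
    rw [← Comb.card_quotient_Gamma0]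
    exact Nat.card_pos
  rw [mul_comm M ℓ]
  exact Nat.eq_of_mul_eq_mul_left hpos h

end Tower

end Fermat.Agent.S44
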