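/-
S44 project, cell [E2] RES, sub-cell (E2-SM), TOWER FORM (helper6).  Prefix `s44rs_`.

The place forms `s44rs_hdiv_place` / `s44rs_leg` of `Res/SmoothPlace.lean`, `Res/SmoothLeg.lean` with
the field of constants `k` of the residue function field `κ` allowed to be an ALGEBRAIC EXTENSION of
the residue field `k0` of the discrete valuation ring `A0` (in use: `A0 = O = A ∩ L1` with finite
residue field `k0`, `k = kA` the residue field of the valuation ring `A` of `Q̄`, `κ` a function field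
over `kA` inside `kA((q))` receiving the Gauss reduction `r` of `V1`), so that the places of the
`kA`-function field can be fed in directly.

* `s44rs_place_alg_tower`  : the residue field of a place of `κ / k` is algebraic over `k0`, in
                             "monic polynomial over `k0`" form;
* `s44rs_hdiv_place_tower` : place form at a smooth centre;
* `s44rs_leg_tower`        : the Legendre instance.
-/
import Mathlib
import Fermat.Agent.S44.Res.SmoothLeg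

set_option autoImplicit false
set_option linter.unusedSectionVars false
set_option linter.style.haveILetI false
set_option linter.unusedVariables false

noncomputable section

namespace Fermat.Agent.S44

open Fermat.Agent.SS Fermat.Agent.JT3 Fermat.Agent.S35 Fermat.Agent.S24 IsLocalRing AlgebraicCurve
  Polynomial IntermediateField ModularCurve

universe v

section PlaceAlg

variable {k0 k κ : Type*} [Field k0] [Field k] [Field κ] [Algebra k0 k] [Algebra k κ]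
  [Algebra k0 κ] [IsScalarTower k0 k κ] [Algebra.IsAlgebraic k0 k]

/-- the residue field of a place of a function field `κ / k` is algebraic over a subfield `k0` of `k`
over which `k` is algebraic, in "monic polynomial" form. -/
theorem s44rs_place_alg_tower (xb : κ) [Algebra.IsAlgebraic k⟮xb⟯ κ] (v : Place k κ) {y : κ}
    (hy : y ∈ v.toValuationSubring) :
    ∃ p : k0[X], p.Monic ∧ aeval y p ∈ v.toValuationSubring.nonunits := by
  have halg : IsAlgebraic k (residue v.toValuationSubring ⟨y, hy⟩) :=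
    hw_isAlgebraic_residue xb v ⟨y, hy⟩
  letI : Algebra k0 v.ResidueField :=
    ((algebraMap k v.ResidueField).comp (algebraMap k0 k)).toAlgebra
  haveI : IsScalarTower k0 k v.ResidueField := IsScalarTower.of_algebraMap_eq (fun _ => rfl)
  haveI : Algebra.IsIntegral k0 k := Algebra.IsAlgebraic.isIntegral
  have h2 : IsIntegral k0 (residue v.toValuationSubring ⟨y, hy⟩) :=
    isIntegral_trans _ halg.isIntegral
  obtain ⟨p0, hp0, hroot⟩ := h2
  refine ⟨p0, hp0, ?_⟩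
  -- pass to the polynomial over `k`
  set p : k[X] := p0.map (algebraMap k0 k) with hp
  have hpk : aeval (residue v.toValuationSubring ⟨y, hy⟩) p = 0 := by
    rw [aeval_def, hp, Polynomial.eval₂_map]
    exact hroot
  have h1 : aeval (⟨y, hy⟩ : v.toValuationSubring) p ∈ maximalIdeal v.toValuationSubring := by
    rw [← IsLocalRing.residue_eq_zero_iff]
    have h2 : residue v.toValuationSubring (aeval (⟨y, hy⟩ : v.toValuationSubring) p) =
        aeval (residue v.toValuationSubring ⟨y, hy⟩) p :=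
      (Polynomial.aeval_algebraMap_apply v.ResidueField (⟨y, hy⟩ : v.toValuationSubring) p).symm
    rw [h2]
    exact hpk
  have h3 : ((aeval (⟨y, hy⟩ : v.toValuationSubring) p : v.toValuationSubring) : κ) =
      aeval y p :=
    (Polynomial.aeval_algebraMap_apply κ (⟨y, hy⟩ : v.toValuationSubring) p).symm
  have h4 : aeval y p = aeval y p0 := by
    rw [hp, Polynomial.aeval_map_algebraMap]
  rw [← h4, ← h3]
  exact (ValuationSubring.mem_nonunits_iff_exists_mem_maximalIdeal).2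
    ⟨(aeval (⟨y, hy⟩ : v.toValuationSubring) p).2, h1⟩

end PlaceAlg

section HDivPlace

variable {A0 L : Type*} {F0 : Type v} [CommRing A0] [IsDomain A0] [IsDiscreteValuationRing A0]
  [Field L] [CharZero L] [Field F0] [Algebra A0 L] [IsFractionRing A0 L] [Algebra L F0]
  [Algebra A0 F0] [IsScalarTower A0 L F0]

/-- **(H-DIV) at a smooth centre, place form, over an algebraic extension `k / k0` of the residue
field of `A0`.** -/
theorem s44rs_hdiv_place_tower {π : A0} (hπ : Irreducible π) {x : F0} (hx : Transcendental L x)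
    [FiniteDimensional L⟮x⟯ F0] {V1 V2 : ValuationSubring F0}
    (H : ssm_tp_Hyp (algebraMap A0 (Algebra.adjoin A0 ({x} : Set F0)) π) V1 V2)
    {k0 k κ : Type*} [Field k0] [Field k] [Field κ] [Algebra k0 k] [Algebra k κ]
    [Algebra k0 κ] [IsScalarTower k0 k κ] [Algebra.IsAlgebraic k0 k]
    (ρ : A0 →+* k0) (hρ : Function.Surjective ρ)
    (r : ↥V1 →+* κ) (hker : ∀ z : ↥V1, (z : F0) ∈ V1.nonunits → r z = 0)
    (hrA : ∀ (a : A0) (h : algebraMap A0 F0 a ∈ V1),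
      r ⟨algebraMap A0 F0 a, h⟩ = algebraMap k0 κ (ρ a))
    (xb : κ) [Algebra.IsAlgebraic k⟮xb⟯ κ] (v : Place k κ)
    (hpt1 : x ∈ tori_comp V1 r hker v.toValuationSubring →
      ∀ 𝔫 : Ideal (fc_chart A0 ({x} : Set F0)), 𝔫.IsMaximal →
      ssm_tp_P (fc_chart A0 ({x} : Set F0)) V1 ≤ 𝔫 →
      (∀ b : fc_chart A0 ({x} : Set F0),
        b ∈ 𝔫 ↔ (b : F0) ∈ (tori_comp V1 r hker v.toValuationSubring).nonunits) →
      ss_SmoothAt π (fc_chart A0 ({x} : Set F0)) 𝔫)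
    (hpt2 : x ∉ tori_comp V1 r hker v.toValuationSubring →
      ∀ 𝔫 : Ideal (fc_chart A0 ({x⁻¹} : Set F0)), 𝔫.IsMaximal →
      ssm_tp_P (fc_chart A0 ({x⁻¹} : Set F0)) V1 ≤ 𝔫 →
      (∀ b : fc_chart A0 ({x⁻¹} : Set F0),
        b ∈ 𝔫 ↔ (b : F0) ∈ (tori_comp V1 r hker v.toValuationSubring).nonunits) →
      (⟨x⁻¹, fc_x_mem_chart x⁻¹⟩ : fc_chart A0 ({x⁻¹} : Set F0)) ∈ 𝔫 →
      ss_SmoothAt π (fc_chart A0 ({x⁻¹} : Set F0)) 𝔫)
    (m : ℕ) {g : F0} (hg : g ≠ 0) (hord : ∀ P : Place L F0, (m : ℤ) ∣ P.ord g)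
    (hg1 : g ∈ V1 ∧ g ∉ V1.nonunits) :
    (m : ℤ) ∣ v.ord (r ⟨g, hg1.1⟩) := by
  have hA1 : ∀ a : A0, algebraMap A0 F0 a ∈ V1 := fun a => by
    have := H.over1.le (algebraMap A0 (Algebra.adjoin A0 ({x} : Set F0)) a)
    exact this
  set W := v.toValuationSubring with hW
  set 𝒱 := tori_comp V1 r hker W with h𝒱def
  have h𝒱 : 𝒱 ≤ V1 := tori_comp_le V1 r hker W
  have hA : ∀ a : A0, algebraMap A0 F0 a ∈ 𝒱 := fun a =>
    ⟨hA1 a, by
      rw [hrA, IsScalarTower.algebraMap_apply k0 k κ]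
      exact v.algebraMap_mem' _⟩
  -- the ring homomorphism `A0 → V1`
  let ι : A0 →+* ↥V1 :=
    { toFun := fun a => ⟨algebraMap A0 F0 a, hA1 a⟩
      map_one' := Subtype.ext (map_one _)
      map_mul' := fun a b => Subtype.ext (map_mul _ a b)
      map_zero' := Subtype.ext (map_zero _)
      map_add' := fun a b => Subtype.ext (map_add _ a b) }
  have hι1 : V1.subtype.comp ι = algebraMap A0 F0 := RingHom.ext fun a => rfl
  have hι2 : r.comp ι = (algebraMap k0 κ).comp ρ := RingHom.ext fun a => hrA a (hA1 a)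
  have halg : ∀ z ∈ 𝒱, ∃ p : A0[X], p.Monic ∧ aeval z p ∈ 𝒱.nonunits := by
    rintro z ⟨hzV, hzW⟩
    obtain ⟨pb, hpb, hpbW⟩ := s44rs_place_alg_tower (k0 := k0) xb v hzW
    obtain ⟨P, hPmap, -, hPm⟩ := Polynomial.lifts_and_degree_eq_and_monic
      ((Polynomial.mem_lifts _).2 (Polynomial.map_surjective ρ hρ pb)) hpb
    refine ⟨P, hPm, ?_⟩
    have h1 : ((eval₂ ι ⟨z, hzV⟩ P : ↥V1) : F0) = aeval z P := by
      have := Polynomial.hom_eval₂ P ι V1.subtype ⟨z, hzV⟩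
      rw [hι1] at this
      rw [aeval_def]
      exact this
    have h2 : r (eval₂ ι ⟨z, hzV⟩ P) = aeval (r ⟨z, hzV⟩) pb := by
      rw [Polynomial.hom_eval₂, hι2, ← Polynomial.eval₂_map, hPmap, aeval_def]
    rw [tori_comp_mem_nonunits_iff]
    refine ⟨h1 ▸ (eval₂ ι ⟨z, hzV⟩ P).2, ?_⟩
    have h3 : (⟨aeval z P, h1 ▸ (eval₂ ι ⟨z, hzV⟩ P).2⟩ : ↥V1) = eval₂ ι ⟨z, hzV⟩ P :=
      Subtype.ext h1.symm
    rw [h3, h2]
    exact hpbW
  obtain ⟨e, ω, hgω, ⟨he1, he2⟩, hω1, hω2⟩ :=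
    s44rs_hdiv hπ hx H 𝒱 h𝒱 hA halg hpt1 hpt2 m hg hord hg1
  obtain ⟨hωW, hωnu⟩ := tori_comp_unit V1 r hker W hω1 hω2
  -- `r g = r ω * (r e)^m`
  have hmul : r ⟨g, hg1.1⟩ = r ⟨ω, hω1.1⟩ * r ⟨e, he1⟩ ^ m := by
    rw [← map_pow, ← map_mul]
    congr 1
    exact Subtype.ext hgω
  have hre0 : r ⟨e, he1⟩ ≠ 0 := by
    have he0 : e ≠ 0 := ssm_tp_ne_zero V1 he2
    have hei : e⁻¹ ∈ V1 := ssm_tp_inv_mem V1 he2
    have h1 : r ⟨e, he1⟩ * r ⟨e⁻¹, hei⟩ = 1 := by
      rw [← map_mul]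
      have : (⟨e, he1⟩ * ⟨e⁻¹, hei⟩ : ↥V1) = 1 := Subtype.ext (mul_inv_cancel₀ he0)
      rw [this, map_one]
    exact left_ne_zero_of_mul_eq_one h1
  have hrω0 : r ⟨ω, hω1.1⟩ ≠ 0 := ssm_tp_ne_zero W hωnu
  rw [hmul, v.ord_mul hrω0 (pow_ne_zero m hre0), tori_sfd_ord_unit v hωW hωnu, zero_add,
    ← zpow_natCast, v.ord_zpow]
  exact dvd_mul_right _ _

end HDivPlace

section NF

variable (L : Type) [Field L] [NumberField L] [Algebra L (AlgebraicClosure ℚ)]
  (O : ValuationSubring L) [IsDiscreteValuationRing O] {π : O} (hπ : Irreducible π)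
variable (N' q : ℕ) [NeZero N'] [NeZero q] [hq : Fact q.Prime] [CharP (ResidueField O) q]
  (hq2 : ¬ 2 ∣ q) (hqN' : ¬ q ∣ N') (ζ : L) (hζ : IsPrimitiveRoot ζ N')

include hζ in
set_option synthInstance.maxHeartbeats 400000 in
set_option maxHeartbeats 3200000 in
/-- **(E2-SM), Legendre tower over a ramified base, constants `k ⊇ k0`**: the order of the reduction
along the first component is divisible by `m` at every place whose centre is not a crossing point. -/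
theorem s44rs_leg_tower {k0 k κ : Type*} [Field k0] [Field k] [Field κ] [Algebra k0 k]
    [Algebra k κ] [Algebra k0 κ] [IsScalarTower k0 k κ] [Algebra.IsAlgebraic k0 k]
    (ρ : ↥O →+* k0) (hρ : Function.Surjective ρ)
    (r : ↥(ssm_gl_V1 O hπ N' q) →+* κ)
    (hker : ∀ z : ↥(ssm_gl_V1 O hπ N' q),
      (z : ↥(lg_E L (N' * q))) ∈ (ssm_gl_V1 O hπ N' q).nonunits → r z = 0)
    (hrA : ∀ (a : ↥O) (h : algebraMap ↥O ↥(lg_E L (N' * q)) a ∈ ssm_gl_V1 O hπ N' q),
      r ⟨algebraMap ↥O ↥(lg_E L (N' * q)) a, h⟩ = algebraMap k0 κ (ρ a))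
    (xb : κ) [Algebra.IsAlgebraic k⟮xb⟯ κ] (v : Place k κ)
    (hv : lg_lamE (N' * q) ∈ tori_comp (ssm_gl_V1 O hπ N' q) r hker v.toValuationSubring →
      ∃ b : ↥(lg_E L (N' * q)), b ∈ fc_chart ↥O ({lg_lamE (N' * q)} : Set ↥(lg_E L (N' * q))) ∧
        b ∈ (ssm_gl_V2 O hπ N' q hq2 hqN').nonunits ∧
        b ∉ (tori_comp (ssm_gl_V1 O hπ N' q) r hker v.toValuationSubring).nonunits)
    (m : ℕ) {G : ↥(lg_E L (N' * q))} (hG : G ≠ 0)
    (hord : ∀ P : Place L ↥(lg_E L (N' * q)), (m : ℤ) ∣ P.ord G)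
    (hG1 : G ∈ ssm_gl_V1 O hπ N' q ∧ G ∉ (ssm_gl_V1 O hπ N' q).nonunits) :
    (m : ℤ) ∣ v.ord (r ⟨G, hG1.1⟩) := by
  have hqO : ((q : ℕ) : O) ∈ maximalIdeal O := ssm_fln_q_mem L O q
  have hq2' : q ≠ 2 := ssm_fl_ne_two q hq2
  have hp := ssm_ll_prime L N' hπ q hqO hq2' hqN' ζ hζ
  have F := ssm_fl_facts O hπ N' q hq2 hqN' hp.1
  have hs := ssm_si_smooth O hπ N' q hq2 hqN' hp.1 hp.2.1
    (ssm_ll_ic1 L N' hπ q hqO hq2' hqN' ζ hζ) (ssm_ll_ic2 L N' hπ q hqO hq2' hqN' ζ hζ)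
    (ssm_ll_reg1 L N' hπ q hqO hq2' hqN' ζ hζ) (ssm_ll_reg2 L N' hπ q hqO hq2' hqN' ζ hζ) F
  haveI := ssm_go_isScalarTower O (lg_E L (N' * q))
  haveI : FiniteDimensional L⟮(lg_lamE (N' * q) : lg_E L (N' * q))⟯ ↥(lg_E L (N' * q)) :=
    lgf_finite L (N' * q)
  have hx : Transcendental L (lg_lamE (L := L) (N' * q)) :=
    lgf_lam_transcendental L (N' * q) two_ne_zero
  have H := ssm_gl_hyp O hπ N' q hq2 hqN' hp.1
  have hC := ssm_tp_ff_chart (L := L) (A0 := ↥O) (F0 := ↥(lg_E L (N' * q))) hπ hx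
  have hxA : Transcendental ↥O (lg_lamE (L := L) (N' * q)) := fc_ff_transcendental (L := L) hx
  haveI : IsIntegrallyClosed (Algebra.adjoin ↥O ({lg_lamE (N' * q)} : Set ↥(lg_E L (N' * q)))) :=
    fc_ff_isIntegrallyClosed hxA
  haveI : FaithfulSMul (Algebra.adjoin ↥O ({lg_lamE (N' * q)} : Set ↥(lg_E L (N' * q))))
      ↥(lg_E L (N' * q)) :=
    (faithfulSMul_iff_algebraMap_injective _ _).2 Subtype.val_injective
  refine s44rs_hdiv_place_tower (L := L) hπ hx H ρ hρ r hker hrA xb v ?_ ?_ m hG hord hG1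
  · -- the centre lies on the `λ`-chart
    intro hlam 𝔫 h𝔫 hP1 hmem
    obtain ⟨b, hbB, hb2, hbu⟩ := hv hlam
    have hπ𝔫 : algebraMap ↥O (fc_chart ↥O ({lg_lamE (N' * q)} : Set ↥(lg_E L (N' * q)))) π ∈ 𝔫 := by
      apply hP1
      rw [H.mem_P1 hC]
      exact H.over1.pi_mem
    refine hs.1 𝔫 h𝔫 hπ𝔫 fun hP2 => ?_
    have hb𝔫 : (⟨b, hbB⟩ : fc_chart ↥O ({lg_lamE (N' * q)} : Set ↥(lg_E L (N' * q)))) ∈ 𝔫 := by
      apply hP2
      rw [H.mem_P2 hC]
      exact hb2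
    exact hbu ((hmem _).1 hb𝔫)
  · -- the centre is a point at infinity of the `λ⁻¹`-chart
    intro hlam 𝔫 h𝔫 hP1 hmem hμ
    have hxi : Transcendental L (lg_lamE (L := L) (N' * q))⁻¹ :=
      fun h => hx (IsAlgebraic.inv_iff.mp h)
    have H2 := ssm_tp_ff_hyp_inv (L := L) hπ hx H
    have hC2 := ssm_tp_ff_chart (L := L) (A0 := ↥O) (F0 := ↥(lg_E L (N' * q))) hπ hxi
    have hxiA : Transcendental ↥O (lg_lamE (L := L) (N' * q))⁻¹ :=
      fc_ff_transcendental (L := L) hxi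
    haveI : IsIntegrallyClosed
        (Algebra.adjoin ↥O ({(lg_lamE (N' * q))⁻¹} : Set ↥(lg_E L (N' * q)))) :=
      fc_ff_isIntegrallyClosed hxiA
    haveI : FaithfulSMul (Algebra.adjoin ↥O ({(lg_lamE (N' * q))⁻¹} : Set ↥(lg_E L (N' * q))))
        ↥(lg_E L (N' * q)) :=
      (faithfulSMul_iff_algebraMap_injective _ _).2 Subtype.val_injective
    have hπ𝔫 : algebraMap ↥O
        (fc_chart ↥O ({(lg_lamE (N' * q))⁻¹} : Set ↥(lg_E L (N' * q)))) π ∈ 𝔫 := by
      apply hP1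
      rw [H2.mem_P1 hC2]
      exact H2.over1.pi_mem
    exact s44rs_leg_pts2 L O hπ N' q hq2 hqN' ζ hζ 𝔫 h𝔫 hπ𝔫 hμ

end NF

end Fermat.Agent.S44
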