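/-
S44 project, cell [E2] RES, sub-cell (E2-ord) (helper6).  Prefix `s44ro_`.

**The order of the `w_∞`-reduction of a representative is divisible by `p` at every
non-supersingular place**: `A` a valuation subring of `Q̄` over `p ≥ 5`, `p ∤ M`, `f` a unit of the
Gauss ring `W∞` of `F̄_{M p}` all of whose orders (at the places of `F̄_{M p} / Q̄`) are divisible by
`p`, `Q` a place of `F_M(kA) / kA` which is NOT supersingular (`¬ s44e_IsSS`, helper20's
`Res/Defs.lean`).  Then `p ∣ ord_Q (red_∞ f)` (`s44ro_ord`).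

Proof: descent to a number field `L1` (`s44ro_ord_at`), the composite valuation
`𝒱0 = {x ∈ W1 | red x ∈ O_Q}` of `lg_F L1 (M p)`, and the number-field step `s44ro_nf`
(`Res/OrdNF.lean`).
-/
import Mathlib
import Fermat.Agent.S44.Res.OrdNF
import Fermat.Agent.S44.Res.Defs
import Fermat.Agent.S44.Res.DictMaps
import Fermat.Agent.S44.Res.GenP
import Fermat.Agent.S44.Res.SmoothTower
import Fermat.Agent.JT3.PlaceMap.BaseField

set_option autoImplicit false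
set_option linter.style.haveILetI false
set_option linter.unusedSectionVars false
set_option linter.unusedVariables false

noncomputable section

namespace Fermat.Agent.S44

open Fermat.Agent.SS Fermat.Agent.JT3 Fermat.Agent.S35 Fermat.Agent.S24 IntermediateField
  ModularCurve IsLocalRing AlgebraicCurve Polynomial

local notation "Qb" => AlgebraicClosure ℚ

section ResAlg

variable (A : ValuationSubring Qb) {p : ℕ} [hp : Fact p.Prime] (hA : A.LiesOverPrime p)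

include hA in
/-- the residue field of `A` is algebraic over every subfield. -/
theorem s44ro_kA_isIntegral {k0 : Type*} [Field k0] [Algebra k0 (ResidueField ↥A)]
    (x : ResidueField ↥A) : IsIntegral k0 x := by
  rcases eq_or_ne x 0 with rfl | hx
  · exact isIntegral_zero
  obtain ⟨a, rfl⟩ := residue_surjective x
  obtain ⟨m, hm, hpow⟩ := ebf_residue_pow_eq_one A p hA a hx
  have hm0 : m ≠ 0 := by
    rintro rfl
    exact hm (dvd_zero p)
  refine ⟨X ^ m - C 1, monic_X_pow_sub_C 1 hm0, ?_⟩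
  rw [eval₂_sub, eval₂_pow, eval₂_X, eval₂_C, hpow, map_one, sub_self]

end ResAlg

section CompAlg

variable {A0 : Type*} {F0 : Type*} [CommRing A0] [Field F0] [Algebra A0 F0]
  {k0 k κ : Type*} [Field k0] [Field k] [Field κ] [Algebra k0 k] [Algebra k κ]
  [Algebra k0 κ] [IsScalarTower k0 k κ] [Algebra.IsAlgebraic k0 k]

/-- the composite of a valuation ring `V1` with a place of its residue function field contains the
constants and has a residue field integral over them ("monic polynomial" form). -/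
theorem s44ro_comp_alg (V1 : ValuationSubring F0) (hA1 : ∀ a : A0, algebraMap A0 F0 a ∈ V1)
    (ρ : A0 →+* k0) (hρ : Function.Surjective ρ)
    (r : ↥V1 →+* κ) (hker : ∀ z : ↥V1, (z : F0) ∈ V1.nonunits → r z = 0)
    (hrA : ∀ (a : A0) (h : algebraMap A0 F0 a ∈ V1),
      r ⟨algebraMap A0 F0 a, h⟩ = algebraMap k0 κ (ρ a))
    (xb : κ) [Algebra.IsAlgebraic k⟮xb⟯ κ] (v : Place k κ) :
    (∀ a : A0, algebraMap A0 F0 a ∈ tori_comp V1 r hker v.toValuationSubring) ∧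
    ∀ z ∈ tori_comp V1 r hker v.toValuationSubring, ∃ p : A0[X], p.Monic ∧
      aeval z p ∈ (tori_comp V1 r hker v.toValuationSubring).nonunits := by
  set W := v.toValuationSubring with hW
  set 𝒱 := tori_comp V1 r hker W with h𝒱def
  have hA : ∀ a : A0, algebraMap A0 F0 a ∈ 𝒱 := fun a =>
    ⟨hA1 a, by
      rw [hrA, IsScalarTower.algebraMap_apply k0 k κ]
      exact v.algebraMap_mem' _⟩
  refine ⟨hA, ?_⟩
  let ι : A0 →+* ↥V1 :=
    { toFun := fun a => ⟨algebraMap A0 F0 a, hA1 a⟩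
      map_one' := Subtype.ext (map_one _)
      map_mul' := fun a b => Subtype.ext (map_mul _ a b)
      map_zero' := Subtype.ext (map_zero _)
      map_add' := fun a b => Subtype.ext (map_add _ a b) }
  have hι1 : V1.subtype.comp ι = algebraMap A0 F0 := RingHom.ext fun a => rfl
  have hι2 : r.comp ι = (algebraMap k0 κ).comp ρ := RingHom.ext fun a => hrA a (hA1 a)
  rintro z ⟨hzV, hzW⟩
  obtain ⟨pb, hpb, hpbW⟩ := s44rs_place_alg_tower (k0 := k0) xb v hzW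
  obtain ⟨P, hPmap, -, hPm⟩ := Polynomial.lifts_and_degree_eq_and_monic
    ((Polynomial.mem_lifts _).2 (Polynomial.map_surjective ρ hρ pb)) hpb
  refine ⟨P, hPm, ?_⟩
  have h1 : ((eval₂ ι ⟨z, hzV⟩ P : ↥V1) : F0) = aeval z P := by
    have := Polynomial.hom_eval₂ P ι V1.subtype ⟨z, hzV⟩
    rw [hι1] at this
    rw [aeval_def]
    exact this
  have h2 : r (eval₂ ι ⟨z, hzV⟩ P) = aeval (r ⟨z, hzV⟩) pb := by
    rw [Polynomial.hom_eval₂, hι2, ← Polynomial.eval₂_map, hPmap, aeval_def]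
  rw [tori_comp_mem_nonunits_iff]
  refine ⟨h1 ▸ (eval₂ ι ⟨z, hzV⟩ P).2, ?_⟩
  have h3 : (⟨aeval z P, h1 ▸ (eval₂ ι ⟨z, hzV⟩ P).2⟩ : ↥V1) = eval₂ ι ⟨z, hzV⟩ P :=
    Subtype.ext h1.symm
  rw [h3, h2]
  exact hpbW

/-- `x ^ n ∈ V` implies `x ∈ V` (`n ≠ 0`). -/
theorem s44ro_mem_of_pow_mem (V : ValuationSubring F0) {x : F0} {n : ℕ} (hn : n ≠ 0)
    (h : x ^ n ∈ V) : x ∈ V := by
  rw [← ValuationSubring.valuation_le_one_iff] at h ⊢
  by_contra hcon
  rw [not_le] at hcon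
  rw [map_pow] at h
  exact absurd h (not_le.2 (one_lt_pow₀ hcon hn))

/-- integrality over `R[x]` in "two-variable monic polynomial" form. -/
theorem s44ro_exists_poly {R : Type*} [CommRing R] [Algebra R F0] (x b : F0)
    (h : IsIntegral (Algebra.adjoin R ({x} : Set F0)) b) :
    ∃ P : Polynomial (Polynomial R), P.Monic ∧
      eval₂ (eval₂RingHom (algebraMap R F0) x) b P = 0 := by
  obtain ⟨P0, hP0m, hP0⟩ := h
  let Φ : R[X] →+* ↥(Algebra.adjoin R ({x} : Set F0)) :=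
    ((aeval (R := R) x).codRestrict (Algebra.adjoin R ({x} : Set F0)) (fun q => by
      rw [Algebra.adjoin_singleton_eq_range_aeval]
      exact ⟨q, rfl⟩)).toRingHom
  have hΦs : Function.Surjective Φ := by
    rintro ⟨y, hy⟩
    rw [Algebra.adjoin_singleton_eq_range_aeval] at hy
    obtain ⟨q, hq⟩ := hy
    exact ⟨q, Subtype.ext hq⟩
  obtain ⟨P1, hP1map, -, hP1m⟩ := Polynomial.lifts_and_degree_eq_and_monic
    ((Polynomial.mem_lifts _).2 (Polynomial.map_surjective _ hΦs P0)) hP0m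
  refine ⟨P1, hP1m, ?_⟩
  have hcomp : (algebraMap ↥(Algebra.adjoin R ({x} : Set F0)) F0).comp Φ =
      eval₂RingHom (algebraMap R F0) x := by
    apply Polynomial.ringHom_ext
    · intro a
      show ((Φ (C a) : ↥(Algebra.adjoin R ({x} : Set F0))) : F0) = _
      show aeval x (C a) = _
      rw [aeval_C, coe_eval₂RingHom, eval₂_C]
    · show ((Φ X : ↥(Algebra.adjoin R ({x} : Set F0))) : F0) = _
      show aeval x (X : R[X]) = _
      rw [aeval_X, coe_eval₂RingHom, eval₂_X]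
  rw [← hcomp, ← Polynomial.eval₂_map, hP1map]
  exact hP0

end CompAlg

section At

variable (A : ValuationSubring Qb) {p : ℕ} [hp : Fact p.Prime] (hA : A.LiesOverPrime p)
  (M : ℕ) [NeZero M] [NeZero p] [NeZero (M * p)] (hpM : ¬ p ∣ M)

set_option synthInstance.maxHeartbeats 400000 in
set_option maxHeartbeats 6400000 in
/-- **(E2-ord) over a number field of definition.** -/
theorem s44ro_ord_at (hp5 : 5 ≤ p) (L1 : IntermediateField ℚ Qb) [NumberField ↥L1]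
    (ζ : ↥L1) (hζ : IsPrimitiveRoot ζ M)
    (Q : Place (ResidueField ↥A) ↥(modularFunctionFieldFullC (ResidueField ↥A) M))
    (hns : jcr_j (k := ResidueField ↥A) M ∉ Q.toValuationSubring ∨
      ∃ (b1 : ↥(lg_F ↥L1 (M * p)))
        (hb : ssm_al_iotaF ↥L1 (M * p) b1 ∈ s44pg_W A hA hp.out.ne_zero (M * p))
        (hW : gq_IsBdd ↥(A.comap (algebraMap ↥L1 Qb)) ↥L1
          ((ssm_al_W ↥L1 M p hp.out hpM b1 : ↥(lg_F ↥L1 (M * p))) : LaurentSeries ↥L1)),
        IsIntegral (Algebra.adjoin ↥(A.comap (algebraMap ↥L1 Qb))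
          ({rdn_gf_j (L := ↥L1) (M * p)} : Set ↥(lg_F ↥L1 (M * p)))) b1 ∧
        gq_res ↥(A.comap (algebraMap ↥L1 Qb)) ↥L1 ⟨_, hW⟩ = 0 ∧
        s44rd_red A hA M hpM ⟨ssm_al_iotaF ↥L1 (M * p) b1, hb⟩ ∉
          Q.toValuationSubring.nonunits)
    (f1 : ↥(lg_F ↥L1 (M * p)))
    (hf : ssm_al_iotaF ↥L1 (M * p) f1 ∈ s44pg_W A hA hp.out.ne_zero (M * p))
    (hfi : (ssm_al_iotaF ↥L1 (M * p) f1)⁻¹ ∈ s44pg_W A hA hp.out.ne_zero (M * p))
    (hord : ∀ v : Place ↥L1 ↥(lg_F ↥L1 (M * p)), (p : ℤ) ∣ v.ord f1) :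
    (p : ℤ) ∣ Q.ord (s44rd_red A hA M hpM ⟨ssm_al_iotaF ↥L1 (M * p) f1, hf⟩) := by
  have hpp := hp.out
  have hp2 : ¬ 2 ∣ p := by
    intro h2
    have := (Nat.prime_dvd_prime_iff_eq Nat.prime_two hpp).1 h2
    omega
  set O : ValuationSubring ↥L1 := A.comap (algebraMap ↥L1 Qb) with hO
  haveI hdvr : IsDiscreteValuationRing ↥O := dsc_isDVR_comap_numberField A p hA hpp.ne_zero ↥L1
  obtain ⟨π, hπ⟩ := IsDiscreteValuationRing.exists_irreducible ↥O
  have hmem := lg_natCast_mem_maximalIdeal A hA ↥L1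
  haveI : CharP (ResidueField ↥O) p := ss_nfl_charP_residue hmem
  haveI := ssm_go_isScalarTower O (lg_F ↥L1 (M * p))
  set W1 := s44ro_W1 ↥L1 O hπ M p with hW1
  set Winf := s44pg_W A hA hpp.ne_zero (M * p) with hWinf
  set ιF := ssm_al_iotaF ↥L1 (M * p) with hιF
  have hW1iff : ∀ x : ↥(lg_F ↥L1 (M * p)), x ∈ W1 ↔ gq_IsBdd ↥O ↥L1 (x : LaurentSeries ↥L1) :=
    fun x => gq_mem_valSubOf π hπ.ne_zero hπ.maximalIdeal_eq (lg_F ↥L1 (M * p))
      (rdn_gf_le_quotField O (M * p)) x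
  have hWinfiff : ∀ x : Fbar (M * p), x ∈ Winf ↔ gq_IsBdd ↥A Qb (x : LaurentSeries Qb) :=
    fun x => s44pg_mem_iff A hA hpp.ne_zero (M * p) x
  -- boundedness and residues: `O`-level versus `A`-level
  have hbdd : ∀ x : ↥(lg_F ↥L1 (M * p)),
      gq_IsBdd ↥A Qb ((ιF x : Fbar (M * p)) : LaurentSeries Qb) ↔
        gq_IsBdd ↥O ↥L1 (x : LaurentSeries ↥L1) := fun x =>
    ssm_gb_isBdd_iff (algebraMap ↥L1 Qb) O A (fun _ => Iff.rfl) π hπ.ne_zero hπ.maximalIdeal_eq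
      (rdn_gf_le_quotField O (M * p) x.2)
  have hres0 : ∀ (x : ↥(lg_F ↥L1 (M * p))) (h1 : gq_IsBdd ↥O ↥L1 (x : LaurentSeries ↥L1))
      (h2 : gq_IsBdd ↥A Qb ((ιF x : Fbar (M * p)) : LaurentSeries Qb)),
      gq_res ↥A Qb ⟨((ιF x : Fbar (M * p)) : LaurentSeries Qb), h2⟩ = 0 ↔
        gq_res ↥O ↥L1 ⟨(x : LaurentSeries ↥L1), h1⟩ = 0 := fun x h1 h2 =>
    ssm_gb_res_eq_zero_iff (algebraMap ↥L1 Qb) O A (fun _ => Iff.rfl) ⟨_, h1⟩
  -- the reduction map of `W1`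
  let ιW : ↥W1 →+* ↥Winf :=
    { toFun := fun x => ⟨ιF (x : ↥(lg_F ↥L1 (M * p))),
        (hWinfiff _).2 ((hbdd _).2 ((hW1iff _).1 x.2))⟩
      map_one' := Subtype.ext (map_one ιF)
      map_mul' := fun a b => Subtype.ext (map_mul ιF _ _)
      map_zero' := Subtype.ext (map_zero ιF)
      map_add' := fun a b => Subtype.ext (map_add ιF _ _) }
  let red1 : ↥W1 →+* ↥(modularFunctionFieldFullC (ResidueField ↥A) M) :=
    (s44rd_red A hA M hpM).comp ιW
  have hker : ∀ z : ↥W1, (z : ↥(lg_F ↥L1 (M * p))) ∈ W1.nonunits → red1 z = 0 := by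
    intro z hz
    have hz2 := (hW1iff _).1 z.2
    have h1 := (gq_mem_nonunits_iff_res π hπ.ne_zero hπ.maximalIdeal_eq (lg_F ↥L1 (M * p))
      (rdn_gf_le_quotField O (M * p)) _ hz2).1 hz
    apply Subtype.ext
    show gq_res ↥A Qb ⟨((ιF (z : ↥(lg_F ↥L1 (M * p))) : Fbar (M * p)) : LaurentSeries Qb), _⟩ = 0
    exact (hres0 _ hz2 _).2 h1
  -- the residue fields
  set κ0 : ResidueField ↥O →+* ResidueField ↥A :=
    ssm_gb_kappa (algebraMap ↥L1 Qb) O A (fun _ => Iff.rfl) with hκ0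
  letI : Algebra (ResidueField ↥O) (ResidueField ↥A) := κ0.toAlgebra
  letI : Algebra (ResidueField ↥O) ↥(modularFunctionFieldFullC (ResidueField ↥A) M) :=
    ((algebraMap (ResidueField ↥A) ↥(modularFunctionFieldFullC (ResidueField ↥A) M)).comp
      κ0).toAlgebra
  haveI : IsScalarTower (ResidueField ↥O) (ResidueField ↥A)
      ↥(modularFunctionFieldFullC (ResidueField ↥A) M) :=
    IsScalarTower.of_algebraMap_eq fun _ => rfl
  haveI : Algebra.IsAlgebraic (ResidueField ↥O) (ResidueField ↥A) :=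
    ⟨fun x => (s44ro_kA_isIntegral A hA x).isAlgebraic⟩
  obtain ⟨ρ⟩ := lgv_exists_rhoO (L := Qb) (O := ↥A) (IsFractionRing.injective ↥A Qb) p
    (s44rg_natCast_mem A hA)
  haveI : Algebra.IsAlgebraic (ResidueField ↥A)⟮jcr_j (k := ResidueField ↥A) M⟯
      ↥(modularFunctionFieldFullC (ResidueField ↥A) M) :=
    jcr_isAlgebraic M hpM ((residue ↥A).comp ρ)
  -- constants
  have hconst : ∀ a : ↥O, ιF (algebraMap ↥O ↥(lg_F ↥L1 (M * p)) a) =
      algebraMap Qb (Fbar (M * p)) (algebraMap ↥L1 Qb (a : ↥L1)) := fun a =>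
    ssm_al_iotaF_algebraMap ↥L1 (M * p) (a : ↥L1)
  have hA1 : ∀ a : ↥O, algebraMap ↥O ↥(lg_F ↥L1 (M * p)) a ∈ W1 := by
    intro a
    refine (hW1iff _).2 ((hbdd _).1 ?_)
    rw [hconst]
    exact (hWinfiff _).1 ((s44pg_const A hA hpp.ne_zero (M * p) _).2 a.2)
  have hrA : ∀ (a : ↥O) (h : algebraMap ↥O ↥(lg_F ↥L1 (M * p)) a ∈ W1),
      red1 ⟨algebraMap ↥O ↥(lg_F ↥L1 (M * p)) a, h⟩ =
        algebraMap (ResidueField ↥O) ↥(modularFunctionFieldFullC (ResidueField ↥A) M)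
          (residue ↥O a) := by
    intro a h
    have h3 := s44rd_red_const A hA M hpM ⟨algebraMap ↥L1 Qb (a : ↥L1), a.2⟩
    have h4 : red1 ⟨algebraMap ↥O ↥(lg_F ↥L1 (M * p)) a, h⟩ =
        s44rd_red A hA M hpM ⟨algebraMap Qb (Fbar (M * p)) (algebraMap ↥L1 Qb (a : ↥L1)),
          (s44pg_const A hA hpp.ne_zero (M * p) _).2 a.2⟩ := by
      show s44rd_red A hA M hpM _ = _
      congr 1
      exact Subtype.ext (hconst a)
    rw [h4, h3]
    show _ = algebraMap (ResidueField ↥A) _ (κ0 (residue ↥O a))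
    congr 1
  set WQ := Q.toValuationSubring with hWQ
  obtain ⟨hA0, halg0⟩ := s44ro_comp_alg (A0 := ↥O) (k0 := ResidueField ↥O)
    (k := ResidueField ↥A) W1 hA1 (residue ↥O) residue_surjective red1 hker hrA
    (jcr_j (k := ResidueField ↥A) M) Q
  set 𝒱0 := tori_comp W1 red1 hker WQ with h𝒱0def
  have h𝒱0 : 𝒱0 ≤ W1 := tori_comp_le W1 red1 hker WQ
  -- the reduction of `j`
  have hredj : ∀ h : s44ro_jF ↥L1 (M * p) ∈ W1,
      red1 ⟨s44ro_jF ↥L1 (M * p), h⟩ = jcr_j (k := ResidueField ↥A) M := by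
    intro h
    apply Subtype.ext
    show gq_res ↥A Qb ⟨((ιF (s44ro_jF ↥L1 (M * p)) : Fbar (M * p)) : LaurentSeries Qb), _⟩ =
      jqModC (ResidueField ↥A)
    have e : ((ιF (s44ro_jF ↥L1 (M * p)) : Fbar (M * p)) : LaurentSeries Qb) =
        qExpand Qb 1 (jqModC Qb) := by
      rw [qExpand_one_apply]
      show coeffMap (algebraMap ↥L1 Qb) (jqModC ↥L1) = jqModC Qb
      exact coeffMap_jqModC _
    exact (rdn_res_congr _ (s44rd_isBdd_gen A 1) e).trans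
      (by rw [s44rd_res_gen A 1, qExpand_one_apply])
  -- the non-supersingularity hypothesis at number-field level
  have hns' : s44ro_jF ↥L1 (M * p) ∉ 𝒱0 ∨ ∃ b0 : ↥(lg_F ↥L1 (M * p)),
      (∃ P : Polynomial (Polynomial ↥O), P.Monic ∧
        eval₂ (eval₂RingHom (algebraMap ↥O ↥(lg_F ↥L1 (M * p))) (s44ro_jF ↥L1 (M * p))) b0 P = 0) ∧
      rdn_gf_W ↥L1 M p hpM b0 ∈ (s44ro_W1 ↥L1 O hπ M p).nonunits ∧ b0 ∉ 𝒱0.nonunits := by
    rcases hns with hcusp | ⟨b1, hb1W, hWb, hint, hWres, hb1Q⟩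
    · left
      rintro ⟨hj1, hj2⟩
      rw [hredj hj1] at hj2
      exact hcusp hj2
    · right
      refine ⟨b1, s44ro_exists_poly _ _ hint, ?_, ?_⟩
      · -- `W b1 ∈ 𝔪(W1)`
        exact (gq_mem_nonunits_iff_res π hπ.ne_zero hπ.maximalIdeal_eq (lg_F ↥L1 (M * p))
          (rdn_gf_le_quotField O (M * p)) _ hWb).2 hWres
      · intro hnu
        obtain ⟨h', hr'⟩ := (tori_comp_mem_nonunits_iff W1 red1 hker WQ).1 hnu
        exact hb1Q hr'
  -- the trivial case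
  rcases eq_or_ne f1 0 with rfl | hf10
  · have h0 : (⟨ιF 0, hf⟩ : ↥Winf) = 0 := Subtype.ext (map_zero ιF)
    rw [h0, map_zero]
    simp
  -- `f1` is a unit of `W1`
  have hb : f1 ∈ W1 := (hW1iff f1).2 ((hbdd f1).1 ((hWinfiff _).1 hf))
  have hbi : f1⁻¹ ∈ W1 := by
    refine (hW1iff f1⁻¹).2 ((hbdd f1⁻¹).1 ((hWinfiff _).1 ?_))
    rw [map_inv₀]
    exact hfi
  obtain ⟨h, hh0, hu1, hu2⟩ := s44ro_nf ↥L1 O hπ M p hp2 hpM ζ hζ 𝒱0 h𝒱0 hA0 halg0 hns' hpp hp5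
    hf10 hord hb hbi
  -- conclusion
  set u := f1 / h ^ p with hu
  obtain ⟨huW, hunu⟩ := tori_comp_unit W1 red1 hker WQ hu1 hu2
  have hu0 : u ≠ 0 := ssm_tp_ne_zero 𝒱0 hu2
  have hui : u⁻¹ ∈ W1 := h𝒱0 (ssm_tp_inv_mem 𝒱0 hu2)
  have hhp : h ^ p = f1 * u⁻¹ := by
    rw [hu, inv_div, mul_div_assoc', mul_div_cancel_left₀ _ hf10]
  have hhW : h ∈ W1 := by
    refine s44ro_mem_of_pow_mem W1 hpp.ne_zero ?_
    rw [hhp]
    exact W1.mul_mem _ _ hb hui
  have hhiW : h⁻¹ ∈ W1 := by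
    refine s44ro_mem_of_pow_mem W1 hpp.ne_zero ?_
    rw [inv_pow, hhp, mul_inv, inv_inv]
    exact W1.mul_mem _ _ hbi hu1.1
  have hmul : (⟨f1, hb⟩ : ↥W1) = ⟨u, hu1.1⟩ * ⟨h, hhW⟩ ^ p := by
    apply Subtype.ext
    show f1 = u * h ^ p
    rw [hu, div_mul_cancel₀ _ (pow_ne_zero _ hh0)]
  have hred : s44rd_red A hA M hpM ⟨ιF f1, hf⟩ = red1 ⟨u, hu1.1⟩ * red1 ⟨h, hhW⟩ ^ p := by
    rw [← map_pow, ← map_mul, ← hmul]
    rfl
  have hrh0 : red1 ⟨h, hhW⟩ ≠ 0 := by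
    have h1 : red1 ⟨h, hhW⟩ * red1 ⟨h⁻¹, hhiW⟩ = 1 := by
      rw [← map_mul]
      have : (⟨h, hhW⟩ * ⟨h⁻¹, hhiW⟩ : ↥W1) = 1 := Subtype.ext (mul_inv_cancel₀ hh0)
      rw [this, map_one]
    exact left_ne_zero_of_mul_eq_one h1
  have hru0 : red1 ⟨u, hu1.1⟩ ≠ 0 := ssm_tp_ne_zero WQ hunu
  rw [hred, Q.ord_mul hru0 (pow_ne_zero p hrh0), tori_sfd_ord_unit Q huW hunu, zero_add,
    ← zpow_natCast, Q.ord_zpow]
  exact dvd_mul_right _ _

end At

end Fermat.Agent.S44
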