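/-
S44 [RES-DICT] for [E2] (helper28; prefix `s44rd_`): (D1), (D2) in EXACTLY the shape `hmem` / `hsurj`
of helper20's `Res/Glue.lean` (vocabulary of `Res/Defs.lean`; `s44_Qb` is the abbrev of `AlgebraicClosure ℚ`).
-/
import Mathlib
import Fermat.Agent.S44.Res.Dict
import Fermat.Agent.JT3.Inst.Defs

set_option autoImplicit false
set_option linter.unusedSectionVars false
set_option linter.unusedVariables false

noncomputable section

namespace Fermat.Agent.S44

open ModularCurve IsLocalRing
open Fermat.Agent.JT3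

local notation "Qb" => AlgebraicClosure ℚ

variable (A : ValuationSubring Qb) {p : ℕ} [hp : Fact p.Prime] (hA : A.LiesOverPrime p)
  (M : ℕ) [NeZero M] [NeZero p] [NeZero (M * p)] (hpM : ¬ p ∣ M)

include hA hpM in
/-- (D1) in the `hmem` shape. -/
theorem s44rd_hmem :
    ∀ (b : modularFunctionFieldBar (M * p)) (h : gq_IsBdd ↥A Qb (b : LaurentSeries Qb)),
      gq_res ↥A Qb ⟨(b : LaurentSeries Qb), h⟩ ∈ lg_F (ResidueField ↥A) M :=
  fun b h => s44rd_res_mem A hA M hpM b.2 h

include hA hpM in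
/-- (D2) in the `hsurj` shape. -/
theorem s44rd_hsurj :
    ∀ g : lg_F (ResidueField ↥A) M,
      ∃ (b : modularFunctionFieldBar (M * p))
        (h : gq_IsBdd ↥A Qb (b : LaurentSeries Qb)),
        gq_res ↥A Qb ⟨(b : LaurentSeries Qb), h⟩ =
          (g : LaurentSeries (ResidueField ↥A)) := by
  intro g
  obtain ⟨b, hb⟩ := s44rd_red_surjective A hA M hpM g
  refine ⟨(b : modularFunctionFieldBar (M * p)), b.2, ?_⟩
  rw [← hb]
  rfl

end Fermat.Agent.S44
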