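import Fermat.Agent.S44.Res.Glue
import Fermat.Agent.S44.Res.DictE2
import Fermat.Agent.S44.Big.OldK

/-!
# S44 cell [E2] RES (helper20): THE DELIVERABLES for `s44_frame2`

With helper28's residue dictionary (`s44rd_hmem`, `s44rd_hsurj`) the glue of `Res/Glue.lean` gives,
for `A = s44f_A p`:

* `s44e_nu_add_frame2`    : the field `ν_add` of `s44bg_Cells` for `ν = s44e_nu`;
* `s44e_OrdOff`           : the statement (E2-ord) (`p ∣ ord_Q` of the reduction of a Gauss unit with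
                            `p`-divisible divisor at every NON-supersingular place `Q`), in the shape of
                            helper6's `s44ro_ord`;
* `s44e_dvd_all`          : (E2-ord) + `ν z = 0` ⟹ `p ∣ ord_Q f̄_z` at EVERY place;
* `s44e_delta_add_frame2`, `s44e_delta_ne_frame2` : the fields `add`, `ne_zero` of `s44bg_DeltaPkg`
                            for `δ = s44e_delta`, from (E2-ord).
-/

set_option autoImplicit false
set_option linter.unusedSectionVars false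
set_option linter.style.haveILetI false

noncomputable section

namespace Fermat.Agent.S44

open ModularCurve AlgebraicCurve IsLocalRing Fermat.Agent.JT3 Fermat.Agent.S35 Fermat.Agent.SS
  Fermat.Agent.S24 Fermat.Agent.SS2

local notation "Qb" => AlgebraicClosure ℚ

section General

variable (A : ValuationSubring Qb) {p : ℕ} [hp : Fact p.Prime] (hA : A.LiesOverPrime p)
  (M : ℕ) [NeZero M] [NeZero p] [NeZero (M * p)] (hpM : ¬ p ∣ M)

/-- **(E2-ord)**, the shape of helper6's `s44ro_ord`: the reduction of a Gauss unit whose divisor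
is divisible by `p` has order divisible by `p` at every non-supersingular place. -/
def s44e_OrdOff : Prop :=
  ∀ (f : ↥(s44pg_W A hA hp.out.ne_zero (M * p))),
    ((f : modularFunctionFieldBar (M * p)))⁻¹ ∈ s44pg_W A hA hp.out.ne_zero (M * p) →
    (∀ v : Place Qb (modularFunctionFieldBar (M * p)),
      (p : ℤ) ∣ v.ord (f : modularFunctionFieldBar (M * p))) →
    ∀ Q : Place (s44e_kA A) (s44e_FF A M), ¬ s44e_IsSS A M p hp.out hpM Q →
      (p : ℤ) ∣ Q.ord (s44rd_red A hA M hpM f)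

include hA hpM in
/-- **`ν_add`** for `ν = s44e_nu`. -/
theorem s44e_nu_add {z z' : JZero (M * p)} (hz : p • z = 0) (hz' : p • z' = 0) :
    s44e_nu A M p hp.out hpM (z + z') =
      s44e_nu A M p hp.out hpM z + s44e_nu A M p hp.out hpM z' := by
  funext i
  exact s44e_nuAll_add A hp.out hA M (s44rd_hmem A hA M hpM) hz hz' i.1

include hA hpM in
/-- a reduction in the sense of `s44e_RedOf` is the value of `s44rd_red`. -/
theorem s44e_redOf_eq_red {f : modularFunctionFieldBar (M * p)} {fb : s44e_FF A M}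
    (h : s44e_RedOf A M f fb) :
    ∃ hf : f ∈ s44pg_W A hA hp.out.ne_zero (M * p), fb = s44rd_red A hA M hpM ⟨f, hf⟩ := by
  obtain ⟨hb, e⟩ := h
  exact ⟨hb, Subtype.ext e.symm⟩

include hA hpM in
/-- (E2-ord) for `f̄_z`, any choice. -/
theorem s44e_ord_off_of_Fbar (hoff : s44e_OrdOff A hA M hpM) {z : JZero (M * p)}
    {fb : s44e_FF A M} (h : s44e_Fbar A M p z fb)
    (Q : Place (s44e_kA A) (s44e_FF A M)) (hQ : ¬ s44e_IsSS A M p hp.out hpM Q) :
    (p : ℤ) ∣ Q.ord fb := by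
  obtain ⟨hfb0, f, hf, hred⟩ := h
  obtain ⟨hfW, rfl⟩ := s44e_redOf_eq_red A hA M hpM hred
  obtain ⟨hb, e⟩ := hred
  -- `f⁻¹` is Gauss-bounded since the residue is nonzero
  have hres : gq_res ↥A Qb ⟨(f : LaurentSeries Qb), hb⟩ ≠ 0 := by
    rw [e]
    intro h0
    exact hfb0 (Subtype.ext h0)
  have hinv : (f : modularFunctionFieldBar (M * p))⁻¹ ∈ s44pg_W A hA hp.out.ne_zero (M * p) := by
    have h1 := gq_isBdd_inv_of_res_ne_zero ⟨(f : LaurentSeries Qb), hb⟩ hres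
    show gq_IsBdd ↥A Qb ((f⁻¹ : modularFunctionFieldBar (M * p)) : LaurentSeries Qb)
    rwa [IntermediateField.coe_inv]
  obtain ⟨-, D, -, hD⟩ := hf
  exact hoff ⟨f, hfW⟩ hinv (fun v => ⟨_, (hD v).symm⟩) Q hQ

include hA hpM in
/-- (E2-ord) for the chosen `f̄_z`. -/
theorem s44e_ord_off (hoff : s44e_OrdOff A hA M hpM) {z : JZero (M * p)} (hz : p • z = 0)
    (Q : Place (s44e_kA A) (s44e_FF A M)) (hQ : ¬ s44e_IsSS A M p hp.out hpM Q) :
    (p : ℤ) ∣ Q.ord (s44e_fbar A M p z) :=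
  s44e_ord_off_of_Fbar A hA M hpM hoff
    (s44e_fbar_spec A hp.out hA M (s44rd_hmem A hA M hpM) hz) Q hQ

include hA hpM in
/-- (E2-ord) + `ν z = 0` ⟹ the divisor of `f̄_z` is divisible by `p`. -/
theorem s44e_dvd_all (hoff : s44e_OrdOff A hA M hpM) {z : JZero (M * p)} (hz : p • z = 0)
    (hν : s44e_nu A M p hp.out hpM z = 0) (Q : Place (s44e_kA A) (s44e_FF A M)) :
    (p : ℤ) ∣ Q.ord (s44e_fbar A M p z) := by
  by_cases hQ : s44e_IsSS A M p hp.out hpM Q
  · have h := congrFun hν ⟨Q, hQ⟩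
    exact (ZMod.intCast_zmod_eq_zero_iff_dvd _ _).1 h
  · exact s44e_ord_off A hA M hpM hoff hz Q hQ

include hA hpM in
/-- the field `add` of `s44bg_DeltaPkg`. -/
theorem s44e_delta_add_of_nu (hoff : s44e_OrdOff A hA M hpM) {z z' : JZero (M * p)}
    (hz : p • z = 0) (hz' : p • z' = 0) (hν : s44e_nu A M p hp.out hpM z = 0)
    (hν' : s44e_nu A M p hp.out hpM z' = 0) :
    s44e_delta A M p (z + z') = s44e_delta A M p z + s44e_delta A M p z' :=
  s44e_delta_add A hp.out hA M hpM (s44rd_hmem A hA M hpM) hz hz'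
    (s44e_dvd_all A hA M hpM hoff hz hν) (s44e_dvd_all A hA M hpM hoff hz' hν')

include hA hpM in
/-- the field `ne_zero` of `s44bg_DeltaPkg`. -/
theorem s44e_delta_ne_of_nu (hoff : s44e_OrdOff A hA M hpM) {z : JZero (M * p)}
    (hz : p • z = 0) (hν : s44e_nu A M p hp.out hpM z = 0)
    (hD : ¬ ∃ c : Qb, c ≠ 0 ∧ c ∈ A.nonunits ∧ s44f_Depth2 (M * p) A p c (AlgHom.id _ _) z) :
    s44e_delta A M p z ≠ 0 := by
  refine s44e_delta_ne A hp.out hA M hpM (s44rd_hmem A hA M hpM) hz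
    (s44e_dvd_all A hA M hpM hoff hz hν) ?_
  intro hpow
  exact hD (s44e_depth_of_pow A hp.out hA M (s44rd_hsurj A hA M hpM)
    (s44e_fbar_spec A hp.out hA M (s44rd_hmem A hA M hpM) hz) hpow)

end General

/-! ### the instance `s44_frame2` -/

section Frame2

variable (P : FreyPackage) (M : ℕ) [NeZero M] [NeZero (M * P.p)] (hpM : ¬ P.p ∣ M)

/-- **the field `ν_add` of `s44bg_Cells`** for `s44_frame2` and `ν = s44e_nu`. -/
theorem s44e_nu_add_frame2 (z z' : JZero (M * P.p)) (hz : P.p • z = 0) (hz' : P.p • z' = 0) :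
    s44e_nu (s44f_A P.p P.pp) M P.p P.pp hpM (z + z') =
      s44e_nu (s44f_A P.p P.pp) M P.p P.pp hpM z + s44e_nu (s44f_A P.p P.pp) M P.p P.pp hpM z' :=
  haveI : Fact P.p.Prime := ⟨P.pp⟩
  s44e_nu_add (s44f_A P.p P.pp) (s44f_A_liesOver P.p P.pp) M hpM hz hz'

/-- (E2-ord) for `s44_frame2`. -/
def s44e_OrdOff_frame2 : Prop :=
  haveI : Fact P.p.Prime := ⟨P.pp⟩
  s44e_OrdOff (s44f_A P.p P.pp) (s44f_A_liesOver P.p P.pp) M hpM

/-- **the fields `add`, `ne_zero` of `s44bg_DeltaPkg`** for `s44_frame2`, `ν = s44e_nu`,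
`δ = s44e_delta`, from (E2-ord). -/
theorem s44e_delta_add_frame2 (hoff : s44e_OrdOff_frame2 P M hpM) (z z' : JZero (M * P.p))
    (hz : P.p • z = 0) (hz' : P.p • z' = 0)
    (hν : s44e_nu (s44f_A P.p P.pp) M P.p P.pp hpM z = 0)
    (hν' : s44e_nu (s44f_A P.p P.pp) M P.p P.pp hpM z' = 0) :
    s44e_delta (s44f_A P.p P.pp) M P.p (z + z') =
      s44e_delta (s44f_A P.p P.pp) M P.p z + s44e_delta (s44f_A P.p P.pp) M P.p z' :=
  haveI : Fact P.p.Prime := ⟨P.pp⟩
  s44e_delta_add_of_nu (s44f_A P.p P.pp) (s44f_A_liesOver P.p P.pp) M hpM hoff hz hz' hν hν'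

theorem s44e_delta_ne_frame2 (hoff : s44e_OrdOff_frame2 P M hpM) (z : JZero (M * P.p))
    (hz : P.p • z = 0) (hν : s44e_nu (s44f_A P.p P.pp) M P.p P.pp hpM z = 0)
    (hD : ¬ (s44_frame2 P M hpM).D1inf z) :
    s44e_delta (s44f_A P.p P.pp) M P.p z ≠ 0 :=
  haveI : Fact P.p.Prime := ⟨P.pp⟩
  s44e_delta_ne_of_nu (s44f_A P.p P.pp) (s44f_A_liesOver P.p P.pp) M hpM hoff hz hν hD

/-- **the [E2] half of `s44bg_DeltaPkg`**: given (E2-ord) and the Hecke equivariance [E3b] of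
`δ = s44e_delta`, the package for `s44_frame2`. -/
theorem s44e_deltaPkg_frame2 (hoff : s44e_OrdOff_frame2 P M hpM)
    (t : Nat.Primes → JZeroC (s44e_kA (s44f_A P.p P.pp)) M →+ JZeroC (s44e_kA (s44f_A P.p P.pp)) M)
    (hhecke : ∀ ℓ : Nat.Primes, ¬ (ℓ : ℕ) ∣ M * P.p → ∀ z : JZero (M * P.p), P.p • z = 0 →
      s44e_nu (s44f_A P.p P.pp) M P.p P.pp hpM z = 0 →
      s44e_nu (s44f_A P.p P.pp) M P.p P.pp hpM (heckeOperatorBar (M * P.p) ℓ z) = 0 →
      s44e_delta (s44f_A P.p P.pp) M P.p (heckeOperatorBar (M * P.p) ℓ z) =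
        t ℓ (s44e_delta (s44f_A P.p P.pp) M P.p z)) :
    s44bg_DeltaPkg (s44_frame2 P M hpM) (s44e_nu (s44f_A P.p P.pp) M P.p P.pp hpM) t
      (s44e_delta (s44f_A P.p P.pp) M P.p) where
  add := s44e_delta_add_frame2 P M hpM hoff
  ne_zero := s44e_delta_ne_frame2 P M hpM hoff
  hecke := hhecke

end Frame2

end Fermat.Agent.S44
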