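import Fermat.Agent.S44.Res.ChartInt
import Fermat.Agent.S44.Res.Dict
import Fermat.Agent.S44.Mono.DataNF

/-!
# S44 cell [E2] RES (helper20; prefix `s44ec_`): the number-field forms of `s44e_IsSS`

`A` over `p`, `L1 ⊆ ℚ̄` a number field, `O = A ∩ L1`, `W = ssm_al_W L1 M p` (Atkin–Lehner over `L1`),
`ιF = ssm_al_iotaF L1 (M p)`, `j = rdn_gf_j (M p)`, `red = s44rd_red A hA M hpM`.

* `s44ec_isSS_nf`     : **(up)** `Q` supersingular, `b1 ∈ lg_F L1 (M p)` integral over `O[j]`,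
                        `W b1` Gauss-bounded over `O` with residue `0` ⟹ `red (ιF b1) ∈ 𝔪_Q`;
* `s44ec_not_isSS_nf` : **(down)** `Q` NOT supersingular, `j̄` finite at `Q` ⟹ for every number
                        field `L1 ⊇` a finite set there is such a `b1` with `red (ιF b1) ∉ 𝔪_Q`.
-/

set_option autoImplicit false
set_option linter.unusedSectionVars false
set_option linter.style.haveILetI false

noncomputable section

namespace Fermat.Agent.S44

open ModularCurve AlgebraicCurve IsLocalRing Polynomial Fermat.Agent.JT3 Fermat.Agent.S35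
  Fermat.Agent.SS Fermat.Agent.S24

variable (A : ValuationSubring s44_Qb) {p : ℕ} [hp : Fact p.Prime] (hA : A.LiesOverPrime p)
  (M : ℕ) [NeZero M] [NeZero p] [NeZero (M * p)] (hpM : ¬ p ∣ M)

/-- `ιF` commutes with the Gauss reductions: boundedness. -/
theorem s44ec_isBdd_iotaF (L1 : IntermediateField ℚ s44_Qb) (N : ℕ) [NeZero N] (x1 : lg_F L1 N)
    (h : gq_IsBdd ↥(A.comap (algebraMap L1 s44_Qb)) L1 (x1 : LaurentSeries L1)) :
    gq_IsBdd ↥A s44_Qb ((ssm_al_iotaF L1 N x1 : modularFunctionFieldBar N) :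
      LaurentSeries s44_Qb) :=
  ssm_gb_isBdd (algebraMap L1 s44_Qb) (A.comap (algebraMap L1 s44_Qb)) A (fun _ => Iff.rfl) h

include hA hpM in
/-- **(up)**: the number-field form of the supersingularity condition. -/
theorem s44ec_isSS_nf {Q : Place (s44e_kA A) (s44e_FF A M)}
    (hQ : s44e_IsSS A M p hp.out hpM Q) (L1 : IntermediateField ℚ s44_Qb)
    (b1 : lg_F L1 (M * p))
    (hint : IsIntegral (Algebra.adjoin ↥(A.comap (algebraMap L1 s44_Qb))
      ({rdn_gf_j (L := L1) (M * p)} : Set (lg_F L1 (M * p)))) b1)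
    (hW : gq_IsBdd ↥(A.comap (algebraMap L1 s44_Qb)) L1
      ((ssm_al_W L1 M p hp.out hpM b1 : lg_F L1 (M * p)) : LaurentSeries L1))
    (hW0 : gq_res ↥(A.comap (algebraMap L1 s44_Qb)) L1 ⟨_, hW⟩ = 0)
    (hb : (ssm_al_iotaF L1 (M * p) b1 : modularFunctionFieldBar (M * p)) ∈
      s44pg_W A hA hp.out.ne_zero (M * p)) :
    ((s44rd_red A hA M hpM ⟨ssm_al_iotaF L1 (M * p) b1, hb⟩ : s44e_FF A M)) ∈
      Q.toValuationSubring.nonunits := by
  refine hQ.2 (ssm_al_iotaF L1 (M * p) b1) (s44ec_isChartInt_of_nf A (M * p) L1 b1 hint) ?_ _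
    ⟨hb, rfl⟩
  -- `W̄ (ιF b1) = ιF (W b1)` is Gauss-bounded with residue `0`
  have hspec := ssm_al_W_spec L1 M p hp.out hpM b1
  have hbdd : gq_IsBdd ↥A s44_Qb
      ((ssm_al_Wbar M p hp.out hpM (ssm_al_iotaF L1 (M * p) b1) :
        modularFunctionFieldBar (M * p)) : LaurentSeries s44_Qb) := by
    rw [← hspec]
    exact s44ec_isBdd_iotaF A L1 (M * p) _ hW
  refine ⟨hbdd, ?_⟩
  have h1 := (ssm_gb_res_eq_zero_iff (algebraMap L1 s44_Qb) (A.comap (algebraMap L1 s44_Qb)) A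
    (fun _ => Iff.rfl) ⟨_, hW⟩).2 hW0
  have h2 : (⟨((ssm_al_Wbar M p hp.out hpM (ssm_al_iotaF L1 (M * p) b1) :
      modularFunctionFieldBar (M * p)) : LaurentSeries s44_Qb), hbdd⟩ :
      ↥(gq_bddSubring ↥A s44_Qb)) =
      ⟨coeffMap (algebraMap L1 s44_Qb)
        ((ssm_al_W L1 M p hp.out hpM b1 : lg_F L1 (M * p)) : LaurentSeries L1),
        ssm_gb_isBdd (algebraMap L1 s44_Qb) (A.comap (algebraMap L1 s44_Qb)) A
          (fun _ => Iff.rfl) hW⟩ := by
    apply Subtype.ext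
    show _ = ((ssm_al_iotaF L1 (M * p) (ssm_al_W L1 M p hp.out hpM b1) :
      modularFunctionFieldBar (M * p)) : LaurentSeries s44_Qb)
    rw [hspec]
  rw [h2]
  exact h1

include hA hpM in
/-- **(down)**: a place with `j̄` finite which is NOT supersingular has a number-field witness, over
every sufficiently large number field. -/
theorem s44ec_not_isSS_nf {Q : Place (s44e_kA A) (s44e_FF A M)}
    (hj : jcr_j (k := s44e_kA A) M ∈ Q.toValuationSubring)
    (hQ : ¬ s44e_IsSS A M p hp.out hpM Q) :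
    ∃ T : Finset s44_Qb, ∀ (L1 : IntermediateField ℚ s44_Qb) [FiniteDimensional ℚ L1],
      (↑T : Set s44_Qb) ⊆ L1 →
      ∃ (b1 : lg_F L1 (M * p))
        (hb : (ssm_al_iotaF L1 (M * p) b1 : modularFunctionFieldBar (M * p)) ∈
          s44pg_W A hA hp.out.ne_zero (M * p))
        (hW : gq_IsBdd ↥(A.comap (algebraMap L1 s44_Qb)) L1
          ((ssm_al_W L1 M p hp.out hpM b1 : lg_F L1 (M * p)) : LaurentSeries L1)),
        IsIntegral (Algebra.adjoin ↥(A.comap (algebraMap L1 s44_Qb))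
          ({rdn_gf_j (L := L1) (M * p)} : Set (lg_F L1 (M * p)))) b1 ∧
        gq_res ↥(A.comap (algebraMap L1 s44_Qb)) L1 ⟨_, hW⟩ = 0 ∧
        ((s44rd_red A hA M hpM ⟨ssm_al_iotaF L1 (M * p) b1, hb⟩ : s44e_FF A M)) ∉
          Q.toValuationSubring.nonunits := by
  classical
  -- unfold the negation
  have hex : ∃ b : modularFunctionFieldBar (M * p), s44e_IsChartInt A (M * p) b ∧
      (∃ h : gq_IsBdd ↥A s44_Qb ((ssm_al_Wbar M p hp.out hpM b : modularFunctionFieldBar (M * p)) :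
        LaurentSeries s44_Qb), gq_res ↥A s44_Qb ⟨_, h⟩ = 0) ∧
      ∃ fb : s44e_FF A M, s44e_RedOf A M b fb ∧ fb ∉ Q.toValuationSubring.nonunits := by
    by_contra hcon
    apply hQ
    refine ⟨hj, fun b hb hWb fb hfb => ?_⟩
    by_contra hfbQ
    exact hcon ⟨b, hb, hWb, fb, hfb, hfbQ⟩
  obtain ⟨b, hbint, ⟨hWbdd, hWres⟩, fb, ⟨hbb, hbres⟩, hfbQ⟩ := hex
  obtain ⟨T1, hT1⟩ := s44ec_isChartInt_descent A (M * p) hbint
  obtain ⟨T2, hT2⟩ := s44mn_exists_nf_all (M * p) {b}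
  refine ⟨T1 ∪ T2, fun L1 _ hT => ?_⟩
  have hT1' : (↑T1 : Set s44_Qb) ⊆ L1 := fun a ha => hT (by
    rw [Finset.mem_coe] at ha ⊢
    exact Finset.mem_union_left _ ha)
  have hT2' : (↑T2 : Set s44_Qb) ⊆ L1 := fun a ha => hT (by
    rw [Finset.mem_coe] at ha ⊢
    exact Finset.mem_union_right _ ha)
  obtain ⟨b1, hb1⟩ := hT2 L1 hT2' b (Finset.mem_singleton_self b)
  subst hb1
  haveI : NumberField L1 := { to_charZero := inferInstance, to_finiteDimensional := inferInstance }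
  haveI : IsDiscreteValuationRing ↥(A.comap (algebraMap L1 s44_Qb)) :=
    dsc_isDVR_comap_numberField A p hA hp.out.ne_zero L1
  obtain ⟨π0, hirr⟩ := IsDiscreteValuationRing.exists_irreducible
    ↥(A.comap (algebraMap L1 s44_Qb))
  -- `W b1` is Gauss-bounded over `O`
  have hspec := ssm_al_W_spec L1 M p hp.out hpM b1
  have hq : gq_IsQuot ↥(A.comap (algebraMap L1 s44_Qb)) L1
      ((ssm_al_W L1 M p hp.out hpM b1 : lg_F L1 (M * p)) : LaurentSeries L1) :=
    rdn_gf_le_quotField (A.comap (algebraMap L1 s44_Qb)) (M * p)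
      (ssm_al_W L1 M p hp.out hpM b1).2
  have hWA : gq_IsBdd ↥A s44_Qb (coeffMap (algebraMap L1 s44_Qb)
      ((ssm_al_W L1 M p hp.out hpM b1 : lg_F L1 (M * p)) : LaurentSeries L1)) := by
    have : coeffMap (algebraMap L1 s44_Qb)
        ((ssm_al_W L1 M p hp.out hpM b1 : lg_F L1 (M * p)) : LaurentSeries L1) =
        ((ssm_al_Wbar M p hp.out hpM (ssm_al_iotaF L1 (M * p) b1) :
          modularFunctionFieldBar (M * p)) : LaurentSeries s44_Qb) := by
      rw [← hspec]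
      rfl
    rw [this]
    exact hWbdd
  have hW : gq_IsBdd ↥(A.comap (algebraMap L1 s44_Qb)) L1
      ((ssm_al_W L1 M p hp.out hpM b1 : lg_F L1 (M * p)) : LaurentSeries L1) :=
    (ssm_gb_isBdd_iff (algebraMap L1 s44_Qb) (A.comap (algebraMap L1 s44_Qb)) A
      (fun _ => Iff.rfl) π0 hirr.ne_zero hirr.maximalIdeal_eq hq).1 hWA
  refine ⟨b1, hbb, hW, hT1 L1 hT1' b1 rfl, ?_, ?_⟩
  · refine (ssm_gb_res_eq_zero_iff (algebraMap L1 s44_Qb) (A.comap (algebraMap L1 s44_Qb)) A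
      (fun _ => Iff.rfl) ⟨_, hW⟩).1 ?_
    have h2 : (⟨coeffMap (algebraMap L1 s44_Qb)
        ((ssm_al_W L1 M p hp.out hpM b1 : lg_F L1 (M * p)) : LaurentSeries L1),
        ssm_gb_isBdd (algebraMap L1 s44_Qb) (A.comap (algebraMap L1 s44_Qb)) A
          (fun _ => Iff.rfl) hW⟩ : ↥(gq_bddSubring ↥A s44_Qb)) =
        ⟨((ssm_al_Wbar M p hp.out hpM (ssm_al_iotaF L1 (M * p) b1) :
          modularFunctionFieldBar (M * p)) : LaurentSeries s44_Qb), hWbdd⟩ := by
      apply Subtype.ext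
      show ((ssm_al_iotaF L1 (M * p) (ssm_al_W L1 M p hp.out hpM b1) :
        modularFunctionFieldBar (M * p)) : LaurentSeries s44_Qb) = _
      rw [hspec]
    rw [h2]
    exact hWres
  · have h3 : (s44rd_red A hA M hpM ⟨ssm_al_iotaF L1 (M * p) b1, hbb⟩ : s44e_FF A M) = fb :=
      Subtype.ext hbres
    rw [h3]
    exact hfbQ

end Fermat.Agent.S44
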