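/-
S44 project, cell [E2] RES, sub-cell (E2-ord) (helper6).  Prefix `s44ro_`.

**(E2-ord), final form**: `s44ro_ord : 5 ≤ p → s44e_OrdOff A hA M hpM` and
`s44ro_ord_frame2 : s44e_OrdOff_frame2 P M hpM`.

The wrapper around `s44ro_ord_at` (`Res/OrdSS.lean`): descent of `f` (and of the witness of
non-supersingularity, helper20's `s44ec_not_isSS_nf`) to a number field `L1 ⊆ Q̄` containing a
primitive `M`-th root of unity, and descent of the divisibility of the orders
(`dsc_bc_dvd_ord`).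
-/
import Mathlib
import Fermat.Agent.S44.Res.OrdSS
import Fermat.Agent.S44.Res.SSNF
import Fermat.Agent.S44.Res.Main
import Fermat.Agent.S44.Bridge.NF

set_option autoImplicit false
set_option linter.style.haveILetI false
set_option linter.unusedSectionVars false
set_option linter.unusedVariables false

noncomputable section

namespace Fermat.Agent.S44

open Fermat.Agent.SS Fermat.Agent.JT3 Fermat.Agent.S35 Fermat.Agent.S24 IntermediateField
  ModularCurve IsLocalRing AlgebraicCurve Polynomial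

local notation "Qb" => AlgebraicClosure ℚ

section Desc

set_option synthInstance.maxHeartbeats 400000 in
set_option maxHeartbeats 3200000 in
/-- descent of the divisibility of all orders from `F̄_N / Q̄` to `lg_F L1 N / L1`. -/
theorem s44ro_hord_desc (L1 : IntermediateField ℚ Qb) (N : ℕ) [NeZero N] (m : ℤ)
    (f1 : ↥(lg_F ↥L1 N))
    (hord : ∀ v : Place Qb (Fbar N), m ∣ v.ord (ssm_al_iotaF ↥L1 N f1)) :
    ∀ v : Place ↥L1 ↥(lg_F ↥L1 N), m ∣ v.ord f1 := by
  have _ : Algebra.IsAlgebraic ℚ Qb := AlgebraicClosure.isAlgebraic ℚ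
  have _ : Algebra.IsAlgebraic ↥L1 Qb := Algebra.IsAlgebraic.tower_top (K := ℚ) ↥L1
  have hmem : (f1 : LaurentSeries ↥L1) ∈ laurentBaseChange ↥L1 (modularFunctionFieldFull N) := by
    rw [← lg_F_eq_laurentBaseChange ↥L1 N]
    exact f1.2
  set f1' : laurentBaseChange ↥L1 (modularFunctionFieldFull N) := ⟨(f1 : LaurentSeries ↥L1), hmem⟩
    with hf1'
  have hbc : dsc_bcHom ↥L1 Qb (modularFunctionFieldFull N) f1' = ssm_al_iotaF ↥L1 N f1 := by
    apply Subtype.ext
    rw [dsc_bcHom_coe, ssm_al_coe_iotaF, dsc_cm]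
  have hord1 : ∀ Q : Place ↥L1 (laurentBaseChange ↥L1 (modularFunctionFieldFull N)),
      m ∣ Q.ord f1' := fun Q =>
    dsc_bc_dvd_ord ↥L1 Qb (modularFunctionFieldFull N) m f1'
      (fun P => by rw [hbc]; exact hord P) Q
  let ψ : ↥(laurentBaseChange ↥L1 (modularFunctionFieldFull N)) →ₐ[↥L1] ↥(lg_F ↥L1 N) :=
    IntermediateField.inclusion (lg_F_eq_laurentBaseChange ↥L1 N).ge
  have hψ : ψ f1' = f1 := Subtype.ext rfl
  intro v
  have := lg_dvd_ord_of_embedding ψ m f1' hord1 v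
  rwa [hψ] at this

end Desc

section Main

variable (A : ValuationSubring Qb) {p : ℕ} [hp : Fact p.Prime] (hA : A.LiesOverPrime p)
  (M : ℕ) [NeZero M] [NeZero p] [NeZero (M * p)] (hpM : ¬ p ∣ M)

set_option synthInstance.maxHeartbeats 400000 in
set_option maxHeartbeats 3200000 in
/-- **(E2-ord)**: the reduction of a Gauss unit whose divisor is divisible by `p` has order
divisible by `p` at every non-supersingular place. -/
theorem s44ro_ord (hp5 : 5 ≤ p) : s44e_OrdOff A hA M hpM := by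
  intro f hfi hord Q hQ
  classical
  obtain ⟨ζ', hζ'⟩ := HasEnoughRootsOfUnity.exists_primitiveRoot Qb M
  -- the finite set coming from non-supersingularity
  obtain ⟨T, hT⟩ : ∃ T : Finset Qb, ∀ (L1 : IntermediateField ℚ Qb) [FiniteDimensional ℚ ↥L1],
      (↑T : Set Qb) ⊆ L1 →
      (jcr_j (k := ResidueField ↥A) M ∉ Q.toValuationSubring ∨
      ∃ (b1 : ↥(lg_F ↥L1 (M * p)))
        (hb : ssm_al_iotaF ↥L1 (M * p) b1 ∈ s44pg_W A hA hp.out.ne_zero (M * p))
        (hW : gq_IsBdd ↥(A.comap (algebraMap ↥L1 Qb)) ↥L1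
          ((ssm_al_W ↥L1 M p hp.out hpM b1 : ↥(lg_F ↥L1 (M * p))) : LaurentSeries ↥L1)),
        IsIntegral (Algebra.adjoin ↥(A.comap (algebraMap ↥L1 Qb))
          ({rdn_gf_j (L := ↥L1) (M * p)} : Set ↥(lg_F ↥L1 (M * p)))) b1 ∧
        gq_res ↥(A.comap (algebraMap ↥L1 Qb)) ↥L1 ⟨_, hW⟩ = 0 ∧
        s44rd_red A hA M hpM ⟨ssm_al_iotaF ↥L1 (M * p) b1, hb⟩ ∉
          Q.toValuationSubring.nonunits) := by
    by_cases hj : jcr_j (k := ResidueField ↥A) M ∈ Q.toValuationSubring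
    · obtain ⟨T, hT⟩ := s44ec_not_isSS_nf A hA M hpM hj hQ
      exact ⟨T, fun L1 _ h => Or.inr (hT L1 h)⟩
    · exact ⟨∅, fun L1 _ _ => Or.inl hj⟩
  obtain ⟨L1, hfd, -, hTL, hS⟩ := s44b_exists_nf (M * p)
    ({(f : modularFunctionFieldBar (M * p))} : Finset _) (insert ζ' T)
  haveI := hfd
  haveI : NumberField ↥L1 := { to_charZero := inferInstance, to_finiteDimensional := hfd }
  obtain ⟨f1, hf1⟩ := hS _ (Finset.mem_singleton_self _)
  have hζL : ζ' ∈ L1 := hTL (by
    rw [Finset.coe_insert]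
    exact Set.mem_insert _ _)
  have hTL' : (↑T : Set Qb) ⊆ L1 := fun a ha => hTL (by
    rw [Finset.coe_insert]
    exact Set.mem_insert_of_mem _ ha)
  have hζ1 : IsPrimitiveRoot (⟨ζ', hζL⟩ : ↥L1) M :=
    (IsPrimitiveRoot.map_iff_of_injective (f := algebraMap ↥L1 Qb)
      (algebraMap ↥L1 Qb).injective).1 hζ'
  have hord1 : ∀ v : Place ↥L1 ↥(lg_F ↥L1 (M * p)), (p : ℤ) ∣ v.ord f1 :=
    s44ro_hord_desc L1 (M * p) (p : ℤ) f1 (fun v => by rw [hf1]; exact hord v)
  have hfW : ssm_al_iotaF ↥L1 (M * p) f1 ∈ s44pg_W A hA hp.out.ne_zero (M * p) := by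
    rw [hf1]
    exact f.2
  have key := s44ro_ord_at A hA M hpM hp5 L1 ⟨ζ', hζL⟩ hζ1 Q (hT L1 hTL') f1 hfW
    (by rw [hf1]; exact hfi) hord1
  have e : f = ⟨ssm_al_iotaF ↥L1 (M * p) f1, hfW⟩ := Subtype.ext hf1.symm
  rw [e]
  exact key

end Main

section Frame2

variable (P : FreyPackage) (M : ℕ) [NeZero M] [NeZero (M * P.p)] (hpM : ¬ P.p ∣ M)

set_option synthInstance.maxHeartbeats 400000 in
set_option maxHeartbeats 3200000 in
/-- **(E2-ord) for `s44_frame2`.** -/
theorem s44ro_ord_frame2 : s44e_OrdOff_frame2 P M hpM :=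
  haveI : Fact P.p.Prime := ⟨P.pp⟩
  s44ro_ord (s44f_A P.p P.pp) (s44f_A_liesOver P.p P.pp) M hpM P.hp5

end Frame2

end Fermat.Agent.S44
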