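/-
S44, [RES-DICT-E] (E-0) (helper28; prefix `s44re_`): THE RESIDUE FIELD OF AN ETALE SIMPLE EXTENSION
OF VALUATION RINGS.  Mathlib only.

`K ⊆ E` finite separable, `A ⊆ K`, `B ⊆ E` valuation subrings with `B` dominating `A`, `θ ∈ B` with
`E = K(θ)`, `P ∈ A[X]` monic with `P(θ) = 0` and `P'(θ)` a unit of `B`.  Then every `b ∈ B` is
`g(θ) / h(θ)` with `g, h ∈ A[X]` and `h(θ)` a unit of `B` (`s44re_etale`): the residue field of `B` is
generated over the residue field of `A` by the residue of `θ`.  No uniqueness of the extension of the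
valuation and no degree computation is needed:

* `s44re_bourbaki`      : every `b ∈ B` is `z / y` with `y, z` integral over `A` and `y` a unit of `B`
                          (valuation rings over `A` are localisations of the integral closure);
* `s44re_deriv_mul_mem` : `μ'(θ) · w ∈ A[θ]` for `w` integral over `A`, `μ` the minimal polynomial
                          of `θ` (dual lattice of `A[θ]` under the trace form).
-/
import Mathlib

set_option autoImplicit false
set_option linter.unusedSectionVars false
set_option linter.unusedVariables false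

noncomputable section

namespace Fermat.Agent.S44

open Polynomial

section EtaleRes

variable {K E : Type*} [Field K] [Field E] [Algebra K E] (A : ValuationSubring K)
  (B : ValuationSubring E)

theorem s44re_algebraMap_eq (x : ↥A) : algebraMap ↥A E x = algebraMap K E (x : K) := rfl

/-- polynomial expressions in an element of `B` with coefficients in `A` lie in `B`. -/
theorem s44re_aeval_mem (hAB : ∀ x : K, x ∈ A → algebraMap K E x ∈ B) {θ : E} (hθB : θ ∈ B)
    (Q : Polynomial ↥A) : aeval θ Q ∈ B := by
  rw [aeval_eq_sum_range]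
  refine sum_mem fun i _ => ?_
  rw [Algebra.smul_def, s44re_algebraMap_eq]
  exact B.mul_mem _ _ (hAB _ (Q.coeff i).2) (pow_mem hθB i)

theorem s44re_not_mem_nonunits_of_mul {x y : E} (hy : y ∈ B) (h : x * y ∉ B.nonunits) :
    x ∉ B.nonunits := by
  intro hx
  apply h
  rw [ValuationSubring.mem_nonunits_iff] at hx ⊢
  rw [map_mul]
  calc B.valuation x * B.valuation y ≤ B.valuation x * 1 := by
        gcongr
        exact (B.valuation_le_one_iff y).2 hy
    _ = B.valuation x := mul_one _
    _ < 1 := hx

theorem s44re_unit_mul {x y : E} (hx : x ∈ B) (hxu : x ∉ B.nonunits) (hy : y ∈ B)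
    (hyu : y ∉ B.nonunits) : x * y ∉ B.nonunits := by
  rw [ValuationSubring.mem_nonunits_iff, not_lt] at hxu hyu ⊢
  have h1 : B.valuation x = 1 := le_antisymm ((B.valuation_le_one_iff x).2 hx) hxu
  have h2 : B.valuation y = 1 := le_antisymm ((B.valuation_le_one_iff y).2 hy) hyu
  rw [map_mul, h1, h2, mul_one]

/-- **valuation rings over `A` are localisations of the integral closure.** -/
theorem s44re_bourbaki [Algebra.IsAlgebraic K E]
    (hAB : ∀ x : K, x ∈ A → algebraMap K E x ∈ B)
    (hdom : ∀ x : K, x ∈ A.nonunits → algebraMap K E x ∈ B.nonunits)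
    {b : E} (hb : b ∈ B) :
    ∃ y z : E, IsIntegral ↥A y ∧ IsIntegral ↥A z ∧ y ∈ B ∧ y ∉ B.nonunits ∧ b * y = z := by
  classical
  have h1nu : (1 : E) ∉ B.nonunits := by
    rw [ValuationSubring.mem_nonunits_iff, map_one]
    exact lt_irrefl _
  by_cases hb0 : b = 0
  · exact ⟨1, 0, isIntegral_one, isIntegral_zero, B.one_mem, h1nu, by rw [hb0, zero_mul]⟩
  have hbalg : IsIntegral K b := (Algebra.IsAlgebraic.isAlgebraic b).isIntegral
  set m := minpoly K b with hm_def
  set d := m.natDegree with hd_def
  have hm : aeval b m = 0 := minpoly.aeval K b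
  have hmon : m.Monic := minpoly.monic hbalg
  obtain ⟨i0, hi0, hmax⟩ := Finset.exists_max_image (Finset.range (d + 1))
    (fun i => A.valuation (m.coeff i)) ⟨d, by simp⟩
  have hvd : A.valuation (m.coeff d) = 1 := by
    rw [hd_def, coeff_natDegree, hmon.leadingCoeff, map_one]
  have hv0 : A.valuation (m.coeff i0) ≠ 0 := by
    intro h
    have h1 := hmax d (by simp)
    simp only [h, hvd] at h1
    exact absurd h1 (by simp)
  have hc0 : m.coeff i0 ≠ 0 := fun h => hv0 (by rw [h, map_zero])
  set c := m.coeff i0 with hc_def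
  set a : ℕ → K := fun i => m.coeff i / c with ha_def
  have haA : ∀ i, a i ∈ A := by
    intro i
    by_cases hi : i ∈ Finset.range (d + 1)
    · rw [← A.valuation_le_one_iff, ha_def, map_div₀]
      exact (div_le_one₀ (zero_lt_iff.mpr hv0)).mpr (hmax i hi)
    · have : m.coeff i = 0 := by
        apply coeff_eq_zero_of_natDegree_lt
        rw [Finset.mem_range, not_lt] at hi
        omega
      rw [ha_def]
      simp only [this, zero_div]
      exact A.zero_mem
  have hsum : ∑ i ∈ Finset.range (d + 1), algebraMap K E (a i) * b ^ i = 0 := by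
    have h := hm
    rw [aeval_eq_sum_range] at h
    have h2 : ∑ i ∈ Finset.range (d + 1), algebraMap K E (a i) * b ^ i =
        (algebraMap K E c)⁻¹ * ∑ i ∈ Finset.range (d + 1), m.coeff i • b ^ i := by
      rw [Finset.mul_sum]
      refine Finset.sum_congr rfl fun i _ => ?_
      rw [ha_def, Algebra.smul_def]
      simp only [map_div₀]
      ring
    rw [h2, h, mul_zero]
  -- the largest index with a unit coefficient
  set S := (Finset.range (d + 1)).filter (fun i => a i ∉ A.nonunits) with hS_def
  have h1nuA : (1 : K) ∉ A.nonunits := by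
    rw [ValuationSubring.mem_nonunits_iff, map_one]
    exact lt_irrefl _
  have hS : S.Nonempty := by
    refine ⟨i0, ?_⟩
    rw [hS_def, Finset.mem_filter]
    refine ⟨hi0, ?_⟩
    have : a i0 = 1 := div_self hc0
    rw [this]
    exact h1nuA
  set j := S.max' hS with hj_def
  have hjS : j ∈ S := Finset.max'_mem S hS
  rw [hS_def, Finset.mem_filter, Finset.mem_range] at hjS
  obtain ⟨hjd, hju⟩ := hjS
  have hgt : ∀ i, i ∈ Finset.range (d + 1) → j < i → a i ∈ A.nonunits := by
    intro i hi hji
    by_contra hni
    have : i ∈ S := by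
      rw [hS_def, Finset.mem_filter]
      exact ⟨hi, hni⟩
    exact absurd (Finset.le_max' S i this) (not_le.mpr hji)
  set y : E := ∑ i ∈ (Finset.range (d + 1)).filter (fun i => j ≤ i),
    algebraMap K E (a i) * b ^ (i - j) with hy_def
  -- `y` is a unit of `B`
  have hyB : y ∈ B := by
    rw [hy_def]
    exact sum_mem fun i _ => B.mul_mem _ _ (hAB _ (haA i)) (pow_mem hb _)
  have hyu : y ∉ B.nonunits := by
    have hjmem : j ∈ (Finset.range (d + 1)).filter (fun i => j ≤ i) := by
      rw [Finset.mem_filter, Finset.mem_range]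
      exact ⟨hjd, le_rfl⟩
    have hsplit : y = algebraMap K E (a j) +
        ∑ i ∈ ((Finset.range (d + 1)).filter (fun i => j ≤ i)).erase j,
          algebraMap K E (a i) * b ^ (i - j) := by
      rw [hy_def, ← Finset.add_sum_erase _ _ hjmem, Nat.sub_self, pow_zero, mul_one]
    have hrest : ∑ i ∈ ((Finset.range (d + 1)).filter (fun i => j ≤ i)).erase j,
        algebraMap K E (a i) * b ^ (i - j) ∈ B.nonunits := by
      refine B.nonunits.sum_mem fun i hi => ?_
      rw [Finset.mem_erase, Finset.mem_filter] at hi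
      obtain ⟨hne, hir, hji⟩ := hi
      have hlt : j < i := lt_of_le_of_ne hji (Ne.symm hne)
      have h1 := hdom _ (hgt i hir hlt)
      rw [ValuationSubring.mem_nonunits_iff] at h1 ⊢
      rw [map_mul]
      calc B.valuation (algebraMap K E (a i)) * B.valuation (b ^ (i - j))
          ≤ B.valuation (algebraMap K E (a i)) * 1 := by
            gcongr
            exact (B.valuation_le_one_iff _).2 (pow_mem hb _)
        _ = B.valuation (algebraMap K E (a i)) := mul_one _
        _ < 1 := h1
    have haj : B.valuation (algebraMap K E (a j)) = 1 := by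
      apply le_antisymm ((B.valuation_le_one_iff _).2 (hAB _ (haA j)))
      have hinv : (a j)⁻¹ ∈ A := by
        by_contra hni
        exact hju ((A.mem_nonunits_iff_or).2 (Or.inr hni))
      have hj0 : a j ≠ 0 := by
        intro h0
        apply hju
        rw [h0, ValuationSubring.mem_nonunits_iff, map_zero]
        exact zero_lt_one
      have h2 := (B.valuation_le_one_iff _).2 (hAB _ hinv)
      rw [map_inv₀, map_inv₀] at h2
      have hpos : 0 < B.valuation (algebraMap K E (a j)) := by
        rw [zero_lt_iff, Ne, map_eq_zero, map_eq_zero]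
        exact hj0
      exact (inv_le_one₀ hpos).mp h2
    rw [ValuationSubring.mem_nonunits_iff, not_lt, hsplit]
    rw [ValuationSubring.mem_nonunits_iff] at hrest
    have := Valuation.map_add_eq_of_lt_left B.valuation (x := algebraMap K E (a j))
      (y := ∑ i ∈ ((Finset.range (d + 1)).filter (fun i => j ≤ i)).erase j,
        algebraMap K E (a i) * b ^ (i - j)) (by rw [haj]; exact hrest)
    rw [this, haj]
  -- `j ≥ 1`
  have hj1 : j ≠ 0 := by
    intro hj0
    apply hyu
    have : y = 0 := by
      rw [hy_def, ← hsum]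
      rw [hj0]
      simp only [zero_le, Finset.filter_true, Nat.sub_zero]
    rw [this, ValuationSubring.mem_nonunits_iff, map_zero]
    exact zero_lt_one
  obtain ⟨j', hj'⟩ := Nat.exists_eq_succ_of_ne_zero hj1
  set z : E := -∑ i ∈ Finset.range (j' + 1), algebraMap K E (a i) * (b⁻¹) ^ (j' - i) with hz_def
  have hbyz : b * y = z := by
    have e1 : b ^ (j' + 1) * y =
        ∑ i ∈ (Finset.range (d + 1)).filter (fun i => j ≤ i), algebraMap K E (a i) * b ^ i := by
      rw [hy_def, Finset.mul_sum]
      refine Finset.sum_congr rfl fun i hi => ?_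
      rw [Finset.mem_filter] at hi
      have : b ^ i = b ^ (j' + 1) * b ^ (i - j) := by
        rw [← pow_add]
        congr 1
        omega
      rw [this]
      ring
    have e2 : b ^ j' * z =
        -∑ i ∈ (Finset.range (d + 1)).filter (fun i => ¬ j ≤ i), algebraMap K E (a i) * b ^ i := by
      have hset : (Finset.range (d + 1)).filter (fun i => ¬ j ≤ i) = Finset.range (j' + 1) := by
        ext i
        simp only [Finset.mem_filter, Finset.mem_range, not_le]
        omega
      rw [hset, hz_def, mul_neg, Finset.mul_sum]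
      congr 1
      refine Finset.sum_congr rfl fun i hi => ?_
      rw [Finset.mem_range] at hi
      have : b ^ j' = b ^ i * b ^ (j' - i) := by
        rw [← pow_add]
        congr 1
        omega
      rw [this, inv_pow]
      field_simp
    have e3 := Finset.sum_filter_add_sum_filter_not (Finset.range (d + 1)) (fun i => j ≤ i)
      (fun i => algebraMap K E (a i) * b ^ i)
    rw [hsum, ← e1] at e3
    have e4 : b ^ j' * (b * y - z) = 0 := by
      rw [mul_sub, e2, ← mul_assoc, ← pow_succ, sub_neg_eq_add]
      exact e3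
    rcases mul_eq_zero.mp e4 with h | h
    · exact absurd h (pow_ne_zero _ hb0)
    · exact sub_eq_zero.mp h
  -- integrality
  have hkey : ∀ V : ValuationSubring E, (∀ x : K, x ∈ A → algebraMap K E x ∈ V) → y ∈ V ∧ z ∈ V := by
    intro V hV
    rcases V.mem_or_inv_mem b with hbV | hbV
    · have hyV : y ∈ V := by
        rw [hy_def]
        exact sum_mem fun i _ => V.mul_mem _ _ (hV _ (haA i)) (pow_mem hbV _)
      exact ⟨hyV, hbyz ▸ V.mul_mem _ _ hbV hyV⟩
    · have hzV : z ∈ V := by
        rw [hz_def]
        exact neg_mem (sum_mem fun i _ => V.mul_mem _ _ (hV _ (haA i)) (pow_mem hbV _))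
      refine ⟨?_, hzV⟩
      have : y = b⁻¹ * z := by
        rw [← hbyz, ← mul_assoc, inv_mul_cancel₀ hb0, one_mul]
      rw [this]
      exact V.mul_mem _ _ hbV hzV
  have hint : ∀ w : E, (∀ V : ValuationSubring E, (∀ x : K, x ∈ A → algebraMap K E x ∈ V) → w ∈ V) →
      IsIntegral ↥A w := by
    intro w hw
    by_contra hni
    have hnot : w ∉ (integralClosure ↥A E).toSubring := fun h => hni h
    obtain ⟨V, hRV, hwV⟩ := Subring.exists_le_valuationSubring_of_isIntegrallyClosedIn hnot
    apply hwV
    apply hw V
    intro x hx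
    apply hRV
    have : algebraMap K E x = algebraMap ↥A E ⟨x, hx⟩ := rfl
    rw [this]
    exact (integralClosure ↥A E).algebraMap_mem _
  exact ⟨y, z, hint y fun V hV => (hkey V hV).1, hint z fun V hV => (hkey V hV).2, hyB, hyu, hbyz⟩

/-- **the dual lattice of `A[θ]`**: `μ'(θ) w ∈ A[θ]` for `w` integral over `A`. -/
theorem s44re_deriv_mul_mem [FiniteDimensional K E] [Algebra.IsSeparable K E] {θ : E}
    (hθ : Algebra.adjoin K {θ} = ⊤) (hθi : IsIntegral ↥A θ) {w : E} (hw : IsIntegral ↥A w) :
    aeval θ (derivative (minpoly K θ)) * w ∈ Algebra.adjoin ↥A {θ} := by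
  have h := traceForm_dualSubmodule_adjoin ↥A K hθ hθi
  have hc : aeval θ (derivative (minpoly K θ)) ≠ 0 :=
    (Algebra.IsSeparable.isSeparable K θ).aeval_derivative_ne_zero (minpoly.aeval _ _)
  have hmem : w ∈ (Algebra.traceForm K E).dualSubmodule
      (Subalgebra.toSubmodule (Algebra.adjoin ↥A {θ})) := by
    rw [LinearMap.BilinForm.mem_dualSubmodule]
    intro a ha
    rw [Algebra.traceForm_apply]
    have hai : IsIntegral ↥A a := by
      have hle : Algebra.adjoin ↥A {θ} ≤ integralClosure ↥A E := by
        rw [Algebra.adjoin_le_iff]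
        rintro x rfl
        exact hθi
      exact hle ha
    have ht : IsIntegral ↥A (Algebra.trace K E (w * a)) := Algebra.isIntegral_trace (hw.mul hai)
    obtain ⟨r, hr⟩ := IsIntegrallyClosed.isIntegral_iff.mp ht
    rw [Submodule.mem_one]
    exact ⟨r, hr⟩
  rw [h] at hmem
  obtain ⟨n, hn, hnw⟩ := (Submodule.mem_smul_pointwise_iff_exists _ _ _).mp hmem
  rw [← hnw, smul_eq_mul, mul_inv_cancel_left₀ hc]
  exact hn

/-- **the residue field of an etale simple extension of valuation rings.** -/
theorem s44re_etale [FiniteDimensional K E] [Algebra.IsSeparable K E]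
    (hAB : ∀ x : K, x ∈ A → algebraMap K E x ∈ B)
    (hdom : ∀ x : K, x ∈ A.nonunits → algebraMap K E x ∈ B.nonunits)
    {θ : E} (hθB : θ ∈ B) (hθ : Algebra.adjoin K {θ} = ⊤) (P : Polynomial ↥A) (hP : P.Monic)
    (hroot : aeval θ P = 0) (hder : aeval θ (derivative P) ∉ B.nonunits) {b : E} (hb : b ∈ B) :
    ∃ g h : Polynomial ↥A, aeval θ h ∉ B.nonunits ∧ b * aeval θ h = aeval θ g := by
  have hθi : IsIntegral ↥A θ := ⟨P, hP, by rw [← aeval_def]; exact hroot⟩
  obtain ⟨ν, hν⟩ := minpoly.isIntegrallyClosed_dvd hθi hroot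
  set μ := minpoly ↥A θ with hμ_def
  have hμ0 : aeval θ μ = 0 := minpoly.aeval _ _
  have hder2 : aeval θ (derivative P) = aeval θ (derivative μ) * aeval θ ν := by
    rw [hν, derivative_mul, map_add, map_mul, map_mul, hμ0, zero_mul, add_zero]
  set c := aeval θ (derivative μ) with hc_def
  have hcB : c ∈ B := s44re_aeval_mem A B hAB hθB _
  have hcu : c ∉ B.nonunits := by
    apply s44re_not_mem_nonunits_of_mul B (s44re_aeval_mem A B hAB hθB ν)
    rw [← hder2]
    exact hder
  have hcK : aeval θ (derivative (minpoly K θ)) = c := by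
    rw [minpoly.isIntegrallyClosed_eq_field_fractions' K hθi, derivative_map,
      aeval_map_algebraMap]
  obtain ⟨y, z, hyi, hzi, hyB, hyu, hbyz⟩ := s44re_bourbaki A B hAB hdom hb
  have h1 := s44re_deriv_mul_mem A hθ hθi hyi
  have h2 := s44re_deriv_mul_mem A hθ hθi hzi
  rw [hcK, Algebra.adjoin_singleton_eq_range_aeval] at h1 h2
  obtain ⟨h, hh⟩ := h1
  obtain ⟨g, hg⟩ := h2
  refine ⟨g, h, ?_, ?_⟩
  · have : aeval θ h = c * y := hh
    rw [this]
    exact s44re_unit_mul B hcB hcu hyB hyu
  · have e1 : aeval θ h = c * y := hh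
    have e2 : aeval θ g = c * z := hg
    rw [e1, e2, ← hbyz]
    ring

end EtaleRes

end Fermat.Agent.S44
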