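/-
S44, [RES-DICT-E] (E-1) (helper28; prefix `s44re_`): THE RESIDUE FIELD OF THE GAUSS VALUATION OF THE
LEGENDRE COVER AT A GOOD LEVEL.

`(L, O)`: `O` a discrete valuation subring of a field `L` of characteristic zero, residue field `k` of
characteristic `p`, `p ≠ 2`, `p ∤ M`.  Then the Gauss residue of every Gauss-bounded element of
`lg_E L M = L(λ, j(q^{2d}) : d ∣ M)` lies in `lg_E k M` (`s44re_res_mem_good`).

Route: `K = L(λ)` has residue field `k(λ̄)` (`gq_isBdd_adjoin_simple_iff`); `E = K(θ)`,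
`θ = j(q^{2M})`, is an etale simple extension for the Gauss rings (`Φ_M(j', Y)` is separable modulo
`p`: `lgv_separable`), so `s44re_etale` applies.
-/
import Mathlib
import Fermat.Agent.S44.Res.EtaleRes
import Fermat.Agent.SS.Model.Gauss
import Fermat.Agent.SS.Model.GaussOver
import Fermat.Agent.JT3.Inst.Vert
import Fermat.Agent.JT3.Bridge.GaussModular
import Fermat.Agent.JT3.Bridge.GaussCenter

set_option autoImplicit false
set_option linter.unusedSectionVars false
set_option linter.unusedVariables false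
set_option linter.style.haveILetI false

noncomputable section

namespace Fermat.Agent.S44

open ModularCurve IntermediateField IsLocalRing Polynomial
open Fermat.Agent.JT3 Fermat.Agent.SS Fermat.Agent.S28

section SepEval

/-- a root of a polynomial which is separable over `k(X)` is a simple root after ANY transcendental
specialisation of `X`. -/
theorem s44re_sep_eval {k Ω : Type*} [Field k] [Field Ω] [Algebra k Ω]
    (Ψ : Polynomial (Polynomial k))
    (hsep : (Ψ.map (algebraMap (Polynomial k) (RatFunc k))).Separable)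
    {t y : Ω} (ht : Transcendental k t)
    (hroot : Ψ.eval₂ ((aeval t : Polynomial k →ₐ[k] Ω) : Polynomial k →+* Ω) y = 0) :
    (derivative Ψ).eval₂ ((aeval t : Polynomial k →ₐ[k] Ω) : Polynomial k →+* Ω) y ≠ 0 := by
  have hinj : Function.Injective ((aeval t : Polynomial k →ₐ[k] Ω) : Polynomial k →+* Ω) := by
    rw [injective_iff_map_eq_zero]
    intro c hc
    by_contra hne
    exact ht ⟨c, hne, hc⟩
  let σ : RatFunc k →+* Ω := IsFractionRing.lift hinj
  have hσ : σ.comp (algebraMap (Polynomial k) (RatFunc k)) =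
      ((aeval t : Polynomial k →ₐ[k] Ω) : Polynomial k →+* Ω) := by
    refine RingHom.ext fun x => ?_
    rw [RingHom.comp_apply]
    exact IsFractionRing.lift_algebraMap hinj x
  obtain ⟨a, b, hab⟩ := hsep
  have h := congrArg (Polynomial.eval₂ σ y) hab
  rw [eval₂_add, eval₂_mul, eval₂_mul, eval₂_one, eval₂_map, derivative_map, eval₂_map, hσ,
    hroot, mul_zero, zero_add] at h
  intro h0
  rw [h0, mul_zero] at h
  exact zero_ne_one h

end SepEval

section Good

variable {L : Type*} [Field L] [CharZero L] (O : ValuationSubring L) [IsDiscreteValuationRing O]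
  {π : O} (hπ : Irreducible π)

/-- `λ̄` is transcendental, in the shape of the Gauss bridge. -/
theorem s44re_hlam (h2 : (2 : ResidueField O) ≠ 0) :
    ∀ P : (ResidueField O)[X], aeval (coeffMap (residue O) (hm_lam O)) P = 0 → P = 0 := by
  intro P hP
  rw [hm_coeffMap_lam] at hP
  by_contra hne
  exact lgf_lam_transcendental' (ResidueField O) h2 ⟨P, hne, hP⟩

include hπ in
/-- **the residue field of `L(λ)` is `k(λ̄)`.** -/
theorem s44re_res_K (h2 : (2 : ResidueField O) ≠ 0) {x : LaurentSeries L} (hx : x ∈ lg_K L)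
    (hb : gq_IsBdd O L x) : gq_res O L ⟨x, hb⟩ ∈ lg_K (ResidueField O) := by
  have hx' : x ∈ IntermediateField.adjoin L {coeffMap (algebraMap O L) (hm_lam O)} := by
    rw [hm_coeffMap_lam]
    exact hx
  obtain ⟨a, b, hb0, h⟩ := (gq_isBdd_adjoin_simple_iff π hπ.ne_zero hπ.maximalIdeal_eq (hm_lam O)
    (s44re_hlam O h2) x hx').1 hb
  have hz2 : coeffMap (residue O) (aeval (hm_lam O) b) ≠ 0 := by
    rw [gq_red_aeval]
    intro h0
    exact hb0 (s44re_hlam O h2 _ h0)
  rw [gq_res_eq ⟨x, hb⟩ hz2 h, gq_red_aeval, gq_red_aeval, hm_coeffMap_lam]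
  have hmem : ∀ P : (ResidueField O)[X], aeval (hm_lam (ResidueField O)) P ∈
      lg_K (ResidueField O) := by
    intro P
    rw [aeval_eq_sum_range]
    refine sum_mem fun i _ => ?_
    rw [Algebra.smul_def]
    exact mul_mem (IntermediateField.algebraMap_mem _ _)
      (pow_mem (lg_lam_mem_K (ResidueField O)) i)
  exact div_mem (hmem _) (hmem _)

/-- the residue homomorphism on the Gauss valuation ring of a subfield of `L((q))`. -/
def s44re_resOf (E0 : IntermediateField L (LaurentSeries L)) (hE : E0 ≤ gq_quotField O L) :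
    ↥(gq_valSubOf π hπ.ne_zero hπ.maximalIdeal_eq E0 hE) →+* LaurentSeries (ResidueField O) :=
  (gq_res O L).comp
    (RingHom.codRestrict
      (E0.val.toRingHom.comp (gq_valSubOf π hπ.ne_zero hπ.maximalIdeal_eq E0 hE).subtype)
      (gq_bddSubring O L) (fun z => z.2))

theorem s44re_resOf_apply (E0 : IntermediateField L (LaurentSeries L))
    (hE : E0 ≤ gq_quotField O L) (z : ↥(gq_valSubOf π hπ.ne_zero hπ.maximalIdeal_eq E0 hE)) :
    s44re_resOf O hπ E0 hE z = gq_res O L ⟨((z : ↥E0) : LaurentSeries L), z.2⟩ := rfl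

theorem s44re_resOf_iota (E0 : IntermediateField L (LaurentSeries L))
    (hE : E0 ≤ gq_quotField O L) (z : ↥(gq_valSubOf π hπ.ne_zero hπ.maximalIdeal_eq E0 hE))
    (y : LaurentSeries O) (hy : ((z : ↥E0) : LaurentSeries L) = coeffMap (algebraMap O L) y) :
    s44re_resOf O hπ E0 hE z = coeffMap (residue O) y := by
  rw [s44re_resOf_apply, ← gq_res_iota (K := L) y]
  congr 1
  exact Subtype.ext hy

theorem s44re_resOf_eq_zero_iff (E0 : IntermediateField L (LaurentSeries L))
    (hE : E0 ≤ gq_quotField O L) (z : ↥(gq_valSubOf π hπ.ne_zero hπ.maximalIdeal_eq E0 hE)) :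
    s44re_resOf O hπ E0 hE z = 0 ↔
      (z : ↥E0) ∈ (gq_valSubOf π hπ.ne_zero hπ.maximalIdeal_eq E0 hE).nonunits :=
  (gq_mem_nonunits_iff_res π hπ.ne_zero hπ.maximalIdeal_eq E0 hE (z : ↥E0) z.2).symm

section Main

variable (M p : ℕ) [NeZero M] [hp : Fact p.Prime] [CharP (ResidueField O) p]

/-- bounded constants. -/
theorem s44re_isBdd_const (a : ↥O) :
    gq_IsBdd O L (algebraMap L (LaurentSeries L) (a : L)) := by
  have h : algebraMap L (LaurentSeries L) (a : L) =
      coeffMap (algebraMap O L) (algebraMap O (LaurentSeries O) a) := by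
    rw [gq_coeffMap_algebraMap]
    rfl
  rw [h]
  exact gq_isBdd_iota _

theorem s44re_j2_eq : lg_j2 L = coeffMap (algebraMap O L) (qExpand O 2 (jqModC O)) := by
  rw [lg_j2, coeffMap_qExpand, coeffMap_jqModC]

theorem s44re_theta_eq :
    lg_phi L (qExpand L M (jqModC L)) =
      coeffMap (algebraMap O L) (qExpand O 2 (qExpand O M (jqModC O))) := by
  rw [lg_phi_apply, coeffMap_qExpand, coeffMap_qExpand, coeffMap_jqModC]

include hπ in
/-- **the residue field of the Gauss valuation of the Legendre cover at a good level**. -/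
theorem s44re_res_mem_good (h2 : (2 : ResidueField O) ≠ 0) (hpM : ¬ p ∣ M)
    {b : LaurentSeries L} (hbE : b ∈ lg_E L M) (hb : gq_IsBdd O L b) :
    gq_res O L ⟨b, hb⟩ ∈ lg_E (ResidueField O) M := by
  set E0 := lg_E L M with hE0
  have hE : E0 ≤ gq_quotField O L := ssm_ga_E_le_quotField O M
  set B := gq_valSubOf π hπ.ne_zero hπ.maximalIdeal_eq E0 hE with hB
  set Kf : IntermediateField L ↥E0 := L⟮(lg_lamE M : ↥E0)⟯ with hKf
  haveI : FiniteDimensional ↥Kf ↥E0 := lgf_finite L M
  haveI : Algebra.IsSeparable ↥Kf ↥E0 := inferInstance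
  haveI := ssm_go_isScalarTower O E0
  set A : ValuationSubring ↥Kf := B.comap (algebraMap ↥Kf ↥E0) with hA
  have hAB : ∀ x : ↥Kf, x ∈ A → algebraMap ↥Kf ↥E0 x ∈ B := fun x hx => hx
  have hdom : ∀ x : ↥Kf, x ∈ A.nonunits → algebraMap ↥Kf ↥E0 x ∈ B.nonunits := by
    intro x hx
    rw [ValuationSubring.mem_nonunits_iff_or] at hx ⊢
    rcases hx with rfl | hx
    · exact Or.inl (map_zero _)
    · right
      intro h
      apply hx
      show algebraMap ↥Kf ↥E0 x⁻¹ ∈ B
      rw [map_inv₀]
      exact h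
  -- the generator
  set θ : ↥E0 := lgv_theta L M M with hθ_def
  have hθcoe : (θ : LaurentSeries L) = lg_phi L (qExpand L M (jqModC L)) :=
    lgv_theta_coe L M (dvd_refl M)
  have hθB : θ ∈ B := by
    show gq_IsBdd O L (θ : LaurentSeries L)
    rw [hθcoe, s44re_theta_eq O M]
    exact gq_isBdd_iota _
  -- constants and `j'` in `A`
  have hqO : ((p : ℕ) : ↥O) ∈ maximalIdeal ↥O := by
    rw [← residue_eq_zero_iff, map_natCast]
    exact CharP.cast_eq_zero (ResidueField ↥O) p
  obtain ⟨ρO⟩ := lgv_exists_rhoO (L := L) (O := ↥O) (IsFractionRing.injective ↥O L) p hqO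
  obtain ⟨Φ, hm, h0, hind⟩ := lgv_Phi_exists M p hpM
  set j2K : ↥Kf := ⟨lgf_j2E L M, lgf_j2E_mem L M⟩ with hj2K
  have hj2A : j2K ∈ A := by
    show gq_IsBdd O L ((lgf_j2E L M : ↥E0) : LaurentSeries L)
    show gq_IsBdd O L (lg_j2 L)
    rw [s44re_j2_eq O]
    exact gq_isBdd_iota _
  have hcA : ∀ a : ↥O, algebraMap L ↥Kf (a : L) ∈ A := by
    intro a
    show gq_IsBdd O L ((algebraMap ↥Kf ↥E0 (algebraMap L ↥Kf (a : L)) : ↥E0) : LaurentSeries L)
    exact s44re_isBdd_const O a
  set f0 : Polynomial ↥(GaloisRep.ratLocalizedAt p) →+* ↥Kf :=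
    Polynomial.eval₂RingHom ((algebraMap L ↥Kf).comp ((algebraMap ↥O L).comp ρO)) j2K with hf0
  have hf0A : ∀ c, f0 c ∈ A.toSubring := by
    intro c
    rw [hf0, Polynomial.coe_eval₂RingHom, Polynomial.eval₂_eq_sum_range]
    refine sum_mem fun i _ => ?_
    exact mul_mem (hcA (ρO (c.coeff i))) (pow_mem hj2A i)
  set fA : Polynomial ↥(GaloisRep.ratLocalizedAt p) →+* ↥A := f0.codRestrict A.toSubring hf0A
    with hfA
  set P : Polynomial ↥A := Φ.map fA with hP
  have hPm : P.Monic := hm.map _
  have hcomp : (algebraMap ↥A ↥E0).comp fA =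
      Polynomial.eval₂RingHom ((algebraMap ↥O ↥E0).comp ρO) (lgf_j2E L M) := by
    refine Polynomial.ringHom_ext (fun r => ?_) ?_
    · simp only [RingHom.comp_apply, Polynomial.coe_eval₂RingHom, Polynomial.eval₂_C]
      show algebraMap ↥Kf ↥E0 (f0 (Polynomial.C r)) = _
      rw [hf0, Polynomial.coe_eval₂RingHom, Polynomial.eval₂_C]
      rfl
    · simp only [RingHom.comp_apply, Polynomial.coe_eval₂RingHom, Polynomial.eval₂_X]
      show algebraMap ↥Kf ↥E0 (f0 Polynomial.X) = _
      rw [hf0, Polynomial.coe_eval₂RingHom, Polynomial.eval₂_X]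
      rfl
  have hroot : aeval θ P = 0 := by
    rw [hP, aeval_def, Polynomial.eval₂_map, hcomp]
    exact lgv_modEq_E (O := ↥O) M (dvd_refl M) Φ h0 ρO
  -- the residue homomorphism and the evaluation of polynomials over `A`
  set k := ResidueField ↥O with hk
  set res := s44re_resOf O hπ E0 hE with hres_def
  set ιAB : ↥A →+* ↥B :=
    RingHom.codRestrict ((algebraMap ↥Kf ↥E0).comp A.subtype) B.toSubring (fun x => x.2) with hιAB
  set θB : ↥B := ⟨θ, hθB⟩ with hθB_def
  have hev : ∀ Q : Polynomial ↥A, aeval θ Q = ((Polynomial.eval₂ ιAB θB Q : ↥B) : ↥E0) := by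
    intro Q
    have h := Polynomial.hom_eval₂ Q ιAB B.subtype θB
    rw [aeval_def]
    exact h.symm
  have hres : ∀ Q : Polynomial ↥A,
      res (Polynomial.eval₂ ιAB θB Q) = Polynomial.eval₂ (res.comp ιAB) (res θB) Q :=
    fun Q => Polynomial.hom_eval₂ Q ιAB res θB
  set θk : LaurentSeries k := lg_phi k (qExpand k M (jqModC k)) with hθk
  have hresθ : res θB = θk := by
    rw [hres_def, s44re_resOf_iota O hπ E0 hE θB (qExpand O 2 (qExpand O M (jqModC O)))
      (by rw [← s44re_theta_eq O M]; exact hθcoe), coeffMap_qExpand, coeffMap_qExpand,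
      coeffMap_jqModC, hθk, lg_phi_apply]
  set ρk : ↥(GaloisRep.ratLocalizedAt p) →+* k := (residue ↥O).comp ρO with hρk
  have hcompk : (res.comp ιAB).comp fA =
      Polynomial.eval₂RingHom ((HahnSeries.C : k →+* LaurentSeries k).comp ρk) (lg_j2 k) := by
    refine Polynomial.ringHom_ext (fun r => ?_) ?_
    · simp only [RingHom.comp_apply, Polynomial.coe_eval₂RingHom, Polynomial.eval₂_C]
      rw [hres_def, s44re_resOf_iota O hπ E0 hE _ (algebraMap ↥O (LaurentSeries ↥O) (ρO r)) (by
        rw [gq_coeffMap_algebraMap]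
        show ((algebraMap ↥Kf ↥E0 (f0 (Polynomial.C r)) : ↥E0) : LaurentSeries L) = _
        rw [hf0, Polynomial.coe_eval₂RingHom, Polynomial.eval₂_C]
        rfl), bd_coeffMap_algebraMap, HahnSeries.C_apply, ← algebraMap_laurentSeries_eq_single]
      rfl
    · simp only [RingHom.comp_apply, Polynomial.coe_eval₂RingHom, Polynomial.eval₂_X]
      rw [hres_def, s44re_resOf_iota O hπ E0 hE _ (qExpand ↥O 2 (jqModC ↥O)) (by
        rw [← s44re_j2_eq O]
        show ((algebraMap ↥Kf ↥E0 (f0 Polynomial.X) : ↥E0) : LaurentSeries L) = _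
        rw [hf0, Polynomial.coe_eval₂RingHom, Polynomial.eval₂_X]
        rfl), coeffMap_qExpand, coeffMap_jqModC, lg_j2]
  -- the derivative is a unit
  have htr : Transcendental k (lg_j2 k) := by
    refine lgf_transcendental_of_coeff (n := -2) (by norm_num) ?_
    have h := qExpand_coeff_mul (R := k) (N := 2) (jqModC k) (-1)
    have h2' : ((2 : ℕ) : ℤ) * (-1) = -2 := by norm_num
    rw [h2'] at h
    rw [lg_j2, h, coeff_jqModC_neg_one]
    exact one_ne_zero
  have hcompt : ((aeval (lg_j2 k) : Polynomial k →ₐ[k] LaurentSeries k) :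
      Polynomial k →+* LaurentSeries k).comp (Polynomial.mapRingHom ρk) =
      Polynomial.eval₂RingHom ((HahnSeries.C : k →+* LaurentSeries k).comp ρk) (lg_j2 k) := by
    refine Polynomial.ringHom_ext (fun r => ?_) ?_
    · simp only [RingHom.comp_apply, Polynomial.coe_mapRingHom, Polynomial.map_C,
        Polynomial.coe_eval₂RingHom, Polynomial.eval₂_C]
      rw [HahnSeries.C_apply, ← algebraMap_laurentSeries_eq_single]
      simp
    · simp only [RingHom.comp_apply, Polynomial.coe_mapRingHom, Polynomial.map_X,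
        Polynomial.coe_eval₂RingHom, Polynomial.eval₂_X]
      simp
  have hder : aeval θ (derivative P) ∉ B.nonunits := by
    rw [hev, ← s44re_resOf_eq_zero_iff O hπ E0 hE, ← hres_def, hres, hresθ, hP, derivative_map,
      Polynomial.eval₂_map, hcompk, ← hcompt, ← Polynomial.eval₂_map, ← derivative_map]
    apply s44re_sep_eval _ (lgv_separable M p Φ hm h0 hind ρk) htr
    rw [Polynomial.eval₂_map, hcompt]
    exact lgv_modEq_twist k M Φ h0 ρk
  -- `E = K(θ)`
  set θser : LaurentSeries L := lg_phi L (qExpand L M (jqModC L)) with hθser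
  have hj2K' : lg_j2 L ∈ lg_K L := by
    have h := lgf_j2E_mem L M
    have h' : E0.val (lgf_j2E L M) ∈ (L⟮(lg_lamE M : ↥E0)⟯).map E0.val := ⟨_, h, rfl⟩
    rw [IntermediateField.adjoin_map, Set.image_singleton] at h'
    exact h'
  have hgen : IntermediateField.adjoin L {lg_lam L, θser} = lg_E L M := by
    apply le_antisymm
    · rw [IntermediateField.adjoin_le_iff]
      rintro x (rfl | rfl)
      · exact lg_lam_mem_E L M
      · exact lg_phi_mem_E L M (jqModCd_mem_full L M dvd_rfl)
    · rw [lg_E, sup_le_iff]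
      have hKle : lg_K L ≤ IntermediateField.adjoin L {lg_lam L, θser} := by
        rw [lg_K]
        exact IntermediateField.adjoin.mono L _ _ (by
          intro t ht
          rw [Set.mem_singleton_iff] at ht
          rw [ht]
          exact Set.mem_insert _ _)
      refine ⟨?_, hKle⟩
      rw [lg_F2, gqm_F_eq L M, IntermediateField.adjoin_map, IntermediateField.adjoin_le_iff]
      rintro _ ⟨x, (rfl | rfl), rfl⟩
      · exact hKle hj2K'
      · exact IntermediateField.subset_adjoin L _ (Set.mem_insert_of_mem _ rfl)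
  have htop : IntermediateField.adjoin L {(lg_lamE M : ↥E0), θ} = ⊤ := by
    apply IntermediateField.map_injective E0.val
    rw [IntermediateField.adjoin_map, ← AlgHom.fieldRange_eq_map, IntermediateField.fieldRange_val,
      Set.image_pair]
    have e1 : E0.val (lg_lamE M) = lg_lam L := rfl
    have e2 : E0.val θ = θser := hθcoe
    rw [e1, e2]
    exact hgen
  have hθtop : Algebra.adjoin ↥Kf {θ} = ⊤ := by
    have hint : IsIntegral ↥Kf θ := Algebra.IsIntegral.isIntegral θ
    rw [← IntermediateField.adjoin_simple_toSubalgebra_of_isAlgebraic hint.isAlgebraic]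
    have : IntermediateField.adjoin ↥Kf {θ} = ⊤ := by
      apply IntermediateField.restrictScalars_injective L
      rw [hKf, IntermediateField.adjoin_adjoin_left, IntermediateField.restrictScalars_top,
        Set.singleton_union]
      exact htop
    rw [this, IntermediateField.top_toSubalgebra]
  -- apply the etale residue lemma
  have hbB : (⟨b, hbE⟩ : ↥E0) ∈ B := hb
  obtain ⟨g, h, hhu, hmul⟩ := s44re_etale A B hAB hdom hθB hθtop P hPm hroot hder hbB
  rw [hev, hev] at hmul
  rw [hev, ← s44re_resOf_eq_zero_iff O hπ E0 hE, ← hres_def] at hhu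
  set bB : ↥B := ⟨⟨b, hbE⟩, hbB⟩ with hbB_def
  have hmulB : bB * Polynomial.eval₂ ιAB θB h = Polynomial.eval₂ ιAB θB g := Subtype.ext hmul
  have hmulr := congrArg res hmulB
  rw [map_mul] at hmulr
  have hresb : res bB = gq_res O L ⟨b, hb⟩ := rfl
  have hmem : ∀ Q : Polynomial ↥A, res (Polynomial.eval₂ ιAB θB Q) ∈ lg_E k M := by
    intro Q
    rw [hres, hresθ, Polynomial.eval₂_eq_sum_range]
    refine sum_mem fun i _ => mul_mem ?_ (pow_mem ?_ i)
    · -- coefficients: residues of bounded elements of `L(λ)`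
      apply lg_K_le_E k M
      have hc : ((algebraMap ↥Kf ↥E0 ((Q.coeff i : ↥A) : ↥Kf) : ↥E0) : LaurentSeries L) ∈ lg_K L := by
        have h' : E0.val (algebraMap ↥Kf ↥E0 ((Q.coeff i : ↥A) : ↥Kf)) ∈
            (L⟮(lg_lamE M : ↥E0)⟯).map E0.val := ⟨_, ((Q.coeff i : ↥A) : ↥Kf).2, rfl⟩
        rw [IntermediateField.adjoin_map, Set.image_singleton] at h'
        exact h'
      exact s44re_res_K O hπ h2 hc (Q.coeff i).2
    · exact lg_phi_mem_E k M (jqModCd_mem_full k M dvd_rfl)
  rw [← hresb]
  have : res bB = res (Polynomial.eval₂ ιAB θB g) / res (Polynomial.eval₂ ιAB θB h) := by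
    rw [← hmulr, mul_div_assoc, div_self hhu, mul_one]
  rw [this]
  exact div_mem (hmem g) (hmem h)

end Main

end Good

end Fermat.Agent.S44
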