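/-
S44, [RES-DICT-E] (E-2) (helper28; prefix `s44re_`): THE RESIDUE FIELD OF THE GAUSS VALUATION `w_∞` OF
THE LEGENDRE COVER OF LEVEL `M q` IS THE LEGENDRE COVER OF LEVEL `M` OVER THE RESIDUE FIELD —
number-field level, one-sided form.

`(L, O, π)`: `O` a discrete valuation subring of `L` (characteristic zero), `π` any uniformiser, residue
field `k` of odd characteristic `q ∤ M`.  For `a ∈ lg_E L (M q)` Gauss-bounded:
`gq_res a ∈ lg_E k M` (`s44re_res_mem_nf`).  Hence the reduction homomorphism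
`s44re_r : V1 = ssm_gl_V1 O hπ M q →+* lg_E k M`, with kernel the non-units, the expected values on
constants, on `λ` and on `lg_phiE x`.
-/
import Mathlib
import Fermat.Agent.S44.Res.LegGood
import Fermat.Agent.S35.RedN.InstLeg
import Fermat.Agent.S44.Res.DictNF
import Fermat.Agent.JT3.Inst.Key0

set_option autoImplicit false
set_option linter.unusedSectionVars false
set_option linter.unusedVariables false
set_option linter.style.haveILetI false

noncomputable section

namespace Fermat.Agent.S44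

open ModularCurve IntermediateField IsLocalRing
open Fermat.Agent.JT3 Fermat.Agent.SS Fermat.Agent.S35

section Tower

variable {L : Type*} [Field L] [CharZero L] [Algebra L (AlgebraicClosure ℚ)]
  (O : ValuationSubring L) [IsDiscreteValuationRing O] {π : O} (hπ : Irreducible π)
variable (M q : ℕ) [NeZero M] [NeZero q] [hq : Fact q.Prime] [CharP (ResidueField O) q]
  (hq2 : ¬ 2 ∣ q) (hqM : ¬ q ∣ M)

include hq2 in
theorem s44re_two_ne_zero : (2 : ResidueField O) ≠ 0 := by
  intro h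
  have h' : ((2 : ℕ) : ResidueField O) = 0 := by exact_mod_cast h
  rw [CharP.cast_eq_zero_iff (ResidueField O) q 2] at h'
  have : q = 2 := (Nat.prime_dvd_prime_iff_eq hq.out Nat.prime_two).mp h'
  exact hq2 (this ▸ dvd_rfl)

include hπ hq2 hqM in
/-- **the residue field of `w_∞` on the Legendre cover of level `M q` is `lg_E k M`.** -/
theorem s44re_res_mem_nf (a : ↥(lg_E L (M * q))) (h1 : gq_IsBdd O L (a : LaurentSeries L)) :
    gq_res O L ⟨(a : LaurentSeries L), h1⟩ ∈ lg_E (ResidueField O) M := by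
  letI := ssm_gi_algebra (ssm_al_E_le L M q)
  letI := ssm_gi_algebraV (ssm_al_E_le L M q)
    (gq_valSubOf π hπ.ne_zero hπ.maximalIdeal_eq (lg_E L M)
      ((ssm_al_E_le L M q).trans (ssm_ga_E_le_quotField O (M * q))))
  haveI := ssm_gi_isScalarTower (ssm_al_E_le L M q)
    (gq_valSubOf π hπ.ne_zero hπ.maximalIdeal_eq (lg_E L M)
      ((ssm_al_E_le L M q).trans (ssm_ga_E_le_quotField O (M * q))))
  have D := ssm_gl_data O hπ M q hq2 hqM
  haveI : FiniteDimensional ↥(lg_E L M) ↥(lg_E L (M * q)) :=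
    ssm_gi_finiteDimensional D.finrank_eq
  haveI : Algebra.IsSeparable ↥(lg_E L M) ↥(lg_E L (M * q)) := ssm_gi_isSeparable
  have h2k := s44re_two_ne_zero O q hq2
  have ha1 : a ∈ gq_valSubOf π hπ.ne_zero hπ.maximalIdeal_eq (lg_E L (M * q))
      (ssm_ga_E_le_quotField O (M * q)) := h1
  obtain ⟨x, t, ht, hxt⟩ := (ssm_tw_bridge D.over1 a).1 ha1
  obtain ⟨hx1, hx2⟩ := (ssm_tw_integral D (x : ↥(lg_E L (M * q)))).1 x.2
  obtain ⟨ht1, ht2⟩ := (ssm_tw_integral D (t : ↥(lg_E L (M * q)))).1 t.2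
  have hx1' : gq_IsBdd O L (((x : ↥(lg_E L (M * q))) : LaurentSeries L)) := hx1
  have hx2' : gq_IsBdd O L ((ssm_gl_W L M q hq2 hqM (x : ↥(lg_E L (M * q))) : ↥(lg_E L (M * q))) :
      LaurentSeries L) := hx2
  have ht1' : gq_IsBdd O L (((t : ↥(lg_E L (M * q))) : LaurentSeries L)) := ht1
  have ht2' : gq_IsBdd O L ((ssm_gl_W L M q hq2 hqM (t : ↥(lg_E L (M * q))) : ↥(lg_E L (M * q))) :
      LaurentSeries L) := ht2
  have key : ∀ (y : ↥(lg_E L (M * q))) (hy1 : gq_IsBdd O L ((y : ↥(lg_E L (M * q))) : LaurentSeries L))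
      (hy2 : gq_IsBdd O L ((ssm_gl_W L M q hq2 hqM y : ↥(lg_E L (M * q))) : LaurentSeries L)),
      gq_res O L ⟨(y : LaurentSeries L), hy1⟩ ∈ lg_E (ResidueField O) M := by
    intro y hy1 hy2
    obtain ⟨r1, r2, n, hr1, hr2, hn, -, e1, -, -⟩ :=
      rdn_gt_norm_res_aux O hπ q (lg_E L M) (lg_E L (M * q)) (ssm_al_E_le L M q)
        (ssm_ga_E_le_quotField O (M * q)) (ssm_gl_W L M q hq2 hqM)
        (fun z => ssm_al_coe_WE_of_mem L M q hq.out hq2 hqM z.2 _)
        (ssm_gl_data O hπ M q hq2 hqM) y hy1 hy2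
    rw [e1]
    exact s44re_res_mem_good O hπ M q h2k hqM r1.2 hr1
  have rx := key (x : ↥(lg_E L (M * q))) hx1' hx2'
  have rt := key (t : ↥(lg_E L (M * q))) ht1' ht2'
  have hrt0 : gq_res O L ⟨((t : ↥(lg_E L (M * q))) : LaurentSeries L), ht1'⟩ ≠ 0 := by
    intro h0
    have h2 := (gq_mem_nonunits_iff_res π hπ.ne_zero hπ.maximalIdeal_eq (lg_E L (M * q))
      (ssm_ga_E_le_quotField O (M * q)) (t : ↥(lg_E L (M * q))) ht1').2 h0
    exact ht ((ssm_tw_mem_centre D.over1 t).2 h2)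
  have hb : gq_IsBdd O L ((a : LaurentSeries L) * ((t : ↥(lg_E L (M * q))) : LaurentSeries L)) :=
    (gq_bddSubring O L).mul_mem h1 ht1'
  have hm := rdn_res_mul h1 ht1' hb
  have hc : gq_res O L ⟨(a : LaurentSeries L) * ((t : ↥(lg_E L (M * q))) : LaurentSeries L), hb⟩ =
      gq_res O L ⟨((x : ↥(lg_E L (M * q))) : LaurentSeries L), hx1'⟩ :=
    rdn_res_congr _ _ (by rw [← hxt]; rfl)
  rw [hc] at hm
  have he : gq_res O L ⟨(a : LaurentSeries L), h1⟩ =
      gq_res O L ⟨((x : ↥(lg_E L (M * q))) : LaurentSeries L), hx1'⟩ /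
        gq_res O L ⟨((t : ↥(lg_E L (M * q))) : LaurentSeries L), ht1'⟩ := by
    rw [hm, mul_div_assoc, div_self hrt0, mul_one]
  rw [he]
  exact div_mem rx rt

/-- **the reduction homomorphism of the `∞`-component of the Legendre cover of level `M q`**, with
values in the Legendre cover of level `M` over the residue field. -/
def s44re_r :
    ↥(ssm_gl_V1 O hπ M q) →+* ↥(lg_E (ResidueField O) M) :=
  (s44re_resOf O hπ (lg_E L (M * q)) (ssm_ga_E_le_quotField O (M * q))).codRestrict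
    (lg_E (ResidueField O) M).toSubfield.toSubring
    (fun z => s44re_res_mem_nf O hπ M q hq2 hqM (z : ↥(lg_E L (M * q))) z.2)

theorem s44re_r_coe (z : ↥(ssm_gl_V1 O hπ M q)) :
    ((s44re_r O hπ M q hq2 hqM z : ↥(lg_E (ResidueField O) M)) :
      LaurentSeries (ResidueField O)) =
      gq_res O L ⟨((z : ↥(lg_E L (M * q))) : LaurentSeries L), z.2⟩ := rfl

/-- the kernel of `r` is the maximal ideal of `V1`. -/
theorem s44re_r_eq_zero_iff (z : ↥(ssm_gl_V1 O hπ M q)) :
    s44re_r O hπ M q hq2 hqM z = 0 ↔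
      (z : ↥(lg_E L (M * q))) ∈ (ssm_gl_V1 O hπ M q).nonunits := by
  rw [← s44re_resOf_eq_zero_iff O hπ (lg_E L (M * q)) (ssm_ga_E_le_quotField O (M * q)) z]
  constructor
  · intro h
    have := congrArg (fun w : ↥(lg_E (ResidueField O) M) => (w : LaurentSeries (ResidueField O))) h
    exact this
  · intro h
    exact Subtype.ext h

/-- the `hker` hypothesis of `s44rs_leg`. -/
theorem s44re_r_hker (z : ↥(ssm_gl_V1 O hπ M q))
    (hz : (z : ↥(lg_E L (M * q))) ∈ (ssm_gl_V1 O hπ M q).nonunits) :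
    s44re_r O hπ M q hq2 hqM z = 0 :=
  (s44re_r_eq_zero_iff O hπ M q hq2 hqM z).2 hz

/-- `r` on (the class of) a series with coefficients in `O`. -/
theorem s44re_r_iota (z : ↥(ssm_gl_V1 O hπ M q)) (y : LaurentSeries O)
    (hy : ((z : ↥(lg_E L (M * q))) : LaurentSeries L) = coeffMap (algebraMap O L) y) :
    ((s44re_r O hπ M q hq2 hqM z : ↥(lg_E (ResidueField O) M)) :
      LaurentSeries (ResidueField O)) = coeffMap (residue O) y :=
  s44re_resOf_iota O hπ (lg_E L (M * q)) (ssm_ga_E_le_quotField O (M * q)) z y hy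

/-- `r` on constants: the `hrA` hypothesis of `s44rs_leg` with `ρ = residue O`. -/
theorem s44re_r_const (a : ↥O)
    (h : algebraMap ↥O ↥(lg_E L (M * q)) a ∈ ssm_gl_V1 O hπ M q) :
    s44re_r O hπ M q hq2 hqM ⟨algebraMap ↥O ↥(lg_E L (M * q)) a, h⟩ =
      algebraMap (ResidueField O) ↥(lg_E (ResidueField O) M) (residue O a) := by
  apply Subtype.ext
  rw [s44re_r_iota O hπ M q hq2 hqM _ (algebraMap ↥O (LaurentSeries ↥O) a) (by
    rw [gq_coeffMap_algebraMap]
    rfl), Fermat.Agent.S28.bd_coeffMap_algebraMap]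
  rfl

/-- `r λ = λ̄`. -/
theorem s44re_r_lam (h : lg_lamE (L := L) (M * q) ∈ ssm_gl_V1 O hπ M q) :
    s44re_r O hπ M q hq2 hqM ⟨lg_lamE (M * q), h⟩ = lg_lamE (L := ResidueField O) M := by
  apply Subtype.ext
  rw [s44re_r_iota O hπ M q hq2 hqM _ (hm_lam ↥O) (by
    rw [hm_coeffMap_lam]
    rfl), hm_coeffMap_lam]
  rfl

/-- `r (φ x) = φ̄ (red x)` for `x` in the level-`M q` field. -/
theorem s44re_r_phiE (x : ↥(lg_F L (M * q))) (hb : gq_IsBdd O L (x : LaurentSeries L))
    (h : lg_phiE (L := L) (N := M * q) x ∈ ssm_gl_V1 O hπ M q) :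
    s44re_r O hπ M q hq2 hqM ⟨lg_phiE (L := L) (N := M * q) x, h⟩ =
      lg_phiE (L := ResidueField O) (N := M)
        ⟨gq_res O L ⟨(x : LaurentSeries L), hb⟩, s44rd_res_mem_nf O hπ M q hqM x hb⟩ := by
  apply Subtype.ext
  rw [s44re_r_coe]
  have h1 := ssm_ga_res_beta (O := ↥O) (K := L) 2 ⟨(x : LaurentSeries L), hb⟩
  have h2 : ((lg_phiE (L := ResidueField O) (N := M)
      ⟨gq_res O L ⟨(x : LaurentSeries L), hb⟩, s44rd_res_mem_nf O hπ M q hqM x hb⟩ :
      ↥(lg_E (ResidueField O) M)) : LaurentSeries (ResidueField O)) =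
      qExpand (ResidueField O) 2 (gq_res O L ⟨(x : LaurentSeries L), hb⟩) := rfl
  rw [h2, ← h1]
  exact rdn_res_congr _ _ rfl

/-- `r` is onto: the residue field of `V1` is exactly `lg_E k M`. -/
theorem s44re_r_surjective : Function.Surjective (s44re_r O hπ M q hq2 hqM) := by
  set k := ResidueField O with hk
  set r := s44re_r O hπ M q hq2 hqM with hr
  have hV1mem : ∀ (w : LaurentSeries L) (hw : w ∈ lg_E L (M * q)),
      gq_IsBdd O L w → (⟨w, hw⟩ : ↥(lg_E L (M * q))) ∈ ssm_gl_V1 O hπ M q := fun w hw hb => hb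
  -- the image of `r` as an intermediate field of `k((q))`
  let T : IntermediateField k (LaurentSeries k) :=
    { carrier := Set.range fun z : ↥(ssm_gl_V1 O hπ M q) =>
        ((r z : ↥(lg_E k M)) : LaurentSeries k)
      mul_mem' := by
        rintro _ _ ⟨a, rfl⟩ ⟨b, rfl⟩
        exact ⟨a * b, by
          show ((r (a * b) : ↥(lg_E k M)) : LaurentSeries k) = _
          rw [map_mul]; rfl⟩
      one_mem' := ⟨1, by
        show ((r 1 : ↥(lg_E k M)) : LaurentSeries k) = _
        rw [map_one]; rfl⟩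
      add_mem' := by
        rintro _ _ ⟨a, rfl⟩ ⟨b, rfl⟩
        exact ⟨a + b, by
          show ((r (a + b) : ↥(lg_E k M)) : LaurentSeries k) = _
          rw [map_add]; rfl⟩
      zero_mem' := ⟨0, by
        show ((r 0 : ↥(lg_E k M)) : LaurentSeries k) = _
        rw [map_zero]; rfl⟩
      algebraMap_mem' := by
        intro c
        obtain ⟨a, rfl⟩ := residue_surjective c
        have h : algebraMap ↥O ↥(lg_E L (M * q)) a ∈ ssm_gl_V1 O hπ M q :=
          s44re_isBdd_const O a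
        refine ⟨⟨algebraMap ↥O ↥(lg_E L (M * q)) a, h⟩, ?_⟩
        show ((r ⟨algebraMap ↥O ↥(lg_E L (M * q)) a, h⟩ : ↥(lg_E k M)) : LaurentSeries k) = _
        rw [hr, s44re_r_const O hπ M q hq2 hqM a h]
        rfl
      inv_mem' := by
        rintro _ ⟨a, rfl⟩
        by_cases h0 : r a = 0
        · refine ⟨0, ?_⟩
          show ((r 0 : ↥(lg_E k M)) : LaurentSeries k) =
            (((r a : ↥(lg_E k M)) : LaurentSeries k))⁻¹
          rw [h0, map_zero]
          simp
        · have hu : (a : ↥(lg_E L (M * q))) ∉ (ssm_gl_V1 O hπ M q).nonunits := fun h =>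
            h0 ((s44re_r_eq_zero_iff O hπ M q hq2 hqM a).2 h)
          rw [ValuationSubring.mem_nonunits_iff_or, not_or, not_not] at hu
          refine ⟨⟨(a : ↥(lg_E L (M * q)))⁻¹, hu.2⟩, ?_⟩
          have hmul : a * ⟨(a : ↥(lg_E L (M * q)))⁻¹, hu.2⟩ = 1 :=
            Subtype.ext (mul_inv_cancel₀ hu.1)
          have h1 : r a * r ⟨(a : ↥(lg_E L (M * q)))⁻¹, hu.2⟩ = 1 := by
            rw [← map_mul, hmul, map_one]
          have h2 : r ⟨(a : ↥(lg_E L (M * q)))⁻¹, hu.2⟩ = (r a)⁻¹ :=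
            eq_inv_of_mul_eq_one_right h1
          show ((r ⟨(a : ↥(lg_E L (M * q)))⁻¹, hu.2⟩ : ↥(lg_E k M)) : LaurentSeries k) =
            (((r a : ↥(lg_E k M)) : LaurentSeries k))⁻¹
          rw [h2]
          rfl }
  have hT : lg_E k M ≤ T := by
    rw [lg_E, sup_le_iff]
    constructor
    · rw [lg_F2, lg_F, modularFunctionFieldFullC, IntermediateField.adjoin_map,
        IntermediateField.adjoin_le_iff]
      rintro _ ⟨_, ⟨d, hd, hdM, rfl⟩, rfl⟩
      haveI := hd
      have hmemE : lg_phi L (qExpand L d (jqModC L)) ∈ lg_E L (M * q) :=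
        lg_phi_mem_E L (M * q) (jqModCd_mem_full L (M * q) (hdM.trans (dvd_mul_right M q)))
      have hy : lg_phi L (qExpand L d (jqModC L)) =
          coeffMap (algebraMap O L) (qExpand O 2 (qExpand O d (jqModC O))) := by
        rw [lg_phi_apply, coeffMap_qExpand, coeffMap_qExpand, coeffMap_jqModC]
      have hb : gq_IsBdd O L (lg_phi L (qExpand L d (jqModC L))) := by
        rw [hy]
        exact gq_isBdd_iota _
      refine ⟨⟨⟨_, hmemE⟩, hb⟩, ?_⟩
      show ((r ⟨⟨_, hmemE⟩, hb⟩ : ↥(lg_E k M)) : LaurentSeries k) = _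
      rw [hr, s44re_r_iota O hπ M q hq2 hqM _ _ hy, coeffMap_qExpand, coeffMap_qExpand,
        coeffMap_jqModC, lg_phi_apply]
    · rw [lg_K, IntermediateField.adjoin_le_iff]
      rintro _ rfl
      have hb : gq_IsBdd O L (lg_lam L) := by
        have : lg_lam L = coeffMap (algebraMap O L) (hm_lam ↥O) := (hm_coeffMap_lam _).symm
        rw [this]
        exact gq_isBdd_iota _
      refine ⟨⟨lg_lamE (M * q), hb⟩, ?_⟩
      show ((r ⟨lg_lamE (M * q), hb⟩ : ↥(lg_E k M)) : LaurentSeries k) = _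
      rw [hr, s44re_r_lam O hπ M q hq2 hqM hb]
      rfl
  intro y
  obtain ⟨z, hz⟩ := hT y.2
  exact ⟨z, Subtype.ext hz⟩

end Tower

end Fermat.Agent.S44
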