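/-
S44, ruling R5, cell (U-RED) in the `Res/Defs2.lean` vocabulary (helper15): THE REDUCTION `ū` OF THE
MODULAR UNIT EXISTS, and the chosen `s44e_ubar A M p` IS helper21's `s44hu_ubar` (`HeckeRes/UnitRed.lean`).

* `s44e_isUbar_red`    : `s44e_IsUbar A M p (s44hu_ubar A hA rfl hpM)`;
* `s44e_isUbar_exists` : `∃ fb, s44e_IsUbar A M p fb`;
* `s44e_ubar_eq_red`   : `s44e_ubar A M p = s44hu_ubar A hA rfl hpM`;
* `s44e_ubar_ne_zero`  : `s44e_ubar A M p ≠ 0`;
* `s44e_ubar_coe`      : the `q`-expansion of `ū` is `Δ̄(q)/Δ̄(q^p) = mzb_qi_U kA p`.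
-/
import Mathlib
import Fermat.Agent.S44.Res.Defs2
import Fermat.Agent.S44.HeckeRes.UnitRed

set_option autoImplicit false
set_option linter.unusedSectionVars false
set_option linter.style.haveILetI false

noncomputable section

namespace Fermat.Agent.S44

open ModularCurve AlgebraicCurve IsLocalRing Fermat.Agent.JT3 Fermat.Agent.MZ

section Ubar

variable (A : ValuationSubring s44_Qb) {p : ℕ} [hp : Fact p.Prime] (hA : A.LiesOverPrime p)
  (M : ℕ) [NeZero M] [NeZero p] [NeZero (M * p)] (hpM : ¬ p ∣ M)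

/-- helper21's `ū` is a reduction of the modular unit in the sense of `Res/Defs2.lean`. -/
theorem s44e_isUbar_red :
    s44e_IsUbar A M p (s44hu_ubar A hA (rfl : M * p = M * p) hpM) := by
  refine ⟨s44hu_U p (M * p) (s44hu_dvd (rfl : M * p = M * p)), rfl, ?_⟩
  refine ⟨(s44hu_UW A hA (rfl : M * p = M * p)).2, ?_⟩
  rfl

include hA hpM in
/-- **(U-RED)**: the reduction of the modular unit exists. -/
theorem s44e_isUbar_exists : ∃ fb, s44e_IsUbar A M p fb :=
  ⟨_, s44e_isUbar_red A hA M hpM⟩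

/-- the chosen `ū` of `Res/Defs2.lean` is helper21's `s44hu_ubar`. -/
theorem s44e_ubar_eq_red :
    s44e_ubar A M p = s44hu_ubar A hA (rfl : M * p = M * p) hpM :=
  s44e_ubar_eq A M p (s44e_isUbar_red A hA M hpM)

include hA hpM in
theorem s44e_ubar_ne_zero : s44e_ubar A M p ≠ 0 := by
  rw [s44e_ubar_eq_red A hA M hpM]
  exact s44hu_ubar_ne_zero A hA (rfl : M * p = M * p) hpM

include hA hpM in
/-- the `q`-expansion of `ū` is `Δ̄(q)/Δ̄(q^p)`. -/
theorem s44e_ubar_coe :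
    ((s44e_ubar A M p : s44e_FF A M) : LaurentSeries (s44e_kA A)) =
      mzb_qi_U (ResidueField ↥A) p := by
  rw [s44e_ubar_eq_red A hA M hpM]
  have h := s44hu_res_U A p
  rw [← h]
  show gq_res ↥A s44_Qb ⟨_, _⟩ = gq_res ↥A s44_Qb ⟨_, _⟩
  congr 1
  apply Subtype.ext
  exact s44hu_coe_U' p (M * p) (s44hu_dvd (rfl : M * p = M * p))

end Ubar

end Fermat.Agent.S44
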