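/-
S44, ruling R5 (addendum (3)), cell (U-DIV) in its NEW FORM and its consumers (helper15).

`ū = s44e_ubar A M p` is the `w_∞`-reduction of the modular unit `Δ(q)/Δ(q^p)` (`Res/Defs2.lean`,
`Res/Ubar.lean`).  The statement

  `s44e_UDiv A M p hp hpM` : for every place `Q` of `FF_M / kA` where `j̄` is finite,
      `Q` supersingular ⟹ `∃ T : ℤ, T * ord_Q ū = 12`,   `Q` not supersingular ⟹ `ord_Q ū = 0`

is what the node cells (ND) + (SS⟹NODE) + (U-NODE) deliver.  THIS FILE: everything that [E2] `k_ne` and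
[E3] `B_eis` consume from it.

* `s44e_udiv_of_nu`        : the assembly shape: one multiplier `T > 0` and one integer `n`
                             (`= ν_𝔫(φ u)`) with `n = T · ord_Q ū`, `n = 12` at SS places, `n = 0` else;
* `s44e_ordU_ne_of_udiv`   : `ord_Q ū ≢ 0 (mod p)` on `Sg` (`p ≥ 5`);
* `s44e_k2_ne_of_udiv`     : **`k_ne`** for the weights `s44e_k2`;
* `s44e_k2_mul_ordU`       : `k2_Q · (ord_Q ū mod p) = 1` on `Sg` (the hypothesis `hSS`, `c = 1`, of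
                             `s44he_B_eis_of_unit`);
* `s44e_dvd_ord_ubar_off`  : `p ∣ ord_Q ū` off `Sg` where `j̄` is finite (the hypothesis `hoff`);
* `s44e_ord_ubar_pos_of_udiv` : `0 < |ord_Q ū|`, in fact `ord_Q ū ∣ 12`, on `Sg`;
* `s44e_k2_ne_frame`       : `k_ne` at the frame of a Frey package (field `k_ne` of `s44bg_Cells`).
-/
import Mathlib
import Fermat.Agent.S44.Res.Defs2
import Fermat.Agent.S44.Frame

set_option autoImplicit false
set_option linter.unusedSectionVars false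
set_option linter.style.haveILetI false

noncomputable section

namespace Fermat.Agent.S44

open ModularCurve AlgebraicCurve IsLocalRing Fermat.Agent.JT3

section UDiv

variable (A : ValuationSubring s44_Qb) (M : ℕ) [NeZero M]
  (p : ℕ) [NeZero p] (hp : p.Prime) [NeZero (M * p)] (hpM : ¬ p ∣ M)

/-- **(U-DIV), new form** (ruling R5, addendum (3)). -/
def s44e_UDiv : Prop :=
  ∀ Q : Place (s44e_kA A) (s44e_FF A M), jcr_j (k := s44e_kA A) M ∈ Q.toValuationSubring →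
    (s44e_IsSS A M p hp hpM Q → ∃ T : ℤ, T * Q.ord (s44e_ubar A M p) = 12) ∧
    (¬ s44e_IsSS A M p hp hpM Q → Q.ord (s44e_ubar A M p) = 0)

/-- the assembly shape of (U-DIV): at every place `Q` with `j̄` finite there are a multiplier `T > 0`
and an integer `n` (the order `ν_𝔫(φ u)` of the unit along the `∞`-branch at the centre of `Q`) with
`n = T · ord_Q ū`, `n = 12` if `Q` is supersingular and `n = 0` otherwise. -/
theorem s44e_udiv_of_nu
    (h : ∀ Q : Place (s44e_kA A) (s44e_FF A M), jcr_j (k := s44e_kA A) M ∈ Q.toValuationSubring →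
      ∃ T n : ℤ, 0 < T ∧ n = T * Q.ord (s44e_ubar A M p) ∧
        (s44e_IsSS A M p hp hpM Q → n = 12) ∧ (¬ s44e_IsSS A M p hp hpM Q → n = 0)) :
    s44e_UDiv A M p hp hpM := by
  intro Q hj
  obtain ⟨T, n, hT, hn, hss, hns⟩ := h Q hj
  refine ⟨fun hQ => ⟨T, ?_⟩, fun hQ => ?_⟩
  · rw [← hn]
    exact hss hQ
  · have h0 : T * Q.ord (s44e_ubar A M p) = 0 := by
      rw [← hn]
      exact hns hQ
    rcases mul_eq_zero.mp h0 with h1 | h1
    · exact absurd h1 hT.ne'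
    · exact h1

include hp in
/-- `p ∤ 12` for a prime `p ≥ 5`. -/
theorem s44e_not_dvd_twelve (hp5 : 5 ≤ p) : ¬ (p : ℤ) ∣ 12 := by
  intro h
  have h1 : p ∣ 12 := by exact_mod_cast h
  have h2 : p ∣ 2 ^ 2 * 3 := by norm_num; exact h1
  rcases (Nat.Prime.dvd_mul hp).mp h2 with h3 | h3
  · have := Nat.le_of_dvd (by norm_num) (hp.dvd_of_dvd_pow h3)
    omega
  · have := Nat.le_of_dvd (by norm_num) h3
    omega

variable {A M p hp hpM}

/-- on `Sg`, `ord_Q ū` divides `12`. -/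
theorem s44e_ord_ubar_dvd_of_udiv (h : s44e_UDiv A M p hp hpM) (i : s44e_Sg A M p hp hpM) :
    Place.ord i.1 (s44e_ubar A M p) ∣ 12 := by
  obtain ⟨T, hT⟩ := (h i.1 i.2.1).1 i.2
  exact ⟨T, by rw [← hT]; ring⟩

/-- on `Sg`, `ord_Q ū ≠ 0`. -/
theorem s44e_ord_ubar_ne_of_udiv (h : s44e_UDiv A M p hp hpM) (i : s44e_Sg A M p hp hpM) :
    Place.ord i.1 (s44e_ubar A M p) ≠ 0 := by
  intro h0
  have := s44e_ord_ubar_dvd_of_udiv h i
  rw [h0, zero_dvd_iff] at this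
  norm_num at this

/-- on `Sg`, `ord_Q ū ≢ 0 (mod p)`, `p ≥ 5`. -/
theorem s44e_ordU_ne_of_udiv (h : s44e_UDiv A M p hp hpM) (hp5 : 5 ≤ p)
    (i : s44e_Sg A M p hp hpM) : s44e_ordU A M p i.1 ≠ 0 := by
  obtain ⟨T, hT⟩ := (h i.1 i.2.1).1 i.2
  exact s44e_ordU_ne_zero A M p hp i.1 (s44e_not_dvd_twelve p hp hp5) hT

/-- **`k_ne`** for the weights `s44e_k2`. -/
theorem s44e_k2_ne_of_udiv (h : s44e_UDiv A M p hp hpM) (hp5 : 5 ≤ p)
    (i : s44e_Sg A M p hp hpM) : s44e_k2 A M p hp hpM i ≠ 0 :=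
  s44e_k2_ne_zero A M p hp hpM i (s44e_ordU_ne_of_udiv h hp5 i)

/-- `k2_Q · (ord_Q ū mod p) = 1` on `Sg`: the hypothesis `hSS` (with `c = 1`) of
`s44he_B_eis_of_unit`. -/
theorem s44e_k2_mul_ordU (h : s44e_UDiv A M p hp hpM) (hp5 : 5 ≤ p)
    (i : s44e_Sg A M p hp hpM) :
    s44e_k2 A M p hp hpM i * ((Place.ord i.1 (s44e_ubar A M p) : ℤ) : ZMod p) = 1 := by
  haveI : Fact p.Prime := ⟨hp⟩
  have h1 := s44e_ordU_ne_of_udiv h hp5 i
  rw [s44e_k2_def, ← s44e_ordU_def]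
  exact inv_mul_cancel₀ h1

/-- `p ∣ ord_Q ū` (in fact `ord_Q ū = 0`) at the non-supersingular places where `j̄` is finite: the
hypothesis `hoff` of `s44he_B_eis_of_unit`. -/
theorem s44e_dvd_ord_ubar_off (h : s44e_UDiv A M p hp hpM)
    (Q : Place (s44e_kA A) (s44e_FF A M))
    (hj : jcr_j (k := s44e_kA A) M ∈ Q.toValuationSubring) (hQ : ¬ s44e_IsSS A M p hp hpM Q) :
    (p : ℤ) ∣ Q.ord (s44e_ubar A M p) := by
  rw [(h Q hj).2 hQ]
  exact dvd_zero _

theorem s44e_ord_ubar_off (h : s44e_UDiv A M p hp hpM)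
    (Q : Place (s44e_kA A) (s44e_FF A M))
    (hj : jcr_j (k := s44e_kA A) M ∈ Q.toValuationSubring) (hQ : ¬ s44e_IsSS A M p hp hpM Q) :
    Q.ord (s44e_ubar A M p) = 0 :=
  (h Q hj).2 hQ

end UDiv

/-- the field `k_ne` of `s44bg_Cells` for the weights `s44e_k2`, at the frame of a Frey package. -/
theorem s44e_k2_ne_frame (P : FreyPackage) (M : ℕ) [NeZero M] [NeZero P.p] [NeZero (M * P.p)]
    (hpM : ¬ P.p ∣ M) (h : s44e_UDiv (s44f_A P.p P.pp) M P.p P.pp hpM)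
    (i : s44e_Sg (s44f_A P.p P.pp) M P.p P.pp hpM) :
    s44e_k2 (s44f_A P.p P.pp) M P.p P.pp hpM i ≠ 0 :=
  s44e_k2_ne_of_udiv h P.hp5 i

end Fermat.Agent.S44
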