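/-
S44, ruling R5, glue for the assembly of (U-DIV) (helper15; prefix `s44eu_`): NUMBER-FIELD MODELS OF THE
MODULAR UNIT.

`u = s44hu_U p N hpN ∈ F̄_N` (`p ∣ N`) has the series `coeffEmb Q̄ (modularUnitSeries p) = mzb_qi_U Q̄ p`.
A model of `u` over a subfield `L1 ⊆ Q̄` is `U1 ∈ lg_F L1 N` with `ιF U1 = u` (`ιF = ssm_al_iotaF L1 N`),
equivalently with series `mzb_qi_U L1 p` (the hypothesis `hx`/`hU1` of helper24's `s44uv_nf` and of
helper28's `s44un_*`).

* `s44eu_model_coe` / `s44eu_model_of_coe` : the two descriptions of a model agree;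
* `s44eu_exists_model` : models exist over every large `L1` (`dsc_bc_exists_fg`);
* `s44eu_model_mem`, `s44eu_model_inv_mem` : `ιF U1` is a Gauss unit of `s44pg_W A …`;
* `s44eu_red_model` : `s44rd_red A hA M hpM ⟨ιF U1, _⟩ = s44e_ubar A M p` — the reduction of ANY model is
  the `ū` of `Res/Defs2.lean`.
-/
import Mathlib
import Fermat.Agent.S44.Res.Ubar
import Fermat.Agent.SS.Model.AL

set_option autoImplicit false
set_option linter.unusedSectionVars false
set_option linter.style.haveILetI false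

noncomputable section

namespace Fermat.Agent.S44

open ModularCurve AlgebraicCurve IsLocalRing Fermat.Agent.JT3 Fermat.Agent.MZ Fermat.Agent.SS
  Fermat.Agent.S24

local notation "Qb" => AlgebraicClosure ℚ

section Model

variable (L1 : IntermediateField ℚ Qb) (p N : ℕ) [NeZero p] [NeZero N] (hpN : p ∣ N)

/-- the series of a model of `u` over `L1`. -/
theorem s44eu_model_coe {U1 : lg_F L1 N}
    (h : ssm_al_iotaF L1 N U1 = s44hu_U p N hpN) :
    (U1 : LaurentSeries L1) = mzb_qi_U L1 p := by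
  apply ssm_al_iota_injective L1
  have h1 := congrArg (fun z : Fbar N => (z : LaurentSeries Qb)) h
  simp only [ssm_al_coe_iotaF, s44hu_coe_U'] at h1
  rw [h1, ssm_al_iota, mzb_qi_coeffMap_U]

/-- an element of `lg_F L1 N` with the series `mzb_qi_U L1 p` is a model of `u`. -/
theorem s44eu_model_of_coe {U1 : lg_F L1 N}
    (h : (U1 : LaurentSeries L1) = mzb_qi_U L1 p) :
    ssm_al_iotaF L1 N U1 = s44hu_U p N hpN := by
  apply Subtype.ext
  rw [ssm_al_coe_iotaF, s44hu_coe_U', h, ssm_al_iota, mzb_qi_coeffMap_U]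

include hpN in
/-- models of `u` exist over every large subfield of `Q̄`. -/
theorem s44eu_exists_model :
    ∃ T : Finset Qb, ∀ L1 : IntermediateField ℚ Qb, (↑T : Set Qb) ⊆ L1 →
      ∃ U1 : lg_F L1 N, ssm_al_iotaF L1 N U1 = s44hu_U p N hpN := by
  have hb : coeffEmb Qb (modularUnitSeries p) ∈
      laurentBaseChange Qb (modularFunctionFieldFull N) := s44hu_series_mem p N hpN
  obtain ⟨T, hT⟩ := dsc_bc_exists_fg Qb (modularFunctionFieldFull N) hb
  refine ⟨T, fun L1 hL1 => ?_⟩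
  obtain ⟨y1, hy1, hy⟩ := hT L1 hL1
  have hy1' : y1 ∈ lg_F L1 N := by
    rw [lg_F_eq_laurentBaseChange]
    exact hy1
  refine ⟨⟨y1, hy1'⟩, ?_⟩
  apply Subtype.ext
  rw [ssm_al_coe_iotaF, s44hu_coe_U]
  exact hy

end Model

section Red

variable (A : ValuationSubring s44_Qb) {p : ℕ} [hp : Fact p.Prime] (hA : A.LiesOverPrime p)
  (M : ℕ) [NeZero M] [NeZero p] [NeZero (M * p)] (hpM : ¬ p ∣ M)
  (L1 : IntermediateField ℚ Qb)

/-- a model of `u` lies in the Gauss ring. -/
theorem s44eu_model_mem {U1 : lg_F L1 (M * p)}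
    (h : ssm_al_iotaF L1 (M * p) U1 = s44hu_U p (M * p) (s44hu_dvd (rfl : M * p = M * p))) :
    ssm_al_iotaF L1 (M * p) U1 ∈ s44pg_W A hA hp.out.ne_zero (M * p) := by
  rw [h]
  exact s44hu_U_mem A hA hp.out.ne_zero p (M * p) _

/-- the inverse of a model of `u` lies in the Gauss ring: a Gauss unit. -/
theorem s44eu_model_inv_mem {U1 : lg_F L1 (M * p)}
    (h : ssm_al_iotaF L1 (M * p) U1 = s44hu_U p (M * p) (s44hu_dvd (rfl : M * p = M * p))) :
    (ssm_al_iotaF L1 (M * p) U1)⁻¹ ∈ s44pg_W A hA hp.out.ne_zero (M * p) := by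
  rw [h]
  exact s44hu_U_inv_mem A hA hp.out.ne_zero p (M * p) _

/-- **the reduction of any model of `u` is `ū`.** -/
theorem s44eu_red_model {U1 : lg_F L1 (M * p)}
    (h : ssm_al_iotaF L1 (M * p) U1 = s44hu_U p (M * p) (s44hu_dvd (rfl : M * p = M * p)))
    (hb : ssm_al_iotaF L1 (M * p) U1 ∈ s44pg_W A hA hp.out.ne_zero (M * p)) :
    s44rd_red A hA M hpM ⟨ssm_al_iotaF L1 (M * p) U1, hb⟩ = s44e_ubar A M p := by
  rw [s44e_ubar_eq_red A hA M hpM, s44hu_ubar, s44rd_redG_eq_red]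
  congr 1
  exact Subtype.ext h

end Red

end Fermat.Agent.S44
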