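/-
S44, ruling R5/R6, the ASSEMBLY of (U-DIV) `s44e_UDiv`, part 1 (helper15; prefix `s44ud_`):
THE DICHOTOMY AT ONE NUMBER FIELD, in the vocabulary of helper12's `Mono/NodeDict.lean` instantiated at
helper1's `Mono/Centre.lean`.

Setting: `A` over `p` odd, `p ∤ M`; `L1 ⊆ Q̄` with `O := A ∩ L1` a DVR, `π` a uniformiser;
`F1 = lg_F L1 (M p)`, `E1 = lg_E L1 (M p)`, `φ = lg_phiE`, `W1 = s44mz_VF` (Gauss ring of `F1`),
`V1 = ssm_gl_V1`, `V2 = ssm_gl_V2` (the two Gauss valuations of `E1`), `B = fc_chart O {λ}`;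
`red : W1 →+* FF_M(kA)` ANY ring homomorphism compatible with `s44rd_red ∘ ιF` (`hred`);
`Q` a place of `FF_M / kA`; `(κ, r, hker, 𝒲)` with `hext` as in `NodeDict.lean`;
`𝒱' := tori_comp V1 r hker 𝒲` containing `O` and `j₂`.

* `s44ud_chart_le`   : the base `j`-chart lies in the Gauss ring `W1`;
* `s44ud_node_of_ss` : `Q` supersingular ⟹ the centre of `𝒱'` on `B` lies on the `0`-component
  (`s44ec_isSS_nf` + `s44nd_mem_nonunits_of_red` + `s44mz_P2_le_chart`);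
* `s44ud_not_node_of_witness` : a witness `b1` of non-supersingularity over `L1` ⟹ the centre of `𝒱'`
  is NOT on the `0`-component (`s44mzc_ss_of_P2_le` + `s44nd_nonunits_iff`);
* `s44ud_udiv_at` : **the two halves of (U-DIV) at `Q`** from the outputs of the node cells for a model
  `U1` of the modular unit: `hnode → ∃ T, T * Q.ord (red U1) = 12` and `¬ hnode → Q.ord (red U1) = 0`.
-/
import Mathlib
import Fermat.Agent.S44.Mono.CentreConv
import Fermat.Agent.S44.Mono.NodeDict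
import Fermat.Agent.S44.Res.SSNF
import Fermat.Agent.S44.Res.UbarNF
import Fermat.Agent.S44.Res.UDiv

set_option autoImplicit false
set_option linter.unusedSectionVars false
set_option linter.style.haveILetI false
set_option linter.unusedVariables false

noncomputable section

namespace Fermat.Agent.S44

open Polynomial ModularCurve AlgebraicCurve IntermediateField IsLocalRing
open Fermat.Agent.JT3 Fermat.Agent.SS Fermat.Agent.S35 Fermat.Agent.S24

local notation "Qb" => AlgebraicClosure ℚ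

section Dich

variable (A : ValuationSubring s44_Qb) {p : ℕ} [hp : Fact p.Prime] (hA : A.LiesOverPrime p)
  (M : ℕ) [NeZero M] [NeZero p] [NeZero (M * p)] (hpM : ¬ p ∣ M) (hp2 : ¬ 2 ∣ p)
  (L1 : IntermediateField ℚ s44_Qb)
  [IsDiscreteValuationRing ↥(A.comap (algebraMap L1 s44_Qb))]
  [CharP (ResidueField ↥(A.comap (algebraMap L1 s44_Qb))) p]
  {π : ↥(A.comap (algebraMap L1 s44_Qb))} (hπ : Irreducible π)

set_option hygiene false in
local notation "O1" => ValuationSubring.comap A (algebraMap L1 s44_Qb)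

/-- the base `j`-chart lies in the Gauss ring. -/
theorem s44ud_chart_le (b : ↥(lg_F L1 (M * p)))
    (hb : b ∈ fc_chart ↥O1 ({rpz_jF L1 (M * p)} : Set ↥(lg_F L1 (M * p)))) :
    b ∈ s44mz_VF O1 hπ M p := by
  haveI := ssm_go_isScalarTower O1 (lg_F L1 (M * p))
  rw [fc_mem_chart] at hb
  refine ssm_tp_mem_of_isIntegral (s44mz_VF O1 hπ M p) ?_ hb
  rintro ⟨c, hc⟩
  show c ∈ s44mz_VF O1 hπ M p
  induction hc using Algebra.adjoin_induction with
  | mem s hs =>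
    rw [Set.mem_singleton_iff] at hs
    rw [hs]
    show gq_IsBdd ↥O1 L1 (jqModC L1)
    rw [← coeffMap_jqModC (algebraMap ↥O1 L1)]
    exact gq_isBdd_iota _
  | algebraMap a =>
    show gq_IsBdd ↥O1 L1 (algebraMap L1 (LaurentSeries L1) (a : L1))
    have h : algebraMap L1 (LaurentSeries L1) (a : L1) =
        coeffMap (algebraMap ↥O1 L1) (algebraMap ↥O1 (LaurentSeries ↥O1) a) := by
      rw [gq_coeffMap_algebraMap]
      rfl
    rw [h]
    exact gq_isBdd_iota _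
  | add x y _ _ hx hy => exact (s44mz_VF O1 hπ M p).add_mem _ _ hx hy
  | mul x y _ _ hx hy => exact (s44mz_VF O1 hπ M p).mul_mem _ _ hx hy

variable (hprime : Prime (algebraMap ↥O1 (fc_chart ↥O1 ({lg_lamE M} : Set ↥(lg_E L1 M))) π))
  (red : ↥(s44mz_VF O1 hπ M p) →+* ↥(s44e_FF A M))
  (hker0 : ∀ z : ↥(s44mz_VF O1 hπ M p),
    (z : ↥(lg_F L1 (M * p))) ∈ (s44mz_VF O1 hπ M p).nonunits → red z = 0)
  (hred : ∀ (x : ↥(s44mz_VF O1 hπ M p))
    (hb : ssm_al_iotaF L1 (M * p) (x : ↥(lg_F L1 (M * p))) ∈ s44pg_W A hA hp.out.ne_zero (M * p)),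
      red x = s44rd_red A hA M hpM ⟨ssm_al_iotaF L1 (M * p) (x : ↥(lg_F L1 (M * p))), hb⟩)
  (Q : Place (s44e_kA A) (s44e_FF A M))
  {κ : Type*} [Field κ] (r : ↥(ssm_gl_V1 O1 hπ M p) →+* κ)
  (hker : ∀ z : ↥(ssm_gl_V1 O1 hπ M p),
    (z : ↥(lg_E L1 (M * p))) ∈ (ssm_gl_V1 O1 hπ M p).nonunits → r z = 0)
  (𝒲 : ValuationSubring κ)
  (hext : ∀ x : ↥(lg_F L1 (M * p)),
    (lg_phiE (L := L1) (N := M * p)).toRingHom x ∈ tori_comp (ssm_gl_V1 O1 hπ M p) r hker 𝒲 ↔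
      x ∈ tori_comp (s44mz_VF O1 hπ M p) red hker0 Q.toValuationSubring)
  (hO𝒱 : ∀ a : ↥O1, algebraMap ↥O1 ↥(lg_E L1 (M * p)) a ∈
    tori_comp (ssm_gl_V1 O1 hπ M p) r hker 𝒲)
  (hj2 : s44mz_j2E L1 (M * p) ∈ tori_comp (ssm_gl_V1 O1 hπ M p) r hker 𝒲)

include hprime hred hext hO𝒱 hj2 in
set_option maxHeartbeats 1600000 in
set_option synthInstance.maxHeartbeats 200000 in
/-- **(SS⟹NODE)**: if `Q` is supersingular, the centre of `𝒱'` on the `λ`-chart lies on the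
`0`-component. -/
theorem s44ud_node_of_ss (hQ : s44e_IsSS A M p hp.out hpM Q) :
    ssm_tp_P (fc_chart ↥O1 ({lg_lamE (M * p)} : Set ↥(lg_E L1 (M * p))))
        (ssm_gl_V2 O1 hπ M p hp2 hpM) ≤
      ssm_tp_P (fc_chart ↥O1 ({lg_lamE (M * p)} : Set ↥(lg_E L1 (M * p))))
        (tori_comp (ssm_gl_V1 O1 hπ M p) r hker 𝒲) := by
  refine s44mz_P2_le_chart O1 hπ M p hp2 hpM hprime _ hO𝒱 hj2 ?_
  intro b hbchart hW
  have hbW1 := s44ud_chart_le A M L1 hπ b hbchart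
  have hbdd : gq_IsBdd ↥O1 L1 ((b : ↥(lg_F L1 (M * p))) : LaurentSeries L1) := hbW1
  have hb : ssm_al_iotaF L1 (M * p) b ∈ s44pg_W A hA hp.out.ne_zero (M * p) :=
    s44ec_isBdd_iotaF A L1 (M * p) b hbdd
  have hint : IsIntegral (Algebra.adjoin ↥O1
      ({rdn_gf_j (L := L1) (M * p)} : Set ↥(lg_F L1 (M * p)))) b := fc_mem_chart.1 hbchart
  have hWbdd : gq_IsBdd ↥O1 L1
      ((ssm_al_W L1 M p hp.out hpM b : ↥(lg_F L1 (M * p))) : LaurentSeries L1) :=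
    ValuationSubring.nonunits_subset hW
  have hW0 : gq_res ↥O1 L1 ⟨_, hWbdd⟩ = 0 :=
    (gq_mem_nonunits_iff_res π hπ.ne_zero hπ.maximalIdeal_eq (lg_F L1 (M * p))
      (rdn_gf_le_quotField O1 (M * p)) _ hWbdd).1 hW
  have h1 := s44ec_isSS_nf A hA M hpM hQ L1 b hint hWbdd hW0 hb
  have h2 : red ⟨b, hbW1⟩ ∈ Q.toValuationSubring.nonunits := by
    rw [hred ⟨b, hbW1⟩ hb]
    exact h1
  exact s44nd_mem_nonunits_of_red (lg_phiE (L := L1) (N := M * p)).toRingHom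
    (s44mz_VF O1 hπ M p) (ssm_gl_V1 O1 hπ M p) red hker0 Q r hker 𝒲 hext h2

include hprime hred hext hO𝒱 hj2 in
set_option maxHeartbeats 1600000 in
set_option synthInstance.maxHeartbeats 200000 in
/-- **(NODE⟹SS), contrapositive**: a witness of non-supersingularity over `L1` shows that the centre
of `𝒱'` is not on the `0`-component. -/
theorem s44ud_not_node_of_witness (b1 : ↥(lg_F L1 (M * p)))
    (hb : ssm_al_iotaF L1 (M * p) b1 ∈ s44pg_W A hA hp.out.ne_zero (M * p))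
    (hW : gq_IsBdd ↥O1 L1
      ((ssm_al_W L1 M p hp.out hpM b1 : ↥(lg_F L1 (M * p))) : LaurentSeries L1))
    (hint : IsIntegral (Algebra.adjoin ↥O1
      ({rdn_gf_j (L := L1) (M * p)} : Set ↥(lg_F L1 (M * p)))) b1)
    (hW0 : gq_res ↥O1 L1 ⟨_, hW⟩ = 0)
    (hnot : ((s44rd_red A hA M hpM ⟨ssm_al_iotaF L1 (M * p) b1, hb⟩ : ↥(s44e_FF A M))) ∉
      Q.toValuationSubring.nonunits) :
    ¬ (ssm_tp_P (fc_chart ↥O1 ({lg_lamE (M * p)} : Set ↥(lg_E L1 (M * p))))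
        (ssm_gl_V2 O1 hπ M p hp2 hpM) ≤
      ssm_tp_P (fc_chart ↥O1 ({lg_lamE (M * p)} : Set ↥(lg_E L1 (M * p))))
        (tori_comp (ssm_gl_V1 O1 hπ M p) r hker 𝒲)) := by
  intro hnode
  have hchart : b1 ∈ fc_chart ↥O1 ({rpz_jF L1 (M * p)} : Set ↥(lg_F L1 (M * p))) :=
    fc_mem_chart.2 hint
  have hWnu : ssm_al_W L1 M p hp.out hpM b1 ∈ (s44mz_VF O1 hπ M p).nonunits :=
    (gq_mem_nonunits_iff_res π hπ.ne_zero hπ.maximalIdeal_eq (lg_F L1 (M * p))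
      (rdn_gf_le_quotField O1 (M * p)) _ hW).2 hW0
  have h1 := s44mzc_ss_of_P2_le O1 hπ M p hp2 hpM hprime _ hO𝒱 hj2 hnode b1 hchart hWnu
  have h2 := (s44nd_nonunits_iff (lg_phiE (L := L1) (N := M * p)).toRingHom
    (s44mz_VF O1 hπ M p) (ssm_gl_V1 O1 hπ M p) red hker0 Q r hker 𝒲 hext b1).1 h1
  rw [tori_comp_mem_nonunits_iff] at h2
  obtain ⟨h3, h4⟩ := h2
  apply hnot
  rw [← hred ⟨b1, h3⟩ hb]
  exact h4

include hprime hred hext hO𝒱 hj2 in
set_option maxHeartbeats 1600000 in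
set_option synthInstance.maxHeartbeats 200000 in
/-- **the two halves of (U-DIV) at `Q`**, from the outputs of the node cells for a model `U1` of the
modular unit over `L1`: at a centre on the `0`-component `T · ord_Q (red U1) = 12` ((ND-main) +
(U-NODE)(a)), elsewhere `ord_Q (red U1) = 0` ((ND-smooth) + (U-NODE)(b)).  `hwit` is the conclusion of
`s44ec_not_isSS_nf` at `L1` (i.e. `L1` contains the finite set of that theorem). -/
theorem s44ud_udiv_at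
    (hwit : ¬ s44e_IsSS A M p hp.out hpM Q →
      ∃ (b1 : ↥(lg_F L1 (M * p)))
        (hb : ssm_al_iotaF L1 (M * p) b1 ∈ s44pg_W A hA hp.out.ne_zero (M * p))
        (hW : gq_IsBdd ↥O1 L1
          ((ssm_al_W L1 M p hp.out hpM b1 : ↥(lg_F L1 (M * p))) : LaurentSeries L1)),
        IsIntegral (Algebra.adjoin ↥O1
          ({rdn_gf_j (L := L1) (M * p)} : Set ↥(lg_F L1 (M * p)))) b1 ∧
        gq_res ↥O1 L1 ⟨_, hW⟩ = 0 ∧
        ((s44rd_red A hA M hpM ⟨ssm_al_iotaF L1 (M * p) b1, hb⟩ : ↥(s44e_FF A M))) ∉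
          Q.toValuationSubring.nonunits)
    (U1 : ↥(s44mz_VF O1 hπ M p))
    (hU1 : ssm_al_iotaF L1 (M * p) (U1 : ↥(lg_F L1 (M * p))) =
      s44hu_U p (M * p) (s44hu_dvd (rfl : M * p = M * p)))
    (hNodeOut : ssm_tp_P (fc_chart ↥O1 ({lg_lamE (M * p)} : Set ↥(lg_E L1 (M * p))))
          (ssm_gl_V2 O1 hπ M p hp2 hpM) ≤
        ssm_tp_P (fc_chart ↥O1 ({lg_lamE (M * p)} : Set ↥(lg_E L1 (M * p))))
          (tori_comp (ssm_gl_V1 O1 hπ M p) r hker 𝒲) →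
      ∃ T : ℤ, T * Q.ord (red U1) = 12)
    (hSmoothOut : ¬ (ssm_tp_P (fc_chart ↥O1 ({lg_lamE (M * p)} : Set ↥(lg_E L1 (M * p))))
          (ssm_gl_V2 O1 hπ M p hp2 hpM) ≤
        ssm_tp_P (fc_chart ↥O1 ({lg_lamE (M * p)} : Set ↥(lg_E L1 (M * p))))
          (tori_comp (ssm_gl_V1 O1 hπ M p) r hker 𝒲)) →
      Q.ord (red U1) = 0) :
    (s44e_IsSS A M p hp.out hpM Q → ∃ T : ℤ, T * Q.ord (s44e_ubar A M p) = 12) ∧
    (¬ s44e_IsSS A M p hp.out hpM Q → Q.ord (s44e_ubar A M p) = 0) := by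
  have hUb : red U1 = s44e_ubar A M p := by
    rw [hred U1 (s44eu_model_mem A hA M L1 hU1)]
    exact s44eu_red_model A hA M hpM L1 hU1 _
  rw [← hUb]
  refine ⟨fun hQ => ?_, fun hQ => ?_⟩
  · exact hNodeOut
      (s44ud_node_of_ss A hA M hpM hp2 L1 hπ hprime red hker0 hred Q r hker 𝒲 hext hO𝒱 hj2 hQ)
  · obtain ⟨b1, hb, hW, hint, hW0, hnot⟩ := hwit hQ
    exact hSmoothOut
      (s44ud_not_node_of_witness A hA M hpM hp2 L1 hπ hprime red hker0 hred Q r hker 𝒲 hext hO𝒱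
        hj2 b1 hb hW hint hW0 hnot)

end Dich

end Fermat.Agent.S44
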