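/-
S44 project, cell [E2] RES, sub-cell (E2-fin) (helper6).  Prefix `s44rf_`.

THE FINAL ALGEBRAIC STEP OF [E2], in the Prelude vocabulary `Place / Divisor / Pic0`:
`K ⊆ F` fields, every element of `K` a `p`-th power, the functions without zeros or poles are the
constants.  If `f ≠ 0` has all its orders divisible by `p` and `f` is NOT a `p`-th power in `F`, then
`(1/p) div f` is a NONZERO class of `Pic0 K F` killed by `p`.

* `s44rf_class`      : from a degree-zero divisor `D` with `p * D v = v.ord f`.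
* `s44rf_exists_div` : (`HasPrincipalDivisors`) `∀ v, p ∣ v.ord f` ⟹ such a `D` exists.
* `s44rf_main`       : the two together.
Mathlib + Prelude only.
-/
import Mathlib
import Fermat.Prelude.Def_AlgebraicCurve_DivisorClassGroup

set_option autoImplicit false

namespace Fermat.Agent.S44

open AlgebraicCurve

variable {K F : Type*} [Field K] [Field F] [Algebra K F]

/-- `ord (f / g ^ p) = ord f - p * ord g` -/
theorem s44rf_ord_div_pow (v : Place K F) {f g : F} (hf : f ≠ 0) (hg : g ≠ 0) (p : ℕ) :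
    v.ord (f / g ^ p) = v.ord f - (p : ℤ) * v.ord g := by
  have hgp : g ^ p ≠ 0 := pow_ne_zero p hg
  rw [div_eq_mul_inv, v.ord_mul hf (inv_ne_zero hgp), v.ord_inv, ← zpow_natCast, v.ord_zpow]
  ring

/-- **(E2-fin)**: a non-`p`-th-power with orders `p * D` gives a nonzero `p`-torsion class. -/
theorem s44rf_class (p : ℕ) (hroot : ∀ c : K, ∃ d : K, d ^ p = c)
    (hconst : ∀ u : F, u ≠ 0 → (∀ v : Place K F, v.ord u = 0) → ∃ c : K, u = algebraMap K F c)
    {f : F} (hf : f ≠ 0) (D : Divisor.degZero (K := K) (F := F))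
    (hD : ∀ v : Place K F, (p : ℤ) * (D : Divisor K F) v = v.ord f)
    (hnp : ¬ ∃ g : F, f = g ^ p) :
    Pic0.mk D ≠ 0 ∧ p • Pic0.mk D = 0 := by
  constructor
  · intro h0
    have hmem : D ∈ (Divisor.principal (K := K) (F := F)).addSubgroupOf
        (Divisor.degZero (K := K) (F := F)) := (QuotientAddGroup.eq_zero_iff D).mp h0
    rw [AddSubgroup.mem_addSubgroupOf] at hmem
    obtain ⟨g, hg, hDg⟩ := hmem
    have hu0 : f / g ^ p ≠ 0 := div_ne_zero hf (pow_ne_zero p hg)
    have hu : ∀ v : Place K F, v.ord (f / g ^ p) = 0 := by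
      intro v
      rw [s44rf_ord_div_pow v hf hg, ← hDg v, hD v, sub_self]
    obtain ⟨c, hc⟩ := hconst _ hu0 hu
    obtain ⟨d, hd⟩ := hroot c
    apply hnp
    refine ⟨algebraMap K F d * g, ?_⟩
    rw [mul_pow, ← map_pow, hd, ← hc, div_mul_cancel₀ _ (pow_ne_zero p hg)]
  · have h1 : p • Pic0.mk D = Pic0.mk (p • D) := rfl
    rw [h1]
    refine (QuotientAddGroup.eq_zero_iff _).mpr ?_
    rw [AddSubgroup.mem_addSubgroupOf]
    refine ⟨f, hf, fun v => ?_⟩
    rw [← hD v]
    simp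

/-- division of the divisor of `f` by `p`. -/
theorem s44rf_exists_div [HasPrincipalDivisors K F] {p : ℕ} (hp : 0 < p) {f : F} (hf : f ≠ 0)
    (hdvd : ∀ v : Place K F, (p : ℤ) ∣ v.ord f) :
    ∃ D : Divisor.degZero (K := K) (F := F),
      ∀ v : Place K F, (p : ℤ) * (D : Divisor K F) v = v.ord f := by
  obtain ⟨Df, hDf, hdeg⟩ := HasPrincipalDivisors.exists_divisor (K := K) f hf
  have hp0 : (p : ℤ) ≠ 0 := by exact_mod_cast hp.ne'
  set D : Divisor K F := Finsupp.mapRange (fun n : ℤ => n / (p : ℤ)) (by simp) Df with hDdef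
  have hDv : ∀ v : Place K F, (p : ℤ) * D v = v.ord f := by
    intro v
    rw [hDdef, Finsupp.mapRange_apply, hDf v]
    exact Int.mul_ediv_cancel' (hdvd v)
  have hpD : (p : ℤ) • D = Df := by
    ext v
    rw [Finsupp.smul_apply, smul_eq_mul, hDv v, hDf v]
  have hdegD : Divisor.degree D = 0 := by
    have h1 : (p : ℤ) • Divisor.degree D = 0 := by
      rw [← map_zsmul, hpD, hdeg]
    rcases smul_eq_zero.mp h1 with h | h
    · exact absurd h hp0
    · exact h
  exact ⟨⟨D, hdegD⟩, hDv⟩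

/-- **(E2-fin), existence form.** -/
theorem s44rf_main [HasPrincipalDivisors K F] {p : ℕ} (hp : 0 < p)
    (hroot : ∀ c : K, ∃ d : K, d ^ p = c)
    (hconst : ∀ u : F, u ≠ 0 → (∀ v : Place K F, v.ord u = 0) → ∃ c : K, u = algebraMap K F c)
    {f : F} (hf : f ≠ 0) (hdvd : ∀ v : Place K F, (p : ℤ) ∣ v.ord f)
    (hnp : ¬ ∃ g : F, f = g ^ p) :
    ∃ δ : Pic0 K F, δ ≠ 0 ∧ p • δ = 0 ∧
      ∃ D : Divisor.degZero (K := K) (F := F), Pic0.mk D = δ ∧
        ∀ v : Place K F, (p : ℤ) * (D : Divisor K F) v = v.ord f := by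
  obtain ⟨D, hD⟩ := s44rf_exists_div hp hf hdvd
  obtain ⟨h1, h2⟩ := s44rf_class p hroot hconst hf D hD hnp
  exact ⟨Pic0.mk D, h1, h2, D, rfl, hD⟩

end Fermat.Agent.S44
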