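import Fermat.Agent.S44.Res.Defs
import Fermat.Agent.S44.Res.Fin
import Fermat.Agent.S44.PsiEig.Gauss
import Fermat.Agent.S44.Bridge.Rep
import Fermat.Agent.JT3.Riemann.Principal

/-!
# S44 cell [E2] RES (helper20): THE GLUE — from the residue dictionary to `ν_add` and `δ`

Inputs (hypotheses `hmem`, `hsurj`; = helper28's [RES-DICT] (D1), (D2)):
* `hmem`  : the `w_∞`-reduction of every Gauss-integral `b ∈ F̄_N` lies in `FF_M`;
* `hsurj` : every element of `FF_M` is such a reduction.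

Outputs:
* `s44e_redOf_mul/inv/const/...` : calculus of `s44e_RedOf`;
* `s44e_fbar_exists`  : every `z` with `p z = 0` has an `f̄_z`;
* `s44e_fbar_unique`  : `f̄_z` is unique up to `p`-th powers;
* `s44e_nuAll_eq`, `s44e_nuAll_add` : `ν` is well defined and additive on `J₀(N)[p]`.
-/

set_option autoImplicit false
set_option linter.unusedSectionVars false
set_option linter.style.haveILetI false

noncomputable section

namespace Fermat.Agent.S44

open ModularCurve AlgebraicCurve IsLocalRing Fermat.Agent.JT3 Fermat.Agent.S35 Fermat.Agent.SS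
  Fermat.Agent.S24 Fermat.Agent.SS2

local notation "Qb" => AlgebraicClosure ℚ

section Calc

variable (A : ValuationSubring Qb) (M : ℕ) [NeZero M] {N : ℕ}

theorem s44e_redOf_mul {f f' : modularFunctionFieldBar N} {fb fb' : s44e_FF A M}
    (h : s44e_RedOf A M f fb) (h' : s44e_RedOf A M f' fb') :
    s44e_RedOf A M (f * f') (fb * fb') := by
  obtain ⟨hb, e⟩ := h
  obtain ⟨hb', e'⟩ := h'
  have hmul : gq_IsBdd ↥A Qb ((f * f' : modularFunctionFieldBar N) : LaurentSeries Qb) :=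
    (gq_bddSubring ↥A Qb).mul_mem hb hb'
  refine ⟨hmul, ?_⟩
  have h1 : (⟨((f * f' : modularFunctionFieldBar N) : LaurentSeries Qb), hmul⟩ :
      ↥(gq_bddSubring ↥A Qb)) = ⟨(f : LaurentSeries Qb), hb⟩ * ⟨(f' : LaurentSeries Qb), hb'⟩ :=
    rfl
  rw [h1, map_mul, e, e']
  rfl

theorem s44e_redOf_one : s44e_RedOf A M (1 : modularFunctionFieldBar N) 1 := by
  refine ⟨(gq_bddSubring ↥A Qb).one_mem, ?_⟩
  have h1 : (⟨((1 : modularFunctionFieldBar N) : LaurentSeries Qb),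
      (gq_bddSubring ↥A Qb).one_mem⟩ : ↥(gq_bddSubring ↥A Qb)) = 1 := rfl
  rw [h1, map_one]
  rfl

theorem s44e_redOf_inv {f : modularFunctionFieldBar N} {fb : s44e_FF A M}
    (h : s44e_RedOf A M f fb) (hfb : fb ≠ 0) : s44e_RedOf A M f⁻¹ fb⁻¹ := by
  obtain ⟨hb, e⟩ := h
  have hres : gq_res ↥A Qb ⟨(f : LaurentSeries Qb), hb⟩ ≠ 0 := by
    rw [e]
    intro h0
    exact hfb (Subtype.ext h0)
  have hinv : gq_IsBdd ↥A Qb ((f⁻¹ : modularFunctionFieldBar N) : LaurentSeries Qb) :=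
    gq_isBdd_inv_of_res_ne_zero ⟨(f : LaurentSeries Qb), hb⟩ hres
  refine ⟨hinv, ?_⟩
  have hf0 : (f : LaurentSeries Qb) ≠ 0 := by
    intro h0
    apply hres
    have : (⟨(f : LaurentSeries Qb), hb⟩ : ↥(gq_bddSubring ↥A Qb)) = 0 := Subtype.ext h0
    rw [this, map_zero]
  have h1 : (⟨(f : LaurentSeries Qb), hb⟩ : ↥(gq_bddSubring ↥A Qb)) *
      ⟨((f⁻¹ : modularFunctionFieldBar N) : LaurentSeries Qb), hinv⟩ = 1 := by
    apply Subtype.ext
    change (f : LaurentSeries Qb) * ((f⁻¹ : modularFunctionFieldBar N) : LaurentSeries Qb) = 1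
    rw [IntermediateField.coe_inv]
    exact mul_inv_cancel₀ hf0
  have h2 := congrArg (gq_res ↥A Qb) h1
  rw [map_mul, map_one, e] at h2
  have h3 : ((fb⁻¹ : s44e_FF A M) : LaurentSeries (s44e_kA A)) =
      ((fb : s44e_FF A M) : LaurentSeries (s44e_kA A))⁻¹ := IntermediateField.coe_inv _ _
  rw [h3]
  exact eq_inv_of_mul_eq_one_right h2

theorem s44e_redOf_pow {f : modularFunctionFieldBar N} {fb : s44e_FF A M}
    (h : s44e_RedOf A M f fb) (n : ℕ) : s44e_RedOf A M (f ^ n) (fb ^ n) := by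
  induction n with
  | zero => rw [pow_zero, pow_zero]; exact s44e_redOf_one A M
  | succ n ih => rw [pow_succ, pow_succ]; exact s44e_redOf_mul A M ih h

theorem s44e_redOf_unique {f : modularFunctionFieldBar N} {fb fb' : s44e_FF A M}
    (h : s44e_RedOf A M f fb) (h' : s44e_RedOf A M f fb') : fb = fb' := by
  obtain ⟨hb, e⟩ := h
  obtain ⟨hb', e'⟩ := h'
  exact Subtype.ext (e.symm.trans e')

/-- reduction of a constant of `A`. -/
theorem s44e_redOf_const [NeZero N] (c : Qb) (hc : c ∈ A) :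
    s44e_RedOf A M (algebraMap Qb (modularFunctionFieldBar N) c)
      (algebraMap (s44e_kA A) (s44e_FF A M) (residue ↥A ⟨c, hc⟩)) := by
  have e0 : ((algebraMap Qb (modularFunctionFieldBar N) c : modularFunctionFieldBar N) :
      LaurentSeries Qb) = coeffMap (algebraMap ↥A Qb) (algebraMap ↥A (LaurentSeries ↥A) ⟨c, hc⟩) := by
    rw [gq_coeffMap_algebraMap]
    rfl
  have hb : gq_IsBdd ↥A Qb ((algebraMap Qb (modularFunctionFieldBar N) c :
      modularFunctionFieldBar N) : LaurentSeries Qb) := by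
    rw [e0]
    exact gq_isBdd_iota _
  refine ⟨hb, ?_⟩
  have h1 : (⟨((algebraMap Qb (modularFunctionFieldBar N) c : modularFunctionFieldBar N) :
      LaurentSeries Qb), hb⟩ : ↥(gq_bddSubring ↥A Qb)) =
      ⟨coeffMap (algebraMap ↥A Qb) (algebraMap ↥A (LaurentSeries ↥A) ⟨c, hc⟩),
        gq_isBdd_iota _⟩ := Subtype.ext e0
  rw [h1, gq_res_iota, gq_algebraMap_eq_single, coeffMap_single]
  change _ = algebraMap (s44e_kA A) (LaurentSeries (s44e_kA A)) _
  rw [gq_algebraMap_eq_single]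

end Calc

section Fbar

variable (A : ValuationSubring Qb) {p : ℕ} (hp : p.Prime) (hA : A.LiesOverPrime p)
  (M : ℕ) [NeZero M] [NeZero (M * p)]
  (hmem : ∀ (b : modularFunctionFieldBar (M * p))
    (h : gq_IsBdd ↥A Qb (b : LaurentSeries Qb)),
    gq_res ↥A Qb ⟨(b : LaurentSeries Qb), h⟩ ∈ lg_F (s44e_kA A) M)

include hp hA hmem

/-- a Gauss unit has a nonzero reduction in `FF_M`. -/
theorem s44e_exists_redOf_of_unit {f : modularFunctionFieldBar (M * p)}
    (h1 : f ∈ s44pg_W A hA hp.ne_zero (M * p)) (h2 : f⁻¹ ∈ s44pg_W A hA hp.ne_zero (M * p))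
    (hf0 : f ≠ 0) : ∃ fb : s44e_FF A M, fb ≠ 0 ∧ s44e_RedOf A M f fb := by
  have hb : gq_IsBdd ↥A Qb (f : LaurentSeries Qb) := h1
  have hbi : gq_IsBdd ↥A Qb ((f : LaurentSeries Qb))⁻¹ := by
    have : gq_IsBdd ↥A Qb ((f⁻¹ : modularFunctionFieldBar (M * p)) : LaurentSeries Qb) := h2
    rwa [IntermediateField.coe_inv] at this
  have hf0' : (f : LaurentSeries Qb) ≠ 0 := fun h => hf0 (Subtype.ext h)
  have hne := gq_res_ne_zero_of_inv (⟨(f : LaurentSeries Qb), hb⟩ : ↥(gq_bddSubring ↥A Qb)) hbi hf0'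
  refine ⟨⟨_, hmem f hb⟩, ?_, hb, rfl⟩
  intro h0
  exact hne (congrArg Subtype.val h0)

/-- **existence of `f̄_z`.** -/
theorem s44e_fbar_exists {z : JZero (M * p)} (hz : p • z = 0) :
    ∃ fb, s44e_Fbar A M p z fb := by
  obtain ⟨f, hf⟩ := s44b_rep_exists (M * p) hz
  obtain ⟨c, hc0, h1, h2⟩ := s44pg_nrm A hA hp.ne_zero (M * p) hf.1
  have hf10 : algebraMap Qb (modularFunctionFieldBar (M * p)) c * f ≠ 0 :=
    mul_ne_zero ((_root_.map_ne_zero _).2 hc0) hf.1
  obtain ⟨fb, hfb0, hfb⟩ := s44e_exists_redOf_of_unit A hp hA M hmem h1 h2 hf10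
  refine ⟨fb, hfb0, _, ?_, hfb⟩
  have := (s44b_rep_pth (M * p) (p := p) (z := z) (f := f) (c := c)
    (h := (1 : modularFunctionFieldBar (M * p))) hc0 one_ne_zero).2 hf
  rwa [one_pow, mul_one] at this

/-- **uniqueness of `f̄_z` up to `p`-th powers.** -/
theorem s44e_fbar_unique {z : JZero (M * p)} {fb fb' : s44e_FF A M}
    (h : s44e_Fbar A M p z fb) (h' : s44e_Fbar A M p z fb') :
    ∃ g : s44e_FF A M, g ≠ 0 ∧ fb' = g ^ p * fb := by
  haveI : IsAlgClosed (s44e_kA A) := jcr_isAlgClosed A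
  obtain ⟨hfb0, f, hf, hred⟩ := h
  obtain ⟨hfb0', f', hf', hred'⟩ := h'
  obtain ⟨c, u, hc0, hu0, e⟩ := s44b_rep_unique (M * p) hf hf'
  obtain ⟨d, hd0, hu1, hu2⟩ := s44pg_nrm A hA hp.ne_zero (M * p) hu0
  set u1 := algebraMap Qb (modularFunctionFieldBar (M * p)) d * u with hu1def
  have hu10 : u1 ≠ 0 := mul_ne_zero ((_root_.map_ne_zero _).2 hd0) hu0
  obtain ⟨ub, hub0, hub⟩ := s44e_exists_redOf_of_unit A hp hA M hmem hu1 hu2 hu10
  -- the constant
  set c' : Qb := c / d ^ p with hc'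
  have e' : f' = algebraMap Qb (modularFunctionFieldBar (M * p)) c' * (f * u1 ^ p) := by
    rw [e, hu1def, hc', map_div₀, map_pow, mul_pow]
    have hd' : algebraMap Qb (modularFunctionFieldBar (M * p)) d ≠ 0 :=
      (_root_.map_ne_zero _).2 hd0
    field_simp
  have hfu : s44e_RedOf A M (f * u1 ^ p) (fb * ub ^ p) :=
    s44e_redOf_mul A M hred (s44e_redOf_pow A M hub p)
  have hfu0 : fb * ub ^ p ≠ 0 := mul_ne_zero hfb0 (pow_ne_zero _ hub0)
  have hinv := s44e_redOf_inv A M hfu hfu0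
  have hcW : s44e_RedOf A M (algebraMap Qb (modularFunctionFieldBar (M * p)) c')
      (fb' * (fb * ub ^ p)⁻¹) := by
    have h1 := s44e_redOf_mul A M hred' hinv
    have h2 : f' * (f * u1 ^ p)⁻¹ = algebraMap Qb (modularFunctionFieldBar (M * p)) c' := by
      have : f * u1 ^ p ≠ 0 := mul_ne_zero hf.1 (pow_ne_zero _ hu10)
      rw [e', mul_assoc, mul_inv_cancel₀ this, mul_one]
    rwa [h2] at h1
  have hc'A : c' ∈ A := (s44pg_isBdd_const A c').1 hcW.1
  have hcc := s44e_redOf_const A M (N := M * p) c' hc'A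
  have heq := s44e_redOf_unique A M hcW hcc
  obtain ⟨e0, he0⟩ := IsAlgClosed.exists_pow_nat_eq (residue ↥A ⟨c', hc'A⟩) hp.pos
  refine ⟨algebraMap (s44e_kA A) (s44e_FF A M) e0 * ub, ?_, ?_⟩
  · refine mul_ne_zero ?_ hub0
    rw [Ne, map_eq_zero]
    rintro rfl
    rw [zero_pow hp.ne_zero] at he0
    rw [← he0, map_zero] at heq
    have : fb' = 0 := by
      have h3 := congrArg (· * (fb * ub ^ p)) heq
      simp only [zero_mul] at h3
      rwa [inv_mul_cancel_right₀ hfu0] at h3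
    exact hfb0' this
  · rw [mul_pow, ← map_pow, he0, ← heq]
    field_simp

/-- multiplicativity. -/
theorem s44e_fbar_mul {z z' : JZero (M * p)} {fb fb' : s44e_FF A M}
    (h : s44e_Fbar A M p z fb) (h' : s44e_Fbar A M p z' fb') :
    s44e_Fbar A M p (z + z') (fb * fb') := by
  obtain ⟨hfb0, f, hf, hred⟩ := h
  obtain ⟨hfb0', f', hf', hred'⟩ := h'
  exact ⟨mul_ne_zero hfb0 hfb0', f * f', s44b_rep_mul (M * p) hf hf',
    s44e_redOf_mul A M hred hred'⟩

/-- `f̄_z` is an `f̄_z`. -/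
theorem s44e_fbar_spec {z : JZero (M * p)} (hz : p • z = 0) :
    s44e_Fbar A M p z (s44e_fbar A M p z) := by
  have h := s44e_fbar_exists A hp hA M hmem hz
  rw [s44e_fbar, dif_pos h]
  exact h.choose_spec

/-- **`ν` is well defined.** -/
theorem s44e_nuAll_eq {z : JZero (M * p)} {fb : s44e_FF A M} (h : s44e_Fbar A M p z fb)
    (Q : Place (s44e_kA A) (s44e_FF A M)) :
    s44e_nuAll A M p z Q = ((Q.ord fb : ℤ) : ZMod p) := by
  have hex : ∃ fb, s44e_Fbar A M p z fb := ⟨fb, h⟩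
  have h0 : s44e_Fbar A M p z (s44e_fbar A M p z) := by
    rw [s44e_fbar, dif_pos hex]
    exact hex.choose_spec
  obtain ⟨g, hg0, e⟩ := s44e_fbar_unique A hp hA M hmem h0 h
  rw [s44e_nuAll, e, Q.ord_mul (pow_ne_zero _ hg0) h0.1]
  have h1 : Q.ord (g ^ p) = p * Q.ord g := by
    have := Q.ord_zpow g (p : ℤ)
    rwa [zpow_natCast] at this
  rw [h1]
  push_cast
  rw [ZMod.natCast_self, zero_mul, zero_add]

/-- **`ν_add`**, at every place. -/
theorem s44e_nuAll_add {z z' : JZero (M * p)} (hz : p • z = 0) (hz' : p • z' = 0)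
    (Q : Place (s44e_kA A) (s44e_FF A M)) :
    s44e_nuAll A M p (z + z') Q = s44e_nuAll A M p z Q + s44e_nuAll A M p z' Q := by
  obtain ⟨fb, hfb⟩ := s44e_fbar_exists A hp hA M hmem hz
  obtain ⟨fb', hfb'⟩ := s44e_fbar_exists A hp hA M hmem hz'
  rw [s44e_nuAll_eq A hp hA M hmem (s44e_fbar_mul A hp hA M hmem hfb hfb') Q,
    s44e_nuAll_eq A hp hA M hmem hfb Q, s44e_nuAll_eq A hp hA M hmem hfb' Q,
    Q.ord_mul hfb.1 hfb'.1]
  push_cast
  rfl

end Fbar

/-! ### abstract: the class `(1/p) div f` is well defined modulo `p`-th powers -/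

section Class

variable {K F : Type*} [Field K] [Field F] [Algebra K F]

theorem s44e_class_eq {p : ℕ} (hp : p ≠ 0) {f f' g : F} (hg : g ≠ 0) (hf : f ≠ 0)
    (hf' : f' = g ^ p * f) (D D' : Divisor.degZero (K := K) (F := F))
    (hD : ∀ v : Place K F, (p : ℤ) * (D : Divisor K F) v = v.ord f)
    (hD' : ∀ v : Place K F, (p : ℤ) * (D' : Divisor K F) v = v.ord f') :
    Pic0.mk D = Pic0.mk D' := by
  rw [ss2_du_mk_eq_mk_iff]
  refine ⟨g, hg, fun v => ?_⟩
  have h1 : v.ord (g ^ p) = p * v.ord g := by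
    have := v.ord_zpow g (p : ℤ)
    rwa [zpow_natCast] at this
  have h2 : (p : ℤ) * ((D' : Divisor K F) v - (D : Divisor K F) v) = (p : ℤ) * v.ord g := by
    rw [mul_sub, hD v, hD' v, hf', v.ord_mul (pow_ne_zero _ hg) hf, h1]
    ring
  have hp' : (p : ℤ) ≠ 0 := by exact_mod_cast hp
  rw [Finsupp.sub_apply]
  exact mul_left_cancel₀ hp' h2

end Class

section Delta

variable (A : ValuationSubring Qb) {p : ℕ} (hp : p.Prime) (hA : A.LiesOverPrime p)
  (M : ℕ) [NeZero M] [NeZero (M * p)] (hpM : ¬ p ∣ M)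
  (hmem : ∀ (b : modularFunctionFieldBar (M * p))
    (h : gq_IsBdd ↥A Qb (b : LaurentSeries Qb)),
    gq_res ↥A Qb ⟨(b : LaurentSeries Qb), h⟩ ∈ lg_F (s44e_kA A) M)

open Classical in
/-- **the class `δ(z) = [(1/p) div f̄_z]`** of `Pic⁰(FF_M / kA) = JZeroC kA M` (`0` if the divisor
of `f̄_z` is not divisible by `p`). -/
def s44e_delta (p : ℕ) [NeZero (M * p)] (z : JZero (M * p)) : JZeroC (s44e_kA A) M :=
  if h : ∃ D : Divisor.degZero (K := s44e_kA A) (F := s44e_FF A M),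
      ∀ Q : Place (s44e_kA A) (s44e_FF A M),
        (p : ℤ) * (D : Divisor (s44e_kA A) (s44e_FF A M)) Q = Q.ord (s44e_fbar A M p z)
  then Pic0.mk h.choose else 0

include hp hA hmem hpM

/-- **characterisation of `δ(z)`** through ANY `f̄_z` and ANY `D` with `p D = div f̄_z`. -/
theorem s44e_delta_eq {z : JZero (M * p)} (hz : p • z = 0) {fb : s44e_FF A M}
    (h : s44e_Fbar A M p z fb) (D : Divisor.degZero (K := s44e_kA A) (F := s44e_FF A M))
    (hD : ∀ Q : Place (s44e_kA A) (s44e_FF A M),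
      (p : ℤ) * (D : Divisor (s44e_kA A) (s44e_FF A M)) Q = Q.ord fb) :
    s44e_delta A M p z = Pic0.mk D := by
  haveI : Fact p.Prime := ⟨hp⟩
  haveI : CharP (s44e_kA A) p := jcr_charP A hA
  haveI : IsAlgClosed (s44e_kA A) := jcr_isAlgClosed A
  haveI : HasPrincipalDivisors (s44e_kA A) (s44e_FF A M) :=
    rt_hasPrincipalDivisors (jcr_isSepGen (k := s44e_kA A) M hpM (jcr_rho A hA))
  have h0 := s44e_fbar_spec A hp hA M hmem hz
  obtain ⟨g, hg0, e⟩ := s44e_fbar_unique A hp hA M hmem h0 h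
  obtain ⟨Dg, hDg, hDgdeg⟩ := HasPrincipalDivisors.exists_divisor (K := s44e_kA A) g hg0
  have hex : ∃ D : Divisor.degZero (K := s44e_kA A) (F := s44e_FF A M),
      ∀ Q : Place (s44e_kA A) (s44e_FF A M),
        (p : ℤ) * (D : Divisor (s44e_kA A) (s44e_FF A M)) Q = Q.ord (s44e_fbar A M p z) := by
    refine ⟨D - ⟨Dg, hDgdeg⟩, fun Q => ?_⟩
    have h1 : Q.ord (g ^ p) = p * Q.ord g := by
      have := Q.ord_zpow g (p : ℤ)
      rwa [zpow_natCast] at this
    have h2 := hD Q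
    rw [e, Q.ord_mul (pow_ne_zero _ hg0) h0.1, h1] at h2
    rw [AddSubgroup.coe_sub, Finsupp.sub_apply, mul_sub, h2]
    change _ - (p : ℤ) * Dg Q = _
    rw [hDg Q]
    ring
  rw [s44e_delta, dif_pos hex]
  exact s44e_class_eq hp.ne_zero hg0 h0.1 e _ _ hex.choose_spec hD

/-- `p • δ(z) = 0`. -/
theorem s44e_delta_tors (z : JZero (M * p)) : p • s44e_delta A M p z = 0 := by
  rw [s44e_delta]
  split_ifs with h
  · have h1 : p • Pic0.mk h.choose = Pic0.mk (p • h.choose) := rfl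
    rw [h1]
    refine (QuotientAddGroup.eq_zero_iff _).mpr ?_
    rw [AddSubgroup.mem_addSubgroupOf]
    by_cases h0 : s44e_fbar A M p z = 0
    · refine ⟨1, one_ne_zero, fun v => ?_⟩
      have h5 : v.ord (s44e_fbar A M p z) = 0 := by rw [h0]; exact Place.ord_zero v
      have := (h.choose_spec v).trans h5
      rw [Place.ord_one, AddSubgroup.coe_nsmul, Finsupp.smul_apply, nsmul_eq_mul, this]
    · refine ⟨s44e_fbar A M p z, h0, fun v => ?_⟩
      rw [← h.choose_spec v, AddSubgroup.coe_nsmul, Finsupp.smul_apply, nsmul_eq_mul]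
  · exact smul_zero _

/-- additivity of `δ` where both divisors are divisible by `p`. -/
theorem s44e_delta_add {z z' : JZero (M * p)} (hz : p • z = 0) (hz' : p • z' = 0)
    (hd : ∀ Q : Place (s44e_kA A) (s44e_FF A M), (p : ℤ) ∣ Q.ord (s44e_fbar A M p z))
    (hd' : ∀ Q : Place (s44e_kA A) (s44e_FF A M), (p : ℤ) ∣ Q.ord (s44e_fbar A M p z')) :
    s44e_delta A M p (z + z') = s44e_delta A M p z + s44e_delta A M p z' := by
  haveI : Fact p.Prime := ⟨hp⟩
  haveI : CharP (s44e_kA A) p := jcr_charP A hA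
  haveI : IsAlgClosed (s44e_kA A) := jcr_isAlgClosed A
  haveI : HasPrincipalDivisors (s44e_kA A) (s44e_FF A M) :=
    rt_hasPrincipalDivisors (jcr_isSepGen (k := s44e_kA A) M hpM (jcr_rho A hA))
  have h0 := s44e_fbar_spec A hp hA M hmem hz
  have h0' := s44e_fbar_spec A hp hA M hmem hz'
  obtain ⟨D, hD⟩ := s44rf_exists_div hp.pos h0.1 hd
  obtain ⟨D', hD'⟩ := s44rf_exists_div hp.pos h0'.1 hd'
  have hzz : p • (z + z') = 0 := by rw [nsmul_add, hz, hz', add_zero]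
  rw [s44e_delta_eq A hp hA M hpM hmem hz h0 D hD, s44e_delta_eq A hp hA M hpM hmem hz' h0' D' hD',
    s44e_delta_eq A hp hA M hpM hmem hzz (s44e_fbar_mul A hp hA M hmem h0 h0') (D + D')
      (fun Q => by
        rw [Q.ord_mul h0.1 h0'.1, ← hD Q, ← hD' Q, AddSubgroup.coe_add, Finsupp.add_apply]
        ring)]
  rfl

/-- `δ(z) ≠ 0` when `f̄_z` is not a `p`-th power. -/
theorem s44e_delta_ne {z : JZero (M * p)} (hz : p • z = 0)
    (hd : ∀ Q : Place (s44e_kA A) (s44e_FF A M), (p : ℤ) ∣ Q.ord (s44e_fbar A M p z))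
    (hnp : ¬ ∃ g : s44e_FF A M, s44e_fbar A M p z = g ^ p) :
    s44e_delta A M p z ≠ 0 := by
  haveI : Fact p.Prime := ⟨hp⟩
  haveI : CharP (s44e_kA A) p := jcr_charP A hA
  haveI : IsAlgClosed (s44e_kA A) := jcr_isAlgClosed A
  have hsep := jcr_isSepGen (k := s44e_kA A) M hpM (jcr_rho A hA)
  haveI : HasPrincipalDivisors (s44e_kA A) (s44e_FF A M) := rt_hasPrincipalDivisors hsep
  have h0 := s44e_fbar_spec A hp hA M hmem hz
  obtain ⟨D, hD⟩ := s44rf_exists_div hp.pos h0.1 hd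
  rw [s44e_delta_eq A hp hA M hpM hmem hz h0 D hD]
  refine (s44rf_class p (fun c => IsAlgClosed.exists_pow_nat_eq c hp.pos) ?_ h0.1 D hD hnp).1
  intro u hu0 hu
  exact rt_const_of_forall_mem hsep u (fun v => (hw_mem_iff_ord_nonneg v hu0).2 (hu v).ge)

end Delta

/-! ### (E2-D1): a `p`-th power reduction forces depth `≥ 1` -/

section Depth

variable (A : ValuationSubring Qb) {p : ℕ} (hp : p.Prime) (hA : A.LiesOverPrime p)
  (M : ℕ) [NeZero M] [NeZero (M * p)]
  (hsurj : ∀ g : lg_F (s44e_kA A) M, ∃ (b : modularFunctionFieldBar (M * p))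
    (h : gq_IsBdd ↥A Qb (b : LaurentSeries Qb)),
    gq_res ↥A Qb ⟨(b : LaurentSeries Qb), h⟩ = (g : LaurentSeries (s44e_kA A)))

include hp hA hsurj

/-- **(E2-D1)**: if `f̄_z` is a `p`-th power in `FF_M` then `z` has depth `≥ 1` at `w_∞`. -/
theorem s44e_depth_of_pow {z : JZero (M * p)} {fb : s44e_FF A M} (h : s44e_Fbar A M p z fb)
    (hpow : ∃ g : s44e_FF A M, fb = g ^ p) :
    ∃ c : Qb, c ≠ 0 ∧ c ∈ A.nonunits ∧
      s44f_Depth2 (M * p) A p c (AlgHom.id _ _) z := by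
  obtain ⟨hfb0, f, hf, hred⟩ := h
  obtain ⟨g, rfl⟩ := hpow
  have hg0 : g ≠ 0 := by
    rintro rfl
    exact hfb0 (zero_pow hp.ne_zero)
  obtain ⟨G, hG, hGres⟩ := hsurj g
  have hGred : s44e_RedOf A M G g := ⟨hG, hGres⟩
  have hG0 : G ≠ 0 := by
    rintro rfl
    obtain ⟨hb, e⟩ := hGred
    have : (⟨((0 : modularFunctionFieldBar (M * p)) : LaurentSeries Qb), hb⟩ :
        ↥(gq_bddSubring ↥A Qb)) = 0 := rfl
    rw [this, map_zero] at e
    exact hg0 (Subtype.ext e.symm)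
  -- `x = f / G ^ p` reduces to `1`
  have hx : s44e_RedOf A M (f * (G ^ p)⁻¹) 1 := by
    have h1 := s44e_redOf_mul A M hred
      (s44e_redOf_inv A M (s44e_redOf_pow A M hGred p) (pow_ne_zero _ hg0))
    rwa [mul_inv_cancel₀ (pow_ne_zero _ hg0)] at h1
  -- `y = x - 1` is bounded with reduction `0`
  obtain ⟨hxb, hxres⟩ := hx
  set x := f * (G ^ p)⁻¹ with hxdef
  have hyb : gq_IsBdd ↥A Qb ((x - 1 : modularFunctionFieldBar (M * p)) : LaurentSeries Qb) :=
    (gq_bddSubring ↥A Qb).sub_mem hxb (gq_bddSubring ↥A Qb).one_mem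
  have hyres : gq_res ↥A Qb ⟨((x - 1 : modularFunctionFieldBar (M * p)) : LaurentSeries Qb), hyb⟩
      = 0 := by
    have h1 : (⟨((x - 1 : modularFunctionFieldBar (M * p)) : LaurentSeries Qb), hyb⟩ :
        ↥(gq_bddSubring ↥A Qb)) = ⟨(x : LaurentSeries Qb), hxb⟩ - 1 := rfl
    rw [h1, map_sub, map_one, hxres]
    exact sub_self _
  -- hence `y ∈ 𝔪(W)`
  have hyW : x - 1 ∈ (s44pg_W A hA hp.ne_zero (M * p)).nonunits := by
    rw [ValuationSubring.mem_nonunits_iff_or]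
    by_contra hcon
    push Not at hcon
    obtain ⟨hy0, hyinv⟩ := hcon
    have hyinv' : gq_IsBdd ↥A Qb ((x - 1 : modularFunctionFieldBar (M * p)) : LaurentSeries Qb)⁻¹ := by
      have : gq_IsBdd ↥A Qb (((x - 1)⁻¹ : modularFunctionFieldBar (M * p)) : LaurentSeries Qb) :=
        hyinv
      rwa [IntermediateField.coe_inv] at this
    have hy0' : ((x - 1 : modularFunctionFieldBar (M * p)) : LaurentSeries Qb) ≠ 0 :=
      fun h => hy0 (Subtype.ext h)
    exact gq_res_ne_zero_of_inv ⟨_, hyb⟩ hyinv' hy0' hyres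
  obtain ⟨c, hc0, hcA, b, hb, hyb⟩ :=
    (s44pg_mem_nonunits_iff A hA hp.ne_zero (M * p) (x - 1)).1 hyW
  refine ⟨c, hc0, hcA, f, hf, G, b, hG0, hb, ?_⟩
  rw [← hyb, AlgHom.id_apply, hxdef]
  have := pow_ne_zero p hG0
  field_simp
  ring

end Depth

end Fermat.Agent.S44
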