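/-
S44 cell [E2] RES, SUB (E2-EXT) (helper5, for helper20 #3970): extension of places along a finite
map of function fields, in the vocabulary of the Prelude's `Place` / `Place.ord` /
`Place.restrictAlong` / `Place.ramificationIndexAlong`.

`φ : F →ₐ[K] F'`, `Q : Place K F`.

(a) no separability, no algebraic closedness:
* `s44rx_restrict_of_ord`      : `∀ g, w.ord (φ g) = e * Q.ord g` (`0 < e`) characterises
                                 `w.restrictAlong φ = Q` and `e = e(w | Q)`;
* `s44rx_exists_restrict`      : some place `w` of `F'` restricts to `Q` (Chevalley + domination);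
* `s44rx_ramificationIndex_le` : `e(w | Q) ≤ [F' : φ F]`;
* `s44rx_exists_ext`           : `∃ Q2 e, 0 < e ∧ e ≤ [F' : φ F] ∧ ∀ g, Q2.ord (φ g) = e * Q.ord g`.

(b) `K` algebraically closed, `φ` finite separable (helper24's `ptw_sum_ramificationIndex`):
* `s44rx_sum_ram`              : `∑_{w | Q} e(w | Q) = [F' : φ F]`;
* `s44rx_sInf_not_dvd`         : the minimal ramification index over `Q` (the shape of `s44e_ram`)
                                 is prime to `p` as soon as `p ∤ n` and `n < 2 p`.

Prefix `s44rx_`, namespace `Fermat.Agent.S44`.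
-/
import Mathlib
import Fermat.Agent.JT3.PlaceMap.FunField
import Fermat.Agent.JT3.Places.TowerAlong

set_option autoImplicit false
set_option linter.unusedSectionVars false
set_option linter.style.haveILetI false

namespace Fermat.Agent.S44

open AlgebraicCurve IntermediateField Fermat.Agent.JT3 Fermat.Agent.S24

universe u v w

section Gen

variable {K : Type u} {F : Type v} {F' : Type w} [Field K] [Field F] [Field F']
  [Algebra K F] [Algebra K F']

/-- the `ord` formula characterises (restriction, ramification index). -/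
theorem s44rx_restrict_of_ord (φ : F →ₐ[K] F') (hφ : φ.toRingHom.IsIntegral)
    (w : Place K F') (Q : Place K F) (e : ℕ) (he : 0 < e)
    (h : ∀ g : F, w.ord (φ g) = (e : ℤ) * Q.ord g) :
    w.restrictAlong φ hφ = Q ∧ w.ramificationIndexAlong φ = e := by
  letI := algebraAlong φ
  haveI := isScalarTower_along φ
  haveI := isIntegral_along φ hφ
  have hr : w.restrict F = Q := by
    apply Place.ext
    ext g
    rw [Place.restrict_toValuationSubring, ValuationSubring.mem_comap]
    by_cases hg : g = 0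
    · subst hg
      simp
    · have hφg : algebraMap F F' g ≠ 0 := (map_ne_zero (algebraMap F F')).2 hg
      rw [hw_mem_iff_ord_nonneg w hφg, hw_mem_iff_ord_nonneg Q hg]
      have h1 : w.ord (algebraMap F F' g) = (e : ℤ) * Q.ord g := h g
      rw [h1]
      have he' : (0 : ℤ) < (e : ℤ) := by exact_mod_cast he
      constructor
      · intro h0
        by_contra hneg
        push Not at hneg
        nlinarith
      · intro h0
        positivity
  refine ⟨hr, ?_⟩
  obtain ⟨π, hπ⟩ := IsDiscreteValuationRing.exists_irreducible Q.toValuationSubring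
  have h1 := w.ord_restrict (F := F) (π : F)
  rw [hr, Q.ord_coe_irreducible hπ, mul_one] at h1
  have h2 : w.ord (algebraMap F F' (π : F)) = (e : ℤ) * Q.ord (π : F) := h (π : F)
  rw [Q.ord_coe_irreducible hπ, mul_one] at h2
  have h3 : ((w.ramificationIndex F : ℕ) : ℤ) = (e : ℤ) := h1.symm.trans h2
  exact_mod_cast h3

/-- **existence of an extension** (no separability of `F'/φF` needed). -/
theorem s44rx_exists_restrict {x' : F'} (hx' : rt_IsSepGen K x') (φ : F →ₐ[K] F')
    (hφ : φ.toRingHom.IsIntegral) (Q : Place K F) :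
    ∃ w : Place K F', w.restrictAlong φ hφ = Q := by
  letI := algebraAlong φ
  haveI := isScalarTower_along φ
  haveI := isIntegral_along φ hφ
  set f : Q.toValuationSubring →+* F' := (φ : F →+* F').comp Q.toValuationSubring.subtype with hf
  obtain ⟨A, hA, hloc⟩ := IsLocalRing.exists_factor_valuationRing f
  have hfa : ∀ r : Q.toValuationSubring, f r = φ (r : F) := fun r => rfl
  -- constants
  have hK : ∀ c : K, algebraMap K F' c ∈ A := by
    intro c
    have : algebraMap K F' c = f ⟨algebraMap K F c, Q.algebraMap_mem' c⟩ := by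
      rw [hfa]
      exact (φ.commutes c).symm
    rw [this]
    exact hA _
  -- the key domination property
  have hdom : ∀ r : Q.toValuationSubring, (r : F) ≠ 0 → (φ (r : F))⁻¹ ∈ A → IsUnit r := by
    intro r hr0 hr
    have hφr0 : φ (r : F) ≠ 0 := (map_ne_zero φ).2 hr0
    have hu : IsUnit (f.codRestrict A.toSubring hA r) := by
      refine IsUnit.of_mul_eq_one (⟨(φ (r : F))⁻¹, hr⟩ : A.toSubring) ?_
      apply Subtype.ext
      change φ (r : F) * (φ (r : F))⁻¹ = 1
      exact mul_inv_cancel₀ hφr0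
    exact hloc.map_nonunit r hu
  -- `A` is proper
  obtain ⟨π, hπ⟩ := IsDiscreteValuationRing.exists_irreducible Q.toValuationSubring
  have hπ0 : (π : F) ≠ 0 := by
    simpa [ne_eq, ZeroMemClass.coe_eq_zero] using hπ.ne_zero
  have hAtop : A ≠ ⊤ := by
    intro htop
    exact hπ.not_isUnit (hdom π hπ0 (by rw [htop]; exact ValuationSubring.mem_top _))
  obtain ⟨w, hw⟩ := rpf_exists_place hx' A hK hAtop
  refine ⟨w, ?_⟩
  change w.restrict F = Q
  apply Place.ext
  ext g
  rw [Place.restrict_toValuationSubring, ValuationSubring.mem_comap, hw]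
  constructor
  · intro hg
    by_contra hgQ
    have hg0 : g ≠ 0 := fun h0 => hgQ (h0 ▸ zero_mem _)
    have hinv : g⁻¹ ∈ Q.toValuationSubring :=
      (Q.toValuationSubring.mem_or_inv_mem g).resolve_left hgQ
    have hu : IsUnit (⟨g⁻¹, hinv⟩ : Q.toValuationSubring) := by
      refine hdom ⟨g⁻¹, hinv⟩ (inv_ne_zero hg0) ?_
      change (φ g⁻¹)⁻¹ ∈ A
      rw [map_inv₀, inv_inv]
      exact hg
    obtain ⟨b, hb⟩ := hu.exists_right_inv
    have hb' : g⁻¹ * (b : F) = 1 := by
      have := congrArg Subtype.val hb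
      simpa using this
    have hbg : (b : F) = g := by
      field_simp at hb'
      exact hb'
    exact hgQ (hbg ▸ b.2)
  · intro hg
    exact hA ⟨g, hg⟩

/-- a sum of terms one of which strictly dominates all others is nonzero. -/
theorem s44rx_sum_ne_zero {ι : Type*} (v : Place K F) (s : Finset ι) (a : ι → F)
    (hne : ∃ i ∈ s, a i ≠ 0)
    (hdist : ∀ i ∈ s, ∀ j ∈ s, a i ≠ 0 → a j ≠ 0 → i ≠ j → v.ord (a i) ≠ v.ord (a j)) :
    ∑ i ∈ s, a i ≠ 0 := by
  classical
  obtain ⟨i1, hi1, hi1ne⟩ := hne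
  obtain ⟨i0, hi0, hmax⟩ := Finset.exists_max_image s (fun i => v.adicValuation (a i)) ⟨i1, hi1⟩
  have hi0ne : a i0 ≠ 0 := by
    intro h0
    have := hmax i1 hi1
    rw [h0, map_zero] at this
    exact v.adicValuation_ne_zero hi1ne (le_antisymm this zero_le)
  have hlt : ∀ i ∈ s.erase i0, v.adicValuation (a i) < v.adicValuation (a i0) := by
    intro i hi
    obtain ⟨hii0, his⟩ := Finset.mem_erase.1 hi
    by_cases hai : a i = 0
    · rw [hai, map_zero]
      exact lt_of_le_of_ne zero_le (Ne.symm (v.adicValuation_ne_zero hi0ne))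
    · refine lt_of_le_of_ne (hmax i his) ?_
      intro heq
      apply hdist i his i0 hi0 hai hi0ne hii0
      rw [hw_ord_eq_neg_log, hw_ord_eq_neg_log, heq]
  have hsum : v.adicValuation (∑ i ∈ s.erase i0, a i) < v.adicValuation (a i0) :=
    Valuation.map_sum_lt v.adicValuation (v.adicValuation_ne_zero hi0ne) hlt
  rw [← Finset.add_sum_erase s a hi0]
  intro h0
  have h1 : a i0 = -∑ i ∈ s.erase i0, a i := eq_neg_of_add_eq_zero_left h0
  rw [h1, Valuation.map_neg] at hsum
  exact lt_irrefl _ hsum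

/-- fundamental inequality for one place (no separability). -/
theorem s44rx_ramificationIndex_le (φ : F →ₐ[K] F') (hfin : FiniteAlong K φ) (w : Place K F') :
    w.ramificationIndexAlong φ ≤ finrankAlong K φ := by
  classical
  letI := algebraAlong φ
  haveI := isScalarTower_along φ
  haveI : Module.Finite F F' := hfin
  haveI : Algebra.IsIntegral F F' := Algebra.IsIntegral.of_finite F F'
  change w.ramificationIndex F ≤ Module.finrank F F'
  set e := w.ramificationIndex F with he
  obtain ⟨t, ht⟩ := IsDiscreteValuationRing.exists_irreducible w.toValuationSubring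
  have ht0 : (t : F') ≠ 0 := by
    simpa [ne_eq, ZeroMemClass.coe_eq_zero] using ht.ne_zero
  have hord : w.ord (t : F') = 1 := w.ord_coe_irreducible ht
  have hli : LinearIndependent F (fun i : Fin e => (t : F') ^ (i : ℕ)) := by
    rw [Fintype.linearIndependent_iff]
    intro g hg
    by_contra hcon
    push Not at hcon
    obtain ⟨i1, hi1⟩ := hcon
    have hterm : ∀ i : Fin e, g i • (t : F') ^ (i : ℕ) = algebraMap F F' (g i) * (t : F') ^ (i : ℕ) :=
      fun i => Algebra.smul_def _ _
    have htne : ∀ i : Fin e, g i ≠ 0 → g i • (t : F') ^ (i : ℕ) ≠ 0 := by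
      intro i hgi
      rw [hterm]
      exact mul_ne_zero ((map_ne_zero (algebraMap F F')).2 hgi) (pow_ne_zero _ ht0)
    have hordterm : ∀ i : Fin e, g i ≠ 0 → w.ord (g i • (t : F') ^ (i : ℕ))
        = (e : ℤ) * (w.restrict F).ord (g i) + (i : ℕ) := by
      intro i hgi
      rw [hterm, w.ord_mul ((map_ne_zero (algebraMap F F')).2 hgi) (pow_ne_zero _ ht0),
        w.ord_restrict, ← zpow_natCast, w.ord_zpow, hord, mul_one]
    refine s44rx_sum_ne_zero w Finset.univ (fun i : Fin e => g i • (t : F') ^ (i : ℕ))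
      ⟨i1, Finset.mem_univ _, htne i1 hi1⟩ ?_ hg
    intro i _ j _ hi hj hij heq
    have hgi : g i ≠ 0 := by
      intro h0
      apply hi
      simp [h0]
    have hgj : g j ≠ 0 := by
      intro h0
      apply hj
      simp [h0]
    rw [hordterm i hgi, hordterm j hgj] at heq
    have hdvd : (e : ℤ) ∣ ((i : ℕ) : ℤ) - ((j : ℕ) : ℤ) :=
      ⟨(w.restrict F).ord (g j) - (w.restrict F).ord (g i), by linarith⟩
    have habs : |((i : ℕ) : ℤ) - ((j : ℕ) : ℤ)| < (e : ℤ) := by
      have h1 : ((i : ℕ) : ℤ) < (e : ℤ) := by exact_mod_cast i.2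
      have h2 : ((j : ℕ) : ℤ) < (e : ℤ) := by exact_mod_cast j.2
      have h3 : (0 : ℤ) ≤ ((i : ℕ) : ℤ) := by positivity
      have h4 : (0 : ℤ) ≤ ((j : ℕ) : ℤ) := by positivity
      rw [abs_lt]
      constructor <;> linarith
    have h0 := Int.eq_zero_of_abs_lt_dvd hdvd habs
    apply hij
    apply Fin.ext
    have : ((i : ℕ) : ℤ) = ((j : ℕ) : ℤ) := by linarith
    exact_mod_cast this
  have := hli.fintype_card_le_finrank
  simpa using this

/-- **(E2-EXT)**: a place of `F'` over `Q`, with the `ord` formula and `e ≤ [F' : φ F]`. -/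
theorem s44rx_exists_ext {x' : F'} (hx' : rt_IsSepGen K x') (φ : F →ₐ[K] F')
    (hfin : FiniteAlong K φ) (Q : Place K F) :
    ∃ (Q2 : Place K F') (e : ℕ), 0 < e ∧ e ≤ finrankAlong K φ ∧
      ∀ g : F, Q2.ord (φ g) = (e : ℤ) * Q.ord g := by
  have hφ : φ.toRingHom.IsIntegral := ptw_isIntegral_of_finiteAlong φ hfin
  obtain ⟨w, hw⟩ := s44rx_exists_restrict hx' φ hφ Q
  refine ⟨w, w.ramificationIndexAlong φ, ?_, s44rx_ramificationIndex_le φ hfin w, ?_⟩
  · letI := algebraAlong φ
    haveI := isScalarTower_along φ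
    haveI := isIntegral_along φ hφ
    exact w.ramificationIndex_pos (F := F)
  · intro g
    rw [Place.ord_restrictAlong φ hφ w g, hw]

variable [IsAlgClosed K] [HasPrincipalDivisors K F']

/-- sum formula (separable case), `Along` form. -/
theorem s44rx_sum_ram (φ : F →ₐ[K] F') (hφ : φ.toRingHom.IsIntegral)
    (hfin : FiniteAlong K φ) (hsep : ptw_SeparableAlong φ)
    (x : F) [Algebra.IsAlgebraic K⟮x⟯ F] (Q : Place K F) :
    ∑ w ∈ Place.fiberAlong φ hφ Q, (w.ramificationIndexAlong φ : ℤ) = (finrankAlong K φ : ℤ) := by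
  letI := algebraAlong φ
  haveI := isScalarTower_along φ
  haveI : Module.Finite F F' := hfin
  haveI : Algebra.IsSeparable F F' := hsep
  haveI := isIntegral_along φ hφ
  exact ptw_sum_ramificationIndex (K := K) (F := F) (F' := F') x Q

/-- the minimal ramification index over `Q` (shape of `s44e_ram`) is prime to `p`. -/
theorem s44rx_sInf_not_dvd (φ : F →ₐ[K] F')
    (hfin : FiniteAlong K φ) (hsep : ptw_SeparableAlong φ)
    (x : F) [Algebra.IsAlgebraic K⟮x⟯ F] (Q : Place K F)
    (p : ℕ) (hpn : ¬ p ∣ finrankAlong K φ) (h2 : finrankAlong K φ < 2 * p) :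
    0 < sInf {e : ℕ | 0 < e ∧ ∃ Q2 : Place K F', ∀ g : F, Q2.ord (φ g) = (e : ℤ) * Q.ord g} ∧
    sInf {e : ℕ | 0 < e ∧ ∃ Q2 : Place K F', ∀ g : F, Q2.ord (φ g) = (e : ℤ) * Q.ord g}
      ≤ finrankAlong K φ ∧
    ¬ p ∣ sInf {e : ℕ | 0 < e ∧ ∃ Q2 : Place K F', ∀ g : F, Q2.ord (φ g) = (e : ℤ) * Q.ord g} := by
  classical
  have hφ : φ.toRingHom.IsIntegral := ptw_isIntegral_of_finiteAlong φ hfin
  set S : Set ℕ := {e : ℕ | 0 < e ∧ ∃ Q2 : Place K F', ∀ g : F, Q2.ord (φ g) = (e : ℤ) * Q.ord g}
    with hS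
  have hsum := s44rx_sum_ram φ hφ hfin hsep x Q
  have hpos : ∀ w : Place K F', 0 < w.ramificationIndexAlong φ := by
    intro w
    letI := algebraAlong φ
    haveI := isScalarTower_along φ
    haveI := isIntegral_along φ hφ
    exact w.ramificationIndex_pos (F := F)
  have hnpos : 0 < finrankAlong K φ := by
    letI := algebraAlong φ
    haveI : Module.Finite F F' := hfin
    exact Module.finrank_pos
  -- the fibre is nonempty
  have hfib : (Place.fiberAlong φ hφ Q).Nonempty := by
    by_contra hemp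
    rw [Finset.not_nonempty_iff_eq_empty] at hemp
    rw [hemp, Finset.sum_empty] at hsum
    have : (finrankAlong K φ : ℤ) = 0 := hsum.symm
    omega
  -- membership of the ramification indices in `S`
  have hmemS : ∀ w ∈ Place.fiberAlong φ hφ Q, w.ramificationIndexAlong φ ∈ S := by
    intro w hw
    refine ⟨hpos w, w, fun g => ?_⟩
    rw [Place.ord_restrictAlong φ hφ w g, Place.mem_fiberAlong.1 hw]
  obtain ⟨w1, hw1⟩ := hfib
  have hSne : S.Nonempty := ⟨_, hmemS w1 hw1⟩
  have hinf := Nat.sInf_mem hSne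
  obtain ⟨hr0, w0, hw0⟩ := hinf
  obtain ⟨hw0r, hw0e⟩ := s44rx_restrict_of_ord φ hφ w0 Q (sInf S) hr0 hw0
  have hw0mem : w0 ∈ Place.fiberAlong φ hφ Q := Place.mem_fiberAlong.2 hw0r
  have hle : ∀ w ∈ Place.fiberAlong φ hφ Q, sInf S ≤ w.ramificationIndexAlong φ :=
    fun w hw => Nat.sInf_le (hmemS w hw)
  -- `sInf S ≤ n`
  have hle_n : ((sInf S : ℕ) : ℤ) ≤ (finrankAlong K φ : ℤ) := by
    rw [← hsum, ← hw0e]
    exact Finset.single_le_sum (f := fun w : Place K F' => (w.ramificationIndexAlong φ : ℤ))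
      (fun w _ => by positivity) hw0mem
  refine ⟨hr0, by exact_mod_cast hle_n, ?_⟩
  intro hdvd
  have hp_le : p ≤ sInf S := Nat.le_of_dvd hr0 hdvd
  -- the fibre is `{w0}`
  have hcard : (Place.fiberAlong φ hφ Q).card * p ≤ finrankAlong K φ := by
    have h1 : ((Place.fiberAlong φ hφ Q).card : ℤ) * (p : ℤ)
        ≤ ∑ w ∈ Place.fiberAlong φ hφ Q, (w.ramificationIndexAlong φ : ℤ) := by
      rw [← nsmul_eq_mul]
      refine Finset.card_nsmul_le_sum _ _ _ fun w hw => ?_
      have := hle w hw
      have : p ≤ w.ramificationIndexAlong φ := hp_le.trans this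
      exact_mod_cast this
    rw [hsum] at h1
    exact_mod_cast h1
  have hcard1 : (Place.fiberAlong φ hφ Q).card = 1 := by
    have hc0 : 0 < (Place.fiberAlong φ hφ Q).card := Finset.card_pos.2 ⟨w0, hw0mem⟩
    by_contra hne
    have hc2 : 2 ≤ (Place.fiberAlong φ hφ Q).card := by omega
    have : 2 * p ≤ (Place.fiberAlong φ hφ Q).card * p := Nat.mul_le_mul_right p hc2
    omega
  obtain ⟨w', hw'⟩ := Finset.card_eq_one.1 hcard1
  have hw0' : w0 = w' := by
    have := hw0mem
    rw [hw'] at this
    exact Finset.mem_singleton.1 this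
  rw [hw', Finset.sum_singleton, ← hw0', hw0e] at hsum
  apply hpn
  have : sInf S = finrankAlong K φ := by exact_mod_cast hsum
  rw [← this]
  exact hdvd

end Gen

end Fermat.Agent.S44
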