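/-
S44 cell [E2]/[H2-N], SUB (LEG-FF) (helper5): the function-field facts of the Legendre cover
`lg_E k M = φ(FF_M)(λ)` over a field `k` of characteristic `p ∤ 2 M` (the char-zero twins are
`lgf_finite`, `lgf_tower_*`, `rcq_leg_*` of JT3/Inst, all stated with `[CharZero L]`).

* `s44rl_sepGen_lam`  : `λ` is a separating generator of `lg_E k M / k`;
* `s44rl_sepGen_j2`   : `j' = j(q²)` is a separating generator of `lg_E k M / k`;
* `s44rl_hpd`         : `HasPrincipalDivisors k (lg_E k M)`;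
* `s44rl_finiteAlong`, `s44rl_sepAlong`, `s44rl_finrank_le` : `lg_phiE : FF_M → lg_E k M` is finite,
  separable, of degree `≤ 6`;
* `s44rl_exists_Q2`   : every place of `FF_M` extends to `lg_E k M` (with `e ≤ 6`);
* `s44rl_sInf`        : the minimal ramification index (the shape of `s44e_ram`) is prime to `p`
  as soon as `p ≥ 5` and the degree is not `5`.

Separability comes for free from helper7's Laurent criterion `lsp_isSeparable_of_algHom`
(the `q`-orders of `λ` and `j(q²)` are `1` and `-2`, prime to `p`).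
Prefix `s44rl_`, namespace `Fermat.Agent.S44`.
-/
import Mathlib
import Fermat.Agent.JT3.Inst.TowerFinite
import Fermat.Agent.JT3.Inst.Key0
import Fermat.Agent.JT3.Algebra.LaurentSep
import Fermat.Agent.JT3.Riemann.Principal
import Fermat.Agent.JT3.KDescent.Legendre
import Fermat.Agent.SS.Model.F4K
import Fermat.Agent.S44.Res.ExtPlace

set_option autoImplicit false
set_option linter.unusedSectionVars false
set_option linter.style.haveILetI false

namespace Fermat.Agent.S44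

open ModularCurve AlgebraicCurve IntermediateField Polynomial Fermat.Agent.JT3 Fermat.Agent.S24

/-! ### an abstract lemma: separable over `K(φ x)` ⟹ separable along `φ` -/

section Abs

variable {K F F' : Type*} [Field K] [Field F] [Field F'] [Algebra K F] [Algebra K F']

theorem s44rl_sepAlong_of (φ : F →ₐ[K] F') (x : F) [Algebra.IsSeparable K⟮φ x⟯ F'] :
    ptw_SeparableAlong φ := by
  letI := algebraAlong φ
  change Algebra.IsSeparable F F'
  have hle : K⟮φ x⟯ ≤ φ.fieldRange := adjoin_simple_le_iff.mpr ⟨x, rfl⟩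
  letI : Algebra K⟮φ x⟯ φ.fieldRange := (IntermediateField.inclusion hle).toRingHom.toAlgebra
  haveI : IsScalarTower K⟮φ x⟯ φ.fieldRange F' := IsScalarTower.of_algebraMap_eq (fun _ => rfl)
  haveI : Algebra.IsSeparable φ.fieldRange F' :=
    Algebra.isSeparable_tower_top_of_isSeparable K⟮φ x⟯ φ.fieldRange F'
  let g : F →+* φ.fieldRange := (φ : F →+* F').codRestrict φ.fieldRange (fun a => ⟨a, rfl⟩)
  have hg : Function.Bijective g := by
    constructor
    · intro a b hab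
      exact φ.injective (congrArg Subtype.val hab)
    · rintro ⟨y, a, rfl⟩
      exact ⟨a, rfl⟩
  let e : F ≃+* φ.fieldRange := RingEquiv.ofBijective g hg
  refine Algebra.IsSeparable.of_equiv_equiv e.symm (RingEquiv.refl F') ?_
  ext a
  obtain ⟨b, hb⟩ : ∃ b : F, e b = a := e.surjective a
  subst hb
  simp only [RingHom.comp_apply, RingEquiv.coe_toRingHom, RingEquiv.refl_apply,
    RingEquiv.symm_apply_apply]
  rfl

end Abs

/-! ### char-free copies of the `[CharZero L]` lemmas of JT3/Inst/FunFieldFacts -/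

section Copies

variable (k : Type*) [Field k] (M : ℕ) [NeZero M]

theorem s44rl_E_eq_adjoin : lg_E k M = IntermediateField.adjoin k (lgf_gens k M) := by
  rw [lgf_gens, IntermediateField.adjoin_union, ← IntermediateField.adjoin_map]
  rfl

theorem s44rl_modEq_twist (d ℓ : ℕ) [NeZero d] [Fact ℓ.Prime] (hℓd : ¬ ℓ ∣ d)
    (ρ : ↥(GaloisRep.ratLocalizedAt ℓ) →+* k) :
    ∃ Φ : Polynomial (Polynomial ↥(GaloisRep.ratLocalizedAt ℓ)), Φ.Monic ∧
      Φ.eval₂ (Polynomial.eval₂RingHom ((HahnSeries.C : k →+* LaurentSeries k).comp ρ)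
        (lg_j2 k)) (lg_phi k (qExpand k d (jqModC k))) = 0 := by
  obtain ⟨Φ, hm, h0⟩ := jcr_modEq d ℓ hℓd ρ
  refine ⟨Φ, hm, ?_⟩
  have h1 := Polynomial.hom_eval₂ Φ
    (Polynomial.eval₂RingHom ((HahnSeries.C : k →+* LaurentSeries k).comp ρ) (jqModC k))
    (lg_phi k : LaurentSeries k →+* LaurentSeries k) (qExpand k d (jqModC k))
  rw [h0, map_zero] at h1
  have h2 : (lg_phi k : LaurentSeries k →+* LaurentSeries k).comp
      (Polynomial.eval₂RingHom ((HahnSeries.C : k →+* LaurentSeries k).comp ρ) (jqModC k))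
      = Polynomial.eval₂RingHom ((HahnSeries.C : k →+* LaurentSeries k).comp ρ) (lg_j2 k) := by
    refine Polynomial.ringHom_ext (fun r => ?_) ?_
    · simp only [RingHom.comp_apply, Polynomial.coe_eval₂RingHom, Polynomial.eval₂_C]
      rw [HahnSeries.C_apply, ← algebraMap_laurentSeries_eq_single]
      exact (lg_phi k).commutes _
    · simp only [RingHom.comp_apply, Polynomial.coe_eval₂RingHom, Polynomial.eval₂_X]
      rfl
  rw [h2] at h1
  exact h1.symm

theorem s44rl_legendreE :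
    256 * ((lg_lamE M : lg_E k M) ^ 2 - lg_lamE M + 1) ^ 3
      = lgf_j2E k M * (lg_lamE M : lg_E k M) ^ 2 * ((lg_lamE M : lg_E k M) - 1) ^ 2 :=
  Subtype.ext (lg_legendre k)

theorem s44rl_j2E_mem (h2 : (2 : k) ≠ 0) : lgf_j2E k M ∈ k⟮(lg_lamE M : lg_E k M)⟯ := by
  have hx := lgf_lam_transcendental k M h2
  have h0 : (lg_lamE M : lg_E k M) ≠ 0 := fun h => hx (h ▸ isAlgebraic_zero)
  have h1 : (lg_lamE M : lg_E k M) - 1 ≠ 0 := by
    intro h
    apply hx
    rw [sub_eq_zero.1 h]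
    exact isAlgebraic_one
  have hden : (lg_lamE M : lg_E k M) ^ 2 * ((lg_lamE M : lg_E k M) - 1) ^ 2 ≠ 0 :=
    mul_ne_zero (pow_ne_zero _ h0) (pow_ne_zero _ h1)
  have hj : lgf_j2E k M = 256 * ((lg_lamE M : lg_E k M) ^ 2 - lg_lamE M + 1) ^ 3 /
      ((lg_lamE M : lg_E k M) ^ 2 * ((lg_lamE M : lg_E k M) - 1) ^ 2) := by
    rw [eq_div_iff hden, s44rl_legendreE]
    ring
  rw [hj]
  have hmem := mem_adjoin_simple_self k (lg_lamE M : lg_E k M)
  exact div_mem (mul_mem (ofNat_mem _ 256)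
    (pow_mem (add_mem (sub_mem (pow_mem hmem 2) hmem) (one_mem _)) 3))
    (mul_mem (pow_mem hmem 2) (pow_mem (sub_mem hmem (one_mem _)) 2))

/-- `j(q²)` is transcendental. -/
theorem s44rl_j2E_transcendental : Transcendental k (lgf_j2E k M) := by
  intro h
  have h' : IsAlgebraic k (lg_j2 k) := IntermediateField.isAlgebraic_iff.1 h
  revert h'
  refine lgf_transcendental_of_coeff (n := -2) (by norm_num) ?_
  have h := qExpand_coeff_mul (R := k) (N := 2) (jqModC k) (-1)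
  have h2 : ((2 : ℕ) : ℤ) * (-1) = -2 := by norm_num
  rw [h2] at h
  rw [lg_j2, h, coeff_jqModC_neg_one]
  exact one_ne_zero

/-- **`E` is finite over `k(λ)`** (`ℓ ∤ M` any prime with a ring hom `ℤ_(ℓ) → k`). -/
theorem s44rl_finite_lam (h2 : (2 : k) ≠ 0) {ℓ : ℕ} [Fact ℓ.Prime] (hℓM : ¬ ℓ ∣ M)
    (ρ : ↥(GaloisRep.ratLocalizedAt ℓ) →+* k) :
    FiniteDimensional k⟮(lg_lamE M : lg_E k M)⟯ (lg_E k M) := by
  refine lgf_finite_of_gens (lg_E k M) (lgf_gens k M)
    (((jcr_finite_gens (k := k) M).image _).union (Set.finite_singleton _)) (s44rl_E_eq_adjoin k M)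
    (lg_lamE M) ?_
  rintro y (⟨_, ⟨d, hd, hdM, rfl⟩, hy⟩ | hy)
  · haveI := hd
    have hℓd : ¬ ℓ ∣ d := fun h => hℓM (h.trans hdM)
    obtain ⟨Φ, hm, h0⟩ := s44rl_modEq_twist k d ℓ hℓd ρ
    refine (lgf_isIntegral_of_modEq (lg_E k M).val ρ k⟮(lg_lamE M : lg_E k M)⟯
      (x := lgf_j2E k M) (y := y) (s44rl_j2E_mem k M h2) Φ hm ?_).isAlgebraic
    have hy' : (lg_E k M).val y = lg_phi k (qExpand k d (jqModC k)) := hy.symm
    rw [hy']
    exact h0
  · have hy' : y = lg_lamE M := Subtype.ext hy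
    rw [hy']
    exact isAlgebraic_algebraMap
      (⟨lg_lamE M, mem_adjoin_simple_self k _⟩ : k⟮(lg_lamE M : lg_E k M)⟯)

/-- **`E` is finite over `k(j(q²))`.** -/
theorem s44rl_finite_j2 (h2 : (2 : k) ≠ 0) {ℓ : ℕ} [Fact ℓ.Prime] (hℓM : ¬ ℓ ∣ M)
    (ρ : ↥(GaloisRep.ratLocalizedAt ℓ) →+* k) :
    FiniteDimensional k⟮lgf_j2E k M⟯ (lg_E k M) :=
  haveI := s44rl_finite_lam k M h2 hℓM ρ
  hw_finiteDimensional_adjoin (lg_lamE M) (s44rl_j2E_transcendental k M)

/-- `E = φ(FF_M)(λ)`, along `lg_phiE`. -/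
theorem s44rl_adjoin_lam_eq_top :
    letI := algebraAlong (lg_phiE (L := k) (N := M))
    IntermediateField.adjoin (lg_F k M) {(lg_lamE M : lg_E k M)} = ⊤ := by
  letI := algebraAlong (lg_phiE (L := k) (N := M))
  haveI := isScalarTower_along (lg_phiE (L := k) (N := M))
  rw [eq_top_iff]
  rintro z -
  set T : IntermediateField (lg_F k M) (lg_E k M) :=
    IntermediateField.adjoin (lg_F k M) {(lg_lamE M : lg_E k M)} with hT
  let T' : IntermediateField k (LaurentSeries k) := (T.restrictScalars k).map (lg_E k M).val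
  have h1 : lg_F2 k M ≤ T' := by
    rintro x ⟨y, hy, rfl⟩
    refine ⟨lg_phiE (L := k) (N := M) ⟨y, hy⟩, ?_, rfl⟩
    show lg_phiE (L := k) (N := M) ⟨y, hy⟩ ∈ T
    exact T.algebraMap_mem ⟨y, hy⟩
  have h2 : lg_K k ≤ T' := by
    rw [lg_K, IntermediateField.adjoin_le_iff]
    rintro _ rfl
    refine ⟨lg_lamE M, ?_, rfl⟩
    show (lg_lamE M : lg_E k M) ∈ T
    exact IntermediateField.mem_adjoin_simple_self _ _
  have h3 : lg_E k M ≤ T' := sup_le h1 h2
  obtain ⟨w, hw, hwz⟩ := h3 z.2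
  have : w = z := Subtype.ext hwz
  rw [← this]
  exact hw

/-- **`[lg_E k M : φ(FF_M)] ≤ 6`.** -/
theorem s44rl_finrank_le (h2 : (2 : k) ≠ 0) : finrankAlong k (lg_phiE (L := k) (N := M)) ≤ 6 := by
  letI := algebraAlong (lg_phiE (L := k) (N := M))
  haveI := isScalarTower_along (lg_phiE (L := k) (N := M))
  change Module.finrank (lg_F k M) (lg_E k M) ≤ 6
  have hP : aeval (lg_lamE M : lg_E k M) (kd_leg_P (jcr_j (k := k) M)) = 0 := by
    rw [kd_leg_aeval_P]
    have : algebraMap (lg_F k M) (lg_E k M) (jcr_j (k := k) M) = lgf_j2E k M := Subtype.ext rfl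
    rw [this, s44rl_legendreE, sub_self]
  have hP0 : kd_leg_P (jcr_j (k := k) M) ≠ 0 := by
    intro h
    have h1 := congrArg (eval 1) h
    unfold kd_leg_P at h1
    simp only [eval_sub, eval_mul, eval_pow, eval_add, eval_X, eval_C, eval_one, eval_zero,
      one_pow, sub_self, ne_eq, OfNat.ofNat_ne_zero, not_false_eq_true, zero_pow, mul_zero,
      sub_zero, mul_one, zero_add] at h1
    have : (256 : lg_F k M) = 2 ^ 8 := by norm_num
    rw [this] at h1
    have h2' : (2 : lg_F k M) ≠ 0 := by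
      intro h0
      apply h2
      have := congrArg (algebraMap (lg_F k M) (LaurentSeries k)) h0
      rw [map_ofNat, map_zero] at this
      have h3 : algebraMap k (LaurentSeries k) 2 = 0 := by rw [map_ofNat]; exact this
      exact (map_eq_zero (algebraMap k (LaurentSeries k))).1 h3
    exact pow_ne_zero 8 h2' h1
  have hdeg : (kd_leg_P (jcr_j (k := k) M)).natDegree ≤ 6 := by
    unfold kd_leg_P
    compute_degree
  have hint : IsIntegral (lg_F k M) (lg_lamE M : lg_E k M) :=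
    isAlgebraic_iff_isIntegral.1 ⟨_, hP0, hP⟩
  have hfr := IntermediateField.adjoin.finrank hint
  rw [s44rl_adjoin_lam_eq_top k M, IntermediateField.finrank_top'] at hfr
  rw [hfr]
  exact (natDegree_le_of_dvd (minpoly.dvd _ _ hP) hP0).trans hdeg

end Copies

/-! ### characteristic `p` -/

section CharP

variable (k : Type*) [Field k] (p : ℕ) [Fact p.Prime] [CharP k p] (M : ℕ) [NeZero M]

theorem s44rl_two_ne_zero (hp2 : p ≠ 2) : (2 : k) ≠ 0 := by
  intro h
  have h' : ((2 : ℕ) : k) = 0 := by exact_mod_cast h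
  rw [CharP.cast_eq_zero_iff k p] at h'
  exact hp2 ((Nat.prime_dvd_prime_iff_eq (Fact.out : p.Prime) Nat.prime_two).1 h')

variable [PerfectField k]

/-- **`λ` is a separating generator of `lg_E k M`.** -/
theorem s44rl_sepGen_lam (hp2 : p ≠ 2) (hpM : ¬ p ∣ M)
    (ρ : ↥(GaloisRep.ratLocalizedAt p) →+* k) :
    rt_IsSepGen k (lg_lamE M : lg_E k M) := by
  have h2 := s44rl_two_ne_zero k p hp2
  have hfin := s44rl_finite_lam k M h2 hpM ρ
  have htr := lgf_lam_transcendental k M h2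
  have h0 : (lg_lamE M : lg_E k M) ≠ 0 := fun h => htr (h ▸ isAlgebraic_zero)
  haveI := hfin
  have halg : Algebra.IsAlgebraic k⟮(lg_lamE M : lg_E k M)⟯ (lg_E k M) :=
    Algebra.IsAlgebraic.of_finite _ _
  refine ⟨htr, hfin, ⟨fun y => ?_⟩⟩
  refine lsp_isSeparable_of_algHom p (lg_E k M).val h0 ?_ (halg.isAlgebraic y)
  have h16 : (16 : k) ≠ 0 := by
    have : (16 : k) = 2 ^ 4 := by norm_num
    rw [this]
    exact pow_ne_zero _ h2
  have hord : ((lg_E k M).val (lg_lamE M : lg_E k M)).order = 1 := hm_lam_order k h16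
  rw [hord]
  intro hdvd
  have := Int.le_of_dvd one_pos hdvd
  have hp := (Fact.out : p.Prime).two_le
  omega

/-- **`j(q²)` is a separating generator of `lg_E k M`.** -/
theorem s44rl_sepGen_j2 (hp2 : p ≠ 2) (hpM : ¬ p ∣ M)
    (ρ : ↥(GaloisRep.ratLocalizedAt p) →+* k) :
    rt_IsSepGen k (lgf_j2E k M) := by
  have h2 := s44rl_two_ne_zero k p hp2
  have hfin := s44rl_finite_j2 k M h2 hpM ρ
  have htr := s44rl_j2E_transcendental k M
  have h0 : lgf_j2E k M ≠ 0 := fun h => htr (h ▸ isAlgebraic_zero)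
  haveI := hfin
  have halg : Algebra.IsAlgebraic k⟮lgf_j2E k M⟯ (lg_E k M) :=
    Algebra.IsAlgebraic.of_finite _ _
  refine ⟨htr, hfin, ⟨fun y => ?_⟩⟩
  refine lsp_isSeparable_of_algHom p (lg_E k M).val h0 ?_ (halg.isAlgebraic y)
  have hord : ((lg_E k M).val (lgf_j2E k M)).order = -2 := Fermat.Agent.SS.ssm_f4_order_j2 k
  rw [hord]
  intro hdvd
  have h2' : (p : ℤ) ∣ 2 := (dvd_neg).mp hdvd
  have h3 : p ∣ 2 := by exact_mod_cast h2'
  exact hp2 ((Nat.prime_dvd_prime_iff_eq (Fact.out : p.Prime) Nat.prime_two).1 h3)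

/-- **`lg_E k M` has principal divisors.** -/
theorem s44rl_hpd [IsAlgClosed k] (hp2 : p ≠ 2) (hpM : ¬ p ∣ M)
    (ρ : ↥(GaloisRep.ratLocalizedAt p) →+* k) :
    HasPrincipalDivisors k (lg_E k M) :=
  rt_hasPrincipalDivisors (s44rl_sepGen_lam k p M hp2 hpM ρ)

/-- `φ(j) = j(q²)`. -/
theorem s44rl_phiE_j : lg_phiE (L := k) (N := M) (jcr_j (k := k) M) = lgf_j2E k M :=
  Subtype.ext rfl

/-- **`lg_phiE` is finite.** -/
theorem s44rl_finiteAlong (hp2 : p ≠ 2) (hpM : ¬ p ∣ M)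
    (ρ : ↥(GaloisRep.ratLocalizedAt p) →+* k) :
    FiniteAlong k (lg_phiE (L := k) (N := M)) := by
  haveI : FiniteDimensional k⟮lg_phiE (L := k) (N := M) (jcr_j (k := k) M)⟯ (lg_E k M) := by
    rw [s44rl_phiE_j]
    exact (s44rl_sepGen_j2 k p M hp2 hpM ρ).2.1
  exact ptw_finiteAlong_of_adjoin (lg_phiE (L := k) (N := M)) (jcr_j (k := k) M)

/-- **`lg_phiE` is separable.** -/
theorem s44rl_sepAlong (hp2 : p ≠ 2) (hpM : ¬ p ∣ M)
    (ρ : ↥(GaloisRep.ratLocalizedAt p) →+* k) :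
    ptw_SeparableAlong (lg_phiE (L := k) (N := M)) := by
  haveI : Algebra.IsSeparable k⟮lg_phiE (L := k) (N := M) (jcr_j (k := k) M)⟯ (lg_E k M) := by
    rw [s44rl_phiE_j]
    exact (s44rl_sepGen_j2 k p M hp2 hpM ρ).2.2
  exact s44rl_sepAlong_of (lg_phiE (L := k) (N := M)) (jcr_j (k := k) M)

/-- **every place of `FF_M` extends to the Legendre cover** (with `e ≤ 6`). -/
theorem s44rl_exists_Q2 (hp2 : p ≠ 2) (hpM : ¬ p ∣ M)
    (ρ : ↥(GaloisRep.ratLocalizedAt p) →+* k) (Q : Place k (lg_F k M)) :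
    ∃ (Q2 : Place k (lg_E k M)) (e : ℕ), 0 < e ∧ e ≤ 6 ∧
      ∀ g : lg_F k M, Q2.ord (lg_phiE (L := k) (N := M) g) = (e : ℤ) * Q.ord g := by
  obtain ⟨Q2, e, he, hen, h⟩ := s44rx_exists_ext (s44rl_sepGen_lam k p M hp2 hpM ρ)
    (lg_phiE (L := k) (N := M)) (s44rl_finiteAlong k p M hp2 hpM ρ) Q
  exact ⟨Q2, e, he, hen.trans (s44rl_finrank_le k M (s44rl_two_ne_zero k p hp2)), h⟩

/-- **the minimal ramification index over `Q`** (VERBATIM the set of `s44e_ram`) is positive,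
`≤ 6` and prime to `p`, for `p ≥ 5` and degree `≠ 5`. -/
theorem s44rl_sInf [IsAlgClosed k] (hp5 : 5 ≤ p) (hpM : ¬ p ∣ M)
    (ρ : ↥(GaloisRep.ratLocalizedAt p) →+* k)
    (hn5 : finrankAlong k (lg_phiE (L := k) (N := M)) ≠ 5) (Q : Place k (lg_F k M)) :
    0 < sInf {e : ℕ | 0 < e ∧ ∃ Q2 : Place k (lg_E k M),
        ∀ g : lg_F k M, Q2.ord (lg_phiE (L := k) (N := M) g) = (e : ℤ) * Q.ord g} ∧
    sInf {e : ℕ | 0 < e ∧ ∃ Q2 : Place k (lg_E k M),
        ∀ g : lg_F k M, Q2.ord (lg_phiE (L := k) (N := M) g) = (e : ℤ) * Q.ord g} ≤ 6 ∧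
    ¬ p ∣ sInf {e : ℕ | 0 < e ∧ ∃ Q2 : Place k (lg_E k M),
        ∀ g : lg_F k M, Q2.ord (lg_phiE (L := k) (N := M) g) = (e : ℤ) * Q.ord g} := by
  have hp2 : p ≠ 2 := by omega
  have hn6 := s44rl_finrank_le k M (s44rl_two_ne_zero k p hp2)
  have hfin := s44rl_finiteAlong k p M hp2 hpM ρ
  have hnpos : 0 < finrankAlong k (lg_phiE (L := k) (N := M)) := by
    letI := algebraAlong (lg_phiE (L := k) (N := M))
    haveI : Module.Finite (lg_F k M) (lg_E k M) := hfin
    exact Module.finrank_pos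
  haveI := s44rl_hpd k p M hp2 hpM ρ
  haveI : Algebra.IsAlgebraic k⟮jcr_j (k := k) M⟯ (lg_F k M) := jcr_isAlgebraic M hpM ρ
  have hpn : ¬ p ∣ finrankAlong k (lg_phiE (L := k) (N := M)) := by
    intro hdvd
    have hle := Nat.le_of_dvd hnpos hdvd
    have hp56 : p = 5 ∨ p = 6 := by omega
    rcases hp56 with h | h
    · rw [h] at hdvd
      obtain ⟨c, hc⟩ := hdvd
      omega
    · have hpr := (Fact.out : p.Prime)
      rw [h] at hpr
      exact absurd hpr (by norm_num)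
  obtain ⟨h1, h2, h3⟩ := s44rx_sInf_not_dvd (lg_phiE (L := k) (N := M)) hfin
    (s44rl_sepAlong k p M hp2 hpM ρ) (jcr_j (k := k) M) Q p hpn (by omega)
  exact ⟨h1, h2.trans hn6, h3⟩

end CharP

end Fermat.Agent.S44
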