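/-
S44, ruling R5/R6, the ASSEMBLY of (U-DIV) `s44e_UDiv`, part 2 (helper15; prefix `s44udm_`).

`Res/UDivDich.lean` (part 1) is the dichotomy at one number field in the vocabulary of helper12's
`Mono/NodeDict.lean`.  THIS FILE feeds it:

* `s44udm_red_j`     : `red j_F = jcr_j M` (the reduction of the `j`-function);
* `s44udm_hunif`     : the Gauss valuation `V₁` of the Legendre cover is discrete with uniformiser `π`;
* `s44udm_W_ne_top`  : the Chevalley extension `𝒲` of `s44nd_exists_ext` is not trivial;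
* `s44udm_at`        : the two halves of (U-DIV) at one place `Q`, over one number field `L1 ∋ ζ_M`
                       carrying a witness of non-supersingularity and a model of the unit;
* `s44udm_udiv`      : **`s44e_UDiv A M p hp.out hpM`** for every `A` over `p` odd, `p ∤ M`.
-/
import Mathlib
import Fermat.Agent.S44.Res.UDivDich
import Fermat.Agent.S44.Mono.NodeLegRed
import Fermat.Agent.S44.Mono.NodeDictNode
import Fermat.Agent.S44.Mono.NodeDictCfe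
import Fermat.Agent.S44.Mono.UnitNodeLeg
import Fermat.Agent.S44.Mono.UnitSmooth
import Fermat.Agent.S44.Mono.UNode
import Fermat.Agent.S44.Mono.Centre0
import Fermat.Agent.S44.Mono.GaussSheet
import Fermat.Agent.S44.Bridge.NF
import Fermat.Agent.S44.Res.LegFF

set_option autoImplicit false
set_option linter.unusedSectionVars false
set_option linter.style.haveILetI false
set_option linter.unusedVariables false

noncomputable section

namespace Fermat.Agent.S44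

open Polynomial ModularCurve AlgebraicCurve IntermediateField IsLocalRing
open Fermat.Agent.JT3 Fermat.Agent.SS Fermat.Agent.S35 Fermat.Agent.S24 Fermat.Agent.MZ

local notation "Qb" => AlgebraicClosure ℚ

/-! ### the Gauss valuation of the Legendre cover is discrete -/

section Unif

variable {L : Type*} [Field L] [CharZero L] [Algebra L (AlgebraicClosure ℚ)]
  (O : ValuationSubring L) [IsDiscreteValuationRing O] {π : O} (hπ : Irreducible π)
variable (N' q : ℕ) [NeZero N'] [NeZero q]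

/-- **`hunif` of (ND)**: every nonzero element of the Legendre field is a power of `π` times a unit of
the Gauss valuation ring `V₁`. -/
theorem s44udm_hunif (z : ↥(lg_E L (N' * q))) (hz : z ≠ 0) :
    ∃ n : ℤ, ssl_VUnit (ssm_gl_V1 O hπ N' q)
      (z / algebraMap ↥O ↥(lg_E L (N' * q)) π ^ n) := by
  have hquot : gq_IsQuot ↥O L ((z : ↥(lg_E L (N' * q))) : LaurentSeries L) :=
    ssm_ga_E_le_quotField O (N' * q) z.2
  have hz0 : ((z : ↥(lg_E L (N' * q))) : LaurentSeries L) ≠ 0 := fun h => hz (Subtype.ext h)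
  obtain ⟨n, h1, h2⟩ := s44mv_exists_zpow O hπ hquot hz0
  have hc : ((algebraMap ↥O ↥(lg_E L (N' * q)) π : ↥(lg_E L (N' * q))) : LaurentSeries L) =
      algebraMap L (LaurentSeries L) (π : L) := rfl
  have hcoe : (((z / algebraMap ↥O ↥(lg_E L (N' * q)) π ^ n : ↥(lg_E L (N' * q)))) :
      LaurentSeries L) =
      (z : LaurentSeries L) / algebraMap L (LaurentSeries L) (π : L) ^ n := by
    have hzp : (((algebraMap ↥O ↥(lg_E L (N' * q)) π ^ n : ↥(lg_E L (N' * q)))) :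
        LaurentSeries L) = algebraMap L (LaurentSeries L) (π : L) ^ n := by
      rw [← hc]
      exact map_zpow₀ (lg_E L (N' * q)).val _ n
    rw [← hzp]
    rfl
  have hπ0 : algebraMap ↥O ↥(lg_E L (N' * q)) π ≠ 0 := by
    intro h
    have h3 := congrArg (fun w : ↥(lg_E L (N' * q)) => (w : LaurentSeries L)) h
    simp only [hc] at h3
    have hinjL : Function.Injective (algebraMap ↥O L) := IsFractionRing.injective ↥O L
    exact gq_const_ne_zero (K := L) π hπ.ne_zero hinjL h3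
  refine ⟨n, div_ne_zero hz (zpow_ne_zero _ hπ0), ?_, ?_⟩
  · have h3 : gq_IsBdd ↥O L (((z / algebraMap ↥O ↥(lg_E L (N' * q)) π ^ n : ↥(lg_E L (N' * q)))) :
        LaurentSeries L) := by
      rw [hcoe]
      exact h1
    exact h3
  · have h4 : (((z / algebraMap ↥O ↥(lg_E L (N' * q)) π ^ n : ↥(lg_E L (N' * q)))⁻¹ :
        ↥(lg_E L (N' * q))) : LaurentSeries L) =
        ((z : LaurentSeries L) / algebraMap L (LaurentSeries L) (π : L) ^ n)⁻¹ := by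
      rw [← hcoe]
      simp
    have h3 : gq_IsBdd ↥O L (((z / algebraMap ↥O ↥(lg_E L (N' * q)) π ^ n : ↥(lg_E L (N' * q)))⁻¹ :
        ↥(lg_E L (N' * q))) : LaurentSeries L) := by
      rw [h4]
      exact h2
    exact h3

end Unif

/-! ### the abstract non-triviality of the Chevalley extension -/

section NeTop

variable {F' : Type*} [Field F'] {E' : Type*} [Field E'] (φ : F' →+* E')
  (W1 : ValuationSubring F') (V1 : ValuationSubring E')
  (hφ : ∀ x : F', φ x ∈ V1 ↔ x ∈ W1)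
  {κ0 : Type*} [Field κ0] (red : ↥W1 →+* κ0)
  (hker0 : ∀ z : ↥W1, (z : F') ∈ W1.nonunits → red z = 0)
  {kA : Type*} [Field kA] [Algebra kA κ0] (Q : Place kA κ0)
  {κ : Type*} [Field κ] (r : ↥V1 →+* κ) (hker : ∀ z : ↥V1, (z : E') ∈ V1.nonunits → r z = 0)
  (𝒲 : ValuationSubring κ)
  (hext : ∀ x : F', φ x ∈ tori_comp V1 r hker 𝒲 ↔
    x ∈ tori_comp W1 red hker0 Q.toValuationSubring)

include hφ hext in
/-- if `ord_Q ∘ red` takes the value `1`, the extension `𝒲` of `s44nd_exists_ext` is not trivial. -/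
theorem s44udm_W_ne_top (hCFE : ∃ t : ↥W1, Q.ord (red t) = 1) : 𝒲 ≠ ⊤ := by
  intro htop
  obtain ⟨t, ht⟩ := hCFE
  have htne : red t ≠ 0 := by
    intro h
    rw [h, Q.ord_zero] at ht
    exact zero_ne_one ht
  have htu : (t : F') ∉ W1.nonunits := fun h => htne (hker0 t h)
  have ht0 : (t : F') ≠ 0 := ssm_tp_ne_zero W1 htu
  have hti : (t : F')⁻¹ ∈ W1 := ssm_tp_inv_mem W1 htu
  have h1 : φ ((t : F')⁻¹) ∈ tori_comp V1 r hker 𝒲 := by
    rw [tori_comp_mem_iff]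
    refine ⟨(hφ _).2 hti, ?_⟩
    rw [htop]
    exact ValuationSubring.mem_top _
  have h2 := (hext _).1 h1
  rw [tori_comp_mem_iff] at h2
  obtain ⟨h3, h4⟩ := h2
  have h5 : red ⟨(t : F')⁻¹, h3⟩ = (red t)⁻¹ := by
    apply eq_inv_of_mul_eq_one_right
    rw [← map_mul]
    have : t * ⟨(t : F')⁻¹, h3⟩ = 1 := Subtype.ext (mul_inv_cancel₀ ht0)
    rw [this, map_one]
  rw [h5] at h4
  have h6 := (hw_mem_iff_ord_nonneg Q (inv_ne_zero htne)).1 h4
  rw [Q.ord_inv, ht] at h6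
  omega

end NeTop

/-! ### `λ` and `λ - 1` are units where `j₂` is finite -/

section LegUnits

variable {E : Type*} [Field E] (𝒱 : ValuationSubring E)

/-- in a valuation ring containing `λ`, `j₂` and `256⁻¹`, the Legendre relation
`256 (λ² - λ + 1)³ = j₂ λ² (λ - 1)²` forces `λ` and `λ - 1` to be units. -/
theorem s44udm_leg_units {lam j2 c : E} (hc : c * 256 = 1) (hcV : c ∈ 𝒱) (hlam : lam ∈ 𝒱)
    (hj : j2 ∈ 𝒱)
    (hleg : 256 * (lam ^ 2 - lam + 1) ^ 3 = j2 * lam ^ 2 * (lam - 1) ^ 2) :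
    lam ∉ 𝒱.nonunits ∧ lam - 1 ∉ 𝒱.nonunits := by
  have hlam1 : lam - 1 ∈ 𝒱 := sub_mem hlam 𝒱.one_mem
  have key : lam * (lam - 1) ∈ 𝒱.nonunits → False := by
    intro ht
    have hw3 : (lam ^ 2 - lam + 1) ^ 3 ∈ 𝒱.nonunits := by
      have e : (lam ^ 2 - lam + 1) ^ 3 =
          lam * (lam - 1) * (c * j2 * (lam * (lam - 1))) := by
        have h1 : (lam ^ 2 - lam + 1) ^ 3 = c * 256 * (lam ^ 2 - lam + 1) ^ 3 := by
          rw [hc, one_mul]
        rw [h1, mul_assoc c, hleg]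
        ring
      rw [e]
      exact ssm_tp_nonunits_mul 𝒱 ht
        (𝒱.mul_mem _ _ (𝒱.mul_mem _ _ hcV hj) (𝒱.mul_mem _ _ hlam hlam1))
    have hw : lam ^ 2 - lam + 1 ∈ 𝒱.nonunits := by
      by_contra hnot
      exact ssm_tp_pow_not_mem 𝒱 hnot 3 hw3
    have h1 : (1 : E) = (lam ^ 2 - lam + 1) + -(lam * (lam - 1)) := by ring
    have h2 : (1 : E) ∈ 𝒱.nonunits := by
      rw [h1]
      exact ssm_tp_nonunits_add 𝒱 hw (ssm_tp_nonunits_neg 𝒱 ht)
    exact ssm_tp_one_not_mem_nonunits 𝒱 h2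
  refine ⟨fun h => key (ssm_tp_nonunits_mul 𝒱 h hlam1), fun h => key ?_⟩
  rw [mul_comm]
  exact ssm_tp_nonunits_mul 𝒱 h hlam

end LegUnits

/-! ### one place, one number field -/

section At

variable (A : ValuationSubring s44_Qb) {p : ℕ} [hp : Fact p.Prime] (hA : A.LiesOverPrime p)
  (M : ℕ) [NeZero M] [NeZero p] [NeZero (M * p)] (hpM : ¬ p ∣ M) (hp2 : ¬ 2 ∣ p)
  (L1 : IntermediateField ℚ s44_Qb)
  [IsDiscreteValuationRing ↥(A.comap (algebraMap L1 s44_Qb))]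
  [CharP (ResidueField ↥(A.comap (algebraMap L1 s44_Qb))) p]
  {π : ↥(A.comap (algebraMap L1 s44_Qb))} (hπ : Irreducible π)

set_option hygiene false in
local notation "O1" => ValuationSubring.comap A (algebraMap L1 s44_Qb)

/-- `j_F` lies in the Gauss ring of the base. -/
theorem s44udm_jF_mem : rpz_jF L1 (M * p) ∈ s44mz_VF O1 hπ M p := by
  show gq_IsBdd ↥O1 L1 (jqModC L1)
  rw [← coeffMap_jqModC (algebraMap ↥O1 L1)]
  exact gq_isBdd_iota _

/-- **`red j_F = j̄`.** -/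
theorem s44udm_red_j :
    s44nlr_red A hA M hpM L1 hπ ⟨rpz_jF L1 (M * p), s44udm_jF_mem A M L1 hπ⟩ =
      jcr_j (k := s44e_kA A) M := by
  apply Subtype.ext
  rw [s44nlr_red_coe]
  have h1 := s44nlr_resF_iota O1 hπ M p hpM ⟨rpz_jF L1 (M * p), s44udm_jF_mem A M L1 hπ⟩
    (jqModC ↥O1) (coeffMap_jqModC (algebraMap ↥O1 L1)).symm
  rw [s44nlr_resF_coe] at h1
  rw [h1, coeffMap_jqModC, coeffMap_jqModC]
  rfl

include hπ hp2 in
set_option maxHeartbeats 3200000 in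
set_option synthInstance.maxHeartbeats 400000 in
/-- **the two halves of (U-DIV) at one place**, over one number field `L1 ∋ ζ_M` carrying a witness of
non-supersingularity (`hwit`, the conclusion of `s44ec_not_isSS_nf` at `L1`) and a model `U1` of the
modular unit. -/
theorem s44udm_at [NumberField L1] (ζ : L1) (hζ : IsPrimitiveRoot ζ M)
    (Q : Place (s44e_kA A) (s44e_FF A M))
    (hj : jcr_j (k := s44e_kA A) M ∈ Q.toValuationSubring)
    (hwit : ¬ s44e_IsSS A M p hp.out hpM Q →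
      ∃ (b1 : ↥(lg_F L1 (M * p)))
        (hb : ssm_al_iotaF L1 (M * p) b1 ∈ s44pg_W A hA hp.out.ne_zero (M * p))
        (hW : gq_IsBdd ↥O1 L1
          ((ssm_al_W L1 M p hp.out hpM b1 : ↥(lg_F L1 (M * p))) : LaurentSeries L1)),
        IsIntegral (Algebra.adjoin ↥O1
          ({rdn_gf_j (L := L1) (M * p)} : Set ↥(lg_F L1 (M * p)))) b1 ∧
        gq_res ↥O1 L1 ⟨_, hW⟩ = 0 ∧
        ((s44rd_red A hA M hpM ⟨ssm_al_iotaF L1 (M * p) b1, hb⟩ : ↥(s44e_FF A M))) ∉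
          Q.toValuationSubring.nonunits)
    (U1 : ↥(lg_F L1 (M * p)))
    (hU1 : ssm_al_iotaF L1 (M * p) U1 = s44hu_U p (M * p) (s44hu_dvd (rfl : M * p = M * p))) :
    (s44e_IsSS A M p hp.out hpM Q → ∃ T : ℤ, T * Q.ord (s44e_ubar A M p) = 12) ∧
    (¬ s44e_IsSS A M p hp.out hpM Q → Q.ord (s44e_ubar A M p) = 0) := by
  -- the chart package
  haveI := ssm_go_isScalarTower O1 (lg_E L1 (M * p))
  have hx : Transcendental L1 (lg_lamE (L := L1) (M * p)) :=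
    lgf_lam_transcendental L1 (M * p) two_ne_zero
  have hyA : Transcendental ↥O1 (lg_lamE (L := L1) (M * p)) := fc_ff_transcendental (L := L1) hx
  haveI : IsIntegrallyClosed (Algebra.adjoin ↥O1 ({lg_lamE (M * p)} : Set ↥(lg_E L1 (M * p)))) :=
    fc_ff_isIntegrallyClosed hyA
  haveI : FaithfulSMul (Algebra.adjoin ↥O1 ({lg_lamE (M * p)} : Set ↥(lg_E L1 (M * p))))
      ↥(lg_E L1 (M * p)) :=
    (faithfulSMul_iff_algebraMap_injective _ _).2 Subtype.val_injective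
  haveI := lgf_finite L1 (M * p)
  haveI : IsNoetherianRing ↥(fc_chart ↥O1 ({lg_lamE (M * p)} : Set ↥(lg_E L1 (M * p)))) :=
    ssm_ths_chart_isNoetherianRing (A0 := ↥O1) (L := L1) hx
  haveI : IsIntegrallyClosed ↥(fc_chart ↥O1 ({lg_lamE (M * p)} : Set ↥(lg_E L1 (M * p)))) :=
    ssm_ths_chart_isIntegrallyClosed (A0 := ↥O1) (L := L1) _
  haveI : IsFractionRing ↥(fc_chart ↥O1 ({lg_lamE (M * p)} : Set ↥(lg_E L1 (M * p))))
      ↥(lg_E L1 (M * p)) :=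
    ssm_ths_chart_isFractionRing (A0 := ↥O1) (L := L1) _
  have hprime : Prime (algebraMap ↥O1 (fc_chart ↥O1 ({lg_lamE M} : Set ↥(lg_E L1 M))) π) :=
    (ssm_ll_prime L1 M hπ p (ssm_fln_q_mem L1 O1 p) (ssm_fl_ne_two p hp2) hpM ζ hζ).1
  have H := ssm_gl_hyp O1 hπ M p hp2 hpM hprime
  have hC := ssm_tp_ff_chart (L := L1) hπ hx
  -- the reduction maps
  set φ : ↥(lg_F L1 (M * p)) →+* ↥(lg_E L1 (M * p)) :=
    (lg_phiE (L := L1) (N := M * p)).toRingHom with hφdef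
  have hφ : ∀ x : ↥(lg_F L1 (M * p)), φ x ∈ ssm_gl_V1 O1 hπ M p ↔ x ∈ s44mz_VF O1 hπ M p :=
    fun x => s44nlr_phi_mem_iff O1 hπ M p x
  set red := s44nlr_red A hA M hpM L1 hπ with hreddef
  have hker0 : ∀ z : ↥(s44mz_VF O1 hπ M p),
      (z : ↥(lg_F L1 (M * p))) ∈ (s44mz_VF O1 hπ M p).nonunits → red z = 0 :=
    s44nlr_red_hker A hA M hpM L1 hπ
  have hred : ∀ (x : ↥(s44mz_VF O1 hπ M p))
      (hb : ssm_al_iotaF L1 (M * p) (x : ↥(lg_F L1 (M * p))) ∈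
        s44pg_W A hA hp.out.ne_zero (M * p)),
      red x = s44rd_red A hA M hpM ⟨ssm_al_iotaF L1 (M * p) (x : ↥(lg_F L1 (M * p))), hb⟩ :=
    fun x hb => rfl
  set r := s44re_r O1 hπ M p hp2 hpM with hrdef
  have hker : ∀ z : ↥(ssm_gl_V1 O1 hπ M p),
      (z : ↥(lg_E L1 (M * p))) ∈ (ssm_gl_V1 O1 hπ M p).nonunits → r z = 0 :=
    s44re_r_hker O1 hπ M p hp2 hpM
  have hCFE : ∃ t : ↥(s44mz_VF O1 hπ M p), Q.ord (red t) = 1 :=
    s44nlr_hCFE A hA M hpM L1 hπ Q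
  -- the Chevalley extension
  obtain ⟨𝒲, hext⟩ := s44nd_exists_ext φ (s44mz_VF O1 hπ M p) (ssm_gl_V1 O1 hπ M p) hφ red hker0
    Q.toValuationSubring r hker
  have h𝒲ne : 𝒲 ≠ ⊤ := s44udm_W_ne_top φ (s44mz_VF O1 hπ M p) (ssm_gl_V1 O1 hπ M p) hφ red hker0 Q
    r hker 𝒲 hext hCFE
  have hk𝒲 : ∀ c : ResidueField ↥O1, algebraMap (ResidueField ↥O1) ↥(lg_E (ResidueField ↥O1) M) c ∈ 𝒲 :=
    fun c => s44ndc_const_mem_of_hom A hA (s44nlr_kappa A L1) 𝒲 c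
  -- `j₂` is finite at `𝒱'`
  have hj2 : s44mz_j2E L1 (M * p) ∈ tori_comp (ssm_gl_V1 O1 hπ M p) r hker 𝒲 := by
    have h1 : φ (rpz_jF L1 (M * p)) = s44mz_j2E L1 (M * p) := rfl
    rw [← h1, hext, tori_comp_mem_iff]
    refine ⟨s44udm_jF_mem A M L1 hπ, ?_⟩
    rw [hreddef, s44udm_red_j A hA M hpM L1 hπ]
    exact hj
  have hj' : ∃ h : s44mz_j2E L1 (M * p) ∈ ssm_gl_V1 O1 hπ M p,
      r ⟨s44mz_j2E L1 (M * p), h⟩ ∈ 𝒲 := (tori_comp_mem_iff _ r hker 𝒲).1 hj2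
  -- the centre
  haveI : Algebra.IsAlgebraic (ResidueField ↥O1)⟮(lg_lamE M : ↥(lg_E (ResidueField ↥O1) M))⟯
      ↥(lg_E (ResidueField ↥O1) M) := by
    have hqO : ((p : ℕ) : ↥O1) ∈ maximalIdeal ↥O1 := ssm_fln_q_mem L1 O1 p
    obtain ⟨ρO⟩ := lgv_exists_rhoO (L := L1) (O := ↥O1) (IsFractionRing.injective ↥O1 L1) p hqO
    haveI := s44rl_finite_lam (ResidueField ↥O1) M (s44re_two_ne_zero O1 p hp2) hpM
      ((residue ↥O1).comp ρO)
    exact Algebra.IsAlgebraic.of_finite _ _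
  obtain ⟨hlam, hB, hmax, h𝔫eq, hπ𝒱, hP1le⟩ := s44mz_centre_comp0 O1 hπ M p hp2 hpM hprime
    (residue ↥O1) residue_surjective r hker (s44re_r_const O1 hπ M p hp2 hpM)
    (lg_lamE M : ↥(lg_E (ResidueField ↥O1) M)) 𝒲 hk𝒲 h𝒲ne hj'
  have hO𝒱 : ∀ a : ↥O1, algebraMap ↥O1 ↥(lg_E L1 (M * p)) a ∈
      tori_comp (ssm_gl_V1 O1 hπ M p) r hker 𝒲 :=
    fun a => hB _ (Subalgebra.algebraMap_mem _ a)
  -- the model of the unit
  have hU1coe : ((U1 : ↥(lg_F L1 (M * p))) : LaurentSeries L1) = mzb_qi_U L1 p :=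
    s44eu_model_coe L1 p (M * p) _ hU1
  have hUV1 := s44un_V1 O1 hπ M p U1 hU1coe
  have hUW : U1 ∈ s44mz_VF O1 hπ M p := (hφ U1).1 hUV1.2.1
  have hUiW : U1⁻¹ ∈ s44mz_VF O1 hπ M p := by
    rw [← hφ, map_inv₀]
    exact hUV1.2.2
  have hU0 : U1 ≠ 0 := fun h => hUV1.1 (by rw [h, map_zero])
  have hUunit : IsUnit (⟨U1, hUW⟩ : ↥(s44mz_VF O1 hπ M p)) :=
    IsUnit.of_mul_eq_one (⟨U1⁻¹, hUiW⟩ : ↥(s44mz_VF O1 hπ M p))
      (Subtype.ext (mul_inv_cancel₀ hU0))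
  refine s44ud_udiv_at A hA M hpM hp2 L1 hπ hprime red hker0 hred Q r hker 𝒲 hext hO𝒱 hj2 hwit
    ⟨U1, hUW⟩ hU1 ?_ ?_
  · -- the node half
    intro h2
    haveI : (ssm_tp_P (fc_chart ↥O1 ({lg_lamE (M * p)} : Set ↥(lg_E L1 (M * p))))
        (tori_comp (ssm_gl_V1 O1 hπ M p) r hker 𝒲)).IsPrime := hmax.isPrime
    obtain ⟨u, v, hnode, -⟩ := s44mu_node L1 O1 hπ M p hp2 hpM ζ hζ _ hmax hP1le h2
    have hπ𝔫 : algebraMap ↥O1 (fc_chart ↥O1 ({lg_lamE (M * p)} : Set ↥(lg_E L1 (M * p)))) π ∈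
        ssm_tp_P (fc_chart ↥O1 ({lg_lamE (M * p)} : Set ↥(lg_E L1 (M * p))))
          (tori_comp (ssm_gl_V1 O1 hπ M p) r hker 𝒲) := (h𝔫eq _).2 hπ𝒱
    have hnd := s44un_leg_node O1 hπ M p hp2 hpM hprime U1 hU1coe _ hπ𝔫 hnode
    have hC12 := ssm_tp_ff_chart12 (L := L1) hπ hx
    have hB12V : ∀ b ∈ fc_chart ↥O1 ({lg_lamE (M * p), (lg_lamE (M * p))⁻¹} :
        Set ↥(lg_E L1 (M * p))), b ∈ ssm_gl_V1 O1 hπ M p := fun b hb => hC12.le H.over1 hb
    have hϖ : algebraMap ↥O1 ↥(lg_E L1 (M * p)) π ∈ (ssm_gl_V1 O1 hπ M p).nonunits :=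
      H.over1.pi_mem
    have hϖ0 : algebraMap ↥O1 ↥(lg_E L1 (M * p)) π ≠ 0 := H.algebraMap_ne_zero
    have hloc : ∀ z ∈ ssm_gl_V1 O1 hπ M p,
        ∃ b s : ↥(fc_chart ↥O1 ({lg_lamE (M * p)} : Set ↥(lg_E L1 (M * p)))),
          s ∉ ssm_tp_P (fc_chart ↥O1 ({lg_lamE (M * p)} : Set ↥(lg_E L1 (M * p))))
            (ssm_gl_V1 O1 hπ M p) ∧ z * (s : ↥(lg_E L1 (M * p))) = (b : ↥(lg_E L1 (M * p))) := by
      intro z hz
      obtain ⟨t, ht, htz⟩ := (H.mem_V1_iff hC).1 hz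
      exact ⟨⟨_, htz⟩, t, ht, mul_comm _ _⟩
    have ha : algebraMap ↥O1 ↥(lg_E L1 (M * p)) ((p : ℕ) : ↥O1) ∈
        (ssm_gl_V1 O1 hπ M p).nonunits := by
      have hqO : ((p : ℕ) : ↥O1) ∈ maximalIdeal ↥O1 := ssm_fln_q_mem L1 O1 p
      rw [hπ.maximalIdeal_eq, Ideal.mem_span_singleton] at hqO
      obtain ⟨c, hc⟩ := hqO
      rw [hc, map_mul]
      exact ssm_tp_nonunits_mul _ hϖ (hO𝒱 c).1
    obtain ⟨huS, -⟩ := s44ndn_coords _ (fc_chart1_le (lg_lamE (M * p) : ↥(lg_E L1 (M * p))))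
      (ssm_gl_V1 O1 hπ M p) hB12V hP1le hϖ hnode ha
    -- `j₂ ∈ B_𝔫`
    obtain ⟨cu, hcu⟩ := s44mz_exists_u O1 p hp2
    have hunits := s44udm_leg_units (tori_comp (ssm_gl_V1 O1 hπ M p) r hker 𝒲)
      (c := algebraMap ↥O1 ↥(lg_E L1 (M * p)) cu)
      (by rw [← map_ofNat (algebraMap ↥O1 ↥(lg_E L1 (M * p))) 256, ← map_mul, hcu, map_one])
      (hO𝒱 cu) hlam hj2 (s44mz_legE L1 (M * p))
    have hlamB : (⟨lg_lamE (M * p), fc_x_mem_chart _⟩ :
        ↥(fc_chart ↥O1 ({lg_lamE (M * p)} : Set ↥(lg_E L1 (M * p))))) ∉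
        ssm_tp_P (fc_chart ↥O1 ({lg_lamE (M * p)} : Set ↥(lg_E L1 (M * p))))
          (tori_comp (ssm_gl_V1 O1 hπ M p) r hker 𝒲) := fun h => hunits.1 ((h𝔫eq _).1 h)
    have hlam1B : (⟨lg_lamE (M * p), fc_x_mem_chart _⟩ :
        ↥(fc_chart ↥O1 ({lg_lamE (M * p)} : Set ↥(lg_E L1 (M * p))))) - 1 ∉
        ssm_tp_P (fc_chart ↥O1 ({lg_lamE (M * p)} : Set ↥(lg_E L1 (M * p))))
          (tori_comp (ssm_gl_V1 O1 hπ M p) r hker 𝒲) := fun h => hunits.2 ((h𝔫eq _).1 h)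
    obtain ⟨aj, sj, hsj, hjs⟩ := s44us_j2_of_lam O1 (M * p) _ hlamB hlam1B
    have hjS : s44uv_j2E L1 (M * p) ∈ ssl_locSub ↥(lg_E L1 (M * p))
        (ssm_tp_P (fc_chart ↥O1 ({lg_lamE (M * p)} : Set ↥(lg_E L1 (M * p))))
          (tori_comp (ssm_gl_V1 O1 hπ M p) r hker 𝒲)) :=
      (ssl_mem_loc _).2 ⟨aj, sj, hsj, hjs⟩
    obtain ⟨T, ν, hT, hval, -, -⟩ := s44ndn_value φ (s44mz_VF O1 hπ M p) (ssm_gl_V1 O1 hπ M p) hφ
      red hker0 Q r hker 𝒲 hext _ (fc_chart1_le (lg_lamE (M * p) : ↥(lg_E L1 (M * p)))) hB h𝔫eq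
      hϖ hϖ0 (s44udm_hunif O1 hπ M p) (s44re_r_surjective O1 hπ M p hp2 hpM) hloc hB12V hnode ha
      huS hk𝒲 hCFE hUunit (c := 12) (hnd huS hjS)
    exact ⟨T, hval⟩
  · -- the smooth half
    intro h2
    haveI : (ssm_tp_P (fc_chart ↥O1 ({lg_lamE (M * p)} : Set ↥(lg_E L1 (M * p))))
        (tori_comp (ssm_gl_V1 O1 hπ M p) r hker 𝒲)).IsPrime := hmax.isPrime
    have hz := s44us_smooth_centre O1 hπ M p hp2 hpM hprime
      (tori_comp (ssm_gl_V1 O1 hπ M p) r hker 𝒲) (tori_comp_le _ r hker 𝒲) hO𝒱 hj2 _ h𝔫eq h2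
      U1 hU1coe hUV1
    exact s44nd_unit_chart φ (s44mz_VF O1 hπ M p) (ssm_gl_V1 O1 hπ M p) red hker0 Q r hker 𝒲 hext
      _ hB h𝔫eq hUunit hz

end At

/-! ### (U-DIV) -/

section Final

variable (A : ValuationSubring s44_Qb) {p : ℕ} [hp : Fact p.Prime] (hA : A.LiesOverPrime p)
  (M : ℕ) [NeZero M] [NeZero p] [NeZero (M * p)] (hpM : ¬ p ∣ M) (hp2 : ¬ 2 ∣ p)

include hA hp2 in
set_option maxHeartbeats 1600000 in
set_option synthInstance.maxHeartbeats 400000 in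
/-- **(U-DIV)**: at every place `Q` of `FF_M / kA` with `j̄` finite, `ord_Q ū` divides `12` if `Q` is
supersingular and vanishes otherwise. -/
theorem s44udm_udiv : s44e_UDiv A M p hp.out hpM := by
  classical
  intro Q hj
  -- the three finite sets
  obtain ⟨T2, hT2⟩ := s44eu_exists_model p (M * p) (s44hu_dvd (rfl : M * p = M * p))
  obtain ⟨ζ0, hζ0⟩ := HasEnoughRootsOfUnity.exists_primitiveRoot Qb M
  have hT1 : ∃ T1 : Finset Qb, ∀ (L1 : IntermediateField ℚ s44_Qb) [FiniteDimensional ℚ L1],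
      (↑T1 : Set Qb) ⊆ L1 → ¬ s44e_IsSS A M p hp.out hpM Q →
      ∃ (b1 : ↥(lg_F L1 (M * p)))
        (hb : ssm_al_iotaF L1 (M * p) b1 ∈ s44pg_W A hA hp.out.ne_zero (M * p))
        (hW : gq_IsBdd ↥(A.comap (algebraMap L1 s44_Qb)) L1
          ((ssm_al_W L1 M p hp.out hpM b1 : ↥(lg_F L1 (M * p))) : LaurentSeries L1)),
        IsIntegral (Algebra.adjoin ↥(A.comap (algebraMap L1 s44_Qb))
          ({rdn_gf_j (L := L1) (M * p)} : Set ↥(lg_F L1 (M * p)))) b1 ∧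
        gq_res ↥(A.comap (algebraMap L1 s44_Qb)) L1 ⟨_, hW⟩ = 0 ∧
        ((s44rd_red A hA M hpM ⟨ssm_al_iotaF L1 (M * p) b1, hb⟩ : ↥(s44e_FF A M))) ∉
          Q.toValuationSubring.nonunits := by
    by_cases hQ : s44e_IsSS A M p hp.out hpM Q
    · exact ⟨∅, fun L1 _ _ h => absurd hQ h⟩
    · obtain ⟨T1, h⟩ := s44ec_not_isSS_nf A hA M hpM hj hQ
      exact ⟨T1, fun L1 _ hL _ => h L1 hL⟩
  obtain ⟨T1, hT1⟩ := hT1
  -- the number field
  obtain ⟨L1, hfd, -, hT, -⟩ := s44b_exists_nf (M * p) ∅ (T1 ∪ T2 ∪ {ζ0})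
  haveI : FiniteDimensional ℚ ↥L1 := hfd
  haveI : NumberField ↥L1 := { to_charZero := inferInstance, to_finiteDimensional := hfd }
  haveI : IsDiscreteValuationRing ↥(A.comap (algebraMap ↥L1 Qb)) :=
    dsc_isDVR_comap_numberField A p hA hp.out.ne_zero ↥L1
  obtain ⟨π, hπ⟩ := IsDiscreteValuationRing.exists_irreducible ↥(A.comap (algebraMap ↥L1 Qb))
  haveI : CharP (ResidueField ↥(A.comap (algebraMap ↥L1 Qb))) p :=
    ss_nfl_charP_residue (lg_natCast_mem_maximalIdeal A hA ↥L1)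
  have hT1' : (↑T1 : Set Qb) ⊆ L1 := fun a ha => hT (by
    rw [Finset.mem_coe] at ha ⊢
    exact Finset.mem_union_left _ (Finset.mem_union_left _ ha))
  have hT2' : (↑T2 : Set Qb) ⊆ L1 := fun a ha => hT (by
    rw [Finset.mem_coe] at ha ⊢
    exact Finset.mem_union_left _ (Finset.mem_union_right _ ha))
  have hζmem : ζ0 ∈ L1 := hT (by
    rw [Finset.mem_coe]
    exact Finset.mem_union_right _ (Finset.mem_singleton_self ζ0))
  have hζ : IsPrimitiveRoot (⟨ζ0, hζmem⟩ : ↥L1) M :=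
    (IsPrimitiveRoot.map_iff_of_injective (f := algebraMap ↥L1 Qb)
      (FaithfulSMul.algebraMap_injective ↥L1 Qb)).1 hζ0
  obtain ⟨U1, hU1⟩ := hT2 L1 hT2'
  exact s44udm_at A hA M hpM hp2 L1 hπ ⟨ζ0, hζmem⟩ hζ Q hj (hT1 L1 hT1') U1 hU1

end Final

/-- **(U-DIV) at the frame of a Frey package**: the input `hU` of `s44hz_cells_frame2` /
`s44hz_cells_exists` and of `s44e_k2_ne_frame`. -/
theorem s44udm_udiv_frame (P : FreyPackage) (M : ℕ) [NeZero M] [NeZero P.p] [NeZero (M * P.p)]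
    (hpM : ¬ P.p ∣ M) : s44e_UDiv (s44f_A P.p P.pp) M P.p P.pp hpM := by
  haveI : Fact P.p.Prime := ⟨P.pp⟩
  have hp2 : ¬ 2 ∣ P.p := by
    intro h
    have h2 := (Nat.prime_dvd_prime_iff_eq Nat.prime_two P.pp).1 h
    have h5 := P.hp5
    omega
  exact s44udm_udiv (s44f_A P.p P.pp) (s44f_A_liesOver P.p P.pp) M hpM hp2

end Fermat.Agent.S44
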