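/-
S44, ruling R6, (U-DIV) assembly, THE SMOOTH OUTPUT `hSmoothOut` of helper15's `s44ud_udiv_at`
(helper26; prefix `s44us_`).  Namespace `Fermat.Agent.S44`.

In the binders of `Res/UDivDich.lean` (section `Dich`): if the centre of `𝒱' = tori_comp V1 r _ 𝒲` on
the `λ`-chart `B` is NOT on the `0`-component, then `ord_Q (red U1) = 0` for every model `U1 ∈ W1` of
the modular unit.

  `s44us_smoothOut = s44nd_unit_chart ∘ s44us_smooth_centre ∘ s44un_V1`.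
-/
import Mathlib
import Fermat.Agent.S44.Res.UDivDich
import Fermat.Agent.S44.Mono.UnitSmooth
import Fermat.Agent.S44.Mono.UNodeVert

set_option autoImplicit false
set_option linter.unusedSectionVars false
set_option linter.style.haveILetI false
set_option linter.unusedVariables false

noncomputable section

namespace Fermat.Agent.S44

open Polynomial ModularCurve AlgebraicCurve IntermediateField IsLocalRing
open Fermat.Agent.JT3 Fermat.Agent.SS Fermat.Agent.S35 Fermat.Agent.S24 Fermat.Agent.MZ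

section SmoothOut

set_option synthInstance.maxHeartbeats 400000

variable (A : ValuationSubring s44_Qb) {p : ℕ} [hp : Fact p.Prime] (hA : A.LiesOverPrime p)
  (M : ℕ) [NeZero M] [NeZero p] [NeZero (M * p)] (hpM : ¬ p ∣ M) (hp2 : ¬ 2 ∣ p)
  (L1 : IntermediateField ℚ s44_Qb)
  [IsDiscreteValuationRing ↥(A.comap (algebraMap L1 s44_Qb))]
  [CharP (ResidueField ↥(A.comap (algebraMap L1 s44_Qb))) p]
  {π : ↥(A.comap (algebraMap L1 s44_Qb))} (hπ : Irreducible π)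

set_option hygiene false in
local notation "O1" => ValuationSubring.comap A (algebraMap L1 s44_Qb)

variable (hprime : Prime (algebraMap ↥O1 (fc_chart ↥O1 ({lg_lamE M} : Set ↥(lg_E L1 M))) π))
  (red : ↥(s44mz_VF O1 hπ M p) →+* ↥(s44e_FF A M))
  (hker0 : ∀ z : ↥(s44mz_VF O1 hπ M p),
    (z : ↥(lg_F L1 (M * p))) ∈ (s44mz_VF O1 hπ M p).nonunits → red z = 0)
  (Q : Place (s44e_kA A) (s44e_FF A M))
  {κ : Type*} [Field κ] (r : ↥(ssm_gl_V1 O1 hπ M p) →+* κ)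
  (hker : ∀ z : ↥(ssm_gl_V1 O1 hπ M p),
    (z : ↥(lg_E L1 (M * p))) ∈ (ssm_gl_V1 O1 hπ M p).nonunits → r z = 0)
  (𝒲 : ValuationSubring κ)
  (hext : ∀ x : ↥(lg_F L1 (M * p)),
    (lg_phiE (L := L1) (N := M * p)).toRingHom x ∈ tori_comp (ssm_gl_V1 O1 hπ M p) r hker 𝒲 ↔
      x ∈ tori_comp (s44mz_VF O1 hπ M p) red hker0 Q.toValuationSubring)
  (hO𝒱 : ∀ a : ↥O1, algebraMap ↥O1 ↥(lg_E L1 (M * p)) a ∈
    tori_comp (ssm_gl_V1 O1 hπ M p) r hker 𝒲)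
  (hj2 : s44mz_j2E L1 (M * p) ∈ tori_comp (ssm_gl_V1 O1 hπ M p) r hker 𝒲)

/-- a model of the modular unit in the Gauss ring `W1` is a unit of `W1`. -/
theorem s44us_model_isUnit (U1 : ↥(s44mz_VF O1 hπ M p))
    (hU1 : ((U1 : ↥(lg_F L1 (M * p))) : LaurentSeries L1) = mzb_qi_U L1 p) : IsUnit U1 := by
  have hV1 := s44un_V1 O1 hπ M p (U1 : ↥(lg_F L1 (M * p))) hU1
  by_contra hnu
  have h1 : (U1 : ↥(lg_F L1 (M * p))) ∈ (s44mz_VF O1 hπ M p).nonunits := by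
    rw [ValuationSubring.mem_nonunits_iff_exists_mem_maximalIdeal]
    exact ⟨U1.2, (IsLocalRing.mem_maximalIdeal _).2 hnu⟩
  have h2 := (s44mz_phi_nonunits_iff O1 hπ M p (U1 : ↥(lg_F L1 (M * p)))).2 h1
  have h3 := ssm_tp_nonunits_mul (ssm_gl_V1 O1 hπ M p) h2 hV1.2.2
  rw [mul_inv_cancel₀ hV1.1] at h3
  exact ssm_tp_one_not_mem_nonunits _ h3

include hprime hext hO𝒱 hj2 in
set_option maxHeartbeats 1600000 in
set_option synthInstance.maxHeartbeats 200000 in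
/-- **`hSmoothOut` of `s44ud_udiv_at`**: off the `0`-component, `ord_Q (red U1) = 0`. -/
theorem s44us_smoothOut (U1 : ↥(s44mz_VF O1 hπ M p))
    (hU1 : ssm_al_iotaF L1 (M * p) (U1 : ↥(lg_F L1 (M * p))) =
      s44hu_U p (M * p) (s44hu_dvd (rfl : M * p = M * p)))
    (hnot : ¬ (ssm_tp_P (fc_chart ↥O1 ({lg_lamE (M * p)} : Set ↥(lg_E L1 (M * p))))
          (ssm_gl_V2 O1 hπ M p hp2 hpM) ≤
        ssm_tp_P (fc_chart ↥O1 ({lg_lamE (M * p)} : Set ↥(lg_E L1 (M * p))))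
          (tori_comp (ssm_gl_V1 O1 hπ M p) r hker 𝒲))) :
    Q.ord (red U1) = 0 := by
  have hU1' : ((U1 : ↥(lg_F L1 (M * p))) : LaurentSeries L1) = mzb_qi_U L1 p :=
    s44eu_model_coe L1 p (M * p) (s44hu_dvd (rfl : M * p = M * p)) hU1
  have hV1 := s44un_V1 O1 hπ M p (U1 : ↥(lg_F L1 (M * p))) hU1'
  have hunit := s44us_model_isUnit A M L1 hπ U1 hU1'
  haveI := ssm_go_isScalarTower O1 (lg_E L1 (M * p))
  have hx : Transcendental L1 (lg_lamE (L := L1) (M * p)) :=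
    lgf_lam_transcendental L1 (M * p) two_ne_zero
  haveI := lgf_finite L1 (M * p)
  haveI : IsNoetherianRing ↥(fc_chart ↥O1 ({lg_lamE (M * p)} : Set ↥(lg_E L1 (M * p)))) :=
    ssm_ths_chart_isNoetherianRing (A0 := ↥O1) (L := L1) hx
  haveI : IsIntegrallyClosed ↥(fc_chart ↥O1 ({lg_lamE (M * p)} : Set ↥(lg_E L1 (M * p)))) :=
    ssm_ths_chart_isIntegrallyClosed (A0 := ↥O1) (L := L1) _
  haveI : IsFractionRing ↥(fc_chart ↥O1 ({lg_lamE (M * p)} : Set ↥(lg_E L1 (M * p))))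
      ↥(lg_E L1 (M * p)) :=
    ssm_ths_chart_isFractionRing (A0 := ↥O1) (L := L1) _
  set 𝒱 := tori_comp (ssm_gl_V1 O1 hπ M p) r hker 𝒲 with h𝒱
  have hle𝒱 : 𝒱 ≤ ssm_gl_V1 O1 hπ M p := tori_comp_le _ r hker 𝒲
  have hle := s44mz_B_le_S O1 p hp2 (M * p)
  have hS𝒱 := s44mz_S_le O1 (M * p) 𝒱 hO𝒱 hj2
  have hB𝒱 : ∀ b ∈ fc_chart ↥O1 ({lg_lamE (M * p)} : Set ↥(lg_E L1 (M * p))), b ∈ 𝒱 :=
    fun b hb => hS𝒱 b (hle hb)
  haveI h𝔫 : (ssm_tp_P (fc_chart ↥O1 ({lg_lamE (M * p)} : Set ↥(lg_E L1 (M * p)))) 𝒱).IsPrime :=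
    ssm_tp_P_isPrime hB𝒱
  have h𝔫eq : ∀ b : ↥(fc_chart ↥O1 ({lg_lamE (M * p)} : Set ↥(lg_E L1 (M * p)))),
      b ∈ ssm_tp_P (fc_chart ↥O1 ({lg_lamE (M * p)} : Set ↥(lg_E L1 (M * p)))) 𝒱 ↔
        (b : ↥(lg_E L1 (M * p))) ∈ 𝒱.nonunits := fun b => ssm_tp_mem_P hB𝒱
  have hz := s44us_smooth_centre O1 hπ M p hp2 hpM hprime 𝒱 hle𝒱 hO𝒱 hj2
    (ssm_tp_P (fc_chart ↥O1 ({lg_lamE (M * p)} : Set ↥(lg_E L1 (M * p)))) 𝒱) h𝔫eq hnot
    (U1 : ↥(lg_F L1 (M * p))) hU1' hV1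
  exact s44nd_unit_chart (lg_phiE (L := L1) (N := M * p)).toRingHom
    (s44mz_VF O1 hπ M p) (ssm_gl_V1 O1 hπ M p) red hker0 Q r hker 𝒲 hext
    (ssm_tp_P (fc_chart ↥O1 ({lg_lamE (M * p)} : Set ↥(lg_E L1 (M * p)))) 𝒱) hB𝒱 h𝔫eq hunit hz

end SmoothOut

end Fermat.Agent.S44
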