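import Fermat.Agent.S44.Res.Defs
import Fermat.Agent.SS.Model.AL
import Fermat.Agent.S35.RedN.InstFull

/-!
# S44 cell [E2] RES (helper20; prefix `s44ec_`): `s44e_IsChartInt` ⟷ number fields

`s44e_IsChartInt A N b` (`b ∈ F̄_N` integral over `A[j]`, Res/Defs.lean) against the number-field
form `IsIntegral (Algebra.adjoin O {j}) b1`, `b1 ∈ lg_F L1 N`, `O = A ∩ L1`, `ιF b1 = b`
(`ιF = ssm_al_iotaF L1 N`, `j = rdn_gf_j N`):

* `s44ec_iotaF_j`            : `ιF j = br_jBar N`;
* `s44ec_isChartInt_of_nf`   : NF-integral ⟹ `s44e_IsChartInt A N (ιF b1)`      (for (SS⟹NODE));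
* `s44ec_isChartInt_descent` : `s44e_IsChartInt A N b` ⟹ for every `L1 ⊇` a finite set and every
                               model `b1` of `b`: `b1` is integral over `O[j]`      (for (E2-ord)).
-/

set_option autoImplicit false
set_option linter.unusedSectionVars false
set_option linter.style.haveILetI false

noncomputable section

namespace Fermat.Agent.S44

open ModularCurve AlgebraicCurve IsLocalRing Polynomial Fermat.Agent.JT3 Fermat.Agent.S35
  Fermat.Agent.SS Fermat.Agent.S24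

variable (A : ValuationSubring s44_Qb) (N : ℕ) [NeZero N] (L1 : IntermediateField ℚ s44_Qb)

/-- `ιF j = j`. -/
theorem s44ec_iotaF_j : ssm_al_iotaF L1 N (rdn_gf_j (L := L1) N) = br_jBar N := by
  apply Subtype.ext
  rw [ssm_al_coe_iotaF, coe_br_jBar, br_jqK]
  show coeffMap _ (jqModC L1) = _
  rw [coeffMap_jqModC, coeffEmb, ← jqModC_rat, coeffMap_jqModC]

/-- the inclusion `O = A ∩ L1 → A`. -/
def s44ec_incl : ↥(A.comap (algebraMap L1 s44_Qb)) →+* ↥A where
  toFun c := ⟨algebraMap L1 s44_Qb (c : L1), c.2⟩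
  map_one' := Subtype.ext (map_one _)
  map_mul' _ _ := Subtype.ext (map_mul _ _ _)
  map_zero' := Subtype.ext (map_zero _)
  map_add' _ _ := Subtype.ext (map_add _ _ _)

theorem s44ec_incl_coe (c : ↥(A.comap (algebraMap L1 s44_Qb))) :
    ((s44ec_incl A L1 c : ↥A) : s44_Qb) = algebraMap L1 s44_Qb (c : L1) := rfl

/-- evaluation at `j` over `O`: `O[X] → O[j]`. -/
def s44ec_Phi : (↥(A.comap (algebraMap L1 s44_Qb)))[X] →+*
    ↥(Algebra.adjoin ↥(A.comap (algebraMap L1 s44_Qb)) ({rdn_gf_j (L := L1) N} : Set (lg_F L1 N))) :=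
  ((aeval (R := ↥(A.comap (algebraMap L1 s44_Qb))) (rdn_gf_j (L := L1) N)).codRestrict
    (Algebra.adjoin ↥(A.comap (algebraMap L1 s44_Qb)) ({rdn_gf_j (L := L1) N} : Set (lg_F L1 N)))
    (fun p => by
      rw [Algebra.adjoin_singleton_eq_range_aeval]
      exact ⟨p, rfl⟩)).toRingHom

theorem s44ec_Phi_coe (p : (↥(A.comap (algebraMap L1 s44_Qb)))[X]) :
    ((s44ec_Phi A N L1 p : ↥(Algebra.adjoin ↥(A.comap (algebraMap L1 s44_Qb))
      ({rdn_gf_j (L := L1) N} : Set (lg_F L1 N)))) : lg_F L1 N) =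
      aeval (rdn_gf_j (L := L1) N) p := rfl

theorem s44ec_Phi_surjective : Function.Surjective (s44ec_Phi A N L1) := by
  rintro ⟨y, hy⟩
  rw [Algebra.adjoin_singleton_eq_range_aeval] at hy
  obtain ⟨p, hp⟩ := hy
  exact ⟨p, Subtype.ext hp⟩

/-- the two ways from `O[X]` to `F̄_N` agree. -/
theorem s44ec_square :
    ((ssm_al_iotaF L1 N).comp
      ((algebraMap ↥(Algebra.adjoin ↥(A.comap (algebraMap L1 s44_Qb))
        ({rdn_gf_j (L := L1) N} : Set (lg_F L1 N))) (lg_F L1 N)).comp (s44ec_Phi A N L1))) =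
    (Polynomial.eval₂RingHom
      ((algebraMap s44_Qb (modularFunctionFieldBar N)).comp A.subtype) (br_jBar N)).comp
      (Polynomial.mapRingHom (s44ec_incl A L1)) := by
  apply Polynomial.ringHom_ext
  · intro c
    simp only [RingHom.comp_apply, Polynomial.coe_mapRingHom, Polynomial.map_C,
      Polynomial.coe_eval₂RingHom, Polynomial.eval₂_C]
    have h1 : ((algebraMap ↥(Algebra.adjoin ↥(A.comap (algebraMap L1 s44_Qb))
        ({rdn_gf_j (L := L1) N} : Set (lg_F L1 N))) (lg_F L1 N)) (s44ec_Phi A N L1 (C c))) =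
        algebraMap L1 (lg_F L1 N) (c : L1) := by
      show ((s44ec_Phi A N L1 (C c) : ↥(Algebra.adjoin _ _)) : lg_F L1 N) = _
      rw [s44ec_Phi_coe, aeval_C]
      rfl
    rw [h1, ssm_al_iotaF_algebraMap]
    rfl
  · simp only [RingHom.comp_apply, Polynomial.coe_mapRingHom, Polynomial.map_X,
      Polynomial.coe_eval₂RingHom, Polynomial.eval₂_X]
    have h1 : ((algebraMap ↥(Algebra.adjoin ↥(A.comap (algebraMap L1 s44_Qb))
        ({rdn_gf_j (L := L1) N} : Set (lg_F L1 N))) (lg_F L1 N)) (s44ec_Phi A N L1 X)) =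
        rdn_gf_j (L := L1) N := by
      show ((s44ec_Phi A N L1 X : ↥(Algebra.adjoin _ _)) : lg_F L1 N) = _
      rw [s44ec_Phi_coe, aeval_X]
    rw [h1, s44ec_iotaF_j]

/-- the key identity: `ιF` of the value of a lifted polynomial. -/
theorem s44ec_key (b1 : lg_F L1 N) (P1 : ((↥(A.comap (algebraMap L1 s44_Qb)))[X])[X]) :
    ssm_al_iotaF L1 N
      (Polynomial.eval₂ (algebraMap ↥(Algebra.adjoin ↥(A.comap (algebraMap L1 s44_Qb))
        ({rdn_gf_j (L := L1) N} : Set (lg_F L1 N))) (lg_F L1 N)) b1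
        (P1.map (s44ec_Phi A N L1))) =
    Polynomial.eval₂ (Polynomial.eval₂RingHom
      ((algebraMap s44_Qb (modularFunctionFieldBar N)).comp A.subtype) (br_jBar N))
      (ssm_al_iotaF L1 N b1) (P1.map (Polynomial.mapRingHom (s44ec_incl A L1))) := by
  rw [Polynomial.eval₂_map, Polynomial.eval₂_map, Polynomial.hom_eval₂, ← s44ec_square]

/-- **NF-integral ⟹ chart-integral.** -/
theorem s44ec_isChartInt_of_nf (b1 : lg_F L1 N)
    (h : IsIntegral (Algebra.adjoin ↥(A.comap (algebraMap L1 s44_Qb))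
      ({rdn_gf_j (L := L1) N} : Set (lg_F L1 N))) b1) :
    s44e_IsChartInt A N (ssm_al_iotaF L1 N b1) := by
  obtain ⟨P0, hP0m, hP0⟩ := h
  obtain ⟨P1, hP1map, -, hP1m⟩ := Polynomial.lifts_and_degree_eq_and_monic
    ((Polynomial.mem_lifts _).2 (Polynomial.map_surjective _ (s44ec_Phi_surjective A N L1) P0)) hP0m
  refine ⟨P1.map (Polynomial.mapRingHom (s44ec_incl A L1)), hP1m.map _, ?_⟩
  rw [← s44ec_key, hP1map, hP0, map_zero]

/-- **chart-integral ⟹ NF-integral**, for every sufficiently large `L1` and every model `b1`. -/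
theorem s44ec_isChartInt_descent {b : modularFunctionFieldBar N} (h : s44e_IsChartInt A N b) :
    ∃ T : Finset s44_Qb, ∀ L1 : IntermediateField ℚ s44_Qb, (↑T : Set s44_Qb) ⊆ L1 →
      ∀ b1 : lg_F L1 N, ssm_al_iotaF L1 N b1 = b →
        IsIntegral (Algebra.adjoin ↥(A.comap (algebraMap L1 s44_Qb))
          ({rdn_gf_j (L := L1) N} : Set (lg_F L1 N))) b1 := by
  classical
  obtain ⟨P, hPm, hP⟩ := h
  -- all coefficients of coefficients
  refine ⟨P.support.biUnion fun i => (P.coeff i).support.image fun j =>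
    (((P.coeff i).coeff j : ↥A) : s44_Qb), fun L1 hT b1 hb1 => ?_⟩
  -- `P` lifts to `O[X][X]`
  have hlift : P ∈ Polynomial.lifts (Polynomial.mapRingHom (s44ec_incl A L1)) := by
    rw [Polynomial.lifts_iff_coeff_lifts]
    intro i
    by_cases hi : P.coeff i = 0
    · rw [hi]
      exact ⟨0, map_zero _⟩
    have hi' : i ∈ P.support := Polynomial.mem_support_iff.2 hi
    have h2 : P.coeff i ∈ Polynomial.lifts (s44ec_incl A L1) := by
      rw [Polynomial.lifts_iff_coeff_lifts]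
      intro j
      by_cases hj : (P.coeff i).coeff j = 0
      · rw [hj]
        exact ⟨0, map_zero _⟩
      have hj' : j ∈ (P.coeff i).support := Polynomial.mem_support_iff.2 hj
      have hmem : (((P.coeff i).coeff j : ↥A) : s44_Qb) ∈ (L1 : Set s44_Qb) := by
        apply hT
        rw [Finset.mem_coe, Finset.mem_biUnion]
        exact ⟨i, hi', Finset.mem_image.2 ⟨j, hj', rfl⟩⟩
      refine ⟨⟨⟨(((P.coeff i).coeff j : ↥A) : s44_Qb), hmem⟩, ?_⟩, ?_⟩
      · show algebraMap L1 s44_Qb ⟨_, hmem⟩ ∈ A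
        exact ((P.coeff i).coeff j).2
      · exact Subtype.ext rfl
    obtain ⟨Q, hQ⟩ := (Polynomial.mem_lifts _).1 h2
    exact ⟨Q, hQ⟩
  obtain ⟨P1, hP1map, -, hP1m⟩ := Polynomial.lifts_and_degree_eq_and_monic hlift hPm
  refine ⟨P1.map (s44ec_Phi A N L1), hP1m.map _, ?_⟩
  apply ssm_al_iotaF_injective L1 N
  rw [s44ec_key, hP1map, hb1, hP, map_zero]

end Fermat.Agent.S44
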