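/-
S44 project, cell [E2] RES, sub-cell (E2-loc-smooth) (helper6).  Prefix `s44rl_`.

THE LOCAL FACTORISATION AT A SMOOTH POINT OF THE SPECIAL FIBRE, abstract form.

`R` a noetherian integrally closed LOCAL domain with fraction field `F`, `π` a prime element,
`𝔪_R = (π, u)` (in use: `R = B_𝔫`, the local ring of a chart `B` of the two-component model at a
closed point `𝔫` with `ss_SmoothAt π B 𝔫`: `ssl_loc_prime_of_dom`, `ssl_loc_max_of_genBy`).  If the
horizontal divisor of `g ∈ Fˣ` is divisible by `m` (`hdiv`, the output of `ssl_hdiv_of_places` from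
`∀ P : Place K F0, (m : ℤ) ∣ P.ord g`), then

  `s44rl_smooth_factor` : `g = e ^ m * π ^ a * ω`, `e ∈ Fˣ`, `a ∈ ℤ`, `ω ∈ Rˣ`;
  `s44rl_smooth_ord`    : `(m : ℤ) ∣ ν g` for every additive `ν : Fˣ → ℤ` trivial on `Rˣ` and on `π`
                          (in use: the order at the point of the normalised reduction along the
                          unique branch through it).

Nothing here uses that `m` is prime to the residue characteristic.
-/
import Mathlib
import Fermat.Agent.SS.Local.Smooth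

set_option autoImplicit false
set_option linter.unusedSectionVars false
set_option linter.style.haveILetI false

namespace Fermat.Agent.S44

open Fermat.Agent.SS IsLocalRing

section LocSmooth

variable {R : Type*} [CommRing R] [IsDomain R] [IsNoetherianRing R] [IsIntegrallyClosed R]
  {F : Type*} [Field F] [Algebra R F] [IsFractionRing R F]

/-- the principal ideal of a prime element of a noetherian domain has height one. -/
theorem s44rl_height_span_prime {π : R} (hπ : Prime π) :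
    (Ideal.span {π} : Ideal R).height = 1 := by
  haveI hP : (Ideal.span {π} : Ideal R).IsPrime := (Ideal.span_singleton_prime hπ.ne_zero).2 hπ
  apply le_antisymm
  · exact Ideal.height_le_one_of_isPrincipal_of_mem_minimalPrimes (Ideal.span {π})
      (Ideal.span {π}) (by rw [Ideal.minimalPrimes_eq_subsingleton_self]; exact rfl)
  · rw [Order.one_le_iff_pos, pos_iff_ne_zero, Ne, Ideal.height_eq_zero_iff_eq_bot,
      Ideal.span_singleton_eq_bot]
    exact hπ.ne_zero

/-- a prime of height one containing the prime element `π` is `(π)`. -/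
theorem s44rl_eq_span_of_mem {π : R} (hπ : Prime π) {𝔮 : Ideal R} (h1 : 𝔮.height = 1)
    (hmem : π ∈ 𝔮) : Ideal.span {π} = 𝔮 := by
  haveI hP : (Ideal.span {π} : Ideal R).IsPrime := (Ideal.span_singleton_prime hπ.ne_zero).2 hπ
  refine ssl_eq_of_le_of_ne_bot ?_ h1 ?_
  · rw [Ne, Ideal.span_singleton_eq_bot]; exact hπ.ne_zero
  · rw [Ideal.span_le, Set.singleton_subset_iff]; exact hmem

/-- **a function without horizontal divisor is `π ^ a` times a unit**, `π` a prime element. -/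
theorem s44rl_vertical {π : R} (hπ : Prime π) {z : F} (hz : z ≠ 0)
    (hh : ∀ 𝔮 : Ideal R, ssl_Horiz π 𝔮 → ssl_UnitAt F 𝔮 z) :
    ∃ (a : ℤ) (ω : Rˣ), z = algebraMap R F π ^ a * algebraMap R F (ω : R) := by
  haveI hP : (Ideal.span {π} : Ideal R).IsPrime := (Ideal.span_singleton_prime hπ.ne_zero).2 hπ
  have h1 : (Ideal.span {π} : Ideal R).height = 1 := s44rl_height_span_prime hπ
  have hπF : algebraMap R F π ≠ 0 := ssl_algebraMap_ne_zero hπ.ne_zero
  obtain ⟨a, ha⟩ := ssl_exists_zpow (F := F) (Ideal.span {π}) h1 (t := π)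
    (Ideal.mem_span_singleton_self π)
    (fun x hx => ⟨1, fun h => hP.ne_top ((Ideal.eq_top_iff_one _).2 h), by
      rw [one_mul]; exact Ideal.mem_span_singleton.1 hx⟩) hz
  have hw0 : z / algebraMap R F π ^ a ≠ 0 := div_ne_zero hz (zpow_ne_zero a hπF)
  obtain ⟨ω, hω⟩ := ssl_krull_unit (R := R) (F := F) hw0 (fun 𝔮 h𝔮 h𝔮1 => by
    haveI := h𝔮
    by_cases hmem : π ∈ 𝔮
    · have heq := s44rl_eq_span_of_mem hπ h𝔮1 hmem
      subst heq
      exact ha
    · have hH : ssl_Horiz π 𝔮 := ⟨h𝔮, h𝔮1, hmem⟩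
      exact ssl_unitAt_div 𝔮 (hh 𝔮 hH) (ssl_unitAt_zpow 𝔮 (ssl_unitAt_algebraMap 𝔮 hmem) a))
  refine ⟨a, ω, ?_⟩
  rw [hω, mul_div_cancel₀ _ (zpow_ne_zero a hπF)]

variable [IsLocalRing R]

/-- **(E2-loc-smooth)**: the local factorisation at a smooth point. -/
theorem s44rl_smooth_factor {π u : R} (hπ : Prime π)
    (hmax : maximalIdeal R = Ideal.span {π, u}) (m : ℕ) {g : F} (hg : g ≠ 0)
    (hdiv : ∀ 𝔮 : Ideal R, ssl_Horiz π 𝔮 → ∃ G : F, G ≠ 0 ∧ ssl_UnitAt F 𝔮 (g / G ^ m)) :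
    ∃ (e : F) (a : ℤ) (ω : Rˣ), e ≠ 0 ∧
      g = e ^ m * algebraMap R F π ^ a * algebraMap R F (ω : R) := by
  obtain ⟨e, he, hu⟩ := ssl_powModVert_of_regular hπ hmax m hg hdiv
  have hem : e ^ m ≠ 0 := pow_ne_zero m he
  obtain ⟨a, ω, hz⟩ := s44rl_vertical (F := F) hπ (div_ne_zero hg hem) hu
  refine ⟨e, a, ω, he, ?_⟩
  rw [mul_assoc, ← hz, mul_div_cancel₀ _ hem]

/-- **(E2-loc-smooth), order form**: every additive function on `Fˣ` which is trivial on `Rˣ` and on
`π` takes a value divisible by `m` at `g`. -/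
theorem s44rl_smooth_ord {π u : R} (hπ : Prime π)
    (hmax : maximalIdeal R = Ideal.span {π, u}) (m : ℕ) {g : F} (hg : g ≠ 0)
    (hdiv : ∀ 𝔮 : Ideal R, ssl_Horiz π 𝔮 → ∃ G : F, G ≠ 0 ∧ ssl_UnitAt F 𝔮 (g / G ^ m))
    (ν : F → ℤ) (hmul : ∀ x y : F, x ≠ 0 → y ≠ 0 → ν (x * y) = ν x + ν y)
    (hunit : ∀ ω : Rˣ, ν (algebraMap R F (ω : R)) = 0) (hνπ : ν (algebraMap R F π) = 0) :
    (m : ℤ) ∣ ν g := by
  obtain ⟨e, a, ω, he, hgeq⟩ := s44rl_smooth_factor (F := F) hπ hmax m hg hdiv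
  have hπF : algebraMap R F π ≠ 0 := ssl_algebraMap_ne_zero hπ.ne_zero
  have hωF : algebraMap R F (ω : R) ≠ 0 := ssl_algebraMap_ne_zero ω.ne_zero
  have h1 : ν 1 = 0 := by
    have := hmul 1 1 one_ne_zero one_ne_zero
    rw [one_mul] at this
    linarith
  have hpow : ∀ (x : F), x ≠ 0 → ∀ n : ℕ, ν (x ^ n) = n * ν x := by
    intro x hx n
    induction n with
    | zero => simp [h1]
    | succ n ih =>
      rw [pow_succ, hmul _ _ (pow_ne_zero n hx) hx, ih]
      push_cast; ring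
  have hinv : ∀ (x : F), x ≠ 0 → ν x⁻¹ = - ν x := by
    intro x hx
    have := hmul x x⁻¹ hx (inv_ne_zero hx)
    rw [mul_inv_cancel₀ hx, h1] at this
    linarith
  have hzpow : ∀ (x : F), x ≠ 0 → ∀ n : ℤ, ν (x ^ n) = n * ν x := by
    intro x hx n
    cases n with
    | ofNat n => rw [Int.ofNat_eq_natCast, zpow_natCast, hpow x hx]
    | negSucc n =>
      rw [zpow_negSucc, hinv _ (pow_ne_zero _ hx), hpow x hx, Int.negSucc_eq]
      push_cast; ring
  rw [hgeq, hmul _ _ (mul_ne_zero (pow_ne_zero m he) (zpow_ne_zero a hπF)) hωF,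
    hmul _ _ (pow_ne_zero m he) (zpow_ne_zero a hπF), hpow e he, hzpow _ hπF, hνπ, hunit]
  exact ⟨ν e, by ring⟩

end LocSmooth

end Fermat.Agent.S44
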