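/-
S44 project, cell [E2] RES, sub-cell (E2-ord), THE CUSP CASES (helper5; prefix `s44roc_`).

Setting of `ssm_gl_*` / `s44rs_leg_tower`: `O ⊆ L` a DVR of odd residue characteristic `q ∤ N'`,
`E = lg_E L (N' q)`, `λ = lg_lamE (N' q)`, `λq = W_E λ = λ(X^q)`, `V₁ = ssm_gl_V1` (Gauss, the
`∞`-component), `V₂ = ssm_gl_V2` (the `0`-component), `j₂ = s44mz_j2E` (`= j(X²)`),
`256 (λ² − λ + 1)³ = j₂ λ² (λ − 1)²`.

If `𝒱 ≤ V₁` is ANY valuation subring of `E` with `λ ∈ 𝒱` and `j₂ ∉ 𝒱` (the centre of `𝒱` on the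
`λ`-chart is a CUSP `λ̄ = 0` or `λ̄ = 1`), then the centre of `𝒱` is NOT on the `0`-component: the
witness `b = λq^q/λ − 1` (resp. `(λq − 1)^q/(λ − 1) − 1`) of `ssm_i1_Facts` lies on the `λ`-chart,
vanishes on `V₂` and is a UNIT of `𝒱`  (`λq ≡ λ^q` on `V₁` ⟹ `λq^q/λ ∈ λ^{q²−1} 𝒱ˣ ⊆ 𝔪(𝒱)`).

* `s44roc_frob_unit`, `s44roc_witness_abs` : abstract (any field, any `ssm_i1_Facts`);
* `s44roc_cusp_witness_gen` : Legendre instance, ANY `𝒱 ≤ V₁`;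
* `s44roc_cusp_witness` : the same for `𝒱 = tori_comp V₁ r hker v` = the (CUSP) half of the hypothesis
  `hv` of `s44rs_leg` / `s44rs_leg_tower` (binders of `s44rs_leg_tower` VERBATIM);
* `s44roc_leg_tower` : `s44rs_leg_tower` with `hv` required only where `j₂` is finite (`hfin`);
* `s44roc_hdiv_leg` : `s44rs_hdiv` on the Legendre model for ANY `𝒱 ≤ V₁` (containing `O`, algebraic
  residue field) with `hpt1`, `hpt2` discharged: only `hfin : j₂ ∈ 𝒱 → ∃ witness` remains.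
-/
import Mathlib
import Fermat.Agent.S44.Res.SmoothTower
import Fermat.Agent.S44.Mono.Centre

set_option autoImplicit false
set_option linter.unusedSectionVars false
set_option linter.style.haveILetI false
set_option linter.unusedVariables false

noncomputable section

namespace Fermat.Agent.S44

open Fermat.Agent.SS Fermat.Agent.JT3 Fermat.Agent.S35 Fermat.Agent.S24 IsLocalRing AlgebraicCurve
  Polynomial IntermediateField ModularCurve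

universe v

/-! ### abstract part -/

section Abs

variable {F0 : Type v} [Field F0]

/-- `a ∈ 𝔪(𝒱)`, `a^q/aq ≡ 1` modulo `𝔪(V₁) ⊆ 𝔪(𝒱)` ⟹ `aq^q/a − 1` is a unit of `𝒱`. -/
theorem s44roc_frob_unit {𝒱 V1 : ValuationSubring F0} (h𝒱 : 𝒱 ≤ V1) {q : ℕ} (hq : 2 ≤ q)
    {a aq : F0} (ha0 : a ≠ 0) (ha : a ∈ 𝒱.nonunits) (hsub : a ^ q / aq - 1 ∈ V1.nonunits) :
    aq ^ q / a - 1 ∈ 𝒱 ∧ aq ^ q / a - 1 ∉ 𝒱.nonunits := by
  have hm : a ^ q / aq - 1 ∈ 𝒱.nonunits :=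
    (ValuationSubring.nonunits_le_nonunits.2 h𝒱) hsub
  rw [ValuationSubring.mem_nonunits_iff] at hm ha
  -- `v (a^q/aq) = 1`
  have ht : 𝒱.valuation (a ^ q / aq) = 1 := by
    have h1 : a ^ q / aq = 1 + (a ^ q / aq - 1) := by ring
    rw [h1]
    exact Valuation.map_one_add_of_lt _ hm
  have haq0 : aq ≠ 0 := by
    rintro rfl
    rw [div_zero, map_zero] at ht
    exact zero_ne_one ht
  have hva0 : 𝒱.valuation a ≠ 0 := (Valuation.ne_zero_iff _).2 ha0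
  have hvaq0 : 𝒱.valuation aq ≠ 0 := (Valuation.ne_zero_iff _).2 haq0
  -- `v aq = (v a)^q`
  have hvaq : 𝒱.valuation aq = 𝒱.valuation a ^ q := by
    rw [map_div₀, map_pow, div_eq_one_iff_eq hvaq0] at ht
    exact ht.symm
  -- `v (aq^q/a) < 1`
  have hsmall : 𝒱.valuation (aq ^ q / a) < 1 := by
    rw [map_div₀, map_pow, hvaq, ← pow_mul]
    have hqq : q * q = (q * q - 1) + 1 := by
      have : 1 ≤ q * q := Nat.one_le_iff_ne_zero.2 (by positivity)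
      omega
    rw [hqq, pow_succ, mul_div_assoc, div_self hva0, mul_one]
    have hpos : q * q - 1 ≠ 0 := by
      have : 4 ≤ q * q := by nlinarith
      omega
    exact pow_lt_one₀ zero_le ha hpos
  have hb : 𝒱.valuation (aq ^ q / a - 1) = 1 := by
    have h1 : aq ^ q / a - 1 = -(1 - aq ^ q / a) := by ring
    rw [h1, Valuation.map_neg]
    exact Valuation.map_one_sub_of_lt _ hsmall
  refine ⟨(ValuationSubring.valuation_le_one_iff 𝒱 _).1 hb.le, fun h => ?_⟩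
  rw [ValuationSubring.mem_nonunits_iff, hb] at h
  exact lt_irrefl _ h

variable {A0 : Type*} [CommRing A0] [Algebra A0 F0]

/-- **the cusp witness, abstractly**: `𝒱 ≤ V₁`, `λ ∈ 𝒱`, `j₂ ∉ 𝒱` ⟹ a function of the `λ`-chart
vanishing on `V₂` which is a unit of `𝒱`. -/
theorem s44roc_witness_abs {q : ℕ} (hq : 2 ≤ q) {lam lamq j2 : F0} {V1 V2 𝒱 : ValuationSubring F0}
    (F : ssm_i1_Facts A0 q lam lamq V1 V2) (h𝒱 : 𝒱 ≤ V1)
    (hleg : 256 * (lam ^ 2 - lam + 1) ^ 3 = j2 * lam ^ 2 * (lam - 1) ^ 2)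
    (hlam0 : lam ≠ 0) (hlam1 : lam - 1 ≠ 0) (hlam : lam ∈ 𝒱) (hj : j2 ∉ 𝒱) :
    ∃ b : F0, b ∈ fc_chart A0 ({lam} : Set F0) ∧ b ∈ V2.nonunits ∧ b ∉ 𝒱.nonunits := by
  by_cases h0 : lam ∈ 𝒱.nonunits
  · exact ⟨lamq ^ q / lam - 1, Subalgebra.sub_mem _ F.w0' (Subalgebra.one_mem _), F.w0'_sub,
      (s44roc_frob_unit h𝒱 hq hlam0 h0 F.w0_sub).2⟩
  by_cases h1 : lam - 1 ∈ 𝒱.nonunits
  · exact ⟨(lamq - 1) ^ q / (lam - 1) - 1, Subalgebra.sub_mem _ F.w1' (Subalgebra.one_mem _),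
      F.w1'_sub, (s44roc_frob_unit h𝒱 hq hlam1 h1 F.w1_sub).2⟩
  exfalso
  apply hj
  have hlam1' : lam - 1 ∈ 𝒱 := sub_mem hlam (one_mem 𝒱)
  rw [ValuationSubring.mem_nonunits_iff, not_lt] at h0 h1
  have hv0 : 𝒱.valuation lam = 1 :=
    le_antisymm ((ValuationSubring.valuation_le_one_iff 𝒱 _).2 hlam) h0
  have hv1 : 𝒱.valuation (lam - 1) = 1 :=
    le_antisymm ((ValuationSubring.valuation_le_one_iff 𝒱 _).2 hlam1') h1
  have hnum : 256 * (lam ^ 2 - lam + 1) ^ 3 ∈ 𝒱 := by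
    refine mul_mem ?_ (pow_mem (add_mem (sub_mem (pow_mem hlam 2) hlam) (one_mem 𝒱)) 3)
    have : (256 : F0) = ((256 : ℕ) : F0) := by norm_num
    rw [this]
    exact natCast_mem 𝒱 256
  rw [← ValuationSubring.valuation_le_one_iff] at hnum ⊢
  rw [hleg, map_mul, map_mul, map_pow, map_pow, hv0, hv1, one_pow, mul_one, mul_one] at hnum
  exact hnum

end Abs

/-! ### the Legendre instance -/

section NF

variable (L : Type) [Field L] [NumberField L] [Algebra L (AlgebraicClosure ℚ)]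
  (O : ValuationSubring L) [IsDiscreteValuationRing O] {π : O} (hπ : Irreducible π)
variable (N' q : ℕ) [NeZero N'] [NeZero q] [hq : Fact q.Prime] [CharP (ResidueField O) q]
  (hq2 : ¬ 2 ∣ q) (hqN' : ¬ q ∣ N') (ζ : L) (hζ : IsPrimitiveRoot ζ N')

include hζ in
set_option synthInstance.maxHeartbeats 400000 in
set_option maxHeartbeats 1600000 in
/-- **(CUSP), general form**: ANY valuation subring `𝒱 ≤ V₁` with `λ ∈ 𝒱`, `j₂ ∉ 𝒱`. -/
theorem s44roc_cusp_witness_gen (𝒱 : ValuationSubring ↥(lg_E L (N' * q)))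
    (h𝒱 : 𝒱 ≤ ssm_gl_V1 O hπ N' q) (hlam : lg_lamE (N' * q) ∈ 𝒱)
    (hj : s44mz_j2E L (N' * q) ∉ 𝒱) :
    ∃ b : ↥(lg_E L (N' * q)), b ∈ fc_chart ↥O ({lg_lamE (N' * q)} : Set ↥(lg_E L (N' * q))) ∧
      b ∈ (ssm_gl_V2 O hπ N' q hq2 hqN').nonunits ∧ b ∉ 𝒱.nonunits := by
  have hqO : ((q : ℕ) : O) ∈ maximalIdeal O := ssm_fln_q_mem L O q
  have hq2' : q ≠ 2 := ssm_fl_ne_two q hq2
  have hp := ssm_ll_prime L N' hπ q hqO hq2' hqN' ζ hζ
  have F := ssm_fl_facts O hπ N' q hq2 hqN' hp.1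
  have hx : Transcendental L (lg_lamE (L := L) (N' * q)) :=
    lgf_lam_transcendental L (N' * q) two_ne_zero
  have hlam0 : (lg_lamE (N' * q) : ↥(lg_E L (N' * q))) ≠ 0 := by
    intro h
    exact hx (h ▸ isAlgebraic_zero)
  have hlam1 : (lg_lamE (N' * q) : ↥(lg_E L (N' * q))) - 1 ≠ 0 := by
    intro h
    have h1 : (lg_lamE (N' * q) : ↥(lg_E L (N' * q))) = 1 := sub_eq_zero.1 h
    exact hx (h1 ▸ isAlgebraic_one)
  exact s44roc_witness_abs hq.out.two_le F h𝒱 (s44mz_legE L (N' * q)) hlam0 hlam1 hlam hj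

include hζ in
set_option synthInstance.maxHeartbeats 400000 in
set_option maxHeartbeats 1600000 in
/-- **(CUSP)** for the composite `𝒱 = tori_comp V₁ r hker v`: the cusp half of the hypothesis `hv` of
`s44rs_leg_tower` (same binders). -/
theorem s44roc_cusp_witness {k0 k κ : Type*} [Field k0] [Field k] [Field κ] [Algebra k0 k]
    [Algebra k κ] [Algebra k0 κ] [IsScalarTower k0 k κ] [Algebra.IsAlgebraic k0 k]
    (ρ : ↥O →+* k0) (hρ : Function.Surjective ρ)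
    (r : ↥(ssm_gl_V1 O hπ N' q) →+* κ)
    (hker : ∀ z : ↥(ssm_gl_V1 O hπ N' q),
      (z : ↥(lg_E L (N' * q))) ∈ (ssm_gl_V1 O hπ N' q).nonunits → r z = 0)
    (hrA : ∀ (a : ↥O) (h : algebraMap ↥O ↥(lg_E L (N' * q)) a ∈ ssm_gl_V1 O hπ N' q),
      r ⟨algebraMap ↥O ↥(lg_E L (N' * q)) a, h⟩ = algebraMap k0 κ (ρ a))
    (xb : κ) [Algebra.IsAlgebraic k⟮xb⟯ κ] (v : Place k κ)
    (hlam : lg_lamE (N' * q) ∈ tori_comp (ssm_gl_V1 O hπ N' q) r hker v.toValuationSubring)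
    (hj : s44mz_j2E L (N' * q) ∉ tori_comp (ssm_gl_V1 O hπ N' q) r hker v.toValuationSubring) :
    ∃ b : ↥(lg_E L (N' * q)), b ∈ fc_chart ↥O ({lg_lamE (N' * q)} : Set ↥(lg_E L (N' * q))) ∧
      b ∈ (ssm_gl_V2 O hπ N' q hq2 hqN').nonunits ∧
      b ∉ (tori_comp (ssm_gl_V1 O hπ N' q) r hker v.toValuationSubring).nonunits :=
  s44roc_cusp_witness_gen L O hπ N' q hq2 hqN' ζ hζ _
    (tori_comp_le (ssm_gl_V1 O hπ N' q) r hker v.toValuationSubring) hlam hj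

include hζ in
set_option synthInstance.maxHeartbeats 400000 in
set_option maxHeartbeats 3200000 in
/-- **the place form with the cusps discharged**: `s44rs_leg_tower` with its hypothesis `hv` only at
the places where `j₂` is finite. -/
theorem s44roc_leg_tower {k0 k κ : Type*} [Field k0] [Field k] [Field κ] [Algebra k0 k]
    [Algebra k κ] [Algebra k0 κ] [IsScalarTower k0 k κ] [Algebra.IsAlgebraic k0 k]
    (ρ : ↥O →+* k0) (hρ : Function.Surjective ρ)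
    (r : ↥(ssm_gl_V1 O hπ N' q) →+* κ)
    (hker : ∀ z : ↥(ssm_gl_V1 O hπ N' q),
      (z : ↥(lg_E L (N' * q))) ∈ (ssm_gl_V1 O hπ N' q).nonunits → r z = 0)
    (hrA : ∀ (a : ↥O) (h : algebraMap ↥O ↥(lg_E L (N' * q)) a ∈ ssm_gl_V1 O hπ N' q),
      r ⟨algebraMap ↥O ↥(lg_E L (N' * q)) a, h⟩ = algebraMap k0 κ (ρ a))
    (xb : κ) [Algebra.IsAlgebraic k⟮xb⟯ κ] (v : Place k κ)
    (hfin : s44mz_j2E L (N' * q) ∈ tori_comp (ssm_gl_V1 O hπ N' q) r hker v.toValuationSubring →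
      ∃ b : ↥(lg_E L (N' * q)), b ∈ fc_chart ↥O ({lg_lamE (N' * q)} : Set ↥(lg_E L (N' * q))) ∧
        b ∈ (ssm_gl_V2 O hπ N' q hq2 hqN').nonunits ∧
        b ∉ (tori_comp (ssm_gl_V1 O hπ N' q) r hker v.toValuationSubring).nonunits)
    (m : ℕ) {G : ↥(lg_E L (N' * q))} (hG : G ≠ 0)
    (hord : ∀ P : Place L ↥(lg_E L (N' * q)), (m : ℤ) ∣ P.ord G)
    (hG1 : G ∈ ssm_gl_V1 O hπ N' q ∧ G ∉ (ssm_gl_V1 O hπ N' q).nonunits) :
    (m : ℤ) ∣ v.ord (r ⟨G, hG1.1⟩) := by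
  refine s44rs_leg_tower L O hπ N' q hq2 hqN' ζ hζ ρ hρ r hker hrA xb v (fun hlam => ?_) m hG hord
    hG1
  by_cases hj : s44mz_j2E L (N' * q) ∈
      tori_comp (ssm_gl_V1 O hπ N' q) r hker v.toValuationSubring
  · exact hfin hj
  · exact s44roc_cusp_witness L O hπ N' q hq2 hqN' ζ hζ ρ hρ r hker hrA xb v hlam hj

include hζ in
set_option synthInstance.maxHeartbeats 400000 in
set_option maxHeartbeats 3200000 in
/-- **(H-DIV) on the Legendre model for ANY valuation subring `𝒱 ≤ V₁`** (containing `O`, with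
algebraic residue field) whose centre is not a supersingular point: the non-supersingularity witness
is only required when `j₂ ∈ 𝒱`; the cusps `λ̄ = 0, 1` are `s44roc_cusp_witness_gen`, `λ̄ = ∞` is
`s44rs_leg_pts2`.  (`s44rs_hdiv` with `hpt1`, `hpt2` discharged.) -/
theorem s44roc_hdiv_leg (𝒱 : ValuationSubring ↥(lg_E L (N' * q)))
    (h𝒱 : 𝒱 ≤ ssm_gl_V1 O hπ N' q)
    (hA : ∀ a : ↥O, algebraMap ↥O ↥(lg_E L (N' * q)) a ∈ 𝒱)
    (halg : ∀ z ∈ 𝒱, ∃ p : (↥O)[X], p.Monic ∧ aeval z p ∈ 𝒱.nonunits)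
    (hfin : s44mz_j2E L (N' * q) ∈ 𝒱 →
      ∃ b : ↥(lg_E L (N' * q)), b ∈ fc_chart ↥O ({lg_lamE (N' * q)} : Set ↥(lg_E L (N' * q))) ∧
        b ∈ (ssm_gl_V2 O hπ N' q hq2 hqN').nonunits ∧ b ∉ 𝒱.nonunits)
    (m : ℕ) {G : ↥(lg_E L (N' * q))} (hG : G ≠ 0)
    (hord : ∀ P : Place L ↥(lg_E L (N' * q)), (m : ℤ) ∣ P.ord G)
    (hG1 : G ∈ ssm_gl_V1 O hπ N' q ∧ G ∉ (ssm_gl_V1 O hπ N' q).nonunits) :
    ∃ e ω : ↥(lg_E L (N' * q)), G = ω * e ^ m ∧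
      (e ∈ ssm_gl_V1 O hπ N' q ∧ e ∉ (ssm_gl_V1 O hπ N' q).nonunits) ∧
      (ω ∈ 𝒱 ∧ ω ∉ 𝒱.nonunits) := by
  have hqO : ((q : ℕ) : O) ∈ maximalIdeal O := ssm_fln_q_mem L O q
  have hq2' : q ≠ 2 := ssm_fl_ne_two q hq2
  have hp := ssm_ll_prime L N' hπ q hqO hq2' hqN' ζ hζ
  have F := ssm_fl_facts O hπ N' q hq2 hqN' hp.1
  have hs := ssm_si_smooth O hπ N' q hq2 hqN' hp.1 hp.2.1
    (ssm_ll_ic1 L N' hπ q hqO hq2' hqN' ζ hζ) (ssm_ll_ic2 L N' hπ q hqO hq2' hqN' ζ hζ)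
    (ssm_ll_reg1 L N' hπ q hqO hq2' hqN' ζ hζ) (ssm_ll_reg2 L N' hπ q hqO hq2' hqN' ζ hζ) F
  haveI := ssm_go_isScalarTower O (lg_E L (N' * q))
  haveI : FiniteDimensional L⟮(lg_lamE (N' * q) : lg_E L (N' * q))⟯ ↥(lg_E L (N' * q)) :=
    lgf_finite L (N' * q)
  have hx : Transcendental L (lg_lamE (L := L) (N' * q)) :=
    lgf_lam_transcendental L (N' * q) two_ne_zero
  have H := ssm_gl_hyp O hπ N' q hq2 hqN' hp.1
  have hC := ssm_tp_ff_chart (L := L) (A0 := ↥O) (F0 := ↥(lg_E L (N' * q))) hπ hx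
  have hxA : Transcendental ↥O (lg_lamE (L := L) (N' * q)) := fc_ff_transcendental (L := L) hx
  haveI : IsIntegrallyClosed (Algebra.adjoin ↥O ({lg_lamE (N' * q)} : Set ↥(lg_E L (N' * q)))) :=
    fc_ff_isIntegrallyClosed hxA
  haveI : FaithfulSMul (Algebra.adjoin ↥O ({lg_lamE (N' * q)} : Set ↥(lg_E L (N' * q))))
      ↥(lg_E L (N' * q)) :=
    (faithfulSMul_iff_algebraMap_injective _ _).2 Subtype.val_injective
  refine s44rs_hdiv (L := L) hπ hx H 𝒱 h𝒱 hA halg ?_ ?_ m hG hord hG1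
  · -- the centre lies on the `λ`-chart
    intro hlam 𝔫 h𝔫 hP1 hmem
    obtain ⟨b, hbB, hb2, hbu⟩ : ∃ b : ↥(lg_E L (N' * q)),
        b ∈ fc_chart ↥O ({lg_lamE (N' * q)} : Set ↥(lg_E L (N' * q))) ∧
        b ∈ (ssm_gl_V2 O hπ N' q hq2 hqN').nonunits ∧ b ∉ 𝒱.nonunits := by
      by_cases hj : s44mz_j2E L (N' * q) ∈ 𝒱
      · exact hfin hj
      · exact s44roc_cusp_witness_gen L O hπ N' q hq2 hqN' ζ hζ 𝒱 h𝒱 hlam hj
    have hπ𝔫 : algebraMap ↥O (fc_chart ↥O ({lg_lamE (N' * q)} : Set ↥(lg_E L (N' * q)))) π ∈ 𝔫 := by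
      apply hP1
      rw [H.mem_P1 hC]
      exact H.over1.pi_mem
    refine hs.1 𝔫 h𝔫 hπ𝔫 fun hP2 => ?_
    have hb𝔫 : (⟨b, hbB⟩ : fc_chart ↥O ({lg_lamE (N' * q)} : Set ↥(lg_E L (N' * q)))) ∈ 𝔫 := by
      apply hP2
      rw [H.mem_P2 hC]
      exact hb2
    exact hbu ((hmem _).1 hb𝔫)
  · -- the centre is a point at infinity of the `λ⁻¹`-chart
    intro hlam 𝔫 h𝔫 hP1 hmem hμ
    have hxi : Transcendental L (lg_lamE (L := L) (N' * q))⁻¹ :=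
      fun h => hx (IsAlgebraic.inv_iff.mp h)
    have H2 := ssm_tp_ff_hyp_inv (L := L) hπ hx H
    have hC2 := ssm_tp_ff_chart (L := L) (A0 := ↥O) (F0 := ↥(lg_E L (N' * q))) hπ hxi
    have hxiA : Transcendental ↥O (lg_lamE (L := L) (N' * q))⁻¹ :=
      fc_ff_transcendental (L := L) hxi
    haveI : IsIntegrallyClosed
        (Algebra.adjoin ↥O ({(lg_lamE (N' * q))⁻¹} : Set ↥(lg_E L (N' * q)))) :=
      fc_ff_isIntegrallyClosed hxiA
    haveI : FaithfulSMul (Algebra.adjoin ↥O ({(lg_lamE (N' * q))⁻¹} : Set ↥(lg_E L (N' * q))))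
        ↥(lg_E L (N' * q)) :=
      (faithfulSMul_iff_algebraMap_injective _ _).2 Subtype.val_injective
    have hπ𝔫 : algebraMap ↥O
        (fc_chart ↥O ({(lg_lamE (N' * q))⁻¹} : Set ↥(lg_E L (N' * q)))) π ∈ 𝔫 := by
      apply hP1
      rw [H2.mem_P1 hC2]
      exact H2.over1.pi_mem
    exact s44rs_leg_pts2 L O hπ N' q hq2 hqN' ζ hζ 𝔫 h𝔫 hπ𝔫 hμ

end NF

end Fermat.Agent.S44

end
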