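/-
S44, cell [E2] (E2-ord), Q2-ROUTE, leaf (DICT) (helper21 for helper20; prefix `s44rd2_`):
THE REDUCTION `r : V1 → lg_E kA M` OF THE LEGENDRE COVER OF LEVEL `M p` OVER A NUMBER FIELD `L1 ⊆ ℚ̄`,
WITH VALUES IN THE LEGENDRE COVER OVER `kA` (`A` over `p`, `O = A ∩ L1`, `κ' : k(O) → kA`).

* `s44rd2_kappa A L1 : k(O) →+* kA`                         (`ssm_gb_kappa`);
* `s44rd2_r A M hpM hp2 L1 hπ : ↥(ssm_gl_V1 O hπ M p) →+* ↥(lg_E kA M)`
                                := `(s44mi_iotaE κ' M).comp (s44re_r O hπ M p hp2 hpM)`;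
* `s44rd2_r_coe`, `s44rd2_r_hker`, `s44rd2_r_eq_zero_iff`, `s44rd2_r_const`, `s44rd2_r_lam`;
* `s44rd2_isBdd_of_mem`, **`s44rd2_r_phi`** : `r (φ f1) = φ̄ (s44rd_red (ιF f1))`;
* `s44rd2_phi_mem`, `s44rd2_phi_unit` : `φ f1 ∈ V1` / `∈ V1ˣ` for `ιF f1` Gauss-bounded / a Gauss unit;
* **`s44rd2_leg`** : helper6's `s44rs_leg_tower` instantiated at `(k0, k, κ, ρ, r) =
  (k(O), kA, lg_E kA M, residue, s44rd2_r)` — all the instance plumbing is done inside.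
-/
import Mathlib
import Fermat.Agent.S44.Res.LegBad
import Fermat.Agent.S44.Mono.CfeInst
import Fermat.Agent.S44.Res.Dict
import Fermat.Agent.S44.Res.SmoothTower

set_option autoImplicit false
set_option linter.unusedSectionVars false
set_option linter.unusedVariables false
set_option linter.style.haveILetI false
set_option synthInstance.maxHeartbeats 400000
set_option maxHeartbeats 1000000

noncomputable section

namespace Fermat.Agent.S44

open ModularCurve AlgebraicCurve IntermediateField IsLocalRing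
open Fermat.Agent.JT3 Fermat.Agent.SS Fermat.Agent.S35 Fermat.Agent.S24 Fermat.Agent.S28

local notation "Qb" => AlgebraicClosure ℚ

section Dict

variable (A : ValuationSubring Qb) {p : ℕ} [hp : Fact p.Prime] (hA : A.LiesOverPrime p)
  (M : ℕ) [NeZero M] [NeZero p] [NeZero (M * p)] (hpM : ¬ p ∣ M) (hp2 : ¬ 2 ∣ p)
  (L1 : IntermediateField ℚ Qb)

/-- `κ' : k(O) → kA`, `O = A ∩ L1`. -/
abbrev s44rd2_kappa :
    ResidueField ↥(A.comap (algebraMap L1 Qb)) →+* ResidueField ↥A :=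
  ssm_gb_kappa (algebraMap L1 Qb) (A.comap (algebraMap L1 Qb)) A (fun _ => Iff.rfl)

variable [IsDiscreteValuationRing ↥(A.comap (algebraMap L1 Qb))]
  [CharP (ResidueField ↥(A.comap (algebraMap L1 Qb))) p]
  {π : ↥(A.comap (algebraMap L1 Qb))} (hπ : Irreducible π)

/-- **the reduction `V1 → lg_E kA M`** of the Legendre cover of level `M p` over `L1`. -/
def s44rd2_r :
    ↥(ssm_gl_V1 (A.comap (algebraMap L1 Qb)) hπ M p) →+* ↥(lg_E (ResidueField ↥A) M) :=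
  (s44mi_iotaE (s44rd2_kappa A L1) M).comp
    (s44re_r (A.comap (algebraMap L1 Qb)) hπ M p hp2 hpM)

theorem s44rd2_r_coe (z : ↥(ssm_gl_V1 (A.comap (algebraMap L1 Qb)) hπ M p)) :
    ((s44rd2_r A M hpM hp2 L1 hπ z : ↥(lg_E (ResidueField ↥A) M)) :
      LaurentSeries (ResidueField ↥A)) =
      coeffMap (s44rd2_kappa A L1)
        (gq_res ↥(A.comap (algebraMap L1 Qb)) L1
          ⟨((z : ↥(lg_E L1 (M * p))) : LaurentSeries L1), z.2⟩) := rfl

/-- the kernel of `r` contains the maximal ideal of `V1` (`hker` of `s44rs_leg_tower`). -/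
theorem s44rd2_r_hker (z : ↥(ssm_gl_V1 (A.comap (algebraMap L1 Qb)) hπ M p))
    (hz : (z : ↥(lg_E L1 (M * p))) ∈ (ssm_gl_V1 (A.comap (algebraMap L1 Qb)) hπ M p).nonunits) :
    s44rd2_r A M hpM hp2 L1 hπ z = 0 := by
  rw [s44rd2_r, RingHom.comp_apply, s44re_r_hker _ hπ M p hp2 hpM z hz, map_zero]

/-- `r z = 0 ↔ z ∈ 𝔪(V1)`. -/
theorem s44rd2_r_eq_zero_iff (z : ↥(ssm_gl_V1 (A.comap (algebraMap L1 Qb)) hπ M p)) :
    s44rd2_r A M hpM hp2 L1 hπ z = 0 ↔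
      (z : ↥(lg_E L1 (M * p))) ∈ (ssm_gl_V1 (A.comap (algebraMap L1 Qb)) hπ M p).nonunits := by
  rw [s44rd2_r, RingHom.comp_apply, map_eq_zero_iff _ (RingHom.injective _),
    s44re_r_eq_zero_iff]

/-- `r` on constants, bare form: `r a = κ'(ā)` as a constant of `lg_E kA M`. -/
theorem s44rd2_r_const (a : ↥(A.comap (algebraMap L1 Qb)))
    (h : algebraMap ↥(A.comap (algebraMap L1 Qb)) ↥(lg_E L1 (M * p)) a ∈
      ssm_gl_V1 (A.comap (algebraMap L1 Qb)) hπ M p) :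
    s44rd2_r A M hpM hp2 L1 hπ ⟨algebraMap ↥(A.comap (algebraMap L1 Qb)) ↥(lg_E L1 (M * p)) a, h⟩ =
      algebraMap (ResidueField ↥A) ↥(lg_E (ResidueField ↥A) M)
        (s44rd2_kappa A L1 (residue ↥(A.comap (algebraMap L1 Qb)) a)) := by
  rw [s44rd2_r, RingHom.comp_apply, s44re_r_const _ hπ M p hp2 hpM a h, s44mi_iotaE_const]

/-- `r λ = λ̄`. -/
theorem s44rd2_r_lam
    (h : lg_lamE (L := L1) (M * p) ∈ ssm_gl_V1 (A.comap (algebraMap L1 Qb)) hπ M p) :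
    s44rd2_r A M hpM hp2 L1 hπ ⟨lg_lamE (M * p), h⟩ = lg_lamE (L := ResidueField ↥A) M := by
  rw [s44rd2_r, RingHom.comp_apply, s44re_r_lam _ hπ M p hp2 hpM h, s44mi_iotaE_lam]

/-- Gauss-boundedness descends from `ℚ̄` to `L1` on `lg_F L1 (M p)`. -/
theorem s44rd2_isBdd_of_mem (f1 : ↥(lg_F L1 (M * p)))
    (hb : (ssm_al_iotaF L1 (M * p) f1 : modularFunctionFieldBar (M * p)) ∈
      s44pg_W A hA hp.out.ne_zero (M * p)) :
    gq_IsBdd ↥(A.comap (algebraMap L1 Qb)) L1 (f1 : LaurentSeries L1) := by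
  have hq : gq_IsQuot ↥(A.comap (algebraMap L1 Qb)) L1 (f1 : LaurentSeries L1) :=
    rdn_gf_le_quotField (A.comap (algebraMap L1 Qb)) (M * p) f1.2
  obtain ⟨π0, hirr⟩ := IsDiscreteValuationRing.exists_irreducible
    ↥(A.comap (algebraMap L1 Qb))
  exact (ssm_gb_isBdd_iff (algebraMap L1 Qb) (A.comap (algebraMap L1 Qb)) A (fun _ => Iff.rfl)
    π0 hirr.ne_zero hirr.maximalIdeal_eq hq).1 hb

/-- **THE KEY**: `r (φ f1) = φ̄ (red (ιF f1))`. -/
theorem s44rd2_r_phi (f1 : ↥(lg_F L1 (M * p)))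
    (hb : (ssm_al_iotaF L1 (M * p) f1 : modularFunctionFieldBar (M * p)) ∈
      s44pg_W A hA hp.out.ne_zero (M * p))
    (h : lg_phiE (L := L1) (N := M * p) f1 ∈ ssm_gl_V1 (A.comap (algebraMap L1 Qb)) hπ M p) :
    s44rd2_r A M hpM hp2 L1 hπ ⟨lg_phiE (L := L1) (N := M * p) f1, h⟩ =
      lg_phiE (L := ResidueField ↥A) (N := M)
        (s44rd_red A hA M hpM ⟨ssm_al_iotaF L1 (M * p) f1, hb⟩) := by
  have hb1 := s44rd2_isBdd_of_mem A hA M L1 f1 hb
  rw [s44rd2_r, RingHom.comp_apply, s44re_r_phiE _ hπ M p hp2 hpM f1 hb1 h, s44mi_iotaE_phiE]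
  congr 1
  apply Subtype.ext
  rw [s44mi_iotaF_coe, s44rd_coe_red]
  exact (ssm_gb_res (algebraMap L1 Qb) (A.comap (algebraMap L1 Qb)) A (fun _ => Iff.rfl)
    ⟨(f1 : LaurentSeries L1), hb1⟩).symm

/-- `φ f1 ∈ V1` for a Gauss-bounded `f1`. -/
theorem s44rd2_phi_mem (f1 : ↥(lg_F L1 (M * p)))
    (hb : (ssm_al_iotaF L1 (M * p) f1 : modularFunctionFieldBar (M * p)) ∈
      s44pg_W A hA hp.out.ne_zero (M * p)) :
    lg_phiE (L := L1) (N := M * p) f1 ∈ ssm_gl_V1 (A.comap (algebraMap L1 Qb)) hπ M p :=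
  ssm_ga_beta_isBdd 2 (s44rd2_isBdd_of_mem A hA M L1 f1 hb)

/-- `φ f1` is a unit of `V1` for a Gauss unit `f1`. -/
theorem s44rd2_phi_unit (f1 : ↥(lg_F L1 (M * p)))
    (hb : (ssm_al_iotaF L1 (M * p) f1 : modularFunctionFieldBar (M * p)) ∈
      s44pg_W A hA hp.out.ne_zero (M * p))
    (hbi : (ssm_al_iotaF L1 (M * p) f1 : modularFunctionFieldBar (M * p))⁻¹ ∈
      s44pg_W A hA hp.out.ne_zero (M * p)) (hf1 : f1 ≠ 0) :
    lg_phiE (L := L1) (N := M * p) f1 ∈ ssm_gl_V1 (A.comap (algebraMap L1 Qb)) hπ M p ∧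
      lg_phiE (L := L1) (N := M * p) f1 ∉
        (ssm_gl_V1 (A.comap (algebraMap L1 Qb)) hπ M p).nonunits := by
  refine ⟨s44rd2_phi_mem A hA M L1 hπ f1 hb, ?_⟩
  rw [ValuationSubring.mem_nonunits_iff_or, not_or, not_not]
  refine ⟨fun h0 => hf1 ((map_eq_zero _).1 h0), ?_⟩
  rw [← map_inv₀]
  refine s44rd2_phi_mem A hA M L1 hπ f1⁻¹ ?_
  rwa [map_inv₀]

include hA in
set_option maxHeartbeats 3200000 in
/-- **helper6's `s44rs_leg_tower` instantiated at `(κ, r) = (lg_E kA M, s44rd2_r)`**, `k0 = k(O)`,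
`k = kA` (all instance plumbing done here): the order of `r G` at a place `v` of `lg_E kA M / kA`
whose centre is not a crossing point is divisible by `m`. -/
theorem s44rd2_leg [NumberField L1] (ζ : L1) (hζ : IsPrimitiveRoot ζ M)
    (xb : ↥(lg_E (ResidueField ↥A) M))
    [Algebra.IsAlgebraic (ResidueField ↥A)⟮xb⟯ ↥(lg_E (ResidueField ↥A) M)]
    (v : Place (ResidueField ↥A) ↥(lg_E (ResidueField ↥A) M))
    (hv : lg_lamE (L := L1) (M * p) ∈
        tori_comp (ssm_gl_V1 (A.comap (algebraMap L1 Qb)) hπ M p) (s44rd2_r A M hpM hp2 L1 hπ)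
          (s44rd2_r_hker A M hpM hp2 L1 hπ) v.toValuationSubring →
      ∃ b : ↥(lg_E L1 (M * p)),
        b ∈ fc_chart ↥(A.comap (algebraMap L1 Qb))
          ({lg_lamE (M * p)} : Set ↥(lg_E L1 (M * p))) ∧
        b ∈ (ssm_gl_V2 (A.comap (algebraMap L1 Qb)) hπ M p hp2 hpM).nonunits ∧
        b ∉ (tori_comp (ssm_gl_V1 (A.comap (algebraMap L1 Qb)) hπ M p)
          (s44rd2_r A M hpM hp2 L1 hπ) (s44rd2_r_hker A M hpM hp2 L1 hπ)
          v.toValuationSubring).nonunits)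
    (m : ℕ) {G : ↥(lg_E L1 (M * p))} (hG : G ≠ 0)
    (hord : ∀ P : Place L1 ↥(lg_E L1 (M * p)), (m : ℤ) ∣ P.ord G)
    (hG1 : G ∈ ssm_gl_V1 (A.comap (algebraMap L1 Qb)) hπ M p ∧
      G ∉ (ssm_gl_V1 (A.comap (algebraMap L1 Qb)) hπ M p).nonunits) :
    (m : ℤ) ∣ v.ord (s44rd2_r A M hpM hp2 L1 hπ ⟨G, hG1.1⟩) := by
  letI a1 : Algebra (ResidueField ↥(A.comap (algebraMap L1 Qb))) (ResidueField ↥A) :=
    (s44rd2_kappa A L1).toAlgebra
  letI a2 : Algebra (ResidueField ↥(A.comap (algebraMap L1 Qb)))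
      ↥(lg_E (ResidueField ↥A) M) :=
    ((algebraMap (ResidueField ↥A) ↥(lg_E (ResidueField ↥A) M)).comp
      (s44rd2_kappa A L1)).toAlgebra
  haveI : IsScalarTower (ResidueField ↥(A.comap (algebraMap L1 Qb))) (ResidueField ↥A)
      ↥(lg_E (ResidueField ↥A) M) := IsScalarTower.of_algebraMap_eq (fun _ => rfl)
  haveI : Algebra.IsIntegral (ResidueField ↥(A.comap (algebraMap L1 Qb))) (ResidueField ↥A) :=
    ⟨s44mi_isIntegral_kA A hA (s44rd2_kappa A L1)⟩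
  haveI : Algebra.IsAlgebraic (ResidueField ↥(A.comap (algebraMap L1 Qb)))
      (ResidueField ↥A) := Algebra.IsIntegral.isAlgebraic
  exact s44rs_leg_tower L1 (A.comap (algebraMap L1 Qb)) hπ M p hp2 hpM ζ hζ
    (residue ↥(A.comap (algebraMap L1 Qb))) IsLocalRing.residue_surjective
    (s44rd2_r A M hpM hp2 L1 hπ) (s44rd2_r_hker A M hpM hp2 L1 hπ)
    (fun a h => s44rd2_r_const A M hpM hp2 L1 hπ a h) xb v hv m hG hord hG1

end Dict

end Fermat.Agent.S44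
end
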