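/-
S44, cell [E2] (E2-ord), R6.3 (ii) (helper21; prefix `s44rov_`): THE LAST STEP OF (E2-ord).

`f = u · h^p` with `u` a unit at `Q` after reduction and `h` a Gauss unit ⟹ `p ∣ ord_Q (red f)`,
in the `s44rd_red` vocabulary:
* `s44rov_ord_eq`, `s44rov_ord_dvd` : abstract (any place, any field);
* `s44rov_red_dvd` : for `f u h ∈ W∞(M p)` (Gauss ring over `ℚ̄`), `f = u h^p`;
* `s44rov_red_dvd_nf` : for `f1 = u1 h1^p` in `lg_F L1 (M p)`, `L1 ⊆ ℚ̄` any intermediate field, all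
  memberships expressed through `ssm_al_iotaF` and `s44rd_red` (no number-field reduction needed).
-/
import Mathlib
import Fermat.Agent.S44.Res.Dict
import Fermat.Agent.S35.Toric.SFDPlace

set_option autoImplicit false
set_option linter.unusedSectionVars false
set_option linter.unusedVariables false
set_option linter.style.haveILetI false

noncomputable section

namespace Fermat.Agent.S44

open ModularCurve AlgebraicCurve IntermediateField IsLocalRing
open Fermat.Agent.JT3 Fermat.Agent.SS Fermat.Agent.S35 Fermat.Agent.S24 Fermat.Agent.S28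

local notation "Qb" => AlgebraicClosure ℚ

section Abs

variable {K F : Type*} [Field K] [Field F] [Algebra K F]

/-- `ord_Q (u h^p) = p · ord_Q h` when `u` is a unit at `Q`. -/
theorem s44rov_ord_eq (Q : Place K F) {u h : F} (p : ℕ) (hu1 : u ∈ Q.toValuationSubring)
    (hu2 : u ∉ Q.toValuationSubring.nonunits) (hh : h ≠ 0) :
    Q.ord (u * h ^ p) = (p : ℤ) * Q.ord h := by
  have hu0 : u ≠ 0 := ssm_tp_ne_zero _ hu2
  rw [Q.ord_mul hu0 (pow_ne_zero p hh), tori_sfd_ord_unit Q hu1 hu2, zero_add, ← zpow_natCast,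
    Q.ord_zpow]

theorem s44rov_ord_dvd (Q : Place K F) {f u h : F} (p : ℕ) (e : f = u * h ^ p)
    (hu1 : u ∈ Q.toValuationSubring) (hu2 : u ∉ Q.toValuationSubring.nonunits) (hh : h ≠ 0) :
    (p : ℤ) ∣ Q.ord f := by
  rw [e, s44rov_ord_eq Q p hu1 hu2 hh]
  exact dvd_mul_right _ _

end Abs

section Red

variable (A : ValuationSubring Qb) {p : ℕ} [hp : Fact p.Prime] (hA : A.LiesOverPrime p)
  (M : ℕ) [NeZero M] [NeZero p] [NeZero (M * p)] (hpM : ¬ p ∣ M)

/-- **the last step of (E2-ord)**, over `ℚ̄`. -/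
theorem s44rov_red_dvd
    (Q : Place (ResidueField ↥A) ↥(modularFunctionFieldFullC (ResidueField ↥A) M))
    {f u h : ↥(s44pg_W A hA hp.out.ne_zero (M * p))} (e : f = u * h ^ p)
    (hu1 : s44rd_red A hA M hpM u ∈ Q.toValuationSubring)
    (hu2 : s44rd_red A hA M hpM u ∉ Q.toValuationSubring.nonunits)
    (hh : s44rd_red A hA M hpM h ≠ 0) :
    (p : ℤ) ∣ Q.ord (s44rd_red A hA M hpM f) := by
  refine s44rov_ord_dvd Q p ?_ hu1 hu2 hh
  rw [e, map_mul, map_pow]

/-- **the last step of (E2-ord)**, from a factorisation over an intermediate field `L1 ⊆ ℚ̄`. -/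
theorem s44rov_red_dvd_nf
    (Q : Place (ResidueField ↥A) ↥(modularFunctionFieldFullC (ResidueField ↥A) M))
    (L1 : IntermediateField ℚ Qb) {f1 u1 h1 : ↥(lg_F L1 (M * p))} (e : f1 = u1 * h1 ^ p)
    (hbf : (ssm_al_iotaF L1 (M * p) f1 : modularFunctionFieldBar (M * p)) ∈
      s44pg_W A hA hp.out.ne_zero (M * p))
    (hbu : (ssm_al_iotaF L1 (M * p) u1 : modularFunctionFieldBar (M * p)) ∈
      s44pg_W A hA hp.out.ne_zero (M * p))
    (hbh : (ssm_al_iotaF L1 (M * p) h1 : modularFunctionFieldBar (M * p)) ∈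
      s44pg_W A hA hp.out.ne_zero (M * p))
    (hu1 : s44rd_red A hA M hpM ⟨ssm_al_iotaF L1 (M * p) u1, hbu⟩ ∈ Q.toValuationSubring)
    (hu2 : s44rd_red A hA M hpM ⟨ssm_al_iotaF L1 (M * p) u1, hbu⟩ ∉
      Q.toValuationSubring.nonunits)
    (hh : s44rd_red A hA M hpM ⟨ssm_al_iotaF L1 (M * p) h1, hbh⟩ ≠ 0) :
    (p : ℤ) ∣ Q.ord (s44rd_red A hA M hpM ⟨ssm_al_iotaF L1 (M * p) f1, hbf⟩) := by
  refine s44rov_red_dvd A hA M hpM Q (f := ⟨_, hbf⟩) (u := ⟨_, hbu⟩) (h := ⟨_, hbh⟩) ?_ hu1 hu2 hh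
  apply Subtype.ext
  show ssm_al_iotaF L1 (M * p) f1 =
    ssm_al_iotaF L1 (M * p) u1 * (ssm_al_iotaF L1 (M * p) h1) ^ p
  rw [e, map_mul, map_pow]

end Red

end Fermat.Agent.S44

end
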