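/-
S44, cell [E2] (E2-k), conclusion (helper15; prefix `s44rr_`): **THE WEIGHTS `k_Q` ARE UNITS MOD `p`**.

`s44e_ram A M Q` is the minimal ramification index over `Q` in the Legendre cover
`lg_phiE : lg_F kA M → lg_E kA M` (`kA` the residue field of `A`, of characteristic `p ≥ 5`).  The cover
is finite of degree `n ≤ 6`, `n ≠ 5`, and separable (`Res/RamInst.lean`); `lg_E kA M` is a function field
with separating generator `φ(j̃)` (`s44rr_sepGen_along`); so helper5's `s44rx_sInf_not_dvd`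
(`Res/ExtPlace.lean`: `Σ e = n`, `p ∤ n < 2p`) gives `p ∤ s44e_ram A M Q`.

* `s44rr_sepGen_along` : a separating generator stays one along a finite separable `φ`;
* `s44rr_sepGen_E`, `s44rr_hpd_E` : `lg_E kA M` is a function field with principal divisors;
* `s44rr_ram_spec`     : `0 < s44e_ram A M Q ≤ 6` and `¬ p ∣ s44e_ram A M Q`;
* `s44e_k_ne`          : `s44e_k A M p hp hpM i ≠ 0`;
* `s44rr_k_ne_frame`   : the same at `A₀ = s44f_A P.p P.pp` for a Frey package `P` (the field `k_ne` of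
                         `s44bg_Cells`).
-/
import Mathlib
import Fermat.Agent.S44.Res.RamInst
import Fermat.Agent.S44.Res.ExtPlace
import Fermat.Agent.S44.Res.Defs
import Fermat.Agent.S44.Frame
import Fermat.Agent.JT3.S18.ConstRed
import Fermat.Agent.JT3.Riemann.Approx

set_option autoImplicit false
set_option linter.unusedSectionVars false
set_option linter.style.haveILetI false

noncomputable section

namespace Fermat.Agent.S44

open IntermediateField AlgebraicCurve ModularCurve Fermat.Agent.JT3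

/-- a separating generator stays a separating generator along a finite separable `φ`. -/
theorem s44rr_sepGen_along {K F F' : Type*} [Field K] [Field F] [Field F'] [Algebra K F]
    [Algebra K F'] (φ : F →ₐ[K] F') (hfin : FiniteAlong K φ) (hsep : ptw_SeparableAlong φ) {x : F}
    (hx : rt_IsSepGen K x) : rt_IsSepGen K (φ x) := by
  obtain ⟨htr, hfd, hsp⟩ := hx
  letI := algebraAlong φ
  haveI := isScalarTower_along φ
  haveI : Module.Finite F F' := hfin
  haveI : Algebra.IsSeparable F F' := hsep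
  have hmap : (K⟮x⟯).map φ = K⟮φ x⟯ := by
    rw [IntermediateField.adjoin_map, Set.image_singleton]
  let e : K⟮x⟯ ≃ₐ[K] K⟮φ x⟯ :=
    (IntermediateField.equivMap K⟮x⟯ φ).trans (IntermediateField.equivOfEq hmap)
  have he : ∀ b : K⟮x⟯, ((e b : K⟮φ x⟯) : F') = φ (b : F) := fun b => rfl
  letI algA'F : Algebra K⟮φ x⟯ F :=
    ((algebraMap K⟮x⟯ F).comp e.symm.toRingEquiv.toRingHom).toAlgebra
  have halg : ∀ a : K⟮φ x⟯, algebraMap K⟮φ x⟯ F a = ((e.symm a : K⟮x⟯) : F) := fun a => rfl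
  haveI tower : IsScalarTower K⟮φ x⟯ F F' := IsScalarTower.of_algebraMap_eq (fun a => by
    rw [halg]
    show (a : F') = φ ((e.symm a : K⟮x⟯) : F)
    rw [← he, AlgEquiv.apply_symm_apply])
  have hcomp : RingHom.comp (algebraMap K⟮φ x⟯ F) (e.toRingEquiv : K⟮x⟯ →+* K⟮φ x⟯)
      = RingHom.comp ((RingEquiv.refl F : F ≃+* F) : F →+* F) (algebraMap K⟮x⟯ F) := by
    ext b
    show algebraMap K⟮φ x⟯ F (e b) = algebraMap K⟮x⟯ F b
    rw [halg, AlgEquiv.symm_apply_apply]
    rfl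
  haveI : Module.Finite K⟮φ x⟯ F :=
    Module.Finite.of_equiv_equiv (A₁ := K⟮x⟯) (B₁ := F) e.toRingEquiv (RingEquiv.refl F) hcomp
  haveI : Algebra.IsSeparable K⟮φ x⟯ F :=
    Algebra.IsSeparable.of_equiv_equiv (A₁ := K⟮x⟯) (B₁ := F) e.toRingEquiv (RingEquiv.refl F) hcomp
  refine ⟨?_, Module.Finite.trans F F', Algebra.IsSeparable.trans K⟮φ x⟯ F F'⟩
  intro h
  exact htr ((isAlgebraic_algHom_iff φ φ.injective).mp h)

section Inst

variable (A : ValuationSubring s44_Qb) (M : ℕ) [NeZero M]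

/-- `2 ≠ 0` in the residue field when `p ≥ 5`. -/
theorem s44rr_two_ne_zero_kA {p : ℕ} [Fact p.Prime] (hA : A.LiesOverPrime p) (hp5 : 5 ≤ p) :
    (2 : s44e_kA A) ≠ 0 := by
  haveI := jcr_charP A hA
  intro h
  have h' : ((2 : ℕ) : s44e_kA A) = 0 := by exact_mod_cast h
  have hdvd := (CharP.cast_eq_zero_iff (s44e_kA A) p 2).mp h'
  have := Nat.le_of_dvd (by norm_num) hdvd
  omega

/-- `E = lg_E kA M` is a function field over `kA`, with separating generator `φ(j̃)`. -/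
theorem s44rr_sepGen_E {p : ℕ} [Fact p.Prime] (hA : A.LiesOverPrime p) (hpM : ¬ p ∣ M)
    (hp5 : 5 ≤ p) :
    rt_IsSepGen (s44e_kA A)
      (lg_phiE (L := s44e_kA A) (N := M) (jcr_j (k := s44e_kA A) M)) := by
  haveI := jcr_charP A hA
  haveI := jcr_isAlgClosed A
  have h2 := s44rr_two_ne_zero_kA A hA hp5
  haveI : ExpChar (s44e_kA A) p := ExpChar.prime (Fact.out : p.Prime)
  exact s44rr_sepGen_along _ (s44rr_finiteAlong M h2) (s44rr_sepAlong M p (Or.inr hp5) h2)
    (jcr_isSepGen M hpM (jcr_rho A hA))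

/-- `lg_E kA M` has principal divisors. -/
theorem s44rr_hpd_E {p : ℕ} [Fact p.Prime] (hA : A.LiesOverPrime p) (hpM : ¬ p ∣ M)
    (hp5 : 5 ≤ p) : HasPrincipalDivisors (s44e_kA A) (lg_E (s44e_kA A) M) := by
  haveI := jcr_isAlgClosed A
  exact rt_hasPrincipalDivisors (s44rr_sepGen_E A M hA hpM hp5)

/-- **(E2-k)**: the minimal ramification index over `Q` in the Legendre cover is positive, at most
`6`, and prime to `p`. -/
theorem s44rr_ram_spec {p : ℕ} [Fact p.Prime] (hA : A.LiesOverPrime p) (hpM : ¬ p ∣ M)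
    (hp5 : 5 ≤ p) (Q : Place (s44e_kA A) (s44e_FF A M)) :
    0 < s44e_ram A M Q ∧ s44e_ram A M Q ≤ 6 ∧ ¬ p ∣ s44e_ram A M Q := by
  haveI := jcr_charP A hA
  haveI := jcr_isAlgClosed A
  have h2 := s44rr_two_ne_zero_kA A hA hp5
  haveI : ExpChar (s44e_kA A) p := ExpChar.prime (Fact.out : p.Prime)
  have hfin := s44rr_finiteAlong (k := s44e_kA A) M h2
  have hsep := s44rr_sepAlong (k := s44e_kA A) M p (Or.inr hp5) h2
  have hxsep : rt_IsSepGen (s44e_kA A) (jcr_j (k := s44e_kA A) M) :=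
    jcr_isSepGen M hpM (jcr_rho A hA)
  haveI : HasPrincipalDivisors (s44e_kA A) (lg_E (s44e_kA A) M) := s44rr_hpd_E A M hA hpM hp5
  haveI : Algebra.IsAlgebraic (s44e_kA A)⟮jcr_j (k := s44e_kA A) M⟯ (lg_F (s44e_kA A) M) :=
    hxsep.isAlgebraic
  obtain ⟨hn, h2p⟩ := s44rr_not_dvd_finrank (k := s44e_kA A) M h2 p Fact.out hp5
  obtain ⟨h0, hle, hnd⟩ := s44rx_sInf_not_dvd (lg_phiE (L := s44e_kA A) (N := M)) hfin hsep
    (jcr_j (k := s44e_kA A) M) Q p hn h2p
  exact ⟨h0, hle.trans (s44rr_finrank_le M h2), hnd⟩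

/-- **(E2-k)**: the weights of [BIG-ASM] are nonzero mod `p`. -/
theorem s44e_k_ne (p : ℕ) [NeZero p] (hp : p.Prime) [NeZero (M * p)] (hpM : ¬ p ∣ M)
    (hA : A.LiesOverPrime p) (hp5 : 5 ≤ p) (i : s44e_Sg A M p hp hpM) :
    s44e_k A M p hp hpM i ≠ 0 := by
  haveI : Fact p.Prime := ⟨hp⟩
  intro h
  have hdvd : p ∣ s44e_ram A M i.1 := (ZMod.natCast_eq_zero_iff _ _).mp h
  exact (s44rr_ram_spec A M hA hpM hp5 i.1).2.2 hdvd

end Inst

/-- the field `k_ne` of `s44bg_Cells`, at the frame of a Frey package. -/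
theorem s44rr_k_ne_frame (P : FreyPackage) (M : ℕ) [NeZero M] [NeZero P.p] [NeZero (M * P.p)]
    (hpM : ¬ P.p ∣ M) (i : s44e_Sg (s44f_A P.p P.pp) M P.p P.pp hpM) :
    s44e_k (s44f_A P.p P.pp) M P.p P.pp hpM i ≠ 0 :=
  s44e_k_ne (s44f_A P.p P.pp) M P.p P.pp hpM (s44f_A_liesOver P.p P.pp) P.hp5 i

end Fermat.Agent.S44
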