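import Mathlib

/-!
# S44 cell [E2] RES, leaf (k_ne), abstract part (helper20; prefix `s44er_`): value groups in towers of small degree

`v` a valuation on a field `E`, `K0 → E` a subfield.

* `s44er_rel`   : a nonzero `y` with a nontrivial relation of degree `≤ d` over `K0` has
                  `v y ^ m = v a` for some `0 < m ≤ d`, `a ∈ K0ˣ` (two monomials have equal value);
* `s44er_deg`   : every `y ∈ K0(x)` satisfies a nontrivial relation of degree `≤ deg x`;
* `s44er_tower` : `E = K0(t)(λ)`, `deg t ≤ d₁`, `deg λ ≤ d₂` ⟹ every `y ∈ Eˣ` has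
                  `v y ^ (m₁ m₂) = v a`, `0 < m₁ ≤ d₁`, `0 < m₂ ≤ d₂`, `a ∈ K0ˣ`.
-/

set_option autoImplicit false

namespace Fermat.Agent.S44

open Polynomial IntermediateField

section Rel

variable {K0 E Γ₀ : Type*} [Field K0] [Field E] [Algebra K0 E]
  [LinearOrderedCommGroupWithZero Γ₀] (v : Valuation E Γ₀)

/-- two monomials of a relation have the same value. -/
theorem s44er_rel {y : E} (hy : y ≠ 0) {P : K0[X]} (hP : P ≠ 0) (hroot : aeval y P = 0) :
    ∃ m : ℕ, 0 < m ∧ m ≤ P.natDegree ∧ ∃ a : K0, a ≠ 0 ∧ v y ^ m = v (algebraMap K0 E a) := by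
  classical
  have hsum : ∑ i ∈ P.support, algebraMap K0 E (P.coeff i) * y ^ i = 0 := by
    rw [← hroot, aeval_def, eval₂_eq_sum, Polynomial.sum]
  have hne : P.support.Nonempty := by
    rw [Finset.nonempty_iff_ne_empty, ne_eq, Polynomial.support_eq_empty]
    exact hP
  set T : ℕ → E := fun i => algebraMap K0 E (P.coeff i) * y ^ i with hT
  have hT0 : ∀ i ∈ P.support, T i ≠ 0 := by
    intro i hi
    rw [Polynomial.mem_support_iff] at hi
    exact mul_ne_zero ((map_ne_zero (algebraMap K0 E)).2 hi) (pow_ne_zero _ hy)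
  obtain ⟨j, hj, hjmax⟩ := Finset.exists_max_image P.support (fun i => v (T i)) hne
  -- some other index has the same value
  have hex : ∃ i ∈ P.support, i ≠ j ∧ v (T i) = v (T j) := by
    by_contra hcon
    push Not at hcon
    have hlt : ∀ i ∈ P.support \ {j}, v (T i) < v (T j) := by
      intro i hi
      rw [Finset.mem_sdiff, Finset.mem_singleton] at hi
      exact lt_of_le_of_ne (hjmax i hi.1) (hcon i hi.1 hi.2)
    have h1 := Valuation.map_sum_eq_of_lt v hj hlt
    rw [hsum, map_zero] at h1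
    exact (v.ne_zero_iff.2 (hT0 j hj)) h1.symm
  obtain ⟨i, hi, hij, hval⟩ := hex
  -- WLOG `i < j`
  have key : ∀ a b : ℕ, a ∈ P.support → b ∈ P.support → a < b → v (T a) = v (T b) →
      ∃ m : ℕ, 0 < m ∧ m ≤ P.natDegree ∧ ∃ c : K0, c ≠ 0 ∧ v y ^ m = v (algebraMap K0 E c) := by
    intro a b ha hb hab hv
    have hca : P.coeff a ≠ 0 := Polynomial.mem_support_iff.1 ha
    have hcb : P.coeff b ≠ 0 := Polynomial.mem_support_iff.1 hb
    refine ⟨b - a, by omega, ?_, P.coeff a / P.coeff b, div_ne_zero hca hcb, ?_⟩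
    · exact (Nat.sub_le _ _).trans (Polynomial.le_natDegree_of_mem_supp b hb)
    · have hvy : v y ≠ 0 := v.ne_zero_iff.2 hy
      have hvb : v (algebraMap K0 E (P.coeff b)) ≠ 0 :=
        v.ne_zero_iff.2 ((map_ne_zero (algebraMap K0 E)).2 hcb)
      simp only [hT, map_mul, map_pow] at hv
      rw [map_div₀, map_div₀, eq_div_iff hvb]
      have hb' : b = (b - a) + a := by omega
      rw [hb', pow_add] at hv
      have hya : v y ^ a ≠ 0 := pow_ne_zero _ hvy
      have h2 : v (algebraMap K0 E (P.coeff a)) =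
          v (algebraMap K0 E (P.coeff ((b - a) + a))) * v y ^ (b - a) := by
        have h3 : v (algebraMap K0 E (P.coeff a)) * v y ^ a =
            (v (algebraMap K0 E (P.coeff ((b - a) + a))) * v y ^ (b - a)) * v y ^ a := by
          rw [hv, mul_assoc]
        exact mul_right_cancel₀ hya h3
      rw [← hb'] at h2
      rw [h2, mul_comm]
  rcases lt_or_gt_of_ne hij with h | h
  · exact key i j hi hj h hval
  · exact key j i hj hi h hval.symm

end Rel

section Deg

variable {K0 E : Type*} [Field K0] [Field E] [Algebra K0 E]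

/-- every element of `K0(x)` satisfies a nontrivial relation of degree at most that of `x`. -/
theorem s44er_deg {x : E} {P : K0[X]} (hP : P ≠ 0) (hroot : aeval x P = 0) {y : E}
    (hy : y ∈ K0⟮x⟯) : ∃ R : K0[X], R ≠ 0 ∧ R.natDegree ≤ P.natDegree ∧ aeval y R = 0 := by
  have hint : IsIntegral K0 x := IsAlgebraic.isIntegral ⟨P, hP, hroot⟩
  have : FiniteDimensional K0 K0⟮x⟯ := adjoin.finiteDimensional hint
  have hfr : Module.finrank K0 K0⟮x⟯ = (minpoly K0 x).natDegree := adjoin.finrank hint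
  have hle : (minpoly K0 x).natDegree ≤ P.natDegree :=
    Polynomial.natDegree_le_of_dvd (minpoly.dvd K0 x hroot) hP
  set y' : K0⟮x⟯ := ⟨y, hy⟩ with hy'
  have hinty : IsIntegral K0 y' := IsIntegral.of_finite K0 y'
  refine ⟨minpoly K0 y', minpoly.ne_zero hinty, ?_, ?_⟩
  · exact ((minpoly.natDegree_le y').trans hfr.le).trans hle
  · have h1 := minpoly.aeval K0 y'
    have h2 : aeval (algebraMap K0⟮x⟯ E y') (minpoly K0 y') = 0 := by
      rw [aeval_algebraMap_apply, h1, map_zero]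
    exact h2

end Deg

section Tower

variable {K0 E Γ₀ : Type*} [Field K0] [Field E] [Algebra K0 E]
  [LinearOrderedCommGroupWithZero Γ₀] (v : Valuation E Γ₀)

/-- **values in a tower `K0 ⊆ K0(t) ⊆ K0(t)(λ) = E`.** -/
theorem s44er_tower {t lam : E} {P1 : K0[X]} (hP1 : P1 ≠ 0) (h1 : aeval t P1 = 0)
    {P2 : (K0⟮t⟯)[X]} (hP2 : P2 ≠ 0) (h2 : aeval lam P2 = 0)
    (htop : ∀ y : E, y ∈ (↥K0⟮t⟯)⟮lam⟯) {y : E} (hy : y ≠ 0) :
    ∃ m1 m2 : ℕ, 0 < m1 ∧ m1 ≤ P1.natDegree ∧ 0 < m2 ∧ m2 ≤ P2.natDegree ∧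
      ∃ a : K0, a ≠ 0 ∧ v y ^ (m1 * m2) = v (algebraMap K0 E a) := by
  obtain ⟨R2, hR2, hd2, hr2⟩ := s44er_deg hP2 h2 (htop y)
  obtain ⟨m2, hm2, hm2le, b, hb0, hb⟩ := s44er_rel v hy hR2 hr2
  have hbE : algebraMap (↥K0⟮t⟯) E b ≠ 0 := (_root_.map_ne_zero _).2 hb0
  obtain ⟨R1, hR1, hd1, hr1⟩ := s44er_deg hP1 h1 (y := algebraMap (↥K0⟮t⟯) E b) b.2
  obtain ⟨m1, hm1, hm1le, a, ha0, ha⟩ := s44er_rel v hbE hR1 hr1
  refine ⟨m1, m2, hm1, hm1le.trans hd1, hm2, hm2le.trans hd2, a, ha0, ?_⟩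
  rw [mul_comm, pow_mul, hb, ha]

end Tower

end Fermat.Agent.S44
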