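import Fermat.Agent.S44.Res.RamTower

/-!
# S44 cell [E2] RES, leaf of (E2-ord) (helper20; prefix `s44er_`): descent of `p`-th powers modulo
units from the Legendre cover to the base, WITHOUT Galois theory

`E = lg_E k N = φ(F_N)(λ)`, `φ = lg_phiE`; `R'` ANY valuation subring of `E` (any rank).

* `s44er_val_descent` (abstract): `v y' ^ m = v a`, `m` prime to `p`, `v x = v y' ^ p` ⟹
  `v x = v (a ^ s * x ^ t) ^ p` for Bézout coefficients `s m + t p = 1`;
* `s44er_pow_descent` : `φ x = u' · y' ^ p`, `u' ∈ R'ˣ`, `y' ∈ E`, `p ≥ 5` prime ⟹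
  `φ x = u · (φ y) ^ p` with `y ∈ F_N`, `u ∈ R'ˣ`.
-/

set_option autoImplicit false
set_option linter.unusedSectionVars false
set_option linter.style.haveILetI false

noncomputable section

namespace Fermat.Agent.S44

open ModularCurve AlgebraicCurve Polynomial IntermediateField Fermat.Agent.JT3

section Abs

variable {Γ₀ : Type*} [LinearOrderedCommGroupWithZero Γ₀]

/-- Bézout in a value group: `γ ^ m = α`, `ξ = γ ^ p`, `s m + t p = 1` ⟹ `ξ = (α ^ s ξ ^ t) ^ p`. -/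
theorem s44er_val_descent {γ α ξ : Γ₀} (hγ : γ ≠ 0) {m p : ℕ} (hm : γ ^ m = α) (hξ : ξ = γ ^ p)
    {s t : ℤ} (hst : s * m + t * p = 1) : ξ = (α ^ s * ξ ^ t) ^ p := by
  subst hm hξ
  rw [← zpow_natCast γ m, ← zpow_natCast γ p, ← zpow_mul, ← zpow_mul, ← zpow_add₀ hγ,
    ← zpow_natCast _ p, ← zpow_mul]
  have h : ((m : ℤ) * s + (p : ℤ) * t) * (p : ℤ) = (p : ℤ) := by
    have : (m : ℤ) * s + (p : ℤ) * t = 1 := by linarith
    rw [this, one_mul]
  rw [h]

end Abs

section Main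

variable {k : Type*} [Field k] {N : ℕ} [NeZero N]

/-- **descent of `p`-th powers modulo units** from `E = φ(F_N)(λ)` to `F_N`. -/
theorem s44er_pow_descent (h2 : (2 : k) ≠ 0) (R' : ValuationSubring (lg_E k N)) {p : ℕ}
    (hp : p.Prime) (hp5 : 5 ≤ p) {x : lg_F k N} (hx : x ≠ 0) {u' y' : lg_E k N}
    (hu' : u' ∈ R') (hu'i : u'⁻¹ ∈ R') (hy' : y' ≠ 0)
    (hxy : lg_phiE (L := k) (N := N) x = u' * y' ^ p) :
    ∃ (y : lg_F k N) (u : lg_E k N), y ≠ 0 ∧ u ∈ R' ∧ u⁻¹ ∈ R' ∧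
      lg_phiE (L := k) (N := N) x = u * (lg_phiE (L := k) (N := N) y) ^ p := by
  letI := s44er_alg k N
  set v := R'.valuation with hv
  have hu0 : u' ≠ 0 := by
    rintro rfl
    rw [zero_mul] at hxy
    exact hx ((map_eq_zero (lg_phiE (L := k) (N := N))).1 hxy)
  have hvu : v u' = 1 := by
    have h1 : v u' ≤ 1 := (ValuationSubring.valuation_le_one_iff R' u').2 hu'
    have h2' : v u'⁻¹ ≤ 1 := (ValuationSubring.valuation_le_one_iff R' u'⁻¹).2 hu'i
    rw [map_inv₀] at h2'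
    have hv0 : v u' ≠ 0 := (Valuation.ne_zero_iff v).2 hu0
    have h3 : 1 ≤ v u' := by
      rwa [inv_le_one₀ (zero_lt_iff.2 hv0)] at h2'
    exact le_antisymm h1 h3
  obtain ⟨m1, m2, hm1, hm1le, hm2, hm2le, a, ha0, hva⟩ :=
    s44er_tower v (s44er_P1_ne_zero k N h2) (s44er_P1_root k N) (P2 := s44er_P2 k N)
      (by
        intro h0
        have := s44er_P2_natDegree k N
        rw [h0, natDegree_zero] at this
        exact absurd this (by norm_num))
      (s44er_P2_root k N) (s44er_top k N) hy'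
  have hm1' : m1 ≤ 3 := hm1le.trans (s44er_P1_natDegree_le k N)
  have hm2' : m2 ≤ 2 := hm2le.trans (s44er_P2_natDegree k N).le
  -- `m = m1 m2` is prime to `p`
  have hcop : Nat.Coprime (m1 * m2) p := by
    rw [Nat.coprime_comm, Nat.Prime.coprime_iff_not_dvd hp]
    intro hd
    rcases (Nat.Prime.dvd_mul hp).1 hd with h | h
    · have := Nat.le_of_dvd hm1 h
      omega
    · have := Nat.le_of_dvd hm2 h
      omega
  -- Bézout
  have hbez : ((m1 * m2 : ℕ) : ℤ) * Int.gcdA (m1 * m2) p + (p : ℤ) * Int.gcdB (m1 * m2) p = 1 := by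
    have := Int.gcd_eq_gcd_ab ((m1 * m2 : ℕ) : ℤ) (p : ℤ)
    rw [Int.gcd_natCast_natCast, hcop] at this
    exact_mod_cast this.symm
  set s := Int.gcdA (m1 * m2) p with hs
  set t := Int.gcdB (m1 * m2) p with ht
  have hst : s * ((m1 * m2 : ℕ) : ℤ) + t * (p : ℤ) = 1 := by linarith
  have hvx : v (lg_phiE (L := k) (N := N) x) = v y' ^ p := by
    rw [hxy, map_mul, hvu, one_mul, map_pow]
  have hvy0 : v y' ≠ 0 := (Valuation.ne_zero_iff v).2 hy'
  have hkey := s44er_val_descent hvy0 hva hvx hst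
  -- the element `y = a ^ s * x ^ t`
  refine ⟨a ^ s * x ^ t, lg_phiE (L := k) (N := N) x *
      ((lg_phiE (L := k) (N := N) (a ^ s * x ^ t)) ^ p)⁻¹,
    mul_ne_zero (zpow_ne_zero _ ha0) (zpow_ne_zero _ hx), ?_, ?_, ?_⟩
  all_goals
    have hy0 : lg_phiE (L := k) (N := N) (a ^ s * x ^ t) ≠ 0 :=
      (map_ne_zero (lg_phiE (L := k) (N := N))).2
        (mul_ne_zero (zpow_ne_zero _ ha0) (zpow_ne_zero _ hx))
    have hval : v (lg_phiE (L := k) (N := N) (a ^ s * x ^ t)) =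
        v (algebraMap (lg_F k N) (lg_E k N) a) ^ s * v (lg_phiE (L := k) (N := N) x) ^ t := by
      rw [map_mul, map_zpow₀, map_zpow₀, map_mul, map_zpow₀, map_zpow₀]
      rfl
    have hone : v (lg_phiE (L := k) (N := N) x *
        ((lg_phiE (L := k) (N := N) (a ^ s * x ^ t)) ^ p)⁻¹) = 1 := by
      rw [map_mul, map_inv₀, map_pow, hval, ← hkey]
      exact mul_inv_cancel₀ ((Valuation.ne_zero_iff v).2
        ((map_ne_zero (lg_phiE (L := k) (N := N))).2 hx))
  · exact (ValuationSubring.valuation_le_one_iff R' _).1 hone.le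
  · refine (ValuationSubring.valuation_le_one_iff R' _).1 ?_
    rw [map_inv₀, hone, inv_one]
  · rw [mul_assoc, inv_mul_cancel₀ (pow_ne_zero _ hy0), mul_one]

end Main

end Fermat.Agent.S44
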