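import Fermat.Agent.S44.Res.RamAbs
import Fermat.Agent.S44.Res.Defs
import Fermat.Agent.JT3.Riemann.Approx

/-!
# S44 cell [E2] RES, leaf (k_ne) (helper20; prefix `s44er_`): `p ∤ e(Q2 | Q)` in the Legendre cover

`E = lg_E k N = φ(F_N)(λ)`, `φ = lg_phiE` (`q ↦ q²`).  The tower `φF ⊆ φF(t) ⊆ E`, `t = λ² - λ`,
has steps of degree `≤ 3` (`256 (t + 1)³ = j₂ t²`, the Legendre equation) and `≤ 2`
(`λ² - λ - t = 0`).  Hence (`s44er_tower`) for a place `Q2` of `E` with
`Q2.ord (φ g) = e · Q.ord g`: `e ∣ m₁ m₂`, `m₁ ≤ 3`, `m₂ ≤ 2`, and `p ∤ e` for every prime `p ≥ 5`.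
No Galois theory, any characteristic `≠ 2`.

* `s44er_not_dvd` : the statement above;
* `s44er_k_ne_of_exists`     : the field `k_ne` of `s44bg_Cells` for `k = s44e_k`, from the existence of ONE
                    place of the Legendre cover over `Q` ((N3) / (E2-EXT)).
-/

set_option autoImplicit false
set_option linter.unusedSectionVars false
set_option linter.style.haveILetI false

noncomputable section

namespace Fermat.Agent.S44

open ModularCurve AlgebraicCurve IsLocalRing Polynomial IntermediateField Fermat.Agent.JT3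
  Fermat.Agent.S24

section Tower

variable (k : Type*) [Field k] (N : ℕ) [NeZero N]

/-- `E` as an algebra over `F_N` along `φ`. -/
@[reducible] def s44er_alg : Algebra (lg_F k N) (lg_E k N) :=
  (lg_phiE (L := k) (N := N)).toRingHom.toAlgebra

/-- `t = λ² - λ`. -/
def s44er_t : lg_E k N := (lg_lamE (L := k) N) ^ 2 - lg_lamE (L := k) N

/-- `j ∈ F_N`. -/
def s44er_j : lg_F k N := ⟨jqModC k, jqModC_mem_full k N⟩

theorem s44er_phi_j :
    ((lg_phiE (L := k) (N := N) (s44er_j k N) : lg_E k N) : LaurentSeries k) = lg_j2 k := rfl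

/-- the cubic of `t` over `φ F_N`. -/
def s44er_P1 : (lg_F k N)[X] := C 256 * (X + 1) ^ 3 - C (s44er_j k N) * X ^ 2

theorem s44er_P1_natDegree_le : (s44er_P1 k N).natDegree ≤ 3 := by
  unfold s44er_P1
  compute_degree

theorem s44er_P1_ne_zero (h2 : (2 : k) ≠ 0) : s44er_P1 k N ≠ 0 := by
  have h256 : (256 : lg_F k N) ≠ 0 := by
    have h : (256 : lg_F k N) = algebraMap k (lg_F k N) ((2 : k) ^ 8) := by
      rw [map_pow, map_ofNat]
      norm_num
    rw [h]
    exact (_root_.map_ne_zero _).2 (pow_ne_zero _ h2)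
  have hdeg : (s44er_P1 k N).natDegree = 3 := by
    unfold s44er_P1
    compute_degree!
  intro h0
  rw [h0, natDegree_zero] at hdeg
  exact absurd hdeg (by norm_num)

theorem s44er_P1_root :
    letI := s44er_alg k N
    aeval (s44er_t k N) (s44er_P1 k N) = 0 := by
  letI := s44er_alg k N
  have halg : ∀ a : lg_F k N, algebraMap (lg_F k N) (lg_E k N) a = lg_phiE a := fun _ => rfl
  simp only [s44er_P1, map_sub, map_mul, map_pow, map_add, aeval_X, aeval_C, map_one, halg]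
  apply Subtype.ext
  have hleg := lg_legendre k
  have h256 : ((lg_phiE (L := k) (N := N) (256 : lg_F k N) : lg_E k N) : LaurentSeries k) = 256 := by
    rw [map_ofNat]
    rfl
  simp only [s44er_t, lg_lamE]
  push_cast
  rw [h256, s44er_phi_j]
  linear_combination hleg

/-- the quadratic of `λ` over `φ F_N (t)`. -/
def s44er_P2 :
    letI := s44er_alg k N
    (↥(lg_F k N)⟮s44er_t k N⟯)[X] :=
  letI := s44er_alg k N
  X ^ 2 - X - C (⟨s44er_t k N, mem_adjoin_simple_self _ _⟩ : ↥(lg_F k N)⟮s44er_t k N⟯)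

theorem s44er_P2_natDegree :
    letI := s44er_alg k N
    (s44er_P2 k N).natDegree = 2 := by
  letI := s44er_alg k N
  unfold s44er_P2
  compute_degree!

theorem s44er_P2_root :
    letI := s44er_alg k N
    aeval (lg_lamE (L := k) N) (s44er_P2 k N) = 0 := by
  letI := s44er_alg k N
  simp only [s44er_P2, map_sub, map_pow, aeval_X, aeval_C]
  show lg_lamE (L := k) N ^ 2 - lg_lamE (L := k) N - s44er_t k N = 0
  rw [s44er_t]
  ring

/-- `E = φ F_N (t)(λ)`. -/
theorem s44er_top (y : lg_E k N) :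
    letI := s44er_alg k N
    y ∈ (↥(lg_F k N)⟮s44er_t k N⟯)⟮lg_lamE (L := k) N⟯ := by
  letI := s44er_alg k N
  set S := (↥(lg_F k N)⟮s44er_t k N⟯)⟮lg_lamE (L := k) N⟯ with hS
  -- the image of `S` in `k((q))`
  have hk : ∀ c : k, algebraMap k (LaurentSeries k) c ∈
      S.toSubfield.map ((lg_E k N).val : lg_E k N →+* LaurentSeries k) := by
    intro c
    refine ⟨algebraMap k (lg_E k N) c, ?_, rfl⟩
    have h1 : algebraMap k (lg_E k N) c =
        algebraMap (↥(lg_F k N)⟮s44er_t k N⟯) (lg_E k N)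
          (algebraMap (lg_F k N) (↥(lg_F k N)⟮s44er_t k N⟯) (algebraMap k (lg_F k N) c)) := by
      rw [← IsScalarTower.algebraMap_apply (lg_F k N) (↥(lg_F k N)⟮s44er_t k N⟯) (lg_E k N)]
      exact ((lg_phiE (L := k) (N := N)).commutes c).symm
    rw [h1]
    exact S.algebraMap_mem _
  let T : IntermediateField k (LaurentSeries k) :=
    Subfield.toIntermediateField
      (S.toSubfield.map ((lg_E k N).val : lg_E k N →+* LaurentSeries k)) hk
  have hF2 : lg_F2 k N ≤ T := by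
    rintro x ⟨x0, hx0, rfl⟩
    refine ⟨lg_phiE (L := k) (N := N) ⟨x0, hx0⟩, ?_, rfl⟩
    have h1 : lg_phiE (L := k) (N := N) ⟨x0, hx0⟩ =
        algebraMap (↥(lg_F k N)⟮s44er_t k N⟯) (lg_E k N)
          (algebraMap (lg_F k N) (↥(lg_F k N)⟮s44er_t k N⟯) ⟨x0, hx0⟩) := by
      rw [← IsScalarTower.algebraMap_apply (lg_F k N) (↥(lg_F k N)⟮s44er_t k N⟯) (lg_E k N)]
      rfl
    rw [h1]
    exact S.algebraMap_mem _
  have hK : lg_K k ≤ T := by
    rw [lg_K, adjoin_simple_le_iff]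
    exact ⟨lg_lamE (L := k) N, mem_adjoin_simple_self _ _, rfl⟩
  have hE : lg_E k N ≤ T := sup_le hF2 hK
  obtain ⟨w, hw, hwy⟩ := hE y.2
  have : w = y := Subtype.ext hwy
  rw [← this]
  exact hw

end Tower

section Main

variable {k : Type*} [Field k] {N : ℕ} [NeZero N]

/-- **`p ∤ e(Q2 | Q)`** for the Legendre cover and every prime `p ≥ 5`. -/
theorem s44er_not_dvd (h2 : (2 : k) ≠ 0) (Q2 : Place k (lg_E k N)) (Q : Place k (lg_F k N))
    (e : ℕ) (he : ∀ g : lg_F k N, Q2.ord (lg_phiE (L := k) (N := N) g) = (e : ℤ) * Q.ord g)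
    {p : ℕ} (hp : p.Prime) (hp5 : 5 ≤ p) : ¬ p ∣ e := by
  letI := s44er_alg k N
  obtain ⟨y, hy0, hy1⟩ : ∃ t : lg_E k N, t ≠ 0 ∧ Q2.ord t = 1 := by
    obtain ⟨π, hπ⟩ := IsDiscreteValuationRing.exists_irreducible Q2.toValuationSubring
    refine ⟨(π : lg_E k N), ?_, Q2.ord_coe_irreducible hπ⟩
    simpa using hπ.ne_zero
  obtain ⟨m1, m2, hm1, hm1le, hm2, hm2le, a, ha0, hv⟩ :=
    s44er_tower Q2.adicValuation (s44er_P1_ne_zero k N h2) (s44er_P1_root k N)
      (P2 := s44er_P2 k N)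
      (by
        intro h0
        have := s44er_P2_natDegree k N
        rw [h0, natDegree_zero] at this
        exact absurd this (by norm_num))
      (s44er_P2_root k N) (s44er_top k N) hy0
  have hm1' : m1 ≤ 3 := hm1le.trans (s44er_P1_natDegree_le k N)
  have hm2' : m2 ≤ 2 := hm2le.trans (s44er_P2_natDegree k N).le
  have haE : algebraMap (lg_F k N) (lg_E k N) a ≠ 0 := (_root_.map_ne_zero _).2 ha0
  rw [hw_adicValuation_eq_exp Q2 hy0, hw_adicValuation_eq_exp Q2 haE, ← WithZero.exp_nsmul,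
    WithZero.exp_inj, hy1] at hv
  have hval : Q2.ord (algebraMap (lg_F k N) (lg_E k N) a) = (e : ℤ) * Q.ord a := he a
  rw [hval] at hv
  intro hpe
  have h1 : (p : ℤ) ∣ ((m1 * m2 : ℕ) : ℤ) := by
    have h3 : ((m1 * m2 : ℕ) : ℤ) = (e : ℤ) * Q.ord a := by
      have := hv
      simp only [nsmul_eq_mul] at this
      linarith
    rw [h3]
    exact Dvd.dvd.mul_right (Int.natCast_dvd_natCast.2 hpe) _
  rw [Int.natCast_dvd_natCast] at h1
  rcases (Nat.Prime.dvd_mul hp).1 h1 with h | h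
  · have := Nat.le_of_dvd hm1 h
    omega
  · have := Nat.le_of_dvd hm2 h
    omega

end Main

section KNe

variable (A : ValuationSubring s44_Qb) {p : ℕ} [hp : Fact p.Prime] (hA : A.LiesOverPrime p)
  (M : ℕ) [NeZero M] [NeZero p] [NeZero (M * p)] (hpM : ¬ p ∣ M)

include hA in
/-- **the field `k_ne` of `s44bg_Cells`** for `k = s44e_k`, given ONE place of the Legendre cover
over `Q`. -/
theorem s44er_k_ne_of_exists (hp5 : 5 ≤ p) (i : s44e_Sg A M p hp.out hpM)
    (hex : ∃ e : ℕ, 0 < e ∧ ∃ Q2 : Place (s44e_kA A) (lg_E (s44e_kA A) M),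
      ∀ g : s44e_FF A M, Q2.ord (lg_phiE (L := s44e_kA A) (N := M) g) = (e : ℤ) * i.1.ord g) :
    s44e_k A M p hp.out hpM i ≠ 0 := by
  haveI : CharP (s44e_kA A) p := jcr_charP A hA
  have h2 : (2 : s44e_kA A) ≠ 0 := by
    intro h
    have h' : ((2 : ℕ) : s44e_kA A) = 0 := by exact_mod_cast h
    rw [CharP.cast_eq_zero_iff (s44e_kA A) p] at h'
    have := Nat.le_of_dvd (by norm_num) h'
    omega
  have hmem := Nat.sInf_mem (s := {e : ℕ | 0 < e ∧
    ∃ Q2 : Place (s44e_kA A) (lg_E (s44e_kA A) M),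
      ∀ g : s44e_FF A M, Q2.ord (lg_phiE (L := s44e_kA A) (N := M) g) = (e : ℤ) * i.1.ord g}) hex
  obtain ⟨-, Q2, hQ2⟩ := hmem
  have hnd := s44er_not_dvd h2 Q2 i.1 _ hQ2 hp.out hp5
  rw [s44e_k, ne_eq, ZMod.natCast_eq_zero_iff]
  exact hnd

end KNe

end Fermat.Agent.S44
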