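/-
S44, [H2] layer 3 / (U-DIV): THE SUPERSINGULAR NODE PACKAGE WITH THE WITNESSES EXPOSED (helper4's request
(ND-SS), finding 4222) in the binders of `Res/UDivDich.lean` (helper28; prefix `s44un_`).

In the binders of `Res/UDivDich.lean` (section `Dich`) + `L1` a number field containing a primitive
`M`-th root of unity: if the centre `𝔫` of `𝒱' = tori_comp V1 r _ 𝒲` on the `λ`-chart `B` is maximal and
lies on the `0`-component, then `T * ord_Q (red U1) = 12` for some `T` (a positive integer) and every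
model `U1 ∈ W1` of the modular unit.

  `s44un_nodePkg` = `s44un_nodeOut` (Res/UDivNodeOut.lean) keeping `(u, v, T, ν)`.
-/
import Mathlib
import Fermat.Agent.S44.Res.UDivNodeOut
import Fermat.Agent.S44.Mono.UnitNodeInst
import Fermat.Agent.S44.Mono.NodeDictNode
import Fermat.Agent.S44.Mono.NodeLegRed
import Fermat.Agent.S44.Mono.GaussSheet

set_option autoImplicit false
set_option linter.unusedSectionVars false
set_option linter.style.haveILetI false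
set_option linter.unusedVariables false

noncomputable section

namespace Fermat.Agent.S44

open Polynomial ModularCurve AlgebraicCurve IntermediateField IsLocalRing
open Fermat.Agent.JT3 Fermat.Agent.SS Fermat.Agent.S35 Fermat.Agent.S24 Fermat.Agent.MZ

section NodePkg

set_option synthInstance.maxHeartbeats 400000

variable (A : ValuationSubring s44_Qb) {p : ℕ} [hp : Fact p.Prime] (hA : A.LiesOverPrime p)
  (M : ℕ) [NeZero M] [NeZero p] [NeZero (M * p)] (hpM : ¬ p ∣ M) (hp2 : ¬ 2 ∣ p)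
  (L1 : IntermediateField ℚ s44_Qb)
  [IsDiscreteValuationRing ↥(A.comap (algebraMap L1 s44_Qb))]
  [CharP (ResidueField ↥(A.comap (algebraMap L1 s44_Qb))) p]
  {π : ↥(A.comap (algebraMap L1 s44_Qb))} (hπ : Irreducible π)

set_option hygiene false in
local notation "O1" => ValuationSubring.comap A (algebraMap L1 s44_Qb)

variable (hprime : Prime (algebraMap ↥O1 (fc_chart ↥O1 ({lg_lamE M} : Set ↥(lg_E L1 M))) π))
  (red : ↥(s44mz_VF O1 hπ M p) →+* ↥(s44e_FF A M))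
  (hker0 : ∀ z : ↥(s44mz_VF O1 hπ M p),
    (z : ↥(lg_F L1 (M * p))) ∈ (s44mz_VF O1 hπ M p).nonunits → red z = 0)
  (Q : Place (s44e_kA A) (s44e_FF A M))
  {κ : Type*} [Field κ] (r : ↥(ssm_gl_V1 O1 hπ M p) →+* κ)
  (hker : ∀ z : ↥(ssm_gl_V1 O1 hπ M p),
    (z : ↥(lg_E L1 (M * p))) ∈ (ssm_gl_V1 O1 hπ M p).nonunits → r z = 0)
  (𝒲 : ValuationSubring κ)
  (hext : ∀ x : ↥(lg_F L1 (M * p)),
    (lg_phiE (L := L1) (N := M * p)).toRingHom x ∈ tori_comp (ssm_gl_V1 O1 hπ M p) r hker 𝒲 ↔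
      x ∈ tori_comp (s44mz_VF O1 hπ M p) red hker0 Q.toValuationSubring)
  (hO𝒱 : ∀ a : ↥O1, algebraMap ↥O1 ↥(lg_E L1 (M * p)) a ∈
    tori_comp (ssm_gl_V1 O1 hπ M p) r hker 𝒲)
  (hj2 : s44mz_j2E L1 (M * p) ∈ tori_comp (ssm_gl_V1 O1 hπ M p) r hker 𝒲)

include hprime hext hO𝒱 hj2 in
set_option maxHeartbeats 3200000 in
/-- **(ND-SS) with the witnesses exposed**: the uniform node `(u, v)` at the centre `𝔫` of `𝒱'`, the
multiplier `T > 0` and the normalised order `ν` of `B_𝔫` along the `∞`-branch w.r.t. `u`, with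
`ν (φ b) = T · ord_Q (red b)` on the units of `W1` and `T · ord_Q (red U1) = 12`. -/
theorem s44un_nodePkg [NumberField ↥L1] (ζ : ↥L1) (hζ : IsPrimitiveRoot ζ M)
    (hmax : (ssm_tp_P (fc_chart ↥O1 ({lg_lamE (M * p)} : Set ↥(lg_E L1 (M * p))))
      (tori_comp (ssm_gl_V1 O1 hπ M p) r hker 𝒲)).IsMaximal)
    (hsurj : Function.Surjective r)
    {k : Type*} [Field k] [Algebra k κ] (hk : ∀ a : k, algebraMap k κ a ∈ 𝒲)
    (hCFE : ∃ t : ↥(s44mz_VF O1 hπ M p), Q.ord (red t) = 1)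
    (U1 : ↥(s44mz_VF O1 hπ M p))
    (hU1 : ssm_al_iotaF L1 (M * p) (U1 : ↥(lg_F L1 (M * p))) =
      s44hu_U p (M * p) (s44hu_dvd (rfl : M * p = M * p)))
    (hnode : ssm_tp_P (fc_chart ↥O1 ({lg_lamE (M * p)} : Set ↥(lg_E L1 (M * p))))
          (ssm_gl_V2 O1 hπ M p hp2 hpM) ≤
        ssm_tp_P (fc_chart ↥O1 ({lg_lamE (M * p)} : Set ↥(lg_E L1 (M * p))))
          (tori_comp (ssm_gl_V1 O1 hπ M p) r hker 𝒲)) :
    haveI := ssm_go_isScalarTower O1 (lg_E L1 (M * p))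
    haveI := lgf_finite L1 (M * p)
    haveI : IsNoetherianRing ↥(fc_chart ↥O1 ({lg_lamE (M * p)} : Set ↥(lg_E L1 (M * p)))) :=
      ssm_ths_chart_isNoetherianRing (A0 := ↥O1) (L := L1)
        (lgf_lam_transcendental L1 (M * p) two_ne_zero)
    haveI : IsIntegrallyClosed ↥(fc_chart ↥O1 ({lg_lamE (M * p)} : Set ↥(lg_E L1 (M * p)))) :=
      ssm_ths_chart_isIntegrallyClosed (A0 := ↥O1) (L := L1) _
    haveI : IsFractionRing ↥(fc_chart ↥O1 ({lg_lamE (M * p)} : Set ↥(lg_E L1 (M * p))))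
        ↥(lg_E L1 (M * p)) :=
      ssm_ths_chart_isFractionRing (A0 := ↥O1) (L := L1) _
    haveI := hmax.isPrime
    haveI := ssl_loc_isLocalRing (F0 := ↥(lg_E L1 (M * p)))
      (ssm_tp_P (fc_chart ↥O1 ({lg_lamE (M * p)} : Set ↥(lg_E L1 (M * p))))
        (tori_comp (ssm_gl_V1 O1 hπ M p) r hker 𝒲))
    haveI := ssl_loc_isNoetherianRing (F0 := ↥(lg_E L1 (M * p)))
      (ssm_tp_P (fc_chart ↥O1 ({lg_lamE (M * p)} : Set ↥(lg_E L1 (M * p))))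
        (tori_comp (ssm_gl_V1 O1 hπ M p) r hker 𝒲))
    ∃ (u v : ↥(lg_E L1 (M * p))) (T : ℕ) (ν : ↥(lg_E L1 (M * p)) → ℤ),
      ssm_tp_P (fc_chart ↥O1 ({lg_lamE (M * p)} : Set ↥(lg_E L1 (M * p))))
          (ssm_gl_V1 O1 hπ M p) ≤
        ssm_tp_P (fc_chart ↥O1 ({lg_lamE (M * p)} : Set ↥(lg_E L1 (M * p))))
          (tori_comp (ssm_gl_V1 O1 hπ M p) r hker 𝒲) ∧
      s44mu_NodeAtU π (fc_chart1_le (lg_lamE (M * p) : ↥(lg_E L1 (M * p))))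
        (ssm_tp_P (fc_chart ↥O1 ({lg_lamE (M * p), (lg_lamE (M * p))⁻¹} :
          Set ↥(lg_E L1 (M * p)))) (ssm_gl_V1 O1 hπ M p))
        (ssm_tp_P (fc_chart ↥O1 ({lg_lamE (M * p), (lg_lamE (M * p))⁻¹} :
          Set ↥(lg_E L1 (M * p)))) (ssm_gl_V2 O1 hπ M p hp2 hpM))
        (ssm_tp_P (fc_chart ↥O1 ({lg_lamE (M * p)} : Set ↥(lg_E L1 (M * p))))
          (tori_comp (ssm_gl_V1 O1 hπ M p) r hker 𝒲)) u v ((p : ℕ) : ↥O1) ∧
      (∀ (σ : ↥L1 ≃+* ↥L1), ss_Inert O1 σ →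
        ssm_sg_aut (M * p) σ u = u ∧ ssm_sg_aut (M * p) σ v = v) ∧
      0 < T ∧
      (∃ huS : u ∈ ssl_locSub ↥(lg_E L1 (M * p))
          (ssm_tp_P (fc_chart ↥O1 ({lg_lamE (M * p)} : Set ↥(lg_E L1 (M * p))))
            (tori_comp (ssm_gl_V1 O1 hπ M p) r hker 𝒲)),
        s44nu_IsNu
          (algebraMap (fc_chart ↥O1 ({lg_lamE (M * p)} : Set ↥(lg_E L1 (M * p))))
            (ssl_locSub ↥(lg_E L1 (M * p))
              (ssm_tp_P (fc_chart ↥O1 ({lg_lamE (M * p)} : Set ↥(lg_E L1 (M * p))))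
                (tori_comp (ssm_gl_V1 O1 hπ M p) r hker 𝒲)))
            (algebraMap ↥O1 (fc_chart ↥O1 ({lg_lamE (M * p)} : Set ↥(lg_E L1 (M * p)))) π))
          (⟨u, huS⟩ : ssl_locSub ↥(lg_E L1 (M * p))
            (ssm_tp_P (fc_chart ↥O1 ({lg_lamE (M * p)} : Set ↥(lg_E L1 (M * p))))
              (tori_comp (ssm_gl_V1 O1 hπ M p) r hker 𝒲)))
          (s44tl_br
            (ssm_tp_P (fc_chart ↥O1 ({lg_lamE (M * p)} : Set ↥(lg_E L1 (M * p))))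
              (tori_comp (ssm_gl_V1 O1 hπ M p) r hker 𝒲))
            (fc_chart1_le (lg_lamE (M * p) : ↥(lg_E L1 (M * p))))
            (ssm_tp_P (fc_chart ↥O1 ({lg_lamE (M * p), (lg_lamE (M * p))⁻¹} :
              Set ↥(lg_E L1 (M * p)))) (ssm_gl_V1 O1 hπ M p))) ν) ∧
      (∀ b : ↥(s44mz_VF O1 hπ M p), IsUnit b →
        ν (lg_phiE (L := L1) (N := M * p) (b : ↥(lg_F L1 (M * p)))) = (T : ℤ) * Q.ord (red b)) ∧
      (T : ℤ) * Q.ord (red U1) = 12 := by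
  have hU1' : ((U1 : ↥(lg_F L1 (M * p))) : LaurentSeries L1) = mzb_qi_U L1 p :=
    s44eu_model_coe L1 p (M * p) (s44hu_dvd (rfl : M * p = M * p)) hU1
  have hunit := s44us_model_isUnit A M L1 hπ U1 hU1'
  haveI := ssm_go_isScalarTower O1 (lg_E L1 (M * p))
  have hx : Transcendental L1 (lg_lamE (L := L1) (M * p)) :=
    lgf_lam_transcendental L1 (M * p) two_ne_zero
  haveI := lgf_finite L1 (M * p)
  haveI : IsNoetherianRing ↥(fc_chart ↥O1 ({lg_lamE (M * p)} : Set ↥(lg_E L1 (M * p)))) :=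
    ssm_ths_chart_isNoetherianRing (A0 := ↥O1) (L := L1) hx
  haveI : IsIntegrallyClosed ↥(fc_chart ↥O1 ({lg_lamE (M * p)} : Set ↥(lg_E L1 (M * p)))) :=
    ssm_ths_chart_isIntegrallyClosed (A0 := ↥O1) (L := L1) _
  haveI : IsFractionRing ↥(fc_chart ↥O1 ({lg_lamE (M * p)} : Set ↥(lg_E L1 (M * p))))
      ↥(lg_E L1 (M * p)) :=
    ssm_ths_chart_isFractionRing (A0 := ↥O1) (L := L1) _
  haveI : IsIntegrallyClosed (Algebra.adjoin ↥O1 ({lg_lamE (M * p)} : Set ↥(lg_E L1 (M * p)))) :=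
    fc_ff_isIntegrallyClosed (fc_ff_transcendental (L := L1) hx)
  haveI : FaithfulSMul (Algebra.adjoin ↥O1 ({lg_lamE (M * p)} : Set ↥(lg_E L1 (M * p))))
      ↥(lg_E L1 (M * p)) :=
    (faithfulSMul_iff_algebraMap_injective _ _).2 Subtype.val_injective
  have H := ssm_gl_hyp O1 hπ M p hp2 hpM hprime
  have hC := ssm_tp_ff_chart (L := L1) hπ hx
  have hC12 := ssm_tp_ff_chart12 (L := L1) hπ hx
  set 𝒱 := tori_comp (ssm_gl_V1 O1 hπ M p) r hker 𝒲 with h𝒱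
  have hle := s44mz_B_le_S O1 p hp2 (M * p)
  have hS𝒱 := s44mz_S_le O1 (M * p) 𝒱 hO𝒱 hj2
  have hB𝒱 : ∀ b ∈ fc_chart ↥O1 ({lg_lamE (M * p)} : Set ↥(lg_E L1 (M * p))), b ∈ 𝒱 :=
    fun b hb => hS𝒱 b (hle hb)
  haveI h𝔫 : (ssm_tp_P (fc_chart ↥O1 ({lg_lamE (M * p)} : Set ↥(lg_E L1 (M * p)))) 𝒱).IsPrime :=
    hmax.isPrime
  have h𝔫eq : ∀ b : ↥(fc_chart ↥O1 ({lg_lamE (M * p)} : Set ↥(lg_E L1 (M * p)))),
      b ∈ ssm_tp_P (fc_chart ↥O1 ({lg_lamE (M * p)} : Set ↥(lg_E L1 (M * p)))) 𝒱 ↔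
        (b : ↥(lg_E L1 (M * p))) ∈ 𝒱.nonunits := fun b => ssm_tp_mem_P hB𝒱
  have hpass1 : ssm_tp_P (fc_chart ↥O1 ({lg_lamE (M * p)} : Set ↥(lg_E L1 (M * p))))
      (ssm_gl_V1 O1 hπ M p) ≤
      ssm_tp_P (fc_chart ↥O1 ({lg_lamE (M * p)} : Set ↥(lg_E L1 (M * p)))) 𝒱 :=
    s44ndn_pass (ssm_gl_V1 O1 hπ M p) r hker 𝒲 _ hB𝒱 h𝔫eq
  obtain ⟨u, v, hU, hfix⟩ := s44mu_node ↥L1 O1 hπ M p hp2 hpM ζ hζ _ hmax hpass1 hnode
  have huS : u ∈ ssl_locSub ↥(lg_E L1 (M * p))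
      (ssm_tp_P (fc_chart ↥O1 ({lg_lamE (M * p)} : Set ↥(lg_E L1 (M * p)))) 𝒱) := by
    obtain ⟨s, t, hs, -, hst⟩ := hU.2.1
    rw [ssl_mem_locSub]
    exact ⟨t, s, hs, (mul_comm _ _).trans hst⟩
  have hnodeν := s44un_node ↥L1 O1 hπ M p hp2 hpM ζ hζ (U1 : ↥(lg_F L1 (M * p))) hU1' _ hpass1
    hnode hU huS
  -- the `V1`-side inputs of `s44ndn_value`
  have hφ : ∀ x : ↥(lg_F L1 (M * p)),
      (lg_phiE (L := L1) (N := M * p)).toRingHom x ∈ ssm_gl_V1 O1 hπ M p ↔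
        x ∈ s44mz_VF O1 hπ M p := fun x => s44nlr_phi_mem_iff O1 hπ M p x
  have hϖ : algebraMap ↥O1 ↥(lg_E L1 (M * p)) π ∈ (ssm_gl_V1 O1 hπ M p).nonunits :=
    H.over1.pi_mem
  have hϖ0 : algebraMap ↥O1 ↥(lg_E L1 (M * p)) π ≠ 0 := H.algebraMap_ne_zero
  have hunif : ∀ z : ↥(lg_E L1 (M * p)), z ≠ 0 →
      ∃ n : ℤ, ssl_VUnit (ssm_gl_V1 O1 hπ M p) (z / algebraMap ↥O1 ↥(lg_E L1 (M * p)) π ^ n) := by
    intro z hz
    have hzq : gq_IsQuot ↥O1 L1 ((z : ↥(lg_E L1 (M * p))) : LaurentSeries L1) :=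
      ssm_ga_E_le_quotField O1 (M * p) z.2
    have hz0 : ((z : ↥(lg_E L1 (M * p))) : LaurentSeries L1) ≠ 0 := fun h => hz (Subtype.ext h)
    obtain ⟨n, h1, h2⟩ := s44mv_exists_zpow O1 hπ hzq hz0
    refine ⟨n, ?_, ?_, ?_⟩
    · exact div_ne_zero hz (zpow_ne_zero _ hϖ0)
    · exact h1
    · exact h2
  have hloc : ∀ z ∈ ssm_gl_V1 O1 hπ M p,
      ∃ b s : ↥(fc_chart ↥O1 ({lg_lamE (M * p)} : Set ↥(lg_E L1 (M * p)))),
        s ∉ ssm_tp_P (fc_chart ↥O1 ({lg_lamE (M * p)} : Set ↥(lg_E L1 (M * p))))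
          (ssm_gl_V1 O1 hπ M p) ∧
        z * (s : ↥(lg_E L1 (M * p))) = (b : ↥(lg_E L1 (M * p))) := by
    intro z hz
    obtain ⟨t, ht, htz⟩ := (H.mem_V1_iff hC).1 hz
    exact ⟨⟨_, htz⟩, t, ht, mul_comm _ _⟩
  have hB12V : ∀ b ∈ fc_chart ↥O1 ({lg_lamE (M * p), (lg_lamE (M * p))⁻¹} :
      Set ↥(lg_E L1 (M * p))), b ∈ ssm_gl_V1 O1 hπ M p := fun b hb => hC12.le H.over1 hb
  have ha : algebraMap ↥O1 ↥(lg_E L1 (M * p)) ((p : ℕ) : ↥O1) ∈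
      (ssm_gl_V1 O1 hπ M p).nonunits := by
    have hpO : ((p : ℕ) : ↥O1) ∈ maximalIdeal ↥O1 := ssm_fln_q_mem ↥L1 O1 p
    rw [hπ.maximalIdeal_eq, Ideal.mem_span_singleton] at hpO
    obtain ⟨c, hc⟩ := hpO
    rw [hc, map_mul]
    exact ssm_tp_nonunits_mul _ hϖ (hB12V _ (Subalgebra.algebraMap_mem _ c))
  obtain ⟨T, ν, hTpos, hT, hν, hTb⟩ := s44ndn_value (lg_phiE (L := L1) (N := M * p)).toRingHom
    (s44mz_VF O1 hπ M p) (ssm_gl_V1 O1 hπ M p) hφ red hker0 Q r hker 𝒲 hext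
    (ssm_tp_P (fc_chart ↥O1 ({lg_lamE (M * p)} : Set ↥(lg_E L1 (M * p)))) 𝒱)
    (fc_chart1_le (lg_lamE (M * p) : ↥(lg_E L1 (M * p)))) hB𝒱 h𝔫eq hϖ hϖ0 hunif hsurj hloc hB12V
    hU ha huS hk hCFE hunit (c := 12) hnodeν
  exact ⟨u, v, T, ν, hpass1, hU, hfix, hTpos, ⟨huS, hν⟩, hTb, hT⟩

end NodePkg

end Fermat.Agent.S44
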